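import Mathlib.RingTheory.IntegralClosure.IsIntegralClosure.Basic
import Mathlib.RingTheory.DiscreteValuationRing.Basic
import Mathlib.RingTheory.Valuation.ValuationSubring
import Mathlib.RingTheory.Norm.Defs
import Mathlib.FieldTheory.IntermediateField.Adjoin.Basic
import Mathlib.FieldTheory.IsAlgClosed.Basic
import Mathlib.RingTheory.Ideal.Quotient.Basic
import Mathlib.RingTheory.IntegralClosure.IntegrallyClosed
import Mathlib.Algebra.Polynomial.Derivative

/-!
# Abstract data for the bad reduction argument at `q ^ 2`

`QTower K F F₁ F₂` models the function fields of `X₀(N)`, `X₀(qN)`, `X₀(q²N)` with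
`s f = f(τ)`, `t f = f(qτ)` into level `qN` and `α, β` the same maps one level up.

`ChartData W T u` collects everything the argument needs about one coordinate `u` on the base:
a Kronecker polynomial, the behaviour at the cusps, integrality of the derivative and smoothness
of the integral model of the base.
-/

set_option autoImplicit false

noncomputable section

namespace FermatAgent.BadRed.Carayol

open Polynomial

/-- Two levels of degeneracy maps over a base field. -/
structure QTower (q : ℕ) (K F F₁ F₂ : Type*) [Field K] [Field F] [Field F₁] [Field F₂]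
    [Algebra K F] [Algebra K F₁] [Algebra K F₂] where
  /-- `f ↦ f(τ)` -/
  s : F →ₐ[K] F₁
  /-- `f ↦ f(qτ)` -/
  t : F →ₐ[K] F₁
  /-- `f ↦ f(τ)` -/
  α : F₁ →ₐ[K] F₂
  /-- `f ↦ f(qτ)` -/
  β : F₁ →ₐ[K] F₂
  middle : α.comp t = β.comp s
  degree_s : (letI := s.toRingHom.toAlgebra; Module.finrank F F₁) = q + 1
  degree_t : (letI := t.toRingHom.toAlgebra; Module.finrank F F₁) = q + 1
  degree_α : (letI := α.toRingHom.toAlgebra; Module.finrank F₁ F₂) = q
  degree_β : (letI := β.toRingHom.toAlgebra; Module.finrank F₁ F₂) = q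

namespace QTower

variable {q : ℕ} {K F F₁ F₂ : Type*} [Field K] [Field F] [Field F₁] [Field F₂]
  [Algebra K F] [Algebra K F₁] [Algebra K F₂]

/-- Interchange the two degeneracy directions. -/
def swap (T : QTower q K F F₁ F₂) : QTower q K F F₁ F₂ where
  s := T.t
  t := T.s
  α := T.β
  β := T.α
  middle := T.middle.symm
  degree_s := T.degree_t
  degree_t := T.degree_s
  degree_α := T.degree_β
  degree_β := T.degree_α

@[simp] theorem swap_swap (T : QTower q K F F₁ F₂) : T.swap.swap = T := rfl

/-- The norm along `α`. -/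
def normα (T : QTower q K F F₁ F₂) : F₂ →* F₁ :=
  letI := T.α.toRingHom.toAlgebra
  Algebra.norm F₁

/-- The norm along `β`. -/
def normβ (T : QTower q K F F₁ F₂) : F₂ →* F₁ :=
  letI := T.β.toRingHom.toAlgebra
  Algebra.norm F₁

end QTower

/-- `f` has order divisible by `n` at every valuation trivial on the constants. -/
def DivisibleOn (K : Type*) {L : Type*} [Field K] [Field L] [Algebra K L] (f : L) (n : ℕ) :
    Prop :=
  ∀ V : ValuationSubring L, (∀ c : K, algebraMap K L c ∈ V) →
    ∃ g : L, V.valuation f = V.valuation g ^ n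

/-- Evaluation of `Φ ∈ W[T][X]` at `X = x`, `T = z`. -/
def evalTwo {W R : Type*} [CommRing W] [CommRing R] [Algebra W R]
    (Φ : Polynomial (Polynomial W)) (x z : R) : R :=
  Φ.eval₂ (aeval z).toRingHom x

/-- Partial derivative in the inner variable. -/
def derivInner {W : Type*} [CommRing W] (Φ : Polynomial (Polynomial W)) :
    Polynomial (Polynomial W) :=
  Φ.sum fun i c => monomial i (derivative c)

/-- The integral closure of `W[u]`. -/
def chartRing (W : Type*) {L : Type*} [CommRing W] [Field L] [Algebra W L] (u : L) :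
    Subalgebra W L :=
  (integralClosure (Algebra.adjoin W {u}) L).restrictScalars W

/-- Everything needed about one coordinate `u` of the base curve. -/
structure ChartData {q : ℕ} {K F F₁ F₂ : Type*} [Field K] [Field F] [Field F₁] [Field F₂]
    [Algebra K F] [Algebra K F₁] [Algebra K F₂]
    (W : Type*) [CommRing W] [IsDomain W] [IsDiscreteValuationRing W] [Algebra W K]
    [Algebra W F] [Algebra W F₁] [Algebra W F₂]
    (T : QTower q K F F₁ F₂) (u : F) where
  transcendental : Transcendental K u
  finite_over : FiniteDimensional (IntermediateField.adjoin K {u}) F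
  /-- the values of `u` at the cusps in this chart -/
  cusps : Finset W
  cusps_residue_injective :
    Set.InjOn (IsLocalRing.residue W) (cusps : Set W)
  /-- the action of `q` on the cusps -/
  conj : W → W
  conj_mem : ∀ a ∈ cusps, conj a ∈ cusps
  conj_conj : ∀ a ∈ cusps, conj (conj a) = a
  conj_residue : ∀ a ∈ cusps,
    IsLocalRing.residue W (conj a) = IsLocalRing.residue W a ^ q
  /-- the modular equation between `u(τ)` and `u(qτ)` -/
  Φ : Polynomial (Polynomial W)
  monic : Φ.Monic
  natDegree_eq : Φ.natDegree = q + 1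
  symm : ∀ i j : ℕ, (Φ.coeff i).coeff j = (Φ.coeff j).coeff i
  kronecker : Φ.map (mapRingHom (IsLocalRing.residue W)) =
    (X - C (X ^ q)) * (X ^ q - C X)
  root : evalTwo Φ (T.s u) (T.t u) = 0
  cusp_fibre : ∀ a ∈ cusps, Φ.map (evalRingHom a) = (X - C (conj a)) ^ (q + 1)
  deriv_integral : ∃ N : ℕ, IsIntegral (Algebra.adjoin K {T.t u})
    (aeval (T.t u) (∏ a ∈ cusps, (X - C a)) ^ N *
      (-evalTwo (derivInner Φ) (T.s u) (T.t u) / evalTwo Φ.derivative (T.s u) (T.t u)))
  deriv_integral' : ∃ N : ℕ, IsIntegral (Algebra.adjoin K {T.s u})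
    (aeval (T.s u) (∏ a ∈ cusps, (X - C a)) ^ N *
      (-evalTwo (derivInner Φ) (T.t u) (T.s u) / evalTwo Φ.derivative (T.t u) (T.s u)))
  generate_t : IntermediateField.adjoin K (Set.range T.t ∪ {T.s u}) = ⊤
  generate_s : IntermediateField.adjoin K (Set.range T.s ∪ {T.t u}) = ⊤
  generate_α : IntermediateField.adjoin K (Set.range T.α ∪ {T.β (T.t u)}) = ⊤
  generate_β : IntermediateField.adjoin K (Set.range T.β ∪ {T.α (T.s u)}) = ⊤
  /-- the special fibre of the base is irreducible and reduced -/
  q_prime : Prime (q : chartRing W u)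
  /-- the special fibre of the base is normal -/
  fibre_normal : IsIntegrallyClosed (chartRing W u ⧸ Ideal.span {(q : chartRing W u)})
  /-- away from the cusps the base is unramified over the `u`-line -/
  etale : ∀ (Q : Ideal (chartRing W u)), Q.IsMaximal → (q : chartRing W u) ∈ Q →
    ∀ a : W, (∀ b ∈ cusps, IsLocalRing.residue W a ≠ IsLocalRing.residue W b) →
      (∀ x : chartRing W u, (x : F) = u - algebraMap W F a → x ∈ Q →
        ∀ y ∈ Q, ∃ r ∉ Q, r * y ∈ Ideal.span {(q : chartRing W u), x})

end FermatAgent.BadRed.Carayol
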