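import Fermat.Agent.BadRed.Carayol.LocalSection

/-!
# The key statement for bad reduction at `q ^ 2`
-/

set_option autoImplicit false

noncomputable section

namespace FermatAgent.BadRed.Carayol

open Polynomial IsLocalRing

/-- If `f` on the level `q²N` field has divisor divisible by `n` and both norms to level `qN`
are constants times `n`-th powers, then a bounded power of `f` is a constant times an `n`-th
power. -/
theorem exists_bound_pow_eq_const_mul_pow {q : ℕ} [Fact q.Prime] {W K F F₁ F₂ : Type*}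
    [CommRing W] [IsDomain W] [IsDiscreteValuationRing W] [IsAlgClosed (IsLocalRing.ResidueField W)]
    [Field K] [CharZero K] [Algebra W K] [IsFractionRing W K]
    [Field F] [Field F₁] [Field F₂] [Algebra K F] [Algebra K F₁] [Algebra K F₂]
    [Algebra W F] [Algebra W F₁] [Algebra W F₂]
    [IsScalarTower W K F] [IsScalarTower W K F₁] [IsScalarTower W K F₂]
    (hq : IsLocalRing.maximalIdeal W = Ideal.span {(q : W)})
    (hconst : ∀ x : F₂, IsAlgebraic K x → x ∈ Set.range (algebraMap K F₂))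
    (T : QTower q K F F₁ F₂) {u : F} (h₀ : ChartData W T u) (h₁ : ChartData W T u⁻¹) :
    ∃ E : ℕ, 0 < E ∧ ∀ n : ℕ, 0 < n → ¬ q ∣ n → ∀ f : F₂, f ≠ 0 → DivisibleOn K f n →
      (∃ (c : K) (g : F₁), T.normα f = algebraMap K F₁ c * g ^ n) →
      (∃ (c : K) (g : F₁), T.normβ f = algebraMap K F₁ c * g ^ n) →
      ∃ (c : K) (y : F₂), c ≠ 0 ∧ y ^ n = algebraMap K F₂ c * f ^ E := by
  have hqp : q.Prime := Fact.out
  have hq1 : 0 < q - 1 := by have := hqp.two_le; omega
  have hq2 : 0 < q * q - 1 := by have := Nat.mul_le_mul hqp.two_le hqp.two_le; omega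
  refine ⟨(q - 1) * (q * q - 1) * (q - 1) * (q * q - 1),
    by positivity, fun n hn hqn f hf hdiv hα hβ => ?_⟩
  have hnu : IsUnit (n : W) := by
    have := charP_residue hq h₀
    by_contra h
    have h1 : residue W (n : W) = 0 := (residue_eq_zero_iff _).mpr h
    rw [map_natCast, CharP.cast_eq_zero_iff _ q] at h1
    exact hqn h1
  obtain ⟨C⟩ := exists_comps hq h₀
  obtain ⟨c₀, hc₀, ⟨N⟩⟩ := exists_normal hq h₀ C hn hf hdiv hα hβ
  obtain ⟨N₁, ⟨R⟩⟩ := exists_roots hq h₀ hn hqn N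
  obtain ⟨N₂, R', hbal, hbal'⟩ := exists_balanced hq h₀ h₁ C hn R
  obtain ⟨y₀, hy₀, hy₀'⟩ := exists_section hq h₀ hn hnu R' hbal
  obtain ⟨y₁, hy₁, hy₁'⟩ := exists_section hq h₁ hn hnu (R'.inv hq h₀) hbal'
  have hy₁s : y₁ ∈ (R'.frame hq h₀ hn hnu).sections {(T.α (T.t u))⁻¹} := by
    rw [show (T.α (T.t u))⁻¹ = T.α (T.t u⁻¹) by rw [map_inv₀, map_inv₀]]
    exact hy₁
  obtain ⟨c, y, hc, hy⟩ := (R'.frame hq h₀ hn hnu).exists_global_root hq hconst
    ⟨y₀, hy₀, hy₀'⟩ ⟨y₁, hy₁s, hy₁'⟩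
  refine ⟨c * c₀ ^ ((q - 1) * (q * q - 1)), y, mul_ne_zero hc (pow_ne_zero _ hc₀), ?_⟩
  rw [hy, map_mul, map_pow]
  ring

end FermatAgent.BadRed.Carayol
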