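import Mathlib.RingTheory.Valuation.ValuationSubring
import Mathlib.RingTheory.Valuation.LocalSubring
import Mathlib.RingTheory.LocalRing.ResidueField.Basic
import Mathlib.Algebra.Polynomial.Eval.Defs
import Mathlib.Algebra.Polynomial.AlgebraMap
import Mathlib.Tactic.Ring
import Mathlib.Tactic.FieldSimp
import Mathlib.Tactic.LinearCombination

/-!
# Residues at a valuation subring of a field, as a partial function on the field
-/

set_option autoImplicit false

noncomputable section

namespace FermatAgent.BadRed.Carayol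

open IsLocalRing

variable {L : Type*} [Field L] (V : ValuationSubring L)

open Classical in
/-- The residue of `x` at `V`, junk value zero outside `V`. -/
def res (x : L) : ResidueField V :=
  if h : x ∈ V then residue V ⟨x, h⟩ else 0

variable {V} {x y : L}

theorem res_of_mem (h : x ∈ V) : res V x = residue V ⟨x, h⟩ := dif_pos h

theorem res_coe (a : V) : res V (a : L) = residue V a := res_of_mem a.2

theorem res_eq_zero_iff (h : x ∈ V) : res V x = 0 ↔ x ∈ V.nonunits := by
  rw [res_of_mem h, residue_eq_zero_iff]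
  exact (ValuationSubring.coe_mem_nonunits_iff (a := ⟨x, h⟩)).symm

theorem res_eq_zero_of_mem_nonunits (h : x ∈ V.nonunits) : res V x = 0 :=
  (res_eq_zero_iff (ValuationSubring.nonunits_subset h)).mpr h

@[simp] theorem res_zero : res V (0 : L) = 0 :=
  res_eq_zero_of_mem_nonunits (zero_mem _)

@[simp] theorem res_one : res V (1 : L) = 1 := (res_coe (1 : V)).trans (map_one _)

theorem res_add (hx : x ∈ V) (hy : y ∈ V) : res V (x + y) = res V x + res V y := by
  rw [res_of_mem hx, res_of_mem hy, ← map_add]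
  exact res_coe ((⟨x, hx⟩ : V) + ⟨y, hy⟩)

theorem res_neg (hx : x ∈ V) : res V (-x) = -res V x := by
  rw [res_of_mem hx, ← map_neg]
  exact res_coe (-(⟨x, hx⟩ : V))

theorem res_sub (hx : x ∈ V) (hy : y ∈ V) : res V (x - y) = res V x - res V y := by
  rw [res_of_mem hx, res_of_mem hy, ← map_sub]
  exact res_coe ((⟨x, hx⟩ : V) - ⟨y, hy⟩)

theorem res_mul (hx : x ∈ V) (hy : y ∈ V) : res V (x * y) = res V x * res V y := by
  rw [res_of_mem hx, res_of_mem hy, ← map_mul]
  exact res_coe ((⟨x, hx⟩ : V) * ⟨y, hy⟩)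

theorem res_pow (hx : x ∈ V) (n : ℕ) : res V (x ^ n) = res V x ^ n := by
  rw [res_of_mem hx, ← map_pow]
  exact res_coe ((⟨x, hx⟩ : V) ^ n)

theorem res_prod {ι : Type*} (s : Finset ι) {f : ι → L} (h : ∀ i ∈ s, f i ∈ V) :
    res V (∏ i ∈ s, f i) = ∏ i ∈ s, res V (f i) := by
  classical
  induction s using Finset.induction_on with
  | empty => simp
  | insert a t hat ih =>
    rw [Finset.prod_insert hat, Finset.prod_insert hat,
      res_mul (h a (Finset.mem_insert_self a t))
        (prod_mem fun i hi => h i (Finset.mem_insert_of_mem hi)),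
      ih fun i hi => h i (Finset.mem_insert_of_mem hi)]

theorem res_eq_iff (hx : x ∈ V) (hy : y ∈ V) : res V x = res V y ↔ x - y ∈ V.nonunits := by
  rw [← sub_eq_zero, ← res_sub hx hy, res_eq_zero_iff (sub_mem hx hy)]

/-- `x` is a unit of `V`. -/
def IsUnitAt (V : ValuationSubring L) (x : L) : Prop :=
  V.valuation x = 1

theorem IsUnitAt.mem (h : IsUnitAt V x) : x ∈ V := (V.valuation_le_one_iff x).mp (le_of_eq h)

theorem IsUnitAt.ne_zero (h : IsUnitAt V x) : x ≠ 0 := by
  rintro rfl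
  simp [IsUnitAt] at h

theorem isUnitAt_one : IsUnitAt V (1 : L) := map_one _

theorem IsUnitAt.inv (h : IsUnitAt V x) : IsUnitAt V x⁻¹ := by
  rw [IsUnitAt, map_inv₀, h, inv_one]

theorem IsUnitAt.mul (hx : IsUnitAt V x) (hy : IsUnitAt V y) : IsUnitAt V (x * y) := by
  rw [IsUnitAt, map_mul, hx, hy, mul_one]

theorem IsUnitAt.div (hx : IsUnitAt V x) (hy : IsUnitAt V y) : IsUnitAt V (x / y) := by
  rw [div_eq_mul_inv]; exact hx.mul hy.inv

theorem IsUnitAt.pow (hx : IsUnitAt V x) (n : ℕ) : IsUnitAt V (x ^ n) := by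
  rw [IsUnitAt, map_pow, hx, one_pow]

theorem IsUnitAt.neg (hx : IsUnitAt V x) : IsUnitAt V (-x) := by
  rw [IsUnitAt, Valuation.map_neg]; exact hx

theorem isUnitAt_iff (hx : x ∈ V) : IsUnitAt V x ↔ res V x ≠ 0 := by
  rw [ne_eq, res_eq_zero_iff hx, ValuationSubring.mem_nonunits_iff, not_lt]
  exact ⟨fun h => le_of_eq h.symm, fun h => le_antisymm ((V.valuation_le_one_iff x).mpr hx) h⟩

theorem IsUnitAt.res_ne_zero (h : IsUnitAt V x) : res V x ≠ 0 := (isUnitAt_iff h.mem).mp h

theorem res_inv (h : IsUnitAt V x) : res V x⁻¹ = (res V x)⁻¹ := by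
  apply eq_inv_of_mul_eq_one_right
  rw [← res_mul h.mem h.inv.mem, mul_inv_cancel₀ h.ne_zero, res_one]

theorem res_div (hy : y ∈ V) (hx : IsUnitAt V x) : res V (y / x) = res V y / res V x := by
  rw [div_eq_mul_inv, div_eq_mul_inv, res_mul hy hx.inv.mem, res_inv hx]

theorem isUnitAt_of_res_eq (hx : x ∈ V) (hy : IsUnitAt V y) (h : res V x = res V y) :
    IsUnitAt V x :=
  (isUnitAt_iff hx).mpr (h ▸ hy.res_ne_zero)

/-- Residues commute with polynomial evaluation. -/
theorem res_eval₂ {R : Type*} [CommSemiring R] (φ : R →+* L) (hφ : ∀ r, φ r ∈ V) (hx : x ∈ V)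
    (p : Polynomial R) :
    p.eval₂ φ x ∈ V ∧ res V (p.eval₂ φ x) =
      p.eval₂ ((residue V).comp (φ.codRestrict V.toSubring hφ)) (res V x) := by
  have h : p.eval₂ φ x = V.subtype (p.eval₂ (φ.codRestrict V.toSubring hφ) ⟨x, hx⟩) := by
    rw [Polynomial.hom_eval₂]
    rfl
  refine ⟨h ▸ Subtype.mem _, ?_⟩
  rw [h, res_of_mem hx]
  refine (res_coe _).trans ?_
  rw [Polynomial.hom_eval₂]

variable {L' : Type*} [Field L'] (σ : L →+* L') (W : ValuationSubring L')

theorem mem_nonunits_comap : x ∈ (W.comap σ).nonunits ↔ σ x ∈ W.nonunits := by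
  rw [ValuationSubring.mem_nonunits_iff_or, ValuationSubring.mem_nonunits_iff_or,
    ValuationSubring.mem_comap, map_inv₀, map_eq_zero]

theorem isUnitAt_comap : IsUnitAt (W.comap σ) x ↔ IsUnitAt W (σ x) := by
  constructor <;> intro h
  · have hmem : σ x ∈ W := h.mem
    refine (isUnitAt_iff hmem).mpr ?_
    rw [ne_eq, res_eq_zero_iff hmem, ← mem_nonunits_comap, ← res_eq_zero_iff h.mem]
    exact h.res_ne_zero
  · have hmem : x ∈ W.comap σ := h.mem
    refine (isUnitAt_iff hmem).mpr ?_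
    rw [ne_eq, res_eq_zero_iff hmem, mem_nonunits_comap, ← res_eq_zero_iff h.mem]
    exact h.res_ne_zero

theorem res_eq_iff_map (hx : σ x ∈ W) (hy : σ y ∈ W) :
    res (W.comap σ) x = res (W.comap σ) y ↔ res W (σ x) = res W (σ y) := by
  rw [res_eq_iff (V := W.comap σ) hx hy, res_eq_iff hx hy, mem_nonunits_comap, map_sub]

end FermatAgent.BadRed.Carayol
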