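import Mathlib.FieldTheory.IsAlgClosed.AlgebraicClosure
import Mathlib.FieldTheory.IsAlgClosed.Basic
import Mathlib.FieldTheory.IntermediateField.Adjoin.Basic
import Mathlib.RingTheory.Localization.Integral
import Mathlib.RingTheory.Polynomial.IsIntegral
import Mathlib.RingTheory.DiscreteValuationRing.Basic
import Mathlib.RingTheory.Ideal.GoingUp
import Mathlib.RingTheory.Localization.FractionRing
import Fermat.Agent.BadRed.Carayol.Defs
import Fermat.Agent.BadRed.Carayol.Val

/-!
# The integral closure of `W[u]` and the vertical valuations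

`W` is a discrete valuation ring with uniformiser `q`, `u ∈ L` is transcendental over its
fraction field `K`.  A valuation subring is *vertical* if it lies over the Gauss valuation of
`W[u]`.  An element which is integral over `K[u]` and lies in every vertical valuation subring
is integral over `W[u]`.
-/

set_option autoImplicit false

noncomputable section

namespace FermatAgent.BadRed.Carayol

open Polynomial IsLocalRing

/-- `V` lies over the Gauss valuation of `W[u]`. -/
structure IsVertical (W : Type*) {L : Type*} [CommRing W] [IsLocalRing W] [Field L] [Algebra W L]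
    (q : ℕ) (u : L) (V : ValuationSubring L) : Prop where
  const_mem : ∀ w : W, algebraMap W L w ∈ V
  q_mem : (q : L) ∈ V.nonunits
  isUnitAt : ∀ P : Polynomial W, P.map (residue W) ≠ 0 → IsUnitAt V (aeval u P)

variable {W K L : Type*} [CommRing W] [IsDomain W] [IsDiscreteValuationRing W]
  [Field K] [Algebra W K] [IsFractionRing W K]
  [Field L] [Algebra K L] [Algebra W L] [IsScalarTower W K L] {q : ℕ} {u : L}

theorem IsVertical.u_mem {V : ValuationSubring L} (hV : IsVertical W q u V) : IsUnitAt V u := by
  have := hV.isUnitAt X (by simp)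
  simpa using this

theorem IsVertical.aeval_mem {V : ValuationSubring L} (hV : IsVertical W q u V) (P : Polynomial W) :
    aeval u P ∈ V :=
  (res_eval₂ (algebraMap W L) hV.const_mem hV.u_mem.mem P).1

section Gauss

variable (hq : maximalIdeal W = Ideal.span {(q : W)})
include hq

theorem natCast_irreducible : Irreducible (q : W) :=
  (IsDiscreteValuationRing.irreducible_iff_uniformizer _).mpr hq

theorem natCast_mem_maximalIdeal : (q : W) ∈ maximalIdeal W :=
  hq ▸ Ideal.mem_span_singleton_self _

theorem natCast_ne_zero_frac : (q : K) ≠ 0 := by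
  have := (natCast_irreducible hq).ne_zero
  rw [← map_natCast (algebraMap W K)]
  exact (map_ne_zero_iff _ (IsFractionRing.injective W K)).mpr this

theorem exists_pow_mul_eq_algebraMap (c : K) :
    ∃ (m : ℕ) (w : W), (q : K) ^ m * c = algebraMap W K w := by
  obtain ⟨a, s, hs, rfl⟩ := IsFractionRing.div_surjective (A := W) c
  have hs0 : s ≠ 0 := nonZeroDivisors.ne_zero hs
  obtain ⟨m, v, rfl⟩ :=
    IsDiscreteValuationRing.eq_unit_mul_pow_irreducible hs0 (natCast_irreducible hq)
  refine ⟨m, ↑v⁻¹ * a, ?_⟩
  have hv : algebraMap W K (v : W) * algebraMap W K (↑v⁻¹ : W) = 1 := by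
    rw [← map_mul, Units.mul_inv, map_one]
  have hv0 : algebraMap W K (v : W) ≠ 0 := left_ne_zero_of_mul_eq_one hv
  have hq0 := natCast_ne_zero_frac (K := K) hq
  rw [map_mul, map_mul, map_pow, map_natCast, eq_inv_of_mul_eq_one_right hv]
  field_simp

theorem exists_pow_mul_eq_map (P : Polynomial K) :
    ∃ (m : ℕ) (P₀ : Polynomial W), C ((q : K) ^ m) * P = P₀.map (algebraMap W K) := by
  induction P using Polynomial.induction_on' with
  | add P R hP hR =>
    obtain ⟨m, P₀, hP₀⟩ := hP
    obtain ⟨l, R₀, hR₀⟩ := hR
    refine ⟨m + l, C ((q : W) ^ l) * P₀ + C ((q : W) ^ m) * R₀, ?_⟩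
    rw [Polynomial.map_add, Polynomial.map_mul, Polynomial.map_mul, ← hP₀, ← hR₀, map_C, map_C,
      map_pow (algebraMap W K), map_pow (algebraMap W K), map_natCast]
    simp only [map_pow]
    ring
  | monomial i c =>
    obtain ⟨m, w, hw⟩ := exists_pow_mul_eq_algebraMap hq c
    exact ⟨m, monomial i w, by rw [C_mul_monomial, hw, map_monomial]⟩

theorem exists_primitive (P : Polynomial W) (hP : P ≠ 0) :
    ∃ (j : ℕ) (P₁ : Polynomial W), P = C ((q : W) ^ j) * P₁ ∧ P₁.map (residue W) ≠ 0 := by
  induction P using (wellFounded_dvdNotUnit (α := Polynomial W)).induction with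
  | _ P ih =>
    by_cases h : P.map (residue W) = 0
    · have hdvd : C (q : W) ∣ P := by
        rw [C_dvd_iff_dvd_coeff]
        intro i
        have : residue W (P.coeff i) = 0 := by rw [← coeff_map, h, coeff_zero]
        rwa [residue_eq_zero_iff, hq, Ideal.mem_span_singleton] at this
      obtain ⟨P', rfl⟩ := hdvd
      have hP' : P' ≠ 0 := right_ne_zero_of_mul hP
      have hnu : ¬ IsUnit (C (q : W)) := fun hu =>
        (natCast_irreducible hq).not_isUnit (isUnit_C.mp hu)
      obtain ⟨j, P₁, hj, hP₁⟩ := ih P' ⟨hP', _, hnu, mul_comm _ _⟩ hP'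
      exact ⟨j + 1, P₁, by rw [hj, pow_succ', map_mul, mul_assoc], hP₁⟩
    · exact ⟨0, P, by simp, h⟩

omit [IsFractionRing W K] hq in
theorem IsVertical.le_of_eq_pow_mul {V : ValuationSubring L} (hV : IsVertical W q u V) {c : L}
    (hc : c ∈ V) {m j : ℕ} {v : L} (hv : IsUnitAt V v)
    (h : (q : L) ^ m * c = (q : L) ^ j * v) (hq0 : (q : L) ≠ 0) : m ≤ j := by
  by_contra hlt
  obtain ⟨i, rfl⟩ := Nat.exists_eq_add_of_lt (not_le.mp hlt)
  rw [show j + i + 1 = j + (i + 1) from by ring, pow_add, mul_assoc] at h
  have h' := mul_left_cancel₀ (pow_ne_zero j hq0) h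
  have hmem : (q : L) ^ (i + 1) * c ∈ V.nonunits := by
    rw [ValuationSubring.mem_nonunits_iff, map_mul, map_pow]
    exact mul_lt_one_of_lt_of_le
      (pow_lt_one₀ zero_le hV.q_mem (Nat.succ_ne_zero i)) ((V.valuation_le_one_iff c).mpr hc)
  rw [h'] at hmem
  exact (ne_of_lt hmem) hv

/-- A polynomial over `K` whose value lies in a vertical valuation subring has coefficients
in `W`. -/
theorem exists_map_eq_of_aeval_mem {V : ValuationSubring L} (hV : IsVertical W q u V)
    (P : Polynomial K) (h : aeval u P ∈ V) : ∃ P₀ : Polynomial W, P = P₀.map (algebraMap W K) := by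
  obtain ⟨m, R, hR⟩ := exists_pow_mul_eq_map hq P
  by_cases hR0 : R = 0
  · refine ⟨0, ?_⟩
    rw [hR0, Polynomial.map_zero, mul_eq_zero, C_eq_zero] at hR
    rw [Polynomial.map_zero]
    exact hR.resolve_left (pow_ne_zero m (natCast_ne_zero_frac hq))
  obtain ⟨j, P₁, rfl, hP₁⟩ := exists_primitive hq R hR0
  have hq0 : (q : L) ≠ 0 := by
    rw [← map_natCast (algebraMap K L)]
    exact (map_ne_zero_iff _ (algebraMap K L).injective).mpr (natCast_ne_zero_frac hq)
  have hval : (q : L) ^ m * aeval u P = (q : L) ^ j * aeval u P₁ := by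
    have := congrArg (aeval u) hR
    rw [map_mul, aeval_C, map_pow, map_natCast, aeval_map_algebraMap, map_mul, aeval_C, map_pow,
      map_natCast] at this
    exact this
  obtain ⟨i, rfl⟩ := Nat.exists_eq_add_of_le
    (hV.le_of_eq_pow_mul h (hV.isUnitAt P₁ hP₁) hval hq0)
  refine ⟨C ((q : W) ^ i) * P₁, mul_left_cancel₀
    (C_ne_zero.mpr (pow_ne_zero m (natCast_ne_zero_frac (K := K) hq))) ?_⟩
  rw [hR, pow_add, map_mul, Polynomial.map_mul, Polynomial.map_mul, Polynomial.map_mul, map_C,
    map_C, map_pow, map_pow, map_natCast, mul_assoc]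
  simp

end Gauss

omit [IsDomain W] [IsDiscreteValuationRing W] in
theorem mem_chartRing_iff {x : L} : x ∈ chartRing W u ↔ IsIntegral (Algebra.adjoin W {u}) x :=
  Iff.rfl

omit [IsDomain W] [IsDiscreteValuationRing W] in
theorem aeval_mem_chartRing (P : Polynomial W) : aeval u P ∈ chartRing W u :=
  mem_chartRing_iff.mpr
    (isIntegral_algebraMap (x := (⟨aeval u P, aeval_mem_adjoin_singleton W u⟩ :
      Algebra.adjoin W {u})))

omit [IsDomain W] [IsDiscreteValuationRing W] in
theorem self_mem_chartRing : u ∈ chartRing W u := by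
  simpa using aeval_mem_chartRing (W := W) (u := u) X

omit [IsDomain W] [IsDiscreteValuationRing W] in
/-- The chart ring lies in every valuation subring containing `W` and `u`. -/
theorem mem_of_mem_chartRing {V : ValuationSubring L} (hW : ∀ w : W, algebraMap W L w ∈ V)
    (hu : u ∈ V) {x : L} (hx : x ∈ chartRing W u) : x ∈ V := by
  have hle : ∀ a : Algebra.adjoin W {u}, (a : L) ∈ V := fun a => by
    obtain ⟨P, hP⟩ := Algebra.adjoin_mem_exists_aeval _ _ a.2
    rw [← hP]
    exact (res_eval₂ (algebraMap W L) hW hu P).1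
  obtain ⟨p, hp, hpx⟩ := mem_chartRing_iff.mp hx
  have : IsIntegral V x := ⟨p.map ((algebraMap (Algebra.adjoin W {u}) L).codRestrict V.toSubring hle),
    hp.map _, by rw [eval₂_map]; exact hpx⟩
  obtain ⟨y, hy⟩ := IsIntegrallyClosed.isIntegral_iff.mp this
  exact hy ▸ y.2

theorem IsVertical.chartRing_le {V : ValuationSubring L} (hV : IsVertical W q u V) {x : L}
    (hx : x ∈ chartRing W u) : x ∈ V :=
  mem_of_mem_chartRing hV.const_mem hV.u_mem.mem hx

/-- Coefficients of a product of monic linear factors lie in any subring containing the roots. -/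
theorem coeff_prod_X_sub_C_mem {R : Type*} [CommRing R] (S : Subring R) (s : Multiset R)
    (hs : ∀ z ∈ s, z ∈ S) (i : ℕ) : (s.map fun z => X - C z).prod.coeff i ∈ S := by
  induction s using Multiset.induction_on generalizing i with
  | empty => rcases i with _ | i <;> simp [coeff_one, one_mem, zero_mem]
  | cons a s ih =>
    have ha : a ∈ S := hs a (Multiset.mem_cons_self a s)
    have ih' := ih fun z hz => hs z (Multiset.mem_cons_of_mem hz)
    rw [Multiset.map_cons, Multiset.prod_cons, sub_mul, coeff_sub, coeff_C_mul]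
    refine sub_mem ?_ (mul_mem ha (ih' i))
    rcases i with _ | i
    · simp [zero_mem]
    · rw [coeff_X_mul]; exact ih' i

variable (W q u) in
/-- Some valuation subring of an extension of `K(u)` lies over the Gauss valuation. -/
theorem exists_isVertical (hu : Transcendental K u)
    (hq : maximalIdeal W = Ideal.span {(q : W)}) :
    ∃ V : ValuationSubring L, IsVertical W q u V := by
  have hinjW : Function.Injective (algebraMap W K) := IsFractionRing.injective W K
  have hinj : Function.Injective (aeval u : Polynomial W →ₐ[W] L) := by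
    intro a b hab
    refine map_injective (algebraMap W K) hinjW (transcendental_iff_injective.mp hu ?_)
    rw [aeval_map_algebraMap, aeval_map_algebraMap]
    exact hab
  let A : Subring L := (aeval u : Polynomial W →ₐ[W] L).toRingHom.range
  let e : Polynomial W ≃+* A := RingEquiv.ofBijective
    ((aeval u : Polynomial W →ₐ[W] L).toRingHom.rangeRestrict)
    ⟨fun a b hab => hinj (congrArg Subtype.val hab), RingHom.rangeRestrict_surjective _⟩
  let Q : Ideal (Polynomial W) := RingHom.ker (mapRingHom (residue W))
  have hQ : Q.IsPrime := RingHom.ker_isPrime _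
  let Q' : Ideal A := Q.comap e.symm.toRingHom
  have : Q'.IsPrime := Ideal.IsPrime.comap _
  obtain ⟨V, hAV, hloc⟩ := (LocalSubring.ofPrime A Q').exists_le_valuationSubring
  have hA : ∀ P : Polynomial W, aeval u P ∈ V := fun P =>
    hAV (LocalSubring.le_ofPrime A Q' ⟨P, rfl⟩)
  have key : ∀ P : Polynomial W, (IsUnitAt V (aeval u P) ↔ P ∉ Q) := fun P => by
    have hmem : aeval u P ∈ (LocalSubring.ofPrime A Q').toSubring :=
      LocalSubring.le_ofPrime A Q' ⟨P, rfl⟩
    have h1 : P ∉ Q ↔ IsUnit (⟨aeval u P, hmem⟩ : (LocalSubring.ofPrime A Q').toSubring) := by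
      have h2 := IsLocalization.AtPrime.isUnit_to_map_iff
        (LocalSubring.ofPrime A Q').toSubring Q' (e P)
      have h3 : e P ∈ Q'.primeCompl ↔ P ∉ Q := by
        show ¬ (e.symm (e P) ∈ Q) ↔ _
        rw [e.symm_apply_apply]
      rw [← h3, ← h2]
      rfl
    rw [h1, ← isUnit_map_iff (Subring.inclusion hAV)]
    exact (V.valuation_eq_one_iff (⟨aeval u P, hA P⟩ : V)).symm
  refine ⟨V, fun w => by simpa using hA (C w), ?_, fun P hP => (key P).mpr hP⟩
  have hqQ : C (q : W) ∈ Q := by
    show (C (q : W)).map (residue W) = 0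
    rw [map_C, C_eq_zero, residue_eq_zero_iff]
    exact natCast_mem_maximalIdeal hq
  have hqV : (q : L) ∈ V := by simp
  rcases lt_or_eq_of_le ((V.valuation_le_one_iff _).mpr hqV) with h | h
  · exact h
  · exfalso
    refine (key (C (q : W))).mp ?_ hqQ
    simpa [IsUnitAt] using h

section Intersection

variable (hq : maximalIdeal W = Ideal.span {(q : W)}) (hu : Transcendental K u)
variable [FiniteDimensional (IntermediateField.adjoin K {u}) L]
include hq hu

/-- An element integral over `K[u]` which lies in every vertical valuation subring is integral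
over `W[u]`. -/
theorem mem_chartRing_of_vertical {y : L} (hy : IsIntegral (Algebra.adjoin K {u}) y)
    (hV : ∀ V : ValuationSubring L, IsVertical W q u V → y ∈ V) : y ∈ chartRing W u := by
  classical
  let F₀ := IntermediateField.adjoin K {u}
  have : Algebra.IsAlgebraic F₀ L := Algebra.IsAlgebraic.of_finite F₀ L
  let Ω := AlgebraicClosure L
  let P := minpoly F₀ y
  let s := (P.map (algebraMap F₀ Ω)).roots
  have hPm : P.Monic := minpoly.monic (Algebra.IsIntegral.isIntegral y)
  have hprod : P.map (algebraMap F₀ Ω) = (s.map fun z => X - C z).prod :=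
    (IsAlgClosed.splits _).eq_prod_roots_of_monic (hPm.map _)
  have hconj : ∀ z ∈ s, ∃ σ : L →ₐ[F₀] Ω, σ y = z := fun z hz => by
    have : z ∈ P.rootSet Ω := by
      rw [mem_rootSet]
      exact ⟨hPm.ne_zero, by
        rw [aeval_def, ← eval_map]; exact (mem_roots'.mp hz).2⟩
    rw [← Algebra.IsAlgebraic.range_eval_eq_rootSet_minpoly Ω y] at this
    exact this
  obtain ⟨W', hW'⟩ := exists_isVertical (L := Ω) W q (algebraMap L Ω u)
    ((transcendental_algebraMap_iff (algebraMap L Ω).injective).mpr hu) hq
  -- coefficients lie in `W'` and are integral over `K[u]`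
  have hcoeffV : ∀ i, algebraMap F₀ Ω (P.coeff i) ∈ W' := fun i => by
    rw [← coeff_map, hprod]
    refine coeff_prod_X_sub_C_mem W'.toSubring s (fun z hz => ?_) i
    obtain ⟨σ, rfl⟩ := hconj z hz
    have hσu : σ u = algebraMap L Ω u :=
      σ.commutes ⟨u, IntermediateField.mem_adjoin_simple_self K u⟩
    have hvert : IsVertical W q u (W'.comap σ.toRingHom) := by
      have hσW : ∀ w : W, σ (algebraMap W L w) = algebraMap W Ω w := fun w => by
        rw [IsScalarTower.algebraMap_apply W K L, IsScalarTower.algebraMap_apply K F₀ L,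
          σ.commutes, ← IsScalarTower.algebraMap_apply, ← IsScalarTower.algebraMap_apply]
      refine ⟨fun w => ?_, ?_, fun R hR => ?_⟩
      · show σ (algebraMap W L w) ∈ W'
        rw [hσW]; exact hW'.const_mem w
      · rw [mem_nonunits_comap, map_natCast]; exact hW'.q_mem
      · rw [isUnitAt_comap]
        have : σ (aeval u R) = aeval (algebraMap L Ω u) R := by
          rw [aeval_def, aeval_def, ← hσu]
          refine (hom_eval₂ R (algebraMap W L) σ.toRingHom u).trans ?_
          congr 1
          exact RingHom.ext hσW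
        show IsUnitAt W' (σ (aeval u R))
        rw [this]
        exact hW'.isUnitAt R hR
    exact hV _ hvert
  have hcoeffI : ∀ i, IsIntegral (Algebra.adjoin K {u}) (algebraMap F₀ Ω (P.coeff i)) := fun i => by
    rw [← coeff_map, hprod]
    refine coeff_prod_X_sub_C_mem (integralClosure (Algebra.adjoin K {u}) Ω).toSubring s
      (fun z hz => ?_) i
    obtain ⟨σ, rfl⟩ := hconj z hz
    obtain ⟨p, hp, hpy⟩ := hy
    refine ⟨p, hp, ?_⟩
    have hc : σ.toRingHom.comp (algebraMap (Algebra.adjoin K {u}) L) =
        algebraMap (Algebra.adjoin K {u}) Ω := RingHom.ext fun a =>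
      σ.commutes ⟨(a : L), IntermediateField.algebra_adjoin_le_adjoin K _ a.2⟩
    rw [← hc]
    exact ((hom_eval₂ p _ σ.toRingHom y).symm).trans ((congrArg σ hpy).trans (map_zero σ))
  -- hence they lie in `W[u]`
  let _ : Algebra (Polynomial K) L := (aeval u : Polynomial K →ₐ[K] L).toRingHom.toAlgebra
  have hinj : Function.Injective (algebraMap (Polynomial K) L) :=
    transcendental_iff_injective.mp hu
  let FK := FractionRing (Polynomial K)
  let φ : FK →ₐ[Polynomial K] L :=
    IsFractionRing.liftAlgHom (g := Algebra.ofId (Polynomial K) L) hinj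
  have hlift : ∀ i, ∃ R : Polynomial W, (P.coeff i : L) = aeval u R := fun i => by
    obtain ⟨p, hp, hpc⟩ := hcoeffI i
    obtain ⟨a, b, hab⟩ := (IntermediateField.mem_adjoin_simple_iff (F := K) (P.coeff i : L)).mp (P.coeff i).2
    let c' : FK := algebraMap _ FK a / algebraMap _ FK b
    have hφc : φ c' = (P.coeff i : L) := by
      rw [hab, map_div₀, AlgHom.commutes, AlgHom.commutes]
      rfl
    have hintL : IsIntegral (Polynomial K) (P.coeff i : L) := by
      have hdeg : IsIntegral (Algebra.adjoin K {u}) (P.coeff i : L) :=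
        ⟨p, hp, (algebraMap L Ω).injective (by
          rw [map_zero, hom_eval₂]
          exact hpc)⟩
      obtain ⟨p', hp', hp'c⟩ := hdeg
      let e := algEquivOfTranscendental K u hu
      refine ⟨p'.map (e.symm : Algebra.adjoin K {u} →+* Polynomial K), hp'.map _, ?_⟩
      rw [eval₂_map]
      have : (algebraMap (Polynomial K) L).comp (e.symm : Algebra.adjoin K {u} →+* Polynomial K) =
          algebraMap (Algebra.adjoin K {u}) L := RingHom.ext fun x => by
        obtain ⟨g, rfl⟩ := e.surjective x
        simp [e, algEquivOfTranscendental, RingHom.algebraMap_toAlgebra]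
      rw [this]
      exact hp'c
    have hint : IsIntegral (Polynomial K) c' :=
      (isIntegral_algHom_iff φ φ.toRingHom.injective).mp (hφc ▸ hintL)
    obtain ⟨g, hg⟩ := IsIntegrallyClosed.isIntegral_iff.mp hint
    have hcg : (P.coeff i : L) = aeval u g := by
      rw [← hφc, ← hg, AlgHom.commutes]; rfl
    have hmem : aeval (algebraMap L Ω u) g ∈ W' := by
      rw [aeval_algebraMap_apply, ← hcg]; exact hcoeffV i
    obtain ⟨R, rfl⟩ := exists_map_eq_of_aeval_mem hq hW' g hmem
    exact ⟨R, by rw [hcg, aeval_map_algebraMap]⟩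
  choose R hR using hlift
  refine mem_chartRing_iff.mpr ?_
  let B := Algebra.adjoin W {u}
  let Pu : Polynomial B :=
    ∑ i ∈ Finset.range (P.natDegree + 1), monomial i ⟨aeval u (R i), aeval_mem_adjoin_singleton W u⟩
  have hmap : Pu.map (algebraMap B L) = P.map (algebraMap F₀ L) := by
    ext i
    simp only [Pu, Polynomial.map_sum, map_monomial, finsetSum_coeff, coeff_monomial, coeff_map,
      Finset.sum_ite_eq', Finset.mem_range]
    split_ifs with h
    · exact (hR i).symm
    · rw [coeff_eq_zero_of_natDegree_lt (by omega), map_zero]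
  refine ⟨Pu, ?_, ?_⟩
  · refine monic_of_injective (f := algebraMap B L) Subtype.val_injective ?_
    rw [hmap]; exact hPm.map _
  · rw [← eval_map, hmap, eval_map]
    exact minpoly.aeval F₀ y

end Intersection

section Points

variable (hq : maximalIdeal W = Ideal.span {(q : W)})
include hq

omit [IsFractionRing W K] in
/-- At a maximal ideal containing `q` every element is congruent to a constant. -/
theorem exists_sub_mem_of_isMaximal [IsAlgClosed (ResidueField W)]
    (P : Ideal (chartRing W u)) [P.IsMaximal] (hqP : (q : chartRing W u) ∈ P)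
    (y : chartRing W u) : ∃ a : W, y - algebraMap W _ a ∈ P := by
  let k := ResidueField W
  let E := chartRing W u ⧸ P
  let _ : Field E := Ideal.Quotient.field P
  have hker : ∀ a ∈ maximalIdeal W, algebraMap W E a = 0 := fun a ha => by
    rw [hq, Ideal.mem_span_singleton'] at ha
    obtain ⟨b, rfl⟩ := ha
    rw [map_mul, map_natCast]
    have : (q : E) = 0 := by
      rw [← map_natCast (Ideal.Quotient.mk P)]
      exact Ideal.Quotient.eq_zero_iff_mem.mpr hqP
    rw [this, mul_zero]
  let _ : Algebra k E := (Ideal.Quotient.lift (maximalIdeal W) (algebraMap W E) hker).toAlgebra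
  have : IsScalarTower W k E := IsScalarTower.of_algebraMap_eq fun _ => rfl
  let ub : E := Ideal.Quotient.mk P ⟨u, self_mem_chartRing⟩
  -- every element is integral over `k[ub]`, a field
  have hint : ∀ z : E, IsIntegral (Algebra.adjoin k {ub}) z := fun z => by
    obtain ⟨z, rfl⟩ := Ideal.Quotient.mk_surjective z
    obtain ⟨p, hp, hpz⟩ := mem_chartRing_iff.mp z.2
    let ι : Algebra.adjoin W {u} →+* chartRing W u :=
      (Subalgebra.inclusion (Algebra.adjoin_le (Set.singleton_subset_iff.mpr
        self_mem_chartRing))).toRingHom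
    have hval : ∀ a, Ideal.Quotient.mk P (ι a) ∈ Algebra.adjoin k {ub} := fun a => by
      obtain ⟨g, hg⟩ := Algebra.adjoin_mem_exists_aeval _ _ a.2
      have h1 : ι a = aeval (⟨u, self_mem_chartRing⟩ : chartRing W u) g :=
        Subtype.ext (by rw [← Subalgebra.coe_val, ← aeval_algHom_apply]; exact hg.symm)
      rw [h1, show Ideal.Quotient.mk P (aeval (⟨u, self_mem_chartRing⟩ : chartRing W u) g) =
        aeval ub g from (aeval_algHom_apply (Ideal.Quotient.mkₐ W P) _ g).symm,
        ← aeval_map_algebraMap k]
      exact aeval_mem_adjoin_singleton k ub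
    refine ⟨p.map (((Ideal.Quotient.mk P).comp ι).codRestrict _ hval), hp.map _, ?_⟩
    rw [eval₂_map]
    have hz : p.eval₂ ι z = 0 := Subtype.ext (by
      rw [ZeroMemClass.coe_zero, ← Subalgebra.coe_val, ← AlgHom.coe_toRingHom, hom_eval₂]
      exact hpz)
    calc _ = p.eval₂ ((Ideal.Quotient.mk P).comp ι) (Ideal.Quotient.mk P z) := rfl
      _ = 0 := by rw [← hom_eval₂, hz, map_zero]
  have : Algebra.IsIntegral (Algebra.adjoin k {ub}) E := ⟨hint⟩
  have hfield : IsField (Algebra.adjoin k {ub}) :=
    isField_of_isIntegral_of_isField Subtype.val_injective (Field.toIsField E)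
  have halg : IsIntegral k ub := by
    by_contra hni
    have htr : Transcendental k ub := fun h => hni (isAlgebraic_iff_isIntegral.mp h)
    exact Polynomial.not_isField (R := k)
      ((algEquivOfTranscendental k ub htr).toRingEquiv.toMulEquiv.isField hfield)
  have : Algebra.IsIntegral k (Algebra.adjoin k {ub}) :=
    Algebra.IsIntegral.adjoin (by simpa using halg)
  have : Algebra.IsIntegral k E := Algebra.IsIntegral.trans (Algebra.adjoin k {ub})
  obtain ⟨c, hc⟩ := (IsAlgClosed.algebraMap_bijective_of_isIntegral (k := k) (K := E)).2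
    (Ideal.Quotient.mk P y)
  obtain ⟨a, rfl⟩ := residue_surjective c
  exact ⟨a, Ideal.Quotient.eq.mp hc.symm⟩

omit [IsFractionRing W K] hq in
theorem residue_eq_of_sub_mem {P : Ideal (chartRing W u)} [P.IsPrime]
    {y : chartRing W u} {a b : W}
    (ha : y - algebraMap W _ a ∈ P) (hb : y - algebraMap W _ b ∈ P) :
    residue W a = residue W b := by
  by_contra h
  have hu' : IsUnit (b - a) := by
    rw [← notMem_maximalIdeal, ← residue_eq_zero_iff, map_sub, sub_eq_zero]
    exact fun e => h e.symm
  refine Ideal.IsPrime.ne_top ‹_› (Ideal.eq_top_of_isUnit_mem _ ?_ (hu'.map (algebraMap W _)))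
  have := P.sub_mem ha hb
  rw [map_sub]
  convert this using 1
  ring

end Points

end FermatAgent.BadRed.Carayol
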