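import Mathlib.Algebra.CharP.Lemmas
import Mathlib.Algebra.CharP.Frobenius
import Mathlib.Algebra.Polynomial.Expand
import Fermat.Agent.BadRed.Carayol.Chart

/-!
# A polynomial congruent to `(X - T ^ q) (X ^ q - T)` modulo `q`

Evaluation identities, symmetry, partial derivatives, and residues at vertical valuation
subrings.
-/

set_option autoImplicit false
set_option linter.unusedSectionVars false

noncomputable section

namespace FermatAgent.BadRed.Carayol

open Polynomial IsLocalRing

section Eval

variable {W R S : Type*} [CommRing W] [CommRing R] [CommRing S] [Algebra W R] [Algebra W S]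

/-- Evaluation at `(x, z)` as a ring homomorphism. -/
def evalTwoHom (x z : R) : Polynomial (Polynomial W) →+* R :=
  eval₂RingHom (aeval z).toRingHom x

theorem evalTwo_eq (Φ : Polynomial (Polynomial W)) (x z : R) :
    evalTwo Φ x z = evalTwoHom x z Φ := rfl

theorem evalTwo_add (Φ Ψ : Polynomial (Polynomial W)) (x z : R) :
    evalTwo (Φ + Ψ) x z = evalTwo Φ x z + evalTwo Ψ x z := eval₂_add _ _

theorem evalTwo_map (Φ : Polynomial (Polynomial W)) (σ : R →+* S)
    (hσ : ∀ w : W, σ (algebraMap W R w) = algebraMap W S w) (x z : R) :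
    σ (evalTwo Φ x z) = evalTwo Φ (σ x) (σ z) := by
  rw [evalTwo, hom_eval₂, evalTwo]
  congr 1
  refine Polynomial.ringHom_ext (fun w => ?_) ?_
  · simp [hσ]
  · simp

theorem evalTwo_eq_sum (Φ : Polynomial (Polynomial W)) {n : ℕ}
    (hn : ∀ i, n ≤ i → Φ.coeff i = 0) (hn' : ∀ i j, n ≤ j → (Φ.coeff i).coeff j = 0) (x z : R) :
    evalTwo Φ x z = ∑ i ∈ Finset.range n, ∑ j ∈ Finset.range n,
      algebraMap W R ((Φ.coeff i).coeff j) * z ^ j * x ^ i := by
  rw [evalTwo, eval₂_eq_sum, sum_def]
  rw [Finset.sum_subset (s₂ := Finset.range n)]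
  · refine Finset.sum_congr rfl fun i _ => ?_
    rw [← Finset.sum_mul]
    congr 1
    show aeval z (Φ.coeff i) = _
    rw [aeval_def, eval₂_eq_sum, sum_def]
    refine Finset.sum_subset (fun j hj => ?_) (fun j _ hj => ?_)
    · rw [Finset.mem_range]
      by_contra h
      exact mem_support_iff.mp hj (hn' i j (not_lt.mp h))
    · rw [notMem_support_iff.mp hj, map_zero, zero_mul]
  · intro i hi
    rw [Finset.mem_range]
    by_contra h
    exact mem_support_iff.mp hi (hn i (not_lt.mp h))
  · intro i _ hi
    rw [notMem_support_iff.mp hi, map_zero, zero_mul]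

/-- A symmetric polynomial evaluates symmetrically. -/
theorem evalTwo_comm (Φ : Polynomial (Polynomial W))
    (hsymm : ∀ i j : ℕ, (Φ.coeff i).coeff j = (Φ.coeff j).coeff i) (x z : R) :
    evalTwo Φ x z = evalTwo Φ z x := by
  have hn : ∀ i, Φ.natDegree + 1 ≤ i → Φ.coeff i = 0 := fun i hi =>
    coeff_eq_zero_of_natDegree_lt (by omega)
  have hn' : ∀ i j, Φ.natDegree + 1 ≤ j → (Φ.coeff i).coeff j = 0 := fun i j hj => by
    rw [hsymm, hn j hj, coeff_zero]
  rw [evalTwo_eq_sum Φ hn hn', evalTwo_eq_sum Φ hn hn', Finset.sum_comm]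
  refine Finset.sum_congr rfl fun i _ => Finset.sum_congr rfl fun j _ => ?_
  rw [hsymm]; ring

end Eval

section Decomposition

variable {W : Type*} [CommRing W] [IsDomain W] [IsDiscreteValuationRing W] {q : ℕ}

variable (W q) in
/-- The Kronecker polynomial `(X - T ^ q) (X ^ q - T)`. -/
def kron : Polynomial (Polynomial W) := (X - C (X ^ q)) * (X ^ q - C X)

theorem exists_eq_kron_add (hq : maximalIdeal W = Ideal.span {(q : W)})
    (Φ : Polynomial (Polynomial W))
    (h : Φ.map (mapRingHom (residue W)) = (X - C (X ^ q)) * (X ^ q - C X)) :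
    ∃ E : Polynomial (Polynomial W), Φ = kron W q + (q : Polynomial (Polynomial W)) * E := by
  have hmap : (Φ - kron W q).map (mapRingHom (residue W)) = 0 := by
    rw [Polynomial.map_sub, h, kron]
    simp
  have hdvd : C (C (q : W)) ∣ Φ - kron W q := by
    rw [C_dvd_iff_dvd_coeff]
    intro i
    rw [C_dvd_iff_dvd_coeff]
    intro j
    have : residue W (((Φ - kron W q).coeff i).coeff j) = 0 := by
      rw [← coeff_map, ← coe_mapRingHom, ← coeff_map (mapRingHom (residue W)), hmap, coeff_zero,
        coeff_zero]
    rwa [residue_eq_zero_iff, hq, Ideal.mem_span_singleton] at this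
  obtain ⟨E, hE⟩ := hdvd
  exact ⟨E, by rw [← C_eq_natCast, ← C_eq_natCast, ← hE]; ring⟩

variable {R : Type*} [CommRing R] [Algebra W R] (E : Polynomial (Polynomial W)) (x z : R)

theorem evalTwo_kron_add :
    evalTwo (kron W q + (q : Polynomial (Polynomial W)) * E) x z =
      (x - z ^ q) * (x ^ q - z) + (q : R) * evalTwo E x z := by
  simp only [evalTwo_eq, kron, map_add, map_mul, map_sub, map_pow, map_natCast]
  simp [evalTwoHom]

theorem evalTwo_derivative_kron_add :
    evalTwo (kron W q + (q : Polynomial (Polynomial W)) * E).derivative x z =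
      (x ^ q - z) + (q : R) * (x ^ (q - 1) * (x - z ^ q) + evalTwo E.derivative x z) := by
  have hd : (kron W q + (q : Polynomial (Polynomial W)) * E).derivative =
      (X ^ q - C X) + (q : Polynomial (Polynomial W)) *
        (X ^ (q - 1) * (X - C (X ^ q)) + E.derivative) := by
    rw [kron, derivative_add, derivative_mul, derivative_mul, derivative_sub, derivative_sub,
      derivative_X, derivative_C, derivative_X_pow, derivative_C, derivative_natCast]
    simp
    ring
  rw [hd]
  simp only [evalTwo_eq, map_add, map_mul, map_sub, map_pow, map_natCast]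
  simp [evalTwoHom]

end Decomposition

section Residue

variable {W L : Type*} [CommRing W] [IsDomain W] [IsDiscreteValuationRing W] [Field L]
  [Algebra W L] {q : ℕ} {u : L} {V : ValuationSubring L}

/-- The residue field of `W` maps to the residue field of a vertical valuation subring. -/
def constRes (hq : maximalIdeal W = Ideal.span {(q : W)}) (hV : IsVertical W q u V) :
    IsLocalRing.ResidueField W →+* IsLocalRing.ResidueField V :=
  Ideal.Quotient.lift (maximalIdeal W)
    ((residue V).comp ((algebraMap W L).codRestrict V.toSubring hV.const_mem)) fun a ha => by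
      rw [hq, Ideal.mem_span_singleton'] at ha
      obtain ⟨b, rfl⟩ := ha
      rw [map_mul, RingHom.comp_apply, RingHom.comp_apply, mul_eq_zero]
      refine Or.inr ((residue_eq_zero_iff _).mpr ?_)
      rw [← ValuationSubring.coe_mem_nonunits_iff]
      simpa using hV.q_mem

variable (hq : maximalIdeal W = Ideal.span {(q : W)}) (hV : IsVertical W q u V)
include hq hV

theorem constRes_residue (w : W) :
    constRes hq hV (residue W w) = res V (algebraMap W L w) :=
  (res_of_mem (hV.const_mem w)).symm

theorem res_natCast_q : res V (q : L) = 0 := res_eq_zero_of_mem_nonunits hV.q_mem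

theorem res_aeval {y : L} (hy : y ∈ V) (P : Polynomial W) :
    aeval y P ∈ V ∧ res V (aeval y P) =
      (P.map (residue W)).eval₂ (constRes hq hV) (res V y) := by
  obtain ⟨h1, h2⟩ := res_eval₂ (algebraMap W L) hV.const_mem hy P
  refine ⟨h1, ?_⟩
  rw [← aeval_def] at h2
  rw [h2, eval₂_map]
  congr 1

/-- The residue of `u` is transcendental over the residue field of `W`. -/
theorem eval₂_res_ne_zero (P : Polynomial (IsLocalRing.ResidueField W)) (hP : P ≠ 0) :
    P.eval₂ (constRes hq hV) (res V u) ≠ 0 := by
  obtain ⟨P₀, rfl⟩ := map_surjective (residue W) residue_surjective P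
  rw [← (res_aeval hq hV hV.u_mem.mem P₀).2]
  exact (hV.isUnitAt P₀ hP).res_ne_zero

theorem evalTwo_mem {x z : L} (hx : x ∈ V) (hz : z ∈ V) (Φ : Polynomial (Polynomial W)) :
    evalTwo Φ x z ∈ V :=
  (res_eval₂ (aeval z).toRingHom (fun P => (res_aeval hq hV hz P).1) hx Φ).1

theorem res_evalTwo {x z : L} (hx : x ∈ V) (hz : z ∈ V) (Φ : Polynomial (Polynomial W)) :
    res V (evalTwo Φ x z) = (Φ.map (mapRingHom (residue W))).eval₂
      (eval₂RingHom (constRes hq hV) (res V z)) (res V x) := by
  rw [evalTwo, (res_eval₂ (aeval z).toRingHom (fun P => (res_aeval hq hV hz P).1) hx Φ).2,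
    eval₂_map]
  congr 1
  refine RingHom.ext fun P => ?_
  exact (res_of_mem (res_aeval hq hV hz P).1).symm.trans (res_aeval hq hV hz P).2

theorem res_evalTwo_kron {x z : L} (hx : x ∈ V) (hz : z ∈ V) (Φ : Polynomial (Polynomial W))
    (h : Φ.map (mapRingHom (residue W)) = (X - C (X ^ q)) * (X ^ q - C X)) :
    res V (evalTwo Φ x z) = (res V x - res V z ^ q) * (res V x ^ q - res V z) := by
  rw [res_evalTwo hq hV hx hz, h]
  simp [eval₂_pow]

/-- The inner partial derivative at a root reduces to `-(x - z ^ q)`. -/
theorem res_derivInner [Fact q.Prime] {x z : L} (hx : x ∈ V) (hz : z ∈ V)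
    (Φ : Polynomial (Polynomial W))
    (h : Φ.map (mapRingHom (residue W)) = (X - C (X ^ q)) * (X ^ q - C X)) :
    res V (evalTwo (derivInner Φ) x z) = -(res V x - res V z ^ q) := by
  have hcoeff : ∀ i, (derivInner Φ).coeff i = derivative (Φ.coeff i) := fun i => by
    rw [derivInner, sum_def, finsetSum_coeff]
    simp only [coeff_monomial, Finset.sum_ite_eq']
    split_ifs with hi
    · rfl
    · rw [notMem_support_iff.mp hi, derivative_zero]
  have hk : (q : IsLocalRing.ResidueField W) = 0 := by
    rw [← map_natCast (residue W), residue_eq_zero_iff]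
    exact natCast_mem_maximalIdeal hq
  have hq0 : q ≠ 0 := (Fact.out : q.Prime).ne_zero
  have hq1 : q ≠ 1 := (Fact.out : q.Prime).ne_one
  have hmap : (derivInner Φ).map (mapRingHom (residue W)) = -(X - C (X ^ q)) := by
    ext1 i
    rw [coeff_map, hcoeff, coe_mapRingHom, ← derivative_map, ← coe_mapRingHom, ← coeff_map, h]
    have hexp : ((X : Polynomial (Polynomial (IsLocalRing.ResidueField W))) - C (X ^ q)) *
        (X ^ q - C X) = X ^ (q + 1) - C (X ^ q) * X ^ q - C X * X + C (X ^ (q + 1)) := by
      rw [pow_succ', pow_succ (X : Polynomial (IsLocalRing.ResidueField W)), map_mul]; ring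
    rw [hexp]
    simp only [coeff_add, coeff_sub, coeff_X_pow, coeff_C_mul, coeff_C, coeff_neg, coeff_X,
      derivative_add, derivative_sub, derivative_mul, derivative_X_pow, derivative_X]
    rcases eq_or_ne i 0 with rfl | hi0
    · simp [hk, hq0.symm]
    · rcases eq_or_ne i 1 with rfl | hi1
      · simp [hq1.symm, hq0, hk]
      · simp [hi0, Ne.symm hi1, hk, apply_ite derivative]
  rw [res_evalTwo hq hV hx hz, hmap]
  simp [eval₂_pow]

/-- At a root, the outer coordinates reduce to one of the two Kronecker branches. -/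
theorem res_root {x z : L} (hx : x ∈ V) (hz : z ∈ V) (Φ : Polynomial (Polynomial W))
    (h : Φ.map (mapRingHom (residue W)) = (X - C (X ^ q)) * (X ^ q - C X))
    (hroot : evalTwo Φ x z = 0) :
    res V x = res V z ^ q ∨ res V x ^ q = res V z := by
  have := res_evalTwo_kron hq hV hx hz Φ h
  rw [hroot, res_zero, eq_comm, mul_eq_zero, sub_eq_zero, sub_eq_zero] at this
  exact this

/-- The two branches are disjoint at a vertical valuation subring. -/
theorem res_branch_disjoint [Fact q.Prime] {x : L}
    (h1 : res V x = res V u ^ q) (h2 : res V x ^ q = res V u) : False := by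
  have h := eval₂_res_ne_zero hq hV (X ^ (q * q) - X)
    (fun h0 => by
      have hlt : 1 < q * q :=
        Nat.one_lt_mul_iff.mpr ⟨(Fact.out : q.Prime).pos, (Fact.out : q.Prime).pos,
          Or.inl (Fact.out : q.Prime).one_lt⟩
      have := congrArg (fun p => p.coeff 1) h0
      simp [hlt.ne, coeff_X_pow] at this)
  apply h
  rw [eval₂_sub, eval₂_X_pow, eval₂_X, pow_mul, ← h1, h2, sub_self]

end Residue

end FermatAgent.BadRed.Carayol
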