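import Mathlib.RingTheory.DedekindDomain.IntegralClosure
import Mathlib.RingTheory.Localization.Integral
import Mathlib.FieldTheory.Perfect
import Fermat.Agent.BadRed.Carayol.Chart

/-!
# Points of the chart ring and membership in their local rings
-/

set_option autoImplicit false
set_option linter.unusedSectionVars false

noncomputable section

namespace FermatAgent.BadRed.Carayol

open Polynomial IsLocalRing

variable {W K L : Type*} [CommRing W] [IsDomain W] [IsDiscreteValuationRing W]
  [Field K] [Algebra W K] [IsFractionRing W K]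
  [Field L] [Algebra K L] [Algebra W L] [IsScalarTower W K L] {q : ℕ} {u : L}

/-- The chart ring is a finite module over `W[u]`. -/
theorem moduleFinite_chartRing [CharZero K] (hu : Transcendental K u)
    [FiniteDimensional (IntermediateField.adjoin K {u}) L] :
    Module.Finite (Algebra.adjoin W {u}) (integralClosure (Algebra.adjoin W {u}) L) := by
  let A := Algebra.adjoin W {u}
  let F₀ := IntermediateField.adjoin K {u}
  have hinjW : Function.Injective (algebraMap W K) := IsFractionRing.injective W K
  have htr : Transcendental W u := by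
    rw [transcendental_iff_injective]
    intro a b hab
    refine map_injective (algebraMap W K) hinjW (transcendental_iff_injective.mp hu ?_)
    rw [aeval_map_algebraMap, aeval_map_algebraMap]
    exact hab
  let e := algEquivOfTranscendental W u htr
  have : IsNoetherianRing A := isNoetherianRing_of_ringEquiv _ e.toRingEquiv
  have : IsIntegrallyClosed A := IsIntegrallyClosed.of_equiv e.toRingEquiv
  have hmem : ∀ a : A, (a : L) ∈ F₀ := fun a => by
    obtain ⟨P, hP⟩ := Algebra.adjoin_mem_exists_aeval _ _ a.2
    rw [← hP, ← aeval_map_algebraMap K]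
    exact IntermediateField.algebra_adjoin_le_adjoin K _ (aeval_mem_adjoin_singleton K u)
  let _ : Algebra A F₀ := ((algebraMap A L).codRestrict F₀.toSubfield.toSubring hmem).toAlgebra
  have : IsScalarTower A F₀ L := IsScalarTower.of_algebraMap_eq fun _ => rfl
  have hinjA : Function.Injective (algebraMap A F₀) := fun a b h =>
    Subtype.ext (congrArg (fun x : F₀ => (x : L)) h :)
  have : IsFractionRing A F₀ := by
    refine { map_units := fun a => ?_, surj := fun z => ?_, exists_of_eq := fun {a b} h =>
      ⟨1, by simpa using hinjA h⟩ }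
    · exact ((map_ne_zero_iff _ hinjA).mpr (nonZeroDivisors.ne_zero a.2)).isUnit
    · obtain ⟨r, s, hrs⟩ := (IntermediateField.mem_adjoin_simple_iff (F := K) (z : L)).mp z.2
      by_cases hs : s = 0
      · refine ⟨⟨0, 1⟩, Subtype.ext ?_⟩
        simp [hrs, hs]
      obtain ⟨b, hbm, hb⟩ := IsLocalization.integerNormalization_spec (nonZeroDivisors W) r
      obtain ⟨c, hcm, hc⟩ := IsLocalization.integerNormalization_spec (nonZeroDivisors W) s
      let r₀ := IsLocalization.integerNormalization (nonZeroDivisors W) r
      let s₀ := IsLocalization.integerNormalization (nonZeroDivisors W) s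
      have hb0 : algebraMap W L b ≠ 0 := by
        rw [IsScalarTower.algebraMap_apply W K L]
        exact (map_ne_zero_iff _ (algebraMap K L).injective).mpr
          ((map_ne_zero_iff _ hinjW).mpr (nonZeroDivisors.ne_zero hbm))
      have hs0 : aeval u s ≠ 0 := fun h => hs (transcendental_iff.mp hu s h)
      have hc0 : algebraMap W L c ≠ 0 := by
        rw [IsScalarTower.algebraMap_apply W K L]
        exact (map_ne_zero_iff _ (algebraMap K L).injective).mpr
          ((map_ne_zero_iff _ hinjW).mpr (nonZeroDivisors.ne_zero hcm))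
      have er : aeval u r₀ = algebraMap W L b * aeval u r := by
        rw [← aeval_map_algebraMap K, hb, Algebra.smul_def,
          IsScalarTower.algebraMap_apply W K (Polynomial K), map_mul, AlgHom.commutes,
          ← IsScalarTower.algebraMap_apply]
      have es : aeval u s₀ = algebraMap W L c * aeval u s := by
        rw [← aeval_map_algebraMap K, hc, Algebra.smul_def,
          IsScalarTower.algebraMap_apply W K (Polynomial K), map_mul, AlgHom.commutes,
          ← IsScalarTower.algebraMap_apply]
      let num : A := ⟨algebraMap W L c * aeval u r₀, A.mul_mem (A.algebraMap_mem c)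
        (aeval_mem_adjoin_singleton W u)⟩
      let den : A := ⟨algebraMap W L b * aeval u s₀, A.mul_mem (A.algebraMap_mem b)
        (aeval_mem_adjoin_singleton W u)⟩
      have hden : den ∈ nonZeroDivisors A := mem_nonZeroDivisors_iff_ne_zero.mpr fun h => by
        have := congrArg Subtype.val h
        simp only [den, es, ZeroMemClass.coe_zero, mul_eq_zero, hb0, hc0, hs0, or_self] at this
      refine ⟨⟨num, ⟨den, hden⟩⟩, Subtype.ext ?_⟩
      show (z : L) * (algebraMap W L b * aeval u s₀) = algebraMap W L c * aeval u r₀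
      rw [hrs, er, es]
      field_simp
  exact IsIntegralClosure.finite A F₀ L (integralClosure A L)

/-- The chart ring is Noetherian. -/
theorem isNoetherianRing_chartRing [CharZero K] (hu : Transcendental K u)
    [FiniteDimensional (IntermediateField.adjoin K {u}) L] :
    IsNoetherianRing (chartRing W u) := by
  have := moduleFinite_chartRing (W := W) hu
  have htr : Transcendental W u := by
    rw [transcendental_iff_injective]
    intro a b hab
    refine map_injective (algebraMap W K) (IsFractionRing.injective W K)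
      (transcendental_iff_injective.mp hu ?_)
    rw [aeval_map_algebraMap, aeval_map_algebraMap]
    exact hab
  have : IsNoetherianRing (Algebra.adjoin W {u}) :=
    isNoetherianRing_of_ringEquiv _ (algEquivOfTranscendental W u htr).toRingEquiv
  exact IsNoetherianRing.of_finite (Algebra.adjoin W {u}) (integralClosure (Algebra.adjoin W {u}) L)

/-- Elements of the chart ring are integral over `K[u]`. -/
theorem isIntegral_adjoin_frac {x : L} (hx : x ∈ chartRing W u) :
    IsIntegral (Algebra.adjoin K {u}) x := by
  obtain ⟨p, hp, hpz⟩ := mem_chartRing_iff.mp hx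
  have hmem : ∀ a : Algebra.adjoin W {u}, (a : L) ∈ Algebra.adjoin K {u} := fun a => by
    obtain ⟨R, hR⟩ := Algebra.adjoin_mem_exists_aeval _ _ a.2
    rw [← hR, ← aeval_map_algebraMap K]
    exact aeval_mem_adjoin_singleton K u
  let ι : Algebra.adjoin W {u} →+* Algebra.adjoin K {u} :=
    (algebraMap (Algebra.adjoin W {u}) L).codRestrict (Algebra.adjoin K {u}).toSubring hmem
  exact ⟨p.map ι, hp.map _, by rw [eval₂_map]; exact hpz⟩

section Algebraic

variable (hq : maximalIdeal W = Ideal.span {(q : W)}) (hu : Transcendental K u)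
include hq hu

/-- Algebraic over `K(u)` implies algebraic over `W[u]`. -/
theorem isAlgebraic_adjoin_of_isAlgebraic_intermediateField {y : L}
    (p : Polynomial (IntermediateField.adjoin K {u})) (hp0 : p ≠ 0) (hpy : aeval y p = 0) :
    IsAlgebraic (Algebra.adjoin W {u}) y := by
  classical
  have hq0 : (q : L) ≠ 0 := by
    rw [← map_natCast (algebraMap K L)]
    exact (map_ne_zero_iff _ (algebraMap K L).injective).mpr (natCast_ne_zero_frac hq)
  have hdata : ∀ i, ∃ a b : Polynomial W, aeval u b ≠ 0 ∧
      (p.coeff i : L) * aeval u b = aeval u a := fun i => by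
    obtain ⟨r, s, hrs⟩ :=
      (IntermediateField.mem_adjoin_simple_iff (F := K) (p.coeff i : L)).mp (p.coeff i).2
    by_cases hs : s = 0
    · exact ⟨0, 1, by simp, by rw [hrs, hs]; simp⟩
    have hs0 : aeval u s ≠ 0 := fun h => hs (transcendental_iff.mp hu s h)
    obtain ⟨m, a, ha⟩ := exists_pow_mul_eq_map hq r
    obtain ⟨l, b, hb⟩ := exists_pow_mul_eq_map hq s
    have ea : aeval u a = (q : L) ^ m * aeval u r := by
      rw [← aeval_map_algebraMap K, ← ha, map_mul, aeval_C, map_pow, map_natCast]
    have eb : aeval u b = (q : L) ^ l * aeval u s := by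
      rw [← aeval_map_algebraMap K, ← hb, map_mul, aeval_C, map_pow, map_natCast]
    refine ⟨C ((q : W) ^ l) * a, C ((q : W) ^ m) * b, ?_, ?_⟩
    · rw [map_mul, aeval_C, map_pow, map_natCast, eb]
      exact mul_ne_zero (pow_ne_zero _ hq0) (mul_ne_zero (pow_ne_zero _ hq0) hs0)
    · rw [map_mul, map_mul, aeval_C, aeval_C, map_pow, map_pow, map_natCast, ea, eb, hrs]
      field_simp
  choose a b hb hab using hdata
  let D : Polynomial W := ∏ i ∈ Finset.range (p.natDegree + 1), b i
  have hD : aeval u D ≠ 0 := by
    rw [map_prod]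
    exact Finset.prod_ne_zero_iff.mpr fun i _ => hb i
  have hcoef : ∀ i, ∃ R : Polynomial W, aeval u D * (p.coeff i : L) = aeval u R := fun i => by
    by_cases hi : i ∈ Finset.range (p.natDegree + 1)
    · refine ⟨a i * ∏ j ∈ (Finset.range (p.natDegree + 1)).erase i, b j, ?_⟩
      rw [map_mul, ← hab i, show D = b i * ∏ j ∈ (Finset.range (p.natDegree + 1)).erase i, b j from
        (Finset.mul_prod_erase _ _ hi).symm, map_mul]
      ring
    · refine ⟨0, ?_⟩
      rw [coeff_eq_zero_of_natDegree_lt (by rw [Finset.mem_range] at hi; omega)]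
      simp
  choose R hR using hcoef
  let B := Algebra.adjoin W {u}
  let P' : Polynomial B := ∑ i ∈ Finset.range (p.natDegree + 1),
    monomial i ⟨aeval u (R i), aeval_mem_adjoin_singleton W u⟩
  have hmap : P'.map (algebraMap B L) = C (aeval u D) * p.map (algebraMap _ L) := by
    ext i
    simp only [P', Polynomial.map_sum, map_monomial, finsetSum_coeff, coeff_monomial, coeff_C_mul,
      coeff_map, Finset.sum_ite_eq', Finset.mem_range]
    split_ifs with h
    · exact (hR i).symm
    · rw [coeff_eq_zero_of_natDegree_lt (by omega), map_zero, mul_zero]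
  refine ⟨P', fun h => ?_, ?_⟩
  · rw [h, Polynomial.map_zero, eq_comm, mul_eq_zero, C_eq_zero, Polynomial.map_eq_zero] at hmap
    exact hmap.elim hD hp0
  · rw [aeval_def, ← eval_map, hmap, eval_mul, eval_map, ← aeval_def, hpy, mul_zero]

end Algebraic

section Points

variable (u) (P : Ideal (chartRing W u))

/-- `y` lies in the local ring of the chart ring at `P`. -/
def Loc (y : L) : Prop :=
  ∃ r a : chartRing W u, r ∉ P ∧ (r : L) * y = a

variable {u}

/-- The valuation subring `V` passes through `P`. -/
def Through (V : ValuationSubring L) : Prop :=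
  ∀ x : chartRing W u, (x : L) ∈ V.nonunits → x ∈ P

/-- Convenient form of discreteness of a valuation subring with respect to `q`. -/
structure RankOne (q : ℕ) (V : ValuationSubring L) : Prop where
  pow_div_mem : ∀ x ∈ V.nonunits, ∃ N : ℕ, x ^ N / q ∈ V
  exists_mul_mem : ∀ y : L, ∃ N : ℕ, (q : L) ^ N * y ∈ V

variable {P} [P.IsPrime]

theorem ne_zero_of_notMem {r : chartRing W u} (hr : r ∉ P) : (r : L) ≠ 0 := fun h =>
  hr (by rw [show r = 0 from Subtype.ext h]; exact P.zero_mem)

omit [P.IsPrime] in
theorem loc_of_mem {y : L} (hP : P ≠ ⊤) (hy : y ∈ chartRing W u) : Loc u P y :=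
  ⟨1, ⟨y, hy⟩, P.ne_top_iff_one.mp hP, by simp⟩

theorem Loc.mul {x y : L} (hx : Loc u P x) (hy : Loc u P y) : Loc u P (x * y) := by
  obtain ⟨r, a, hr, ha⟩ := hx
  obtain ⟨s, b, hs, hb⟩ := hy
  refine ⟨r * s, a * b, fun h => ((Ideal.IsPrime.mem_or_mem ‹_› h).elim hr hs), ?_⟩
  push_cast
  rw [← ha, ← hb]; ring

theorem Loc.add {x y : L} (hx : Loc u P x) (hy : Loc u P y) : Loc u P (x + y) := by
  obtain ⟨r, a, hr, ha⟩ := hx
  obtain ⟨s, b, hs, hb⟩ := hy
  refine ⟨r * s, a * s + r * b, fun h => ((Ideal.IsPrime.mem_or_mem ‹_› h).elim hr hs), ?_⟩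
  push_cast
  rw [← ha, ← hb]; ring

omit [P.IsPrime] in
theorem Loc.neg {x : L} (hx : Loc u P x) : Loc u P (-x) := by
  obtain ⟨r, a, hr, ha⟩ := hx
  exact ⟨r, -a, hr, by push_cast; rw [← ha]; ring⟩

theorem Loc.pow {x : L} (hx : Loc u P x) (n : ℕ) : Loc u P (x ^ n) := by
  induction n with
  | zero => exact loc_of_mem (Ideal.IsPrime.ne_top ‹_›) (by simp [one_mem])
  | succ n ih => rw [pow_succ]; exact ih.mul hx

theorem loc_inv_of_notMem {r : chartRing W u} (hr : r ∉ P) : Loc u P ((r : L)⁻¹) :=
  ⟨r, 1, hr, by rw [mul_inv_cancel₀ (ne_zero_of_notMem hr)]; rfl⟩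

variable (hq : maximalIdeal W = Ideal.span {(q : W)}) (hu : Transcendental K u)
variable [FiniteDimensional (IntermediateField.adjoin K {u}) L]
variable (hfin : {V : ValuationSubring L | IsVertical W q u V}.Finite)
variable (hrank : ∀ V : ValuationSubring L, IsVertical W q u V → RankOne q V)
include hq hu hfin hrank

/-- Every point containing `q` lies on some vertical component. -/
theorem exists_through (hqP : (q : chartRing W u) ∈ P) :
    ∃ V : ValuationSubring L, IsVertical W q u V ∧ Through P V := by
  classical
  by_contra hnone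
  push Not at hnone
  have hx : ∀ V : ValuationSubring L, ∃ x : chartRing W u,
      IsVertical W q u V → ((x : L) ∈ V.nonunits ∧ x ∉ P) := fun V => by
    by_cases hV : IsVertical W q u V
    · have h := hnone V hV
      simp only [Through, not_forall] at h
      obtain ⟨x, h1, h2⟩ := h
      exact ⟨x, fun _ => ⟨h1, h2⟩⟩
    · exact ⟨0, fun h => absurd h hV⟩
  choose x hx using hx
  let z : chartRing W u := ∏ V ∈ hfin.toFinset, x V
  have hzP : z ∉ P := fun h => by
    obtain ⟨V, hV, hxV⟩ := (Ideal.IsPrime.prod_mem_iff).mp h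
    exact (hx V (hfin.mem_toFinset.mp hV)).2 hxV
  have hzV : ∀ V : ValuationSubring L, IsVertical W q u V → (z : L) ∈ V.nonunits := fun V hV => by
    rw [show (z : L) = (x V : L) * ((∏ V' ∈ hfin.toFinset.erase V, x V' : chartRing W u) : L) by
      rw [← Subalgebra.coe_mul]; exact congrArg Subtype.val
        (Finset.mul_prod_erase _ _ (hfin.mem_toFinset.mpr hV)).symm,
      ValuationSubring.mem_nonunits_iff, map_mul]
    exact mul_lt_one_of_lt_of_le (hx V hV).1
      ((V.valuation_le_one_iff _).mpr (hV.chartRing_le (Subtype.mem _)))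
  have hN : ∀ V : ValuationSubring L, ∃ N : ℕ, IsVertical W q u V → (z : L) ^ N / q ∈ V :=
    fun V => by
      by_cases hV : IsVertical W q u V
      · obtain ⟨N, hN⟩ := (hrank V hV).pow_div_mem _ (hzV V hV)
        exact ⟨N, fun _ => hN⟩
      · exact ⟨0, fun h => absurd h hV⟩
  choose N hN using hN
  let M := ∑ V ∈ hfin.toFinset, N V
  have hq0 : (q : L) ≠ 0 := by
    rw [← map_natCast (algebraMap K L)]
    exact (map_ne_zero_iff _ (algebraMap K L).injective).mpr (natCast_ne_zero_frac hq)
  have hmem : (z : L) ^ M / q ∈ chartRing W u := by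
    refine mem_chartRing_of_vertical hq hu ?_ fun V hV => ?_
    · have h1 : IsIntegral (Algebra.adjoin K {u}) ((z : L) ^ M) :=
        isIntegral_adjoin_frac (pow_mem z.2 M)
      have h2 : IsIntegral (Algebra.adjoin K {u}) ((q : L)⁻¹) := by
        rw [← map_natCast (algebraMap K L), ← map_inv₀,
          IsScalarTower.algebraMap_apply K (Algebra.adjoin K {u}) L]
        exact isIntegral_algebraMap
      rw [div_eq_mul_inv]
      exact h1.mul h2
    · obtain ⟨d, hd⟩ := Nat.exists_eq_add_of_le
        (Finset.single_le_sum (f := N) (fun _ _ => Nat.zero_le _) (hfin.mem_toFinset.mpr hV))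
      rw [show M = N V + d from hd, pow_add, mul_div_right_comm]
      exact mul_mem (hN V hV) (pow_mem (hV.chartRing_le z.2) d)
  apply hzP
  refine Ideal.IsPrime.mem_of_pow_mem ‹_› M ?_
  have : z ^ M = ⟨(z : L) ^ M / q, hmem⟩ * (q : chartRing W u) := Subtype.ext (by
    push_cast; field_simp)
  rw [this]
  exact P.mul_mem_left _ hqP

/-- An element integral over `K[u]` which lies in every vertical valuation subring through `P`
lies in the local ring at `P`. -/
theorem loc_of_through {y : L} (hy : IsIntegral (Algebra.adjoin K {u}) y)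
    (hV : ∀ V : ValuationSubring L, IsVertical W q u V → Through P V → y ∈ V) :
    Loc u P y := by
  classical
  have hx : ∀ V : ValuationSubring L, ∃ x : chartRing W u, x ∉ P ∧
      (IsVertical W q u V → (x : L) * y ∈ V) := fun V => by
    by_cases hV' : IsVertical W q u V
    · by_cases ht : Through P V
      · exact ⟨1, P.ne_top_iff_one.mp (Ideal.IsPrime.ne_top ‹_›), fun _ => by
          simpa using hV V hV' ht⟩
      · simp only [Through, not_forall] at ht
        obtain ⟨x, h1, h2⟩ := ht
        obtain ⟨N, hN⟩ := (hrank V hV').exists_mul_mem y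
        obtain ⟨M, hM⟩ := (hrank V hV').pow_div_mem _ h1
        refine ⟨x ^ (M * N), fun h => h2 (Ideal.IsPrime.mem_of_pow_mem ‹_› _ h), fun _ => ?_⟩
        have hq0 : (q : L) ≠ 0 := by
          rw [← map_natCast (algebraMap K L)]
          exact (map_ne_zero_iff _ (algebraMap K L).injective).mpr (natCast_ne_zero_frac hq)
        have : ((x ^ (M * N) : chartRing W u) : L) * y =
            ((x : L) ^ M / q) ^ N * ((q : L) ^ N * y) := by
          push_cast
          rw [pow_mul, div_pow]; field_simp
        rw [this]
        exact mul_mem (pow_mem hM N) hN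
    · exact ⟨1, P.ne_top_iff_one.mp (Ideal.IsPrime.ne_top ‹_›), fun h => absurd h hV'⟩
  choose x hxP hx using hx
  let r : chartRing W u := ∏ V ∈ hfin.toFinset, x V
  have hr : r ∉ P := fun h => by
    obtain ⟨V, -, hxV⟩ := (Ideal.IsPrime.prod_mem_iff).mp h
    exact hxP V hxV
  refine ⟨r, ⟨(r : L) * y, mem_chartRing_of_vertical hq hu ?_ fun V hV' => ?_⟩, hr, rfl⟩
  · exact (isIntegral_adjoin_frac r.2).mul hy
  · rw [show (r : L) = (x V : L) * ((∏ V' ∈ hfin.toFinset.erase V, x V' : chartRing W u) : L) by
      rw [← Subalgebra.coe_mul]; exact congrArg Subtype.val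
        (Finset.mul_prod_erase _ _ (hfin.mem_toFinset.mpr hV')).symm, mul_right_comm]
    exact mul_mem (hx V hV') (hV'.chartRing_le (Subtype.mem _))

end Points

end FermatAgent.BadRed.Carayol
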