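import Mathlib.RingTheory.Ideal.UFD
import Mathlib.RingTheory.DedekindDomain.Dvr
import Mathlib.RingTheory.UniqueFactorizationDomain.Multiplicity
import Mathlib.RingTheory.DiscreteValuationRing.TFAE
import Mathlib.RingTheory.Ideal.KrullsHeightTheorem

/-!
# Two-generated maximal ideals in dimension two

A Noetherian local domain whose maximal ideal is generated by two elements and which has a
nonzero non-maximal prime is a unique factorisation domain (elementary proof).
-/

set_option autoImplicit false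

namespace FermatAgent.BadRed.Carayol

open IsLocalRing

variable {R : Type*} [CommRing R] [IsDomain R] [IsLocalRing R] [IsNoetherianRing R]

/-- `a` is prime when `(a, b)` is the maximal ideal and the dimension is at least two. -/
theorem prime_left_of_maximalIdeal_eq_span_pair {a b : R}
    (hm : maximalIdeal R = Ideal.span {a, b}) (hp : ∃ p : Ideal R, p.IsPrime ∧ p ≠ ⊥ ∧
      p ≠ maximalIdeal R) :
    Prime a := by
  obtain ⟨p, hpp, hp0, hpm⟩ := hp
  have ham : a ∈ maximalIdeal R := hm ▸ Ideal.subset_span (by simp)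
  have hmax : ¬ (maximalIdeal R).height ≤ 1 := by
    intro h
    have := hpp
    have h1 : p < maximalIdeal R := lt_of_le_of_ne (IsLocalRing.le_maximalIdeal hpp.ne_top) hpm
    have hb : (⊥ : Ideal R) < p := bot_lt_iff_ne_bot.mpr hp0
    have h2 := Ideal.height_add_one_le_of_lt_of_isPrime h1
    have h3 := Ideal.height_add_one_le_of_lt_of_isPrime hb
    have h4 : (1 : ℕ∞) ≤ p.height := le_trans le_add_self h3
    have h5 : (1 : ℕ∞) + 1 ≤ 1 := (add_le_add_left h4 1).trans (h2.trans h)
    norm_num at h5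
  obtain ⟨Q, hQmin, hQle⟩ :=
    Ideal.exists_minimalPrimes_le ((Ideal.span_singleton_le_iff_mem _).mpr ham)
  have : Q.IsPrime := hQmin.isPrime
  have haQ : a ∈ Q := hQmin.le (Ideal.mem_span_singleton_self a)
  have hQm : Q ≠ maximalIdeal R := fun h => hmax
    (h ▸ Ideal.height_le_one_of_isPrincipal_of_mem_minimalPrimes _ Q hQmin)
  have hbQ : b ∉ Q := fun hb => hQm (le_antisymm hQle (by
    rw [hm, Ideal.span_le]
    rintro x (rfl | rfl) <;> assumption))
  have hsub : Q ≤ Ideal.span {a} ⊔ maximalIdeal R • Q := by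
    intro x hx
    have hx' : x ∈ Ideal.span {a, b} := hm ▸ hQle hx
    obtain ⟨r, s, rfl⟩ := Ideal.mem_span_pair.mp hx'
    have hsQ : s ∈ Q := by
      have : s * b ∈ Q := by
        have := Q.sub_mem hx (Q.mul_mem_left r haQ)
        simpa using this
      exact ((Ideal.IsPrime.mem_or_mem ‹_› this).resolve_right hbQ)
    refine Submodule.add_mem_sup (Ideal.mem_span_singleton'.mpr ⟨r, rfl⟩) ?_
    rw [smul_eq_mul, mul_comm s b]
    exact Ideal.mul_mem_mul (hm ▸ Ideal.subset_span (by simp)) hsQ
  have hQ : Q = Ideal.span {a} := le_antisymm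
    (Submodule.le_of_le_smul_of_le_jacobson_bot (IsNoetherian.noetherian Q)
      (IsLocalRing.maximalIdeal_le_jacobson _) hsub)
    ((Ideal.span_singleton_le_iff_mem _).mpr haQ)
  have ha0 : a ≠ 0 := by
    rintro rfl
    apply hmax
    have : maximalIdeal R = Ideal.span {b} := by
      rw [hm]; exact Submodule.span_insert_zero
    rw [this]
    have : (Ideal.span {b} : Ideal R).IsPrime := this ▸ (maximalIdeal.isMaximal R).isPrime
    refine Ideal.height_le_one_of_isPrincipal_of_mem_minimalPrimes (Ideal.span {b}) _ ?_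
    rw [Ideal.minimalPrimes_eq_subsingleton_self]
    rfl
  rw [← Ideal.span_singleton_prime ha0, ← hQ]
  infer_instance

/-- Such a ring is a unique factorisation domain. -/
theorem uniqueFactorizationMonoid_of_maximalIdeal_eq_span_pair {a b : R}
    (hm : maximalIdeal R = Ideal.span {a, b}) (hp : ∃ p : Ideal R, p.IsPrime ∧ p ≠ ⊥ ∧
      p ≠ maximalIdeal R) :
    UniqueFactorizationMonoid R := by
  have ha := prime_left_of_maximalIdeal_eq_span_pair hm hp
  let I : Ideal R := Ideal.span {a}
  have hI : I.IsPrime := (Ideal.span_singleton_prime ha.ne_zero).mpr ha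
  have : Nontrivial (R ⧸ I) := Ideal.Quotient.nontrivial_iff.mpr hI.ne_top
  have : IsLocalRing (R ⧸ I) :=
    IsLocalRing.of_surjective' (Ideal.Quotient.mk I) Ideal.Quotient.mk_surjective
  have hprinc : (maximalIdeal (R ⧸ I)).IsPrincipal := by
    refine ⟨Ideal.Quotient.mk I b, ?_⟩
    rw [← IsLocalRing.map_maximalIdeal_of_surjective (Ideal.Quotient.mk I)
      Ideal.Quotient.mk_surjective, hm, Ideal.map_span, Set.image_pair]
    have : Ideal.Quotient.mk I a = 0 :=
      Ideal.Quotient.eq_zero_iff_mem.mpr (Ideal.mem_span_singleton_self a)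
    rw [this]
    exact Submodule.span_insert_zero
  have : IsPrincipalIdealRing (R ⧸ I) :=
    ((tfae_of_isNoetherianRing_of_isLocalRing_of_isDomain
      (R := R ⧸ I)).out 4 0).mp hprinc
  refine UniqueFactorizationMonoid.of_forall_isPrincipal_of_height_eq_one fun q hq hq1 => ?_
  by_cases haq : a ∈ q
  · exact ⟨a, q.eq_span_singleton_of_height_eq_one hq1 haq ha⟩
  obtain ⟨gbar, hgbar⟩ := IsPrincipalIdealRing.principal (Ideal.map (Ideal.Quotient.mk I) q)
  have hmem : gbar ∈ Ideal.map (Ideal.Quotient.mk I) q :=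
    hgbar ▸ Submodule.mem_span_singleton_self gbar
  obtain ⟨g, hgq, rfl⟩ :=
    (Ideal.mem_map_iff_of_surjective _ Ideal.Quotient.mk_surjective).mp hmem
  have hsub : q ≤ Ideal.span {g} ⊔ maximalIdeal R • q := by
    intro x hx
    have := Ideal.mem_map_of_mem (Ideal.Quotient.mk I) hx
    rw [hgbar, Ideal.submodule_span_eq, Ideal.mem_span_singleton'] at this
    obtain ⟨rbar, hr⟩ := this
    obtain ⟨r, rfl⟩ := Ideal.Quotient.mk_surjective rbar
    rw [← map_mul, Ideal.Quotient.eq] at hr
    obtain ⟨s, hs⟩ := Ideal.mem_span_singleton'.mp hr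
    have hsq : s ∈ q := by
      have : s * a ∈ q := by rw [hs]; exact q.sub_mem (q.mul_mem_left r hgq) hx
      exact (Ideal.IsPrime.mem_or_mem hq this).resolve_right haq
    have hxeq : x = r * g + -(a * s) := by linear_combination hs
    rw [hxeq]
    refine Submodule.add_mem_sup (Ideal.mem_span_singleton'.mpr ⟨r, rfl⟩) (Submodule.neg_mem _ ?_)
    rw [smul_eq_mul]
    exact Ideal.mul_mem_mul (hm ▸ Ideal.subset_span (by simp)) hsq
  exact ⟨g, le_antisymm
    (Submodule.le_of_le_smul_of_le_jacobson_bot (IsNoetherian.noetherian q)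
      (IsLocalRing.maximalIdeal_le_jacobson _) hsub)
    ((Ideal.span_singleton_le_iff_mem _).mpr hgq)⟩

omit [IsLocalRing R] [IsNoetherianRing R] in
/-- In such a ring, `n`-divisibility of all multiplicities gives a unit times an `n`-th power. -/
theorem exists_unit_mul_pow_of_forall_multiplicity [UniqueFactorizationMonoid R] {f : R}
    (hf : f ≠ 0) (n : ℕ) (hdiv : ∀ π : R, Prime π → n ∣ multiplicity π f) :
    ∃ (ε : Rˣ) (g : R), f = ε * g ^ n := by
  induction f using (wellFounded_dvdNotUnit (α := R)).induction with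
  | _ f ih =>
    by_cases hu : IsUnit f
    · exact ⟨hu.unit, 1, by simp⟩
    obtain ⟨π, hπirr, hπf⟩ := WfDvdMonoid.exists_irreducible_factor hu hf
    have hπ : Prime π := UniqueFactorizationMonoid.irreducible_iff_prime.mp hπirr
    have hn : n ≤ multiplicity π f :=
      Nat.le_of_dvd (multiplicity_pos_of_dvd hπf) (hdiv π hπ)
    obtain ⟨f', rfl⟩ := pow_dvd_of_le_multiplicity hn
    have hf' : f' ≠ 0 := right_ne_zero_of_mul hf
    have hn0 : n ≠ 0 := by
      rintro rfl
      have := Nat.zero_dvd.mp (hdiv π hπ)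
      exact absurd this (multiplicity_pos_of_dvd hπf).ne'
    have hnu : ¬ IsUnit (π ^ n) := fun h => hπ.not_isUnit ((isUnit_pow_iff hn0).mp h)
    obtain ⟨ε, g, hg⟩ := ih f' ⟨hf', π ^ n, hnu, mul_comm _ _⟩ hf' fun ρ hρ => by
      have hfin : FiniteMultiplicity ρ (π ^ n * f') :=
        FiniteMultiplicity.of_not_isUnit hρ.not_isUnit hf
      have h := hdiv ρ hρ
      rw [multiplicity_mul hρ hfin] at h
      refine (Nat.dvd_add_right ?_).mp h
      rw [(FiniteMultiplicity.of_not_isUnit hρ.not_isUnit hπ.ne_zero).multiplicity_pow hρ]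
      exact dvd_mul_right n _
    exact ⟨ε, π * g, by rw [hg]; ring⟩

end FermatAgent.BadRed.Carayol
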