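import Mathlib.RingTheory.Localization.Submodule
import Fermat.Agent.BadRed.Carayol.Local
import Fermat.Agent.BadRed.Carayol.Regular

/-!
# The local ring of the chart ring at a point

Normality, membership by valuations, and the consequence of a two-generated maximal ideal:
an element with all multiplicities divisible by `n` is a unit times an `n`-th power.
-/

set_option autoImplicit false
set_option linter.unusedSectionVars false

noncomputable section

namespace FermatAgent.BadRed.Carayol

open Polynomial IsLocalRing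

variable {W K L : Type*} [CommRing W] [IsDomain W] [IsDiscreteValuationRing W]
  [Field K] [Algebra W K] [IsFractionRing W K]
  [Field L] [Algebra K L] [Algebra W L] [IsScalarTower W K L] {q : ℕ} {u : L}

variable (P : Ideal (chartRing W u)) [P.IsPrime]

/-- The local ring at `P` as a subring of the field. -/
def locRing : Subring L where
  carrier := {y | Loc u P y}
  zero_mem' := loc_of_mem (Ideal.IsPrime.ne_top ‹_›) (zero_mem _)
  one_mem' := loc_of_mem (Ideal.IsPrime.ne_top ‹_›) (one_mem _)
  add_mem' := Loc.add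
  mul_mem' := Loc.mul
  neg_mem' := Loc.neg

theorem mem_locRing {y : L} : y ∈ locRing P ↔ Loc u P y := Iff.rfl

theorem chartRing_le_locRing {y : L} (hy : y ∈ chartRing W u) : y ∈ locRing P :=
  loc_of_mem (Ideal.IsPrime.ne_top ‹_›) hy

instance locRing.algebraChart : Algebra (chartRing W u) (locRing P) :=
  ((chartRing W u).val.toRingHom.codRestrict (locRing P)
    fun x => chartRing_le_locRing P x.2).toAlgebra

theorem coe_algebraMap_locRing (x : chartRing W u) :
    ((algebraMap (chartRing W u) (locRing P) x : locRing P) : L) = x := rfl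

instance locRing.isLocalization : IsLocalization.AtPrime (locRing P) P where
  map_units r := IsUnit.of_mul_eq_one ⟨((r : chartRing W u) : L)⁻¹, loc_inv_of_notMem r.2⟩
    (Subtype.ext (by
      rw [Subring.coe_mul, coe_algebraMap_locRing, mul_inv_cancel₀ (ne_zero_of_notMem r.2)]; rfl))
  surj z := by
    obtain ⟨r, a, hr, ha⟩ := z.2
    refine ⟨⟨a, ⟨r, hr⟩⟩, Subtype.ext ?_⟩
    rw [Subring.coe_mul, coe_algebraMap_locRing, coe_algebraMap_locRing, ← ha]
    exact mul_comm _ _
  exists_of_eq {a b} h := ⟨1, by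
    rw [show a = b from Subtype.ext (congrArg (fun x : locRing P => (x : L)) h :)]⟩

instance locRing.isLocalRing : IsLocalRing (locRing P) :=
  IsLocalization.AtPrime.isLocalRing (locRing P) P

/-- `y` lies in the maximal ideal of the local ring at `P`. -/
def InMax (y : L) : Prop :=
  ∃ r a : chartRing W u, r ∉ P ∧ a ∈ P ∧ (r : L) * y = a

variable {P}

theorem InMax.loc {y : L} (h : InMax P y) : Loc u P y := by
  obtain ⟨r, a, hr, -, ha⟩ := h
  exact ⟨r, a, hr, ha⟩

theorem inMax_iff {y : L} (hy : Loc u P y) :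
    InMax P y ↔ (⟨y, hy⟩ : locRing P) ∈ maximalIdeal (locRing P) := by
  constructor
  · rintro ⟨r, a, hr, haP, ha⟩
    have hu' : IsUnit (algebraMap (chartRing W u) (locRing P) r) :=
      IsLocalization.map_units (M := P.primeCompl) _ (⟨r, hr⟩ : P.primeCompl)
    rw [← Ideal.unit_mul_mem_iff_mem _ hu',
      show algebraMap (chartRing W u) (locRing P) r * ⟨y, hy⟩ =
        algebraMap (chartRing W u) (locRing P) a from Subtype.ext ha]
    exact (IsLocalization.AtPrime.to_map_mem_maximal_iff (locRing P) P a).mpr haP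
  · intro h
    obtain ⟨r, a, hr, ha⟩ := id hy
    refine ⟨r, a, hr, ?_, ha⟩
    rw [← IsLocalization.AtPrime.to_map_mem_maximal_iff (locRing P) P a,
      show algebraMap (chartRing W u) (locRing P) a =
        algebraMap (chartRing W u) (locRing P) r * ⟨y, hy⟩ from Subtype.ext ha.symm]
    exact Ideal.mul_mem_left _ _ h

theorem inMax_or_loc_inv {y : L} (hy : Loc u P y) : InMax P y ∨ (y ≠ 0 ∧ Loc u P y⁻¹) := by
  obtain ⟨r, a, hr, ha⟩ := hy
  by_cases haP : a ∈ P
  · exact Or.inl ⟨r, a, hr, haP, ha⟩
  · refine Or.inr ⟨fun h => ne_zero_of_notMem haP (by rw [← ha, h, mul_zero]), a, r, haP, ?_⟩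
    rw [← ha, mul_assoc]
    rcases eq_or_ne y 0 with rfl | hy0
    · exact absurd (by rw [← ha, mul_zero]) (ne_zero_of_notMem haP)
    · rw [mul_inv_cancel₀ hy0, mul_one]

theorem InMax.add {x y : L} (hx : InMax P x) (hy : InMax P y) : InMax P (x + y) :=
  (inMax_iff (hx.loc.add hy.loc)).mpr
    (Ideal.add_mem _ ((inMax_iff hx.loc).mp hx) ((inMax_iff hy.loc).mp hy))

theorem InMax.neg {x : L} (hx : InMax P x) : InMax P (-x) := by
  obtain ⟨r, a, hr, haP, ha⟩ := hx
  exact ⟨r, -a, hr, P.neg_mem haP, by push_cast; rw [← ha]; ring⟩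

theorem InMax.mul_left {x y : L} (hx : Loc u P x) (hy : InMax P y) : InMax P (x * y) :=
  (inMax_iff (hx.mul hy.loc)).mpr (Ideal.mul_mem_left _ ⟨x, hx⟩ ((inMax_iff hy.loc).mp hy))

theorem InMax.mul_right {x y : L} (hx : InMax P x) (hy : Loc u P y) : InMax P (x * y) :=
  mul_comm y x ▸ hx.mul_left hy

theorem inMax_of_mem {x : chartRing W u} (hx : x ∈ P) : InMax P (x : L) :=
  ⟨1, x, P.ne_top_iff_one.mp (Ideal.IsPrime.ne_top ‹_›), hx, by simp⟩

theorem mem_of_inMax {x : chartRing W u} (hx : InMax P (x : L)) : x ∈ P := by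
  obtain ⟨r, a, hr, haP, ha⟩ := hx
  have : r * x = a := Subtype.ext ha
  exact ((Ideal.IsPrime.mem_or_mem ‹_› (this ▸ haP : r * x ∈ P)).resolve_left hr)

theorem not_inMax_one : ¬ InMax P (1 : L) := fun h =>
  P.ne_top_iff_one.mp (Ideal.IsPrime.ne_top ‹_›)
    (mem_of_inMax (x := (1 : chartRing W u)) (by simpa using h))

theorem InMax.not_loc_inv {x : L} (h : InMax P x) (hx : x ≠ 0) : ¬ Loc u P x⁻¹ := fun h' =>
  not_inMax_one (P := P) (by simpa [mul_inv_cancel₀ hx] using h.mul_right h')

/-- A valuation subring through `P` contains the local ring at `P`. -/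
theorem Through.mem {V : ValuationSubring L} (hT : Through P V)
    (hA : ∀ x : chartRing W u, (x : L) ∈ V) {y : L} (hy : Loc u P y) : y ∈ V := by
  obtain ⟨r, a, hr, ha⟩ := hy
  have hru : IsUnitAt V (r : L) :=
    le_antisymm ((V.valuation_le_one_iff _).mpr (hA r))
      (not_lt.mp fun h => hr (hT r h))
  have : y = (r : L)⁻¹ * a := by rw [← ha, inv_mul_cancel_left₀ hru.ne_zero]
  exact this ▸ mul_mem hru.inv.mem (hA a)

/-- Elements of the local ring vanishing on a valuation subring through `P` vanish at `P`. -/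
theorem Through.inMax {V : ValuationSubring L} (hT : Through P V)
    (hA : ∀ x : chartRing W u, (x : L) ∈ V) {y : L} (hy : Loc u P y) (hyV : y ∈ V.nonunits) :
    InMax P y := by
  obtain ⟨r, a, hr, ha⟩ := hy
  refine ⟨r, a, hr, hT a ?_, ha⟩
  rw [← ha, ValuationSubring.mem_nonunits_iff, map_mul]
  rw [mul_comm]
  exact mul_lt_one_of_lt_of_le hyV ((V.valuation_le_one_iff _).mpr (hA r))

variable (P)

instance locRing.isIntegrallyClosedIn : IsIntegrallyClosedIn (locRing P) L := by
  refine Subring.isIntegrallyClosedIn_iff.mpr fun {y} hy => ?_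
  have : IsScalarTower (chartRing W u) (locRing P) L := IsScalarTower.of_algebraMap_eq fun _ => rfl
  obtain ⟨⟨m, hm⟩, hmy⟩ :=
    IsIntegral.exists_multiple_integral_of_isLocalization (R := chartRing W u) P.primeCompl
      (Rₘ := locRing P) y hy
  have hmem : (m : L) * y ∈ chartRing W u := by
    obtain ⟨p, hp, hpy⟩ := hmy
    have hint : IsIntegral ((integralClosure (Algebra.adjoin W {u}) L)) ((m : L) * y) :=
      ⟨p, hp, hpy⟩
    exact isIntegral_trans (R := Algebra.adjoin W {u}) _ hint
  exact ⟨m, ⟨_, hmem⟩, hm, rfl⟩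

/-- Membership in the local ring by the valuation subrings centred at `P`. -/
theorem loc_of_valuations {y : L}
    (h : ∀ V : ValuationSubring L, (∀ x : chartRing W u, (x : L) ∈ V) →
      (∀ x : chartRing W u, x ∈ P → (x : L) ∈ V.nonunits) → y ∈ V) :
    Loc u P y := by
  by_contra hy
  let R : LocalSubring L := ⟨locRing P⟩
  have : IsIntegrallyClosedIn R.toSubring L := locRing.isIntegrallyClosedIn P
  obtain ⟨V, ⟨hle, hloc⟩, hyV⟩ :=
    LocalSubring.exists_le_valuationSubring_of_isIntegrallyClosedIn (R := R) (x := y) hy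
  refine hyV (h V (fun x => hle (chartRing_le_locRing P x.2)) fun x hx => ?_)
  have h1 : (⟨(x : L), chartRing_le_locRing P x.2⟩ : locRing P) ∈ maximalIdeal (locRing P) :=
    (inMax_iff _).mp (inMax_of_mem hx)
  have h2 : Subring.inclusion hle ⟨(x : L), chartRing_le_locRing P x.2⟩ ∈
      maximalIdeal V.toLocalSubring.toSubring := fun hu' => h1 (hloc.map_nonunit _ hu')
  exact (ValuationSubring.coe_mem_nonunits_iff
    (a := (⟨x, hle (chartRing_le_locRing P x.2)⟩ : V))).mpr h2

/-- Every element of the field is a fraction of elements of the local ring. -/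
theorem exists_mul_eq_locRing (hq : maximalIdeal W = Ideal.span {(q : W)})
    (hu : Transcendental K u) [FiniteDimensional (IntermediateField.adjoin K {u}) L] (f : L) :
    ∃ A B : locRing P, (B : L) ≠ 0 ∧ f * B = A := by
  obtain ⟨p, hp0, hpf⟩ :=
    (Algebra.IsAlgebraic.of_finite (IntermediateField.adjoin K {u}) L).isAlgebraic f
  obtain ⟨c, hc, hcz⟩ :=
    (isAlgebraic_adjoin_of_isAlgebraic_intermediateField hq hu p hp0 hpf).exists_integral_multiple
  refine ⟨⟨c • f, chartRing_le_locRing P (mem_chartRing_iff.mpr hcz)⟩,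
    ⟨(c : L), chartRing_le_locRing P (mem_chartRing_iff.mpr
      (isIntegral_algebraMap (x := c)))⟩, fun h => hc (Subtype.ext h), ?_⟩
  show f * (c : L) = c • f
  rw [Algebra.smul_def, mul_comm]
  rfl

section UFD

variable (hq : maximalIdeal W = Ideal.span {(q : W)}) (hu : Transcendental K u)
variable [CharZero K] [FiniteDimensional (IntermediateField.adjoin K {u}) L]
variable (hfin : {V : ValuationSubring L | IsVertical W q u V}.Finite)
variable (hrank : ∀ V : ValuationSubring L, IsVertical W q u V → RankOne q V)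
include hq hu hfin hrank

/-- At a point whose maximal ideal is generated by two elements, an element whose valuations are
all divisible by `n` is a unit times an `n`-th power. -/
theorem exists_unit_mul_pow {a b : L} (ha : InMax P a)
    (hb : InMax P b)
    (hgen : ∀ y : L, InMax P y → ∃ c d : L, Loc u P c ∧ Loc u P d ∧ y = c * a + d * b)
    (hbig : ∃ V : ValuationSubring L, IsVertical W q u V ∧ Through P V ∧
      ∃ y : L, InMax P y ∧ IsUnitAt V y)
    {f : L} {n : ℕ} (hn : 0 < n) (hf : f ≠ 0) (hdiv : DivisibleOn K f n)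
    (hdivV : ∀ V : ValuationSubring L, IsVertical W q u V → ∃ g : L, V.valuation f = V.valuation g ^ n) :
    ∃ ε g : L, ε ≠ 0 ∧ g ≠ 0 ∧ Loc u P ε ∧ Loc u P ε⁻¹ ∧ f = ε * g ^ n := by
  have : IsNoetherianRing (chartRing W u) := isNoetherianRing_chartRing hu
  have : IsNoetherianRing (locRing P) :=
    IsLocalization.isNoetherianRing P.primeCompl (locRing P) inferInstance
  let R := locRing P
  have hm : maximalIdeal R = Ideal.span {⟨a, ha.loc⟩, ⟨b, hb.loc⟩} := by
    refine le_antisymm (fun y hy => ?_) ?_
    · obtain ⟨c, d, hc, hd, he⟩ := hgen y ((inMax_iff y.2).mpr hy)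
      exact Ideal.mem_span_pair.mpr ⟨⟨c, hc⟩, ⟨d, hd⟩, Subtype.ext he.symm⟩
    · rw [Ideal.span_le]
      rintro _ (rfl | rfl)
      exacts [(inMax_iff ha.loc).mp ha, (inMax_iff hb.loc).mp hb]
  have hA : ∀ {V : ValuationSubring L}, IsVertical W q u V → ∀ x : chartRing W u, (x : L) ∈ V :=
    fun hV x => hV.chartRing_le x.2
  have hq0 : (q : L) ≠ 0 := by
    rw [← map_natCast (algebraMap K L)]
    exact (map_ne_zero_iff _ (algebraMap K L).injective).mpr (natCast_ne_zero_frac hq)
  -- the centre of a vertical valuation subring through `P`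
  let centre : ∀ (V : ValuationSubring L), IsVertical W q u V → Through P V → Ideal R :=
    fun V hV hT => (maximalIdeal V).comap
      ((Subring.subtype (locRing P)).codRestrict V.toSubring fun y => hT.mem (hA hV) y.2)
  have hcentre : ∀ (V : ValuationSubring L) hV hT (y : R),
      y ∈ centre V hV hT ↔ (y : L) ∈ V.nonunits :=
    fun V hV hT y => (ValuationSubring.coe_mem_nonunits_iff (a := ⟨(y : L), _⟩)).symm
  have hqR : Loc u P (q : L) := by
    rw [show (q : L) = ((q : chartRing W u) : L) by simp]
    exact chartRing_le_locRing P (Subtype.mem _)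
  have hprime : ∃ p : Ideal R, p.IsPrime ∧ p ≠ ⊥ ∧ p ≠ maximalIdeal R := by
    obtain ⟨V, hV, hT, y, hy, hyu⟩ := hbig
    refine ⟨centre V hV hT, Ideal.IsPrime.comap _, fun h => ?_, fun h => ?_⟩
    · have : (⟨(q : L), hqR⟩ : R) ∈ centre V hV hT := (hcentre V hV hT _).mpr hV.q_mem
      rw [h, Ideal.mem_bot] at this
      exact hq0 (congrArg (fun x : R => (x : L)) this :)
    · have : (⟨y, hy.loc⟩ : R) ∈ centre V hV hT := h ▸ (inMax_iff hy.loc).mp hy
      exact (ne_of_lt ((hcentre V hV hT _).mp this)) hyu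
  have : UniqueFactorizationMonoid R :=
    uniqueFactorizationMonoid_of_maximalIdeal_eq_span_pair hm hprime
  -- `f = A / B`
  obtain ⟨A, B, hB, hfrac⟩ := exists_mul_eq_locRing P hq hu f
  have hA0 : (A : L) ≠ 0 := hfrac ▸ mul_ne_zero hf hB
  let C : R := A * B ^ (n - 1)
  have hC : C ≠ 0 := mul_ne_zero (fun h => hA0 (congrArg (fun x : R => (x : L)) h :))
    (pow_ne_zero _ fun h => hB (congrArg (fun x : R => (x : L)) h :))
  have hCf : (C : L) = f * (B : L) ^ n := by
    show ((A * B ^ (n - 1) : R) : L) = _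
    push_cast
    rw [← hfrac, mul_assoc, ← pow_succ', Nat.sub_add_cancel hn]
  have hmult : ∀ π : R, Prime π → n ∣ multiplicity π C := fun π hπ => by
    have hI : (Ideal.span {π} : Ideal R).IsPrime := (Ideal.span_singleton_prime hπ.ne_zero).mpr hπ
    obtain ⟨V, hVle, hVimg⟩ := Ideal.image_subset_nonunits_valuationSubring
      (A := (LocalSubring.ofPrime (locRing P) (Ideal.span {π})).toSubring)
      (maximalIdeal _) (maximalIdeal.isMaximal _).ne_top
    let S := (LocalSubring.ofPrime (locRing P) (Ideal.span {π})).toSubring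
    have hin : ∀ y : R, (y : L) ∈ S := fun y => LocalSubring.le_ofPrime _ _ y.2
    have hunit : ∀ y : R, ¬ π ∣ y → IsUnitAt V (y : L) := fun y hy => by
      have hu' : IsUnit (algebraMap R S y) :=
        IsLocalization.map_units (M := (Ideal.span {π} : Ideal R).primeCompl) S
          ⟨y, fun h => hy (Ideal.mem_span_singleton.mp h)⟩
      have := (V.valuation_eq_one_iff (⟨(y : L), hVle (hin y)⟩ : V)).mp
        (hu'.map (Subring.inclusion hVle))
      exact this
    have hnu : ∀ y : R, π ∣ y → (y : L) ∈ V.nonunits := fun y hy =>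
      hVimg ⟨algebraMap R S y, (IsLocalization.AtPrime.to_map_mem_maximal_iff S _ y).mpr
        (Ideal.mem_span_singleton.mpr hy), rfl⟩
    obtain ⟨g, hg⟩ : ∃ g : L, V.valuation f = V.valuation g ^ n := by
      by_cases hqπ : π ∣ (⟨(q : L), hqR⟩ : R)
      · refine hdivV V ⟨fun w => hVle (LocalSubring.le_ofPrime _ _
          (chartRing_le_locRing P ((chartRing W u).algebraMap_mem w))), hnu _ hqπ, fun p hp => ?_⟩
        refine hunit ⟨_, chartRing_le_locRing P (aeval_mem_chartRing p)⟩ fun hdvd => ?_
        let Q : Ideal (chartRing W u) :=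
          (Ideal.span {π} : Ideal R).comap (algebraMap (chartRing W u) R)
        have : Q.IsPrime := Ideal.IsPrime.comap _
        have hQP : ∀ x ∈ Q, x ∈ P := fun x hx =>
          (IsLocalization.AtPrime.to_map_mem_maximal_iff R P x).mp
            (IsLocalRing.le_maximalIdeal hI.ne_top hx)
        obtain ⟨V', hV', hT'⟩ := exists_through (P := Q) hq hu hfin hrank
          (Ideal.mem_span_singleton.mpr hqπ)
        have hT'P : Through P V' := fun x hx => hQP x (hT' x hx)
        have hple : centre V' hV' hT'P ≤ Ideal.span {π} := fun y hy => by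
          obtain ⟨r, x, hr, hrx⟩ := y.2
          have hxQ : algebraMap (chartRing W u) R x ∈ (Ideal.span {π} : Ideal R) := by
            refine hT' x ?_
            rw [← hrx, ValuationSubring.mem_nonunits_iff, map_mul]
            rw [mul_comm]
            exact mul_lt_one_of_lt_of_le ((hcentre V' hV' hT'P y).mp hy)
              ((V'.valuation_le_one_iff _).mpr (hA hV' r))
          rw [show algebraMap (chartRing W u) R x = algebraMap (chartRing W u) R r * y from
            Subtype.ext hrx.symm] at hxQ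
          exact (hI.mem_or_mem hxQ).resolve_left fun h => hr (hQP r h)
        have hp0 : centre V' hV' hT'P ≠ ⊥ := fun h => by
          have : (⟨(q : L), hqR⟩ : R) ∈ centre V' hV' hT'P :=
            (hcentre V' hV' hT'P _).mpr hV'.q_mem
          rw [h, Ideal.mem_bot] at this
          exact hq0 (congrArg (fun x : R => (x : L)) this :)
        obtain ⟨π', hπ'mem, hπ'⟩ :=
          Ideal.IsPrime.exists_mem_prime_of_ne_bot (Ideal.IsPrime.comap _) hp0
        have hassoc : Associated π π' :=
          hπ.associated_of_dvd hπ' (Ideal.mem_span_singleton.mp (hple hπ'mem))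
        have hmem : (⟨aeval u p, chartRing_le_locRing P (aeval_mem_chartRing p)⟩ : R) ∈
            centre V' hV' hT'P :=
          Ideal.mem_of_dvd _ (hassoc.symm.dvd.trans hdvd) hπ'mem
        exact (ne_of_lt ((hcentre V' hV' hT'P _).mp hmem)) (hV'.isUnitAt p hp)
      · refine hdiv V fun c => ?_
        obtain ⟨m, w, hw⟩ := exists_pow_mul_eq_algebraMap hq c
        have hwV : algebraMap W L w ∈ V :=
          hVle (hin ⟨_, chartRing_le_locRing P ((chartRing W u).algebraMap_mem w)⟩)
        have : algebraMap K L c = ((q : L) ^ m)⁻¹ * algebraMap W L w := by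
          rw [IsScalarTower.algebraMap_apply W K L, ← hw, map_mul, map_pow, map_natCast,
            inv_mul_cancel_left₀ (pow_ne_zero m hq0)]
        exact this ▸ mul_mem ((hunit _ hqπ).pow m).inv.mem hwV
    have hval : ∀ y : R, y ≠ 0 → V.valuation (y : L) = V.valuation (π : L) ^ multiplicity π y :=
      fun y hy => by
        obtain ⟨c, hyc, hc⟩ := (FiniteMultiplicity.of_not_isUnit hπ.not_isUnit hy).exists_eq_pow_mul_and_not_dvd
        conv_lhs => rw [hyc]
        rw [Subring.coe_mul, SubmonoidClass.coe_pow, map_mul, map_pow, hunit c hc, mul_one]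
    have hπ1 : V.valuation (π : L) < 1 := hnu π dvd_rfl
    have hπ0 : V.valuation (π : L) ≠ 0 :=
      (Valuation.ne_zero_iff _).mpr fun h => hπ.ne_zero (Subtype.ext h)
    have hg0 : g ≠ 0 := fun h => by
      rw [h, map_zero, zero_pow hn.ne'] at hg
      exact hf ((Valuation.zero_iff _).mp hg)
    -- write `g = c / d`
    obtain ⟨c, d, hd, hgd⟩ := exists_mul_eq_locRing P hq hu g
    have hc0 : (c : L) ≠ 0 := hgd ▸ mul_ne_zero hg0 hd
    have heq : V.valuation (π : L) ^ (multiplicity π C + n * multiplicity π d) =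
        V.valuation (π : L) ^ (n * multiplicity π c + n * multiplicity π B) := by
      rw [pow_add, pow_add, ← hval C hC, pow_mul', pow_mul', pow_mul',
        ← hval d (fun h => hd (congrArg (fun x : R => (x : L)) h :)),
        ← hval c (fun h => hc0 (congrArg (fun x : R => (x : L)) h :)),
        ← hval B (fun h => hB (congrArg (fun x : R => (x : L)) h :)),
        hCf, ← hgd, map_mul, map_mul, map_pow, hg]
      rw [mul_pow]
      exact mul_right_comm _ _ _
    have hinj : ∀ i j : ℕ, V.valuation (π : L) ^ i = V.valuation (π : L) ^ j → i = j :=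
      fun i j h => (pow_right_strictAnti₀ (zero_lt_iff.mpr hπ0) hπ1).injective h
    have := hinj _ _ heq
    have h2 : n ∣ multiplicity π C + n * multiplicity π d := by
      rw [this]; exact dvd_add (dvd_mul_right _ _) (dvd_mul_right _ _)
    exact (Nat.dvd_add_left (dvd_mul_right _ _)).mp h2
  obtain ⟨ε, G, hG⟩ := exists_unit_mul_pow_of_forall_multiplicity hC n hmult
  have hG0 : (G : L) ≠ 0 := fun h => hC (by
    rw [hG, show G = 0 from Subtype.ext h, zero_pow hn.ne', mul_zero])
  have hε : ((ε : R) : L) * (((ε⁻¹ : Rˣ) : R) : L) = 1 := by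
    rw [← Subring.coe_mul, Units.mul_inv]; rfl
  refine ⟨(ε : R), (G : L) / B, left_ne_zero_of_mul_eq_one hε, div_ne_zero hG0 hB, (ε : R).2, ?_, ?_⟩
  · rw [← eq_inv_of_mul_eq_one_right hε]
    exact ((ε⁻¹ : Rˣ) : R).2
  · have h := hCf
    rw [hG, Subring.coe_mul, SubmonoidClass.coe_pow] at h
    rw [div_pow, ← mul_div_assoc, h, mul_div_assoc, div_self (pow_ne_zero n hB), mul_one]

end UFD

end FermatAgent.BadRed.Carayol
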