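import Mathlib.RingTheory.Finiteness.Basic
import Fermat.Agent.BadRed.Carayol.LocalRing
import Fermat.Agent.BadRed.Carayol.Kronecker

/-!
# Generalities about the tower and a chart
-/

set_option autoImplicit false
set_option linter.unusedSectionVars false

noncomputable section

namespace FermatAgent.BadRed.Carayol

open Polynomial IsLocalRing

section Maps

variable {W K F L : Type*} [CommRing W] [IsDomain W] [IsDiscreteValuationRing W]
  [Field K] [Algebra W K] [Field F] [Field L] [Algebra K F] [Algebra K L]
  [Algebra W F] [Algebra W L] [IsScalarTower W K F] [IsScalarTower W K L]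
  (σ : F →ₐ[K] L) {q : ℕ} {u : F}

theorem map_algebraMap_const (w : W) : σ (algebraMap W F w) = algebraMap W L w := by
  rw [IsScalarTower.algebraMap_apply W K F, σ.commutes, ← IsScalarTower.algebraMap_apply]

theorem map_aeval_const (P : Polynomial W) (y : F) : σ (aeval y P) = aeval (σ y) P :=
  (hom_eval₂ P (algebraMap W F) σ.toRingHom y).trans
    (by rw [aeval_def]; congr 1; exact RingHom.ext (map_algebraMap_const σ))

theorem map_evalTwo_const (Φ : Polynomial (Polynomial W)) (x z : F) :
    σ (evalTwo Φ x z) = evalTwo Φ (σ x) (σ z) :=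
  evalTwo_map Φ σ.toRingHom (map_algebraMap_const σ) x z

theorem IsVertical.comap {V : ValuationSubring L} (hV : IsVertical W q (σ u) V) :
    IsVertical W q u (V.comap σ.toRingHom) where
  const_mem w := by
    show σ (algebraMap W F w) ∈ V
    rw [map_algebraMap_const]; exact hV.const_mem w
  q_mem := by rw [mem_nonunits_comap, map_natCast]; exact hV.q_mem
  isUnitAt P hP := by
    rw [isUnitAt_comap]
    show IsUnitAt V (σ (aeval u P))
    rw [map_aeval_const]
    exact hV.isUnitAt P hP

theorem transcendental_map (hu : Transcendental K u) : Transcendental K (σ u) := fun h =>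
  hu ((isAlgebraic_algHom_iff σ σ.toRingHom.injective).mp h)

/-- Every element is a polynomial in `x` over the image of `σ`. -/
theorem exists_eq_eval₂_of_adjoin {x : L}
    (hfin : letI := σ.toRingHom.toAlgebra; Module.Finite F L)
    (hgen : IntermediateField.adjoin K (Set.range σ ∪ {x}) = ⊤) (y : L) :
    ∃ R : Polynomial F, y = R.eval₂ σ.toRingHom x := by
  let _ : Algebra F L := σ.toRingHom.toAlgebra
  have : IsScalarTower K F L := IsScalarTower.of_algebraMap_eq fun c => (σ.commutes c).symm
  have := hfin
  have hle : IntermediateField.adjoin K (Set.range σ ∪ {x}) ≤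
      (IntermediateField.adjoin F {x}).restrictScalars K := by
    rw [IntermediateField.adjoin_le_iff]
    rintro z (⟨a, rfl⟩ | rfl)
    · exact (IntermediateField.adjoin F {x}).algebraMap_mem a
    · exact IntermediateField.mem_adjoin_simple_self F z
  have hy : y ∈ IntermediateField.adjoin F {x} := by
    rw [hgen] at hle
    exact hle trivial
  have : y ∈ (IntermediateField.adjoin F {x}).toSubalgebra := hy
  rw [IntermediateField.adjoin_simple_toSubalgebra_of_isAlgebraic
    ((Algebra.IsAlgebraic.of_finite F L).isAlgebraic x)] at this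
  obtain ⟨R, hR⟩ := Algebra.adjoin_mem_exists_aeval _ _ this
  exact ⟨R, hR.symm⟩

/-- Finiteness over `K(u)` passes to the image. -/
theorem finiteDimensional_adjoin_map
    (hF : FiniteDimensional (IntermediateField.adjoin K {u}) F)
    (hfin : letI := σ.toRingHom.toAlgebra; Module.Finite F L) :
    FiniteDimensional (IntermediateField.adjoin K {σ u}) L := by
  let _ : Algebra F L := σ.toRingHom.toAlgebra
  have := hfin
  have := hF
  have : Module.Finite (IntermediateField.adjoin K {u}) L := Module.Finite.trans F L
  obtain ⟨s, hs⟩ := this.fg_top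
  refine ⟨⟨s, eq_top_iff.mpr fun y hy' => ?_⟩⟩
  clear hy'
  have hy : y ∈ Submodule.span (IntermediateField.adjoin K {u}) (s : Set L) := hs ▸ trivial
  induction hy using Submodule.span_induction with
  | mem z hz => exact Submodule.subset_span hz
  | zero => exact zero_mem _
  | add a b _ _ ha hb => exact add_mem ha hb
  | smul c z _ hz =>
    have hc : σ c ∈ IntermediateField.adjoin K {σ u} := by
      have : σ c ∈ (IntermediateField.adjoin K {u}).map σ := ⟨c, c.2, rfl⟩
      rwa [IntermediateField.adjoin_map, Set.image_singleton] at this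
    exact Submodule.smul_mem _ (⟨σ c, hc⟩ : IntermediateField.adjoin K {σ u}) hz

theorem map_mem_chartRing {a : F} (ha : a ∈ chartRing W u) : σ a ∈ chartRing W (σ u) := by
  obtain ⟨p, hp, hpa⟩ := mem_chartRing_iff.mp ha
  have hmem : ∀ b : Algebra.adjoin W {u}, σ (b : F) ∈ Algebra.adjoin W {σ u} := fun b => by
    obtain ⟨P, hP⟩ := Algebra.adjoin_mem_exists_aeval _ _ b.2
    rw [← hP, map_aeval_const]
    exact aeval_mem_adjoin_singleton W _
  let ι : Algebra.adjoin W {u} →+* Algebra.adjoin W {σ u} :=
    (σ.toRingHom.comp (algebraMap (Algebra.adjoin W {u}) F)).codRestrict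
      (Algebra.adjoin W {σ u}).toSubring hmem
  refine mem_chartRing_iff.mpr ⟨p.map ι, hp.map _, ?_⟩
  rw [eval₂_map]
  exact (hom_eval₂ p _ σ.toRingHom a).symm.trans ((congrArg σ hpa).trans (map_zero σ))

end Maps

section ChartEq

variable {W L : Type*} [CommRing W] [Field L] [Algebra W L] {x z : L}

theorem chartRing_le_chartRing (hx : x ∈ chartRing W z) : chartRing W x ≤ chartRing W z := by
  intro y hy
  let B := chartRing W z
  have hmem : ∀ b : Algebra.adjoin W {x}, (b : L) ∈ B := fun b => by
    obtain ⟨P, hP⟩ := Algebra.adjoin_mem_exists_aeval _ _ b.2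
    rw [← hP]
    exact aeval_mem (S := B) hx
  obtain ⟨p, hp, hpy⟩ := mem_chartRing_iff.mp hy
  have hint : IsIntegral (integralClosure (Algebra.adjoin W {z}) L) y :=
    ⟨p.map ((algebraMap (Algebra.adjoin W {x}) L).codRestrict B.toSubring hmem), hp.map _,
      (eval₂_map _ _ _).trans hpy⟩
  exact isIntegral_trans (R := Algebra.adjoin W {z}) _ hint
where
  aeval_mem {S : Subalgebra W L} {P : Polynomial W} (hx : x ∈ S) : aeval x P ∈ S :=
    Algebra.adjoin_le (Set.singleton_subset_iff.mpr hx) (aeval_mem_adjoin_singleton W x)

theorem mem_chartRing_of_evalTwo (Φ : Polynomial (Polynomial W)) (hΦ : Φ.Monic)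
    (h : evalTwo Φ x z = 0) : x ∈ chartRing W z := by
  refine mem_chartRing_iff.mpr ⟨Φ.map ((aeval z : Polynomial W →ₐ[W] L).toRingHom.codRestrict
    (Algebra.adjoin W {z}).toSubring fun P => aeval_mem_adjoin_singleton W z), hΦ.map _, ?_⟩
  rw [eval₂_map]
  exact h

end ChartEq

variable {q : ℕ} {W K F F₁ F₂ : Type*} [CommRing W] [IsDomain W] [IsDiscreteValuationRing W]
  [Field K] [Algebra W K] [Field F] [Field F₁] [Field F₂] [Algebra K F] [Algebra K F₁]
  [Algebra K F₂] [Algebra W F] [Algebra W F₁] [Algebra W F₂]
  [IsScalarTower W K F] [IsScalarTower W K F₁] [IsScalarTower W K F₂]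
  {T : QTower q K F F₁ F₂} {u : F}

namespace QTower

variable (T) [hq : Fact q.Prime]

theorem finite_t : letI := T.t.toRingHom.toAlgebra; Module.Finite F F₁ :=
  letI := T.t.toRingHom.toAlgebra
  Module.finite_of_finrank_eq_succ T.degree_t

theorem finite_α : letI := T.α.toRingHom.toAlgebra; Module.Finite F₁ F₂ := by
  let _ := T.α.toRingHom.toAlgebra
  refine Module.finite_of_finrank_pos ?_
  rw [T.degree_α]
  exact hq.out.pos

/-- The coordinate on the middle level. -/
theorem middle_apply (a : F) : T.α (T.t a) = T.β (T.s a) :=
  DFunLike.congr_fun T.middle a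

end QTower

namespace ChartData

variable (D : ChartData W T u)

/-- The chart data for the interchanged tower. -/
def swap : ChartData W T.swap u where
  transcendental := D.transcendental
  finite_over := D.finite_over
  cusps := D.cusps
  cusps_residue_injective := D.cusps_residue_injective
  conj := D.conj
  conj_mem := D.conj_mem
  conj_conj := D.conj_conj
  conj_residue := D.conj_residue
  Φ := D.Φ
  monic := D.monic
  natDegree_eq := D.natDegree_eq
  symm := D.symm
  kronecker := D.kronecker
  root := (evalTwo_comm D.Φ D.symm _ _).trans D.root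
  cusp_fibre := D.cusp_fibre
  deriv_integral := D.deriv_integral'
  deriv_integral' := D.deriv_integral
  generate_t := D.generate_s
  generate_s := D.generate_t
  generate_α := D.generate_β
  generate_β := D.generate_α
  q_prime := D.q_prime
  fibre_normal := D.fibre_normal
  etale := D.etale

include D

theorem transcendental_t : Transcendental K (T.t u) := transcendental_map T.t D.transcendental

theorem transcendental_middle : Transcendental K (T.α (T.t u)) :=
  transcendental_map T.α D.transcendental_t

variable [Fact q.Prime]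

theorem finite_over₁ : FiniteDimensional (IntermediateField.adjoin K {T.t u}) F₁ :=
  finiteDimensional_adjoin_map T.t D.finite_over T.finite_t

theorem finite_over₂ : FiniteDimensional (IntermediateField.adjoin K {T.α (T.t u)}) F₂ :=
  finiteDimensional_adjoin_map T.α D.finite_over₁ T.finite_α

theorem root_α : evalTwo D.Φ (T.α (T.s u)) (T.α (T.t u)) = 0 := by
  rw [← map_evalTwo_const, D.root, map_zero]

theorem root_β : evalTwo D.Φ (T.β (T.t u)) (T.α (T.t u)) = 0 := by
  rw [T.middle_apply, ← map_evalTwo_const, evalTwo_comm D.Φ D.symm, D.root, map_zero]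

end ChartData

end FermatAgent.BadRed.Carayol
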