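import Mathlib.Algebra.Polynomial.Div
import Mathlib.RingTheory.Algebraic.Integral
import Mathlib.Algebra.BigOperators.Field
import Fermat.Agent.BadRed.Carayol.Val

/-!
# Extending a discrete valuation subring along the adjunction of one element

`V` is a valuation subring of `L = F'[x]` over a `q`-adically discrete valuation subring of `F'`.
If a monic `H` is residually minimal for `x` and `H(x)` is divisible by `π`, then `V` is discrete
with uniformiser `π` and consists of the fractions `R(x) / S(x)` with `S(x)` a unit.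
-/

set_option autoImplicit false

noncomputable section

namespace FermatAgent.BadRed.Carayol

open Polynomial

/-- Every nonzero element is a unit times an integral power of `π`. -/
def Disc {L : Type*} [Field L] (π : L) (V : ValuationSubring L) : Prop :=
  ∀ y : L, y ≠ 0 → ∃ k : ℤ, IsUnitAt V (y / π ^ k)

theorem Disc.div_mem {L : Type*} [Field L] {π : L} {V : ValuationSubring L} (h : Disc π V)
    (hπ : π ∈ V.nonunits) (hπ0 : π ≠ 0) {y : L} (hy : y ∈ V.nonunits) : y / π ∈ V := by
  rcases eq_or_ne y 0 with rfl | hy0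
  · simp [zero_mem]
  obtain ⟨k, hk⟩ := h y hy0
  have hval : V.valuation y = V.valuation π ^ k := by
    have := hk
    rw [IsUnitAt, map_div₀, map_zpow₀, div_eq_one_iff_eq
      (zpow_ne_zero k ((Valuation.ne_zero_iff _).mpr hπ0))] at this
    exact this
  have hpos : 0 < V.valuation π := zero_lt_iff.mpr ((Valuation.ne_zero_iff _).mpr hπ0)
  have hk1 : 1 ≤ k := by
    by_contra hlt
    have : 1 ≤ V.valuation π ^ k :=
      one_le_zpow_of_nonpos₀ hpos (le_of_lt hπ) (by omega)
    exact absurd (hval ▸ hy : V.valuation π ^ k < 1) (not_lt.mpr this)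
  rw [← V.valuation_le_one_iff, map_div₀, hval, div_le_one₀ hpos]
  calc V.valuation π ^ k ≤ V.valuation π ^ (1 : ℤ) :=
        zpow_le_zpow_right_of_le_one₀ hpos (le_of_lt hπ) hk1
    _ = V.valuation π := zpow_one _

variable {F' L : Type*} [Field F'] [Field L] [Algebra F' L]

/-- Evaluation at `x` of a polynomial with coefficients in the base valuation subring. -/
def evBase (V : ValuationSubring L) (x : L)
    (R : Polynomial (V.comap (algebraMap F' L))) : L :=
  R.eval₂ ((algebraMap F' L).comp (V.comap (algebraMap F' L)).subtype) x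

/-- The data for adjoining `x` to a base valuation subring. -/
structure AdjData (q : ℕ) (x π : L) (V : ValuationSubring L) where
  finite : Module.Finite F' L
  generate : ∀ y : L, ∃ R : Polynomial F', y = aeval x R
  base_disc : Disc (q : F') (V.comap (algebraMap F' L))
  q_mem : (q : L) ∈ V.nonunits
  q_ne_zero : (q : L) ≠ 0
  x_mem : x ∈ V
  π_mem : π ∈ V.nonunits
  π_ne_zero : π ≠ 0
  Pπ : Polynomial (V.comap (algebraMap F' L))
  π_eq : π = evBase V x Pπ
  e : ℕ
  q_val : V.valuation (q : L) = V.valuation π ^ e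
  Rq : Polynomial (V.comap (algebraMap F' L))
  Sq : Polynomial (V.comap (algebraMap F' L))
  Sq_unit : IsUnitAt V (evBase V x Sq)
  q_eq : (q : L) * evBase V x Sq = π * evBase V x Rq
  H : Polynomial (V.comap (algebraMap F' L))
  H_monic : H.Monic
  H_min : ∀ R : Polynomial (V.comap (algebraMap F' L)), R.degree < H.degree →
    evBase V x R ∈ V.nonunits → ∀ i, (R.coeff i : F') ∈ (V.comap (algebraMap F' L)).nonunits
  RH : Polynomial (V.comap (algebraMap F' L))
  SH : Polynomial (V.comap (algebraMap F' L))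
  SH_unit : IsUnitAt V (evBase V x SH)
  H_eq : evBase V x H * evBase V x SH = π * evBase V x RH

variable {q : ℕ} {x π : L} {V : ValuationSubring L}

theorem evBase_mem (hx : x ∈ V) (R : Polynomial (V.comap (algebraMap F' L))) : evBase V x R ∈ V :=
  (res_eval₂ ((algebraMap F' L).comp (V.comap (algebraMap F' L)).subtype) (fun r => r.2) hx R).1

theorem evBase_mul (R S : Polynomial (V.comap (algebraMap F' L))) :
    evBase V x (R * S) = evBase V x R * evBase V x S := eval₂_mul _ _

theorem evBase_add (R S : Polynomial (V.comap (algebraMap F' L))) :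
    evBase V x (R + S) = evBase V x R + evBase V x S := eval₂_add _ _

theorem evBase_one : evBase V x (1 : Polynomial (V.comap (algebraMap F' L))) = 1 := eval₂_one _ _

namespace AdjData

variable (D : AdjData (F' := F') q x π V)
include D

theorem q_ne_zero_base : (q : F') ≠ 0 := fun h =>
  D.q_ne_zero (by rw [← map_natCast (algebraMap F' L), h, map_zero])

theorem q_mem_base : (q : F') ∈ (V.comap (algebraMap F' L)).nonunits := by
  rw [mem_nonunits_comap, map_natCast]; exact D.q_mem

/-- One step: a nonunit value is divisible by `π`. -/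
theorem step (R : Polynomial (V.comap (algebraMap F' L))) (hR : evBase V x R ∈ V.nonunits) :
    ∃ R' S : Polynomial (V.comap (algebraMap F' L)), IsUnitAt V (evBase V x S) ∧
      evBase V x R * evBase V x S = π * evBase V x R' := by
  classical
  set Q := R /ₘ D.H
  set R1 := R %ₘ D.H
  have hdecomp : R1 + D.H * Q = R := modByMonic_add_div R D.H
  have hH : evBase V x D.H ∈ V.nonunits := by
    have h1 : evBase V x D.H * evBase V x D.SH ∈ V.nonunits := by
      rw [D.H_eq, ValuationSubring.mem_nonunits_iff, map_mul]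
      exact mul_lt_one_of_lt_of_le D.π_mem ((V.valuation_le_one_iff _).mpr (evBase_mem D.x_mem _))
    rwa [ValuationSubring.mem_nonunits_iff, map_mul, D.SH_unit, mul_one] at h1
  have hR1 : evBase V x R1 ∈ V.nonunits := by
    have : evBase V x R1 = evBase V x R - evBase V x D.H * evBase V x Q := by
      rw [← hdecomp, evBase_add, evBase_mul]; ring
    rw [this]
    refine sub_mem hR ?_
    rw [ValuationSubring.mem_nonunits_iff, map_mul]
    exact mul_lt_one_of_lt_of_le hH ((V.valuation_le_one_iff _).mpr (evBase_mem D.x_mem _))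
  have hcoef := D.H_min R1 (degree_modByMonic_lt R D.H_monic) hR1
  have hc : ∀ i, ∃ c : V.comap (algebraMap F' L), (R1.coeff i : F') = q * (c : F') := fun i =>
    ⟨⟨(R1.coeff i : F') / q, D.base_disc.div_mem D.q_mem_base D.q_ne_zero_base (hcoef i)⟩,
      (mul_div_cancel₀ _ D.q_ne_zero_base).symm⟩
  choose c hc using hc
  let C' : Polynomial (V.comap (algebraMap F' L)) :=
    ∑ i ∈ Finset.range (R1.natDegree + 1), monomial i (c i)
  have hR1eq : R1 = (q : Polynomial (V.comap (algebraMap F' L))) * C' := by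
    ext i
    rw [← C_eq_natCast, coeff_C_mul]
    simp only [C', finsetSum_coeff, coeff_monomial, Finset.sum_ite_eq', Finset.mem_range]
    split_ifs with h
    · simpa using hc i
    · rw [coeff_eq_zero_of_natDegree_lt (by omega)]; simp
  refine ⟨Q * D.RH * D.Sq + C' * D.Rq * D.SH, D.SH * D.Sq,
    by rw [evBase_mul]; exact D.SH_unit.mul D.Sq_unit, ?_⟩
  rw [← hdecomp, hR1eq]
  simp only [evBase_add, evBase_mul]
  rw [show evBase V x (q : Polynomial (V.comap (algebraMap F' L))) = (q : L) from eval₂_natCast _ _ _]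
  linear_combination (evBase V x Q * evBase V x D.Sq) * D.H_eq +
    (evBase V x C' * evBase V x D.SH) * D.q_eq

/-- Nonzero elements are bounded below by a power of `π`. -/
theorem exists_pow_le {y : L} (hy : y ≠ 0) :
    ∃ N : ℕ, V.valuation π ^ N ≤ V.valuation y := by
  have := D.finite
  have hπpos : 0 < V.valuation π := zero_lt_iff.mpr ((Valuation.ne_zero_iff _).mpr D.π_ne_zero)
  rcases le_or_gt 1 (V.valuation y) with h | h
  · exact ⟨0, by simpa using h⟩
  obtain ⟨p, hp0, hpy⟩ :=
    (Algebra.IsAlgebraic.of_finite F' L).isAlgebraic y |>.exists_nonzero_coeff_and_aeval_eq_zero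
      (mem_nonZeroDivisors_of_ne_zero hy)
  -- normalise so that the coefficients lie in the base valuation subring
  have hne : p.support.Nonempty := ⟨0, mem_support_iff.mpr hp0⟩
  obtain ⟨i₀, -, hmax⟩ := p.support.exists_max_image
    (fun i => V.valuation (algebraMap F' L (p.coeff i))) hne
  have hc0 : V.valuation (algebraMap F' L (p.coeff i₀)) ≠ 0 := fun h0 => by
    have := hmax 0 (mem_support_iff.mpr hp0)
    rw [h0, le_zero_iff, Valuation.zero_iff, map_eq_zero] at this
    exact hp0 this
  have hcoef : ∀ i, V.valuation (algebraMap F' L (p.coeff i / p.coeff i₀)) ≤ 1 := fun i => by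
    rw [map_div₀, map_div₀, div_le_one₀ (zero_lt_iff.mpr hc0)]
    by_cases hi : i ∈ p.support
    · exact hmax i hi
    · rw [notMem_support_iff.mp hi]; simp
  -- the constant term is a multiple of `y`
  have hy1 : V.valuation (algebraMap F' L (p.coeff 0 / p.coeff i₀)) ≤ V.valuation y := by
    have hsum : algebraMap F' L (p.coeff 0 / p.coeff i₀) =
        -(y * ∑ i ∈ Finset.range p.natDegree,
          algebraMap F' L (p.coeff (i + 1) / p.coeff i₀) * y ^ i) := by
      rw [aeval_eq_sum_range, Finset.sum_range_succ'] at hpy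
      simp only [pow_zero, Algebra.smul_def, mul_one] at hpy
      rw [map_div₀, eq_neg_iff_add_eq_zero, Finset.mul_sum, ← zero_div (algebraMap F' L (p.coeff i₀)),
        ← hpy, add_div, Finset.sum_div, add_comm]
      congr 1
      refine Finset.sum_congr rfl fun i _ => ?_
      rw [map_div₀, pow_succ]; ring
    rw [hsum, Valuation.map_neg, map_mul]
    refine mul_le_of_le_one_right' ((V.valuation_le_one_iff _).mpr (sum_mem fun i _ => ?_))
    exact mul_mem ((V.valuation_le_one_iff _).mp (hcoef (i + 1)))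
      (pow_mem ((V.valuation_le_one_iff _).mp h.le) i)
  have hne0 : p.coeff 0 / p.coeff i₀ ≠ 0 := div_ne_zero hp0 fun h0 => hc0 (by rw [h0, map_zero, map_zero])
  obtain ⟨k, hk⟩ := D.base_disc _ hne0
  rw [isUnitAt_comap, IsUnitAt, map_div₀ (algebraMap F' L), map_zpow₀, map_natCast,
    map_div₀ V.valuation, map_zpow₀, D.q_val,
    div_eq_one_iff_eq (zpow_ne_zero k (pow_ne_zero _ hπpos.ne'))] at hk
  rw [hk] at hy1
  refine ⟨D.e * k.toNat, le_trans ?_ hy1⟩
  rw [pow_mul, ← zpow_natCast]
  exact zpow_le_zpow_right_of_le_one₀ (pow_pos hπpos _) (pow_le_one₀ zero_le (le_of_lt D.π_mem))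
    (Int.self_le_toNat k)

/-- A nonzero value is a unit fraction times a power of `π`. -/
theorem exists_pow_mul (R : Polynomial (V.comap (algebraMap F' L))) (hR : evBase V x R ≠ 0) :
    ∃ (k : ℕ) (R' S : Polynomial (V.comap (algebraMap F' L))),
      IsUnitAt V (evBase V x R') ∧ IsUnitAt V (evBase V x S) ∧
      evBase V x R * evBase V x S = π ^ k * evBase V x R' := by
  obtain ⟨N, hN⟩ := D.exists_pow_le hR
  induction N generalizing R with
  | zero =>
    refine ⟨0, R, 1, le_antisymm ((V.valuation_le_one_iff _).mpr (evBase_mem D.x_mem _))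
      (by simpa using hN), ?_, by simp [evBase_one]⟩
    rw [evBase_one]; exact isUnitAt_one
  | succ N ih =>
    by_cases hu : IsUnitAt V (evBase V x R)
    · exact ⟨0, R, 1, hu, by rw [evBase_one]; exact isUnitAt_one, by simp [evBase_one]⟩
    obtain ⟨R', S, hS, hRS⟩ :=
      D.step R (lt_of_le_of_ne ((V.valuation_le_one_iff _).mpr (evBase_mem D.x_mem _)) hu)
    have hR' : evBase V x R' ≠ 0 := fun h => by
      rw [h, mul_zero, mul_eq_zero] at hRS
      exact hRS.elim hR hS.ne_zero
    have hN' : V.valuation π ^ N ≤ V.valuation (evBase V x R') := by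
      have h2 : V.valuation (evBase V x R) = V.valuation π * V.valuation (evBase V x R') := by
        rw [← map_mul, ← hRS, map_mul, hS, mul_one]
      rw [pow_succ', h2] at hN
      exact le_of_mul_le_mul_left hN (zero_lt_iff.mpr ((Valuation.ne_zero_iff _).mpr D.π_ne_zero))
    obtain ⟨k, R'', S', h1, h2, h3⟩ := ih R' hR' hN'
    refine ⟨k + 1, R'', S * S', h1, by rw [evBase_mul]; exact hS.mul h2, ?_⟩
    rw [evBase_mul, ← mul_assoc, hRS, pow_succ', mul_assoc, h3, mul_assoc]

/-- Every nonzero element is a unit fraction times an integral power of `π`. -/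
theorem exists_zpow_mul {y : L} (hy : y ≠ 0) :
    ∃ (k : ℤ) (R S : Polynomial (V.comap (algebraMap F' L))),
      IsUnitAt V (evBase V x R) ∧ IsUnitAt V (evBase V x S) ∧
      y * evBase V x S = π ^ k * evBase V x R := by
  classical
  obtain ⟨P, rfl⟩ := D.generate y
  have hq0 := D.q_ne_zero_base
  have hclear : ∀ c : F', ∃ m : ℕ, (q : F') ^ m * c ∈ V.comap (algebraMap F' L) := fun c => by
    rcases eq_or_ne c 0 with rfl | hc
    · exact ⟨0, by simp [zero_mem]⟩
    obtain ⟨k, hk⟩ := D.base_disc c hc
    refine ⟨(-k).toNat, ?_⟩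
    have : (q : F') ^ (-k).toNat * c =
        (c / (q : F') ^ k) * (q : F') ^ ((-k).toNat + k).toNat := by
      rw [← zpow_natCast _ ((-k).toNat + k).toNat, Int.toNat_of_nonneg (by omega),
        zpow_add₀ hq0, zpow_natCast]
      field_simp
    rw [this]
    exact mul_mem hk.mem (pow_mem (ValuationSubring.nonunits_subset D.q_mem_base) _)
  choose m hm using hclear
  let M := ∑ i ∈ Finset.range (P.natDegree + 1), m (P.coeff i)
  have hM : ∀ i ∈ Finset.range (P.natDegree + 1),
      (q : F') ^ M * P.coeff i ∈ V.comap (algebraMap F' L) := fun i hi => by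
    obtain ⟨d, hd⟩ := Nat.exists_eq_add_of_le
      (Finset.single_le_sum (f := fun i => m (P.coeff i)) (fun _ _ => Nat.zero_le _) hi)
    rw [show M = m (P.coeff i) + d from hd, pow_add, mul_right_comm]
    exact mul_mem (hm _) (pow_mem (ValuationSubring.nonunits_subset D.q_mem_base) _)
  let R₀ : Polynomial (V.comap (algebraMap F' L)) :=
    ∑ i ∈ (Finset.range (P.natDegree + 1)).attach, monomial i.1 ⟨_, hM i.1 i.2⟩
  have hR₀ : evBase V x R₀ = (q : L) ^ M * aeval x P := by
    rw [evBase, eval₂_finsetSum, aeval_eq_sum_range, Finset.mul_sum,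
      ← Finset.sum_attach (Finset.range (P.natDegree + 1))
        (fun i => (q : L) ^ M * (P.coeff i • x ^ i))]
    refine Finset.sum_congr rfl fun i _ => ?_
    rw [eval₂_monomial, Algebra.smul_def]
    show algebraMap F' L ((q : F') ^ M * P.coeff i.1) * _ = _
    rw [map_mul, map_pow, map_natCast, mul_assoc]
  obtain ⟨k, R', S, h1, h2, h3⟩ := D.exists_pow_mul R₀
    (hR₀ ▸ mul_ne_zero (pow_ne_zero _ D.q_ne_zero) hy)
  rcases Nat.eq_zero_or_pos M with hM0 | _
  · refine ⟨k, R', S, h1, h2, ?_⟩
    rw [zpow_natCast, ← h3, hR₀, hM0, pow_zero, one_mul]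
  -- replace `q` by a power of `π`
  have hqR : evBase V x D.Rq ≠ 0 := fun h => by
    have := D.q_eq
    rw [h, mul_zero, mul_eq_zero] at this
    exact this.elim D.q_ne_zero D.Sq_unit.ne_zero
  obtain ⟨j, Rq', Sq', g1, g2, g3⟩ := D.exists_pow_mul D.Rq hqR
  have hqj : (q : L) * (evBase V x D.Sq * evBase V x Sq') = π ^ (j + 1) * evBase V x Rq' := by
    rw [← mul_assoc, D.q_eq, mul_assoc, g3, pow_succ']; ring
  refine ⟨(k : ℤ) - ((j + 1) * M : ℕ), R' * (D.Sq * Sq') ^ M, S * Rq' ^ M, ?_, ?_, ?_⟩
  · rw [evBase_mul]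
    refine h1.mul ?_
    rw [show evBase V x ((D.Sq * Sq') ^ M) = evBase V x (D.Sq * Sq') ^ M from eval₂_pow _ _ _,
      evBase_mul]
    exact (D.Sq_unit.mul g2).pow M
  · rw [evBase_mul, show evBase V x (Rq' ^ M) = evBase V x Rq' ^ M from eval₂_pow _ _ _]
    exact h2.mul (g1.pow M)
  · rw [evBase_mul, evBase_mul, show evBase V x (Rq' ^ M) = evBase V x Rq' ^ M from eval₂_pow _ _ _,
      show evBase V x ((D.Sq * Sq') ^ M) = evBase V x (D.Sq * Sq') ^ M from eval₂_pow _ _ _,
      evBase_mul, zpow_sub₀ D.π_ne_zero, zpow_natCast, zpow_natCast, pow_mul]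
    have hπM : (π ^ (j + 1)) ^ M ≠ 0 := pow_ne_zero _ (pow_ne_zero _ D.π_ne_zero)
    have h4 : ((q : L) * (evBase V x D.Sq * evBase V x Sq')) ^ M =
        (π ^ (j + 1) * evBase V x Rq') ^ M := congrArg (· ^ M) hqj
    rw [mul_pow, mul_pow] at h4
    rw [hR₀] at h3
    field_simp
    linear_combination ((evBase V x D.Sq * evBase V x Sq') ^ M) * h3 -
      (aeval x P * evBase V x S) * h4

theorem disc : Disc π V := fun y hy => by
  obtain ⟨k, R, S, hR, hS, h⟩ := D.exists_zpow_mul hy
  refine ⟨k, ?_⟩
  rw [show y / π ^ k = evBase V x R / evBase V x S by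
    rw [div_eq_div_iff (zpow_ne_zero k D.π_ne_zero) hS.ne_zero, h]; ring]
  exact hR.div hS

/-- Elements of `V` are fractions of values with unit denominators. -/
theorem exists_eq_div {y : L} (hy : y ∈ V) :
    ∃ R S : Polynomial (V.comap (algebraMap F' L)),
      IsUnitAt V (evBase V x S) ∧ y * evBase V x S = evBase V x R := by
  rcases eq_or_ne y 0 with rfl | hy0
  · exact ⟨0, 1, by rw [evBase_one]; exact isUnitAt_one, by simp [evBase]⟩
  obtain ⟨k, R, S, hR, hS, h⟩ := D.exists_zpow_mul hy0
  have hk : 0 ≤ k := by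
    by_contra hlt
    have h1 : V.valuation y = V.valuation π ^ k := by
      have := congrArg V.valuation h
      rwa [map_mul, map_mul, map_zpow₀, hR, hS, mul_one, mul_one] at this
    have hpos : 0 < V.valuation π := zero_lt_iff.mpr ((Valuation.ne_zero_iff _).mpr D.π_ne_zero)
    have : 1 < V.valuation π ^ k := one_lt_zpow_of_neg₀ hpos D.π_mem (by omega)
    exact absurd ((V.valuation_le_one_iff y).mpr hy) (not_le.mpr (h1 ▸ this))
  obtain ⟨j, rfl⟩ := Int.eq_ofNat_of_zero_le hk
  refine ⟨D.Pπ ^ j * R, S, hS, ?_⟩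
  rw [evBase_mul, show evBase V x (D.Pπ ^ j) = evBase V x D.Pπ ^ j from eval₂_pow _ _ _,
    ← D.π_eq, h, zpow_natCast]

/-- `V` is contained in any valuation subring with the same units among the values at `x`. -/
theorem le_of_isUnitAt_imp {V' : ValuationSubring L}
    (hmem : ∀ R : Polynomial (V.comap (algebraMap F' L)), evBase V x R ∈ V')
    (h : ∀ R : Polynomial (V.comap (algebraMap F' L)),
      IsUnitAt V (evBase V x R) → IsUnitAt V' (evBase V x R)) :
    V ≤ V' := fun y hy => by
  obtain ⟨R, S, hS, hyS⟩ := D.exists_eq_div hy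
  rw [show y = evBase V x R * (evBase V x S)⁻¹ by
    rw [← hyS, mul_inv_cancel_right₀ hS.ne_zero]]
  exact mul_mem (hmem R) (h S hS).inv.mem

end AdjData

end FermatAgent.BadRed.Carayol
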