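import Mathlib.FieldTheory.KummerPolynomial
import Mathlib.FieldTheory.Minpoly.Field
import Fermat.Agent.BadRed.Carayol.Ext
import Fermat.Agent.BadRed.Carayol.Kronecker
import Fermat.Agent.BadRed.Carayol.Local
import Fermat.Agent.BadRed.Carayol.Context

/-!
# The two residual branches of a root of a Kronecker polynomial over a discrete base
-/

set_option autoImplicit false
set_option linter.unusedSectionVars false

noncomputable section

namespace FermatAgent.BadRed.Carayol

open Polynomial IsLocalRing

section Residue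

variable {F' L : Type*} [Field F'] [Field L] (σ : F' →+* L) (V : ValuationSubring L)

/-- The residue field of the restriction maps to the residue field. -/
def comapResidue :
    IsLocalRing.ResidueField (V.comap σ) →+* IsLocalRing.ResidueField V :=
  Ideal.Quotient.lift (maximalIdeal (V.comap σ))
    ((residue V).comp ((σ.comp (V.comap σ).subtype).codRestrict V.toSubring fun a => a.2))
    fun a ha => by
      have h1 : (a : F') ∈ (V.comap σ).nonunits :=
        ValuationSubring.coe_mem_nonunits_iff.mpr ha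
      rw [RingHom.comp_apply, residue_eq_zero_iff, ← ValuationSubring.coe_mem_nonunits_iff]
      exact (mem_nonunits_comap σ V).mp h1

variable {σ V}

theorem comapResidue_residue (a : V.comap σ) :
    comapResidue σ V (residue (V.comap σ) a) = res V (σ a) :=
  (res_of_mem (V := V) a.2).symm

theorem comapResidue_res {y : F'} (hy : σ y ∈ V) :
    comapResidue σ V (res (V.comap σ) y) = res V (σ y) := by
  rw [res_of_mem (V := V.comap σ) hy]
  exact comapResidue_residue _

theorem exists_comapResidue (r : IsLocalRing.ResidueField (V.comap σ)) :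
    ∃ y : F', σ y ∈ V ∧ res V (σ y) = comapResidue σ V r := by
  obtain ⟨a, rfl⟩ := residue_surjective r
  exact ⟨a, a.2, (comapResidue_residue a).symm⟩

end Residue

variable {F' L : Type*} [Field F'] [Field L] [Algebra F' L] {V : ValuationSubring L}

theorem res_evBase {x : L} (hx : x ∈ V) (R : Polynomial (V.comap (algebraMap F' L))) :
    res V (evBase V x R) = (R.map (residue _)).eval₂ (comapResidue (algebraMap F' L) V)
      (res V x) := by
  rw [evBase, (res_eval₂ ((algebraMap F' L).comp (V.comap (algebraMap F' L)).subtype)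
    (fun r => r.2) hx R).2, eval₂_map]
  congr 1

/-- A valuation subring with a uniformiser has rank one. -/
theorem rankOne_of_disc {q : ℕ} {π : L} (h : Disc π V) (hπ : π ∈ V.nonunits) (hπ0 : π ≠ 0)
    (hq : (q : L) ∈ V.nonunits) (hq0 : (q : L) ≠ 0) : RankOne q V := by
  have hpos : 0 < V.valuation π := zero_lt_iff.mpr ((Valuation.ne_zero_iff _).mpr hπ0)
  have hval : ∀ y : L, y ≠ 0 → ∃ k : ℤ, V.valuation y = V.valuation π ^ k := fun y hy => by
    obtain ⟨k, hk⟩ := h y hy
    refine ⟨k, ?_⟩
    rwa [IsUnitAt, map_div₀, map_zpow₀, div_eq_one_iff_eq (zpow_ne_zero k hpos.ne')] at hk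
  have hpos' : ∀ y : L, y ∈ V.nonunits → ∀ k : ℤ, V.valuation y = V.valuation π ^ k → 1 ≤ k :=
    fun y hy k hk => by
      by_contra hlt
      exact absurd (hk ▸ hy : V.valuation π ^ k < 1)
        (not_lt.mpr (one_le_zpow_of_nonpos₀ hpos (le_of_lt hπ) (by omega)))
  have hle : ∀ k : ℤ, 0 ≤ k → V.valuation π ^ k ≤ 1 := fun k hk => by
    have := zpow_le_zpow_right_of_le_one₀ hpos (le_of_lt hπ) hk
    simpa using this
  obtain ⟨e, he⟩ := hval _ hq0
  have he1 := hpos' _ hq e he
  refine ⟨fun y hy => ?_, fun y => ?_⟩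
  · rcases eq_or_ne y 0 with rfl | hy0
    · exact ⟨1, by simp [zero_mem]⟩
    obtain ⟨k, hk⟩ := hval y hy0
    have hk1 := hpos' y hy k hk
    refine ⟨e.toNat, (V.valuation_le_one_iff _).mp ?_⟩
    rw [map_div₀, map_pow, hk, he, ← zpow_natCast, ← zpow_mul, ← zpow_sub₀ hpos.ne',
      Int.toNat_of_nonneg (by omega)]
    exact hle _ (by nlinarith)
  · rcases eq_or_ne y 0 with rfl | hy0
    · exact ⟨0, by simp [zero_mem]⟩
    obtain ⟨k, hk⟩ := hval y hy0
    refine ⟨(-k).toNat, (V.valuation_le_one_iff _).mp ?_⟩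
    rw [map_mul, map_pow, hk, he, ← zpow_natCast, ← zpow_mul, ← zpow_add₀ hpos.ne']
    refine hle _ ?_
    have h1 : (-k) ≤ ((-k).toNat : ℤ) := Int.self_le_toNat _
    have h2 : (0 : ℤ) ≤ ((-k).toNat : ℤ) := Int.natCast_nonneg _
    nlinarith

/-- Every residue comes from `F'`. -/
def ResSurj (σ : F' →+* L) (V : ValuationSubring L) : Prop :=
  ∀ y ∈ V, ∃ c : F', σ c ∈ V ∧ res V y = res V (σ c)

/-- Every `q`-th power of a residue comes from `F'`. -/
def ResPow (q : ℕ) (σ : F' →+* L) (V : ValuationSubring L) : Prop :=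
  ∀ y ∈ V, ∃ c : F', σ c ∈ V ∧ res V y ^ q = res V (σ c)

namespace AdjData

variable {q : ℕ} {x π : L}

theorem resSurj (D : AdjData (F' := F') q x π V) {β : F'} (hβ : algebraMap F' L β ∈ V)
    (hx : res V x = res V (algebraMap F' L β)) : ResSurj (algebraMap F' L) V := fun y hy => by
  obtain ⟨R, S, hS, hyS⟩ := D.exists_eq_div hy
  obtain ⟨c, hc, hc'⟩ := exists_comapResidue
    ((R.map (residue (V.comap (algebraMap F' L)))).eval (res _ β) /
      (S.map (residue (V.comap (algebraMap F' L)))).eval (res _ β))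
  have hev : ∀ P : Polynomial (V.comap (algebraMap F' L)), res V (evBase V x P) =
      comapResidue _ V ((P.map (residue _)).eval (res _ β)) := fun P => by
    rw [res_evBase D.x_mem, hx, ← comapResidue_res hβ, eval₂_at_apply]
  refine ⟨c, hc, ?_⟩
  rw [hc', map_div₀, ← hev, ← hev, eq_div_iff hS.res_ne_zero, ← res_mul hy hS.mem, hyS]

theorem resPow [Fact q.Prime] (D : AdjData (F' := F') q x π V) {β : F'}
    (hβ : algebraMap F' L β ∈ V) (hx : res V x ^ q = res V (algebraMap F' L β)) :
    ResPow q (algebraMap F' L) V := fun y hy => by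
  obtain ⟨R, S, hS, hyS⟩ := D.exists_eq_div hy
  have hk : (q : IsLocalRing.ResidueField (V.comap (algebraMap F' L))) = 0 := by
    rw [← map_natCast (residue _), residue_eq_zero_iff, ← ValuationSubring.coe_mem_nonunits_iff]
    simpa using D.q_mem_base
  have : CharP (IsLocalRing.ResidueField (V.comap (algebraMap F' L))) q :=
    (CharP.charP_iff_prime_eq_zero Fact.out).mpr hk
  have : CharP (IsLocalRing.ResidueField V) q := (CharP.charP_iff_prime_eq_zero Fact.out).mpr
    (by rw [← map_natCast (comapResidue (algebraMap F' L) V), hk, map_zero])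
  let Fr := fun P : Polynomial (V.comap (algebraMap F' L)) =>
    ((P.map (residue _)).map (frobenius _ q)).eval (res _ β)
  have hev : ∀ P, res V (evBase V x P) ^ q = comapResidue _ V (Fr P) := fun P => by
    rw [res_evBase D.x_mem, ← frobenius_def, hom_eval₂, frobenius_def, hx, ← comapResidue_res hβ]
    rw [← eval₂_at_apply, eval₂_map (frobenius (IsLocalRing.ResidueField _) q)]
    congr 1
    exact RingHom.ext fun r => (map_pow (comapResidue (algebraMap F' L) V) r q).symm
  obtain ⟨c, hc, hc'⟩ := exists_comapResidue (Fr R / Fr S)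
  refine ⟨c, hc, ?_⟩
  rw [hc', map_div₀, ← hev, ← hev, eq_div_iff (pow_ne_zero _ hS.res_ne_zero), ← mul_pow,
    ← res_mul hy hS.mem, hyS]

end AdjData

section Kummer

variable {q : ℕ} [Fact q.Prime] {x : L}

/-- A residual `q`-th root of a non-power is residually of degree `q`. -/
theorem coeff_mem_nonunits_of_pow (hx : x ∈ V) {β : F'} (hβ : algebraMap F' L β ∈ V)
    (hxq : res V x ^ q = res V (algebraMap F' L β))
    (hnp : ∀ r : IsLocalRing.ResidueField (V.comap (algebraMap F' L)),
      r ^ q ≠ res _ β)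
    (R : Polynomial (V.comap (algebraMap F' L))) (hR : R.degree < q)
    (hR0 : evBase V x R ∈ V.nonunits) (i : ℕ) :
    (R.coeff i : F') ∈ (V.comap (algebraMap F' L)).nonunits := by
  let c := comapResidue (algebraMap F' L) V
  let _ := c.toAlgebra
  have hq0 : q ≠ 0 := (Fact.out : q.Prime).ne_zero
  have hirr := X_pow_sub_C_irreducible_of_prime (Fact.out : q.Prime) hnp
  have hroot : aeval (res V x) (X ^ q - C (res (V.comap (algebraMap F' L)) β)) = 0 := by
    simp only [map_sub, map_pow, aeval_X, aeval_C]
    rw [hxq, show algebraMap _ _ (res (V.comap (algebraMap F' L)) β) = c _ from rfl,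
      comapResidue_res hβ, sub_self]
  have hmin := minpoly.eq_of_irreducible_of_monic hirr hroot (monic_X_pow_sub_C _ hq0)
  have hR0' : R.map (residue _) = 0 := by
    by_contra h
    have h1 := minpoly.degree_le_of_ne_zero _ (res V x) h (by
      rw [aeval_def, show algebraMap _ _ = c from rfl, ← res_evBase hx,
        res_eq_zero_of_mem_nonunits hR0])
    rw [← hmin, degree_X_pow_sub_C (Nat.pos_of_ne_zero hq0)] at h1
    exact absurd (h1.trans (degree_map_le)) (not_le.mpr hR)
  rw [ValuationSubring.coe_mem_nonunits_iff, ← residue_eq_zero_iff, ← coeff_map, hR0', coeff_zero]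

end Kummer

section Root

variable {q : ℕ} [Fact q.Prime] {W : Type*} [CommRing W] [IsDomain W]
  [IsDiscreteValuationRing W] [Algebra W F'] [Algebra W L] [IsScalarTower W F' L] [CharZero L]
  (hq : maximalIdeal W = Ideal.span {(q : W)}) {b : F'} {x : L}
  {Φ E : Polynomial (Polynomial W)}
  (hE : Φ = kron W q + (q : Polynomial (Polynomial W)) * E)
  (hroot : evalTwo Φ x (algebraMap F' L b) = 0)
  (hV : IsVertical W q (algebraMap F' L b) V) (hx : x ∈ V)
  (hbase : Disc (q : F') (V.comap (algebraMap F' L)))
  (hfin : Module.Finite F' L) (hgen : ∀ y : L, ∃ R : Polynomial F', y = aeval x R)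

/-- Polynomials over `W` evaluated at `b`, as elements of the base valuation subring. -/
def baseHom : Polynomial W →+* V.comap (algebraMap F' L) :=
  (aeval b : Polynomial W →ₐ[W] F').toRingHom.codRestrict (V.comap (algebraMap F' L)).toSubring
    fun P => by
      show algebraMap F' L (aeval b P) ∈ V
      rw [← aeval_algebraMap_apply]
      exact hV.aeval_mem P

theorem evBase_map_baseHom (G : Polynomial (Polynomial W)) :
    evBase V x (G.map (baseHom hV)) = evalTwo G x (algebraMap F' L b) := by
  rw [evBase, eval₂_map, evalTwo]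
  congr 1
  exact RingHom.ext fun P => (aeval_algebraMap_apply L b P).symm

theorem evBase_map_neg (G : Polynomial (Polynomial W)) :
    evBase V x (-(G.map (baseHom hV))) = -evalTwo G x (algebraMap F' L b) := by
  rw [← evBase_map_baseHom hV G]
  exact eval₂_neg _

/-- The base variable inside the base valuation subring. -/
def baseVar : V.comap (algebraMap F' L) := ⟨b, hV.u_mem.mem⟩

theorem evBase_X_pow_sub (n : ℕ) (a : V.comap (algebraMap F' L)) :
    evBase V x (X ^ n - C a) = x ^ n - algebraMap F' L a := by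
  simp [evBase]

theorem evBase_X_sub (a : V.comap (algebraMap F' L)) :
    evBase V x (X - C a) = x - algebraMap F' L a := by
  simp [evBase]

include hq hE hroot in
theorem root_prod_eq :
    (x - algebraMap F' L b ^ q) * (x ^ q - algebraMap F' L b) =
      -((q : L) * evalTwo E x (algebraMap F' L b)) := by
  rw [hE, evalTwo_kron_add] at hroot
  linear_combination hroot

/-- Adjoining a root on the branch `x ≡ b ^ q`. -/
def adjCan (hxb : res V x = res V (algebraMap F' L b) ^ q) :
    AdjData (F' := F') q x (q : L) V where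
  finite := hfin
  generate := hgen
  base_disc := hbase
  q_mem := hV.q_mem
  q_ne_zero := Nat.cast_ne_zero.mpr (Fact.out : q.Prime).ne_zero
  x_mem := hx
  π_mem := hV.q_mem
  π_ne_zero := Nat.cast_ne_zero.mpr (Fact.out : q.Prime).ne_zero
  Pπ := (q : Polynomial (V.comap (algebraMap F' L)))
  π_eq := (eval₂_natCast _ _ _).symm
  e := 1
  q_val := (pow_one _).symm
  Rq := 1
  Sq := 1
  Sq_unit := by rw [evBase_one]; exact isUnitAt_one
  q_eq := rfl
  H := X - C (baseVar hV ^ q)
  H_monic := monic_X_sub_C _
  H_min R hR hR0 i := by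
    rw [degree_X_sub_C, Nat.WithBot.lt_one_iff_le_zero] at hR
    rw [eq_C_of_degree_le_zero hR] at hR0
    simp only [evBase, eval₂_C] at hR0
    rcases eq_or_ne i 0 with rfl | hi
    · exact (mem_nonunits_comap _ _).mpr hR0
    · rw [eq_C_of_degree_le_zero hR, coeff_C, if_neg hi]
      exact zero_mem _
  RH := -(E.map (baseHom hV))
  SH := X ^ q - C (baseVar hV)
  SH_unit := by
    rw [evBase_X_pow_sub]
    refine (isUnitAt_iff (sub_mem (pow_mem hx q) hV.u_mem.mem)).mpr ?_
    show res V (x ^ q - algebraMap F' L b) ≠ 0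
    rw [res_sub (pow_mem hx q) hV.u_mem.mem, res_pow hx, sub_ne_zero]
    exact fun h => res_branch_disjoint hq hV hxb h
  H_eq := by
    rw [evBase_X_sub, evBase_X_pow_sub, evBase_map_neg]
    show (x - algebraMap F' L (b ^ q)) * (x ^ q - algebraMap F' L b) = _
    rw [map_pow, root_prod_eq hq hE hroot]; ring

/-- Adjoining a root on the branch `x ^ q ≡ b`. -/
def adjPow (hxb : res V x ^ q = res V (algebraMap F' L b))
    (hnp : ∀ r : IsLocalRing.ResidueField (V.comap (algebraMap F' L)), r ^ q ≠ res _ b) :
    AdjData (F' := F') q x (q : L) V where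
  finite := hfin
  generate := hgen
  base_disc := hbase
  q_mem := hV.q_mem
  q_ne_zero := Nat.cast_ne_zero.mpr (Fact.out : q.Prime).ne_zero
  x_mem := hx
  π_mem := hV.q_mem
  π_ne_zero := Nat.cast_ne_zero.mpr (Fact.out : q.Prime).ne_zero
  Pπ := (q : Polynomial (V.comap (algebraMap F' L)))
  π_eq := (eval₂_natCast _ _ _).symm
  e := 1
  q_val := (pow_one _).symm
  Rq := 1
  Sq := 1
  Sq_unit := by rw [evBase_one]; exact isUnitAt_one
  q_eq := rfl
  H := X ^ q - C (baseVar hV)
  H_monic := monic_X_pow_sub_C _ (Fact.out : q.Prime).ne_zero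
  H_min R hR := coeff_mem_nonunits_of_pow hx hV.u_mem.mem hxb hnp R
    (by rwa [degree_X_pow_sub_C (Fact.out : q.Prime).pos] at hR)
  RH := -(E.map (baseHom hV))
  SH := X - C (baseVar hV ^ q)
  SH_unit := by
    rw [evBase_X_sub]
    show IsUnitAt V (x - algebraMap F' L (b ^ q))
    rw [map_pow]
    refine (isUnitAt_iff (sub_mem hx (pow_mem hV.u_mem.mem q))).mpr ?_
    rw [res_sub hx (pow_mem hV.u_mem.mem q), res_pow hV.u_mem.mem, sub_ne_zero]
    exact fun h => res_branch_disjoint hq hV h hxb
  H_eq := by
    rw [evBase_X_sub, evBase_X_pow_sub, evBase_map_neg]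
    show (x ^ q - algebraMap F' L b) * (x - algebraMap F' L (b ^ q)) = _
    rw [map_pow, mul_comm (x ^ q - _), root_prod_eq hq hE hroot]; ring

omit hfin hgen in
/-- The linear branch determines the valuation subring. -/
theorem le_of_linear {π : L} (D : AdjData (F' := F') q x π V) {β : F'}
    (hβ : algebraMap F' L β ∈ V) (hxβ : res V x = res V (algebraMap F' L β))
    {V' : ValuationSubring L} (hx' : x ∈ V')
    (hsame : V'.comap (algebraMap F' L) = V.comap (algebraMap F' L))
    (hxβ' : res V' x = res V' (algebraMap F' L β)) : V ≤ V' := by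
  have hmem' : ∀ r : V.comap (algebraMap F' L), algebraMap F' L r ∈ V' := fun r => by
    have := r.2
    exact (hsame.symm ▸ this : (r : F') ∈ V'.comap (algebraMap F' L))
  let ι := (algebraMap F' L).comp (V.comap (algebraMap F' L)).subtype
  refine D.le_of_isUnitAt_imp (fun R => (res_eval₂ ι hmem' hx' R).1) fun R hR => ?_
  let r : V.comap (algebraMap F' L) := R.eval ⟨β, hβ⟩
  have hr : evBase V (algebraMap F' L β) R = algebraMap F' L r :=
    eval₂_at_apply ι (⟨β, hβ⟩ : V.comap (algebraMap F' L))
  have hru : IsUnitAt (V.comap (algebraMap F' L)) (r : F') := by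
    rw [isUnitAt_comap, isUnitAt_iff (V := V) r.2, ← hr, res_evBase hβ, ← hxβ, ← res_evBase D.x_mem]
    exact hR.res_ne_zero
  have hru' : IsUnitAt (V'.comap (algebraMap F' L)) (r : F') := by rw [hsame]; exact hru
  rw [isUnitAt_comap] at hru'
  refine isUnitAt_of_res_eq (res_eval₂ ι hmem' hx' R).1 hru' ?_
  rw [← hr]
  have hβ' : algebraMap F' L β ∈ V' := hmem' ⟨β, hβ⟩
  exact (res_eval₂ ι hmem' hx' R).2.trans
    ((congrArg (fun t => R.eval₂ _ t) hxβ').trans (res_eval₂ ι hmem' hβ' R).2.symm)

end Root

end FermatAgent.BadRed.Carayol
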