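import Mathlib.Algebra.Polynomial.Expand
import Fermat.Agent.BadRed.Carayol.Branch

/-!
# The middle component over a discrete base

Two roots `ι b` and `x` of a Kronecker polynomial at `ι c`, both on the branch `X ^ q ≡ c`.
The extension is totally ramified of degree `q - 1` with uniformiser `x - ι b`.
-/

set_option autoImplicit false

noncomputable section

namespace FermatAgent.BadRed.Carayol

open Polynomial IsLocalRing

section Residual

variable {k : Type*} [CommRing k] (q : ℕ)

/-- `E(X, X ^ q)`. -/
def diagPoly (E : Polynomial (Polynomial k)) : Polynomial k :=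
  E.eval₂ (expand k q).toRingHom X

/-- The residue of `π ^ (q - 1) / q` on the middle component, multiplied by `P ^ 2`. -/
def midPoly (E : Polynomial (Polynomial k)) : Polynomial k :=
  diagPoly q E - derivative (diagPoly q E) * (X - X ^ (q * q)) -
    X ^ (q - 1) * (X - X ^ (q * q)) ^ 2

variable {q}

theorem derivative_diagPoly [CharP k q] (E : Polynomial (Polynomial k)) :
    derivative (diagPoly q E) = diagPoly q E.derivative := by
  have hexp : ∀ c : Polynomial k, derivative (expand k q c) = 0 := fun c => by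
    rw [derivative_expand, CharP.cast_eq_zero, zero_mul, mul_zero]
  induction E using Polynomial.induction_on' with
  | add a b ha hb =>
    simp only [diagPoly, eval₂_add, derivative_add] at ha hb ⊢
    rw [ha, hb]
  | monomial n c =>
    simp only [diagPoly, eval₂_monomial, derivative_mul, derivative_monomial, AlgHom.toRingHom_eq_coe,
      RingHom.coe_coe, hexp, zero_mul, zero_add, derivative_X_pow, map_mul, map_natCast]
    rw [mul_assoc]

theorem midPoly_ne_zero [CharP k q] (hq : q.Prime) [IsDomain k]
    (E : Polynomial (Polynomial k)) : midPoly q E ≠ 0 := by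
  intro h0
  have hq2 := hq.two_le
  set e := diagPoly q E
  set P : Polynomial k := X - X ^ (q * q)
  have hqk : (q : k) = 0 := CharP.cast_eq_zero k q
  have hP : derivative P = 1 := by
    simp [P, derivative_X_pow]
  have hP0 : P ≠ 0 := fun h => by simp [h] at hP
  have hm : ((q - 1 : ℕ) : Polynomial k) = -1 := by
    rw [Nat.cast_sub hq.one_le, ← C_eq_natCast, hqk, map_zero, Nat.cast_one, zero_sub]
  have h1 : e = derivative e * P + X ^ (q - 1) * P ^ 2 := by
    unfold midPoly at h0
    linear_combination h0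
  have h2 := congrArg derivative h1
  simp only [derivative_add, derivative_mul, derivative_pow, derivative_X, hP, mul_one,
    C_eq_natCast] at h2
  rw [hm] at h2
  have h3 : P * (derivative (derivative e) - (X ^ (q - 1 - 1) * P - 2 * X ^ (q - 1))) = 0 := by
    simp only [show (2 - 1 : ℕ) = 1 from rfl, pow_one, Nat.cast_ofNat] at h2
    linear_combination -h2
  have h4 := sub_eq_zero.mp ((mul_eq_zero.mp h3).resolve_left hP0)
  have h5 : (derivative (derivative e)).coeff (q - 1) = 0 := by
    rw [coeff_derivative, coeff_derivative]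
    have : ((q - 1 : ℕ) : k) + 1 = 0 := by
      rw [← Nat.cast_succ, Nat.succ_eq_add_one, Nat.sub_add_cancel hq.one_le, hqk]
    rw [this, mul_zero]
  have h6 : X ^ (q - 1 - 1) * P - 2 * X ^ (q - 1) =
      -X ^ (q - 1) - X ^ (q - 1 - 1 + q * q) := by
    rw [pow_add, show (X : Polynomial k) ^ (q - 1) = X ^ (q - 1 - 1) * X by
      rw [← pow_succ, show q - 1 - 1 + 1 = q - 1 by omega]]
    simp only [P]; ring
  rw [h4, h6] at h5
  have hne : q - 1 ≠ q - 1 - 1 + q * q := by nlinarith [Nat.sub_le (q - 1) 1, Nat.sub_add_cancel hq.one_le]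
  simp [coeff_X_pow, hne] at h5

end Residual

variable {F' L : Type*} [Field F'] [Field L] [Algebra F' L] {V : ValuationSubring L}

/-- Evaluation of a polynomial over the base depends residually only on the residue of the
variable. -/
theorem res_evBase_of_res_eq {x : L} (hx : x ∈ V) {β : V.comap (algebraMap F' L)}
    (hxβ : res V x = res V (algebraMap F' L β)) (R : Polynomial (V.comap (algebraMap F' L))) :
    res V (evBase V x R) = res V (algebraMap F' L (R.eval β : V.comap (algebraMap F' L))) := by
  rw [res_evBase hx, hxβ, ← res_evBase (F' := F') (V := V) β.2, evBase]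
  exact congrArg (res V)
    (eval₂_at_apply ((algebraMap F' L).comp (V.comap (algebraMap F' L)).subtype) β)

variable {q : ℕ} [Fact q.Prime] {W : Type*} [CommRing W] [IsDomain W]
  [IsDiscreteValuationRing W] [Algebra W F'] [Algebra W L] [IsScalarTower W F' L] [CharZero L]
  (hq : maximalIdeal W = Ideal.span {(q : W)}) {b c : F'} {x : L}
  {Φ E : Polynomial (Polynomial W)}
  (hE : Φ = kron W q + (q : Polynomial (Polynomial W)) * E)
  (hroot : evalTwo Φ x (algebraMap F' L c) = 0)
  (hrootb : evalTwo Φ (algebraMap F' L b) (algebraMap F' L c) = 0)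
  (hV : IsVertical W q (algebraMap F' L c) V) (hVb : IsVertical W q (algebraMap F' L b) V)
  (hx : x ∈ V)
  (hxb : res V x = res V (algebraMap F' L b))
  (hbc : res V (algebraMap F' L c) = res V (algebraMap F' L b) ^ q)
  (hne : x ≠ algebraMap F' L b)
  (hbase : Disc (q : F') (V.comap (algebraMap F' L)))
  (hfin : Module.Finite F' L) (hgen : ∀ y : L, ∃ R : Polynomial F', y = aeval x R)

include hq hE hroot hrootb hV hVb hx hxb hbc hne in
/-- The basic identity of the middle component. -/
theorem exists_mid_identity :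
    ∃ Num : Polynomial (V.comap (algebraMap F' L)),
      IsUnitAt V (evBase V x Num) ∧
      IsUnitAt V (algebraMap F' L (b - c ^ q) + (x - algebraMap F' L b)) ∧
      (x - algebraMap F' L b) ^ (q - 1) *
          (algebraMap F' L (b - c ^ q) + (x - algebraMap F' L b)) = (q : L) * evBase V x Num ∧
      res V ((x - algebraMap F' L b) ^ (q - 1) / q) *
          (res V (algebraMap F' L b) - res V (algebraMap F' L b) ^ (q * q)) ^ 2 =
        (midPoly q (E.map (mapRingHom (residue W)))).eval₂ (constRes hq hV)
          (res V (algebraMap F' L b)) := by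
  have hqp : q.Prime := Fact.out
  have hq0 : (q : L) ≠ 0 := Nat.cast_ne_zero.mpr hqp.ne_zero
  set x₁ := algebraMap F' L b with hx₁
  set z := algebraMap F' L c with hz
  set π := x - x₁ with hπ
  have hπ0 : π ≠ 0 := sub_ne_zero.mpr hne
  have hπm : π ∈ V.nonunits := (res_eq_iff hx hVb.u_mem.mem).mp hxb
  have hx₁m : x₁ ∈ V := hVb.u_mem.mem
  have hzm : z ∈ V := hV.u_mem.mem
  have hk : (q : IsLocalRing.ResidueField V) = 0 := by
    rw [← map_natCast (residue V), ← res_coe]
    exact res_natCast_q hq hV
  have hkW : (q : IsLocalRing.ResidueField W) = 0 := by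
    rw [← map_natCast (residue W), residue_eq_zero_iff]
    exact natCast_mem_maximalIdeal hq
  have : CharP (IsLocalRing.ResidueField W) q := (CharP.charP_iff_prime_eq_zero hqp).mpr hkW
  -- `A = x₁ - z ^ q` is a unit
  set A := algebraMap F' L (b - c ^ q) with hA
  have hA' : A = x₁ - z ^ q := by rw [hA, map_sub, map_pow]
  have hAm : A ∈ V := hA' ▸ sub_mem hx₁m (pow_mem hzm q)
  have hAres : res V A = res V x₁ - res V x₁ ^ (q * q) := by
    rw [hA', res_sub hx₁m (pow_mem hzm q), res_pow hzm, hbc, ← pow_mul]
  have hAu : IsUnitAt V A := by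
    refine (isUnitAt_iff hAm).mpr ?_
    rw [hA', res_sub hx₁m (pow_mem hzm q), res_pow hzm, sub_ne_zero]
    exact fun h => res_branch_disjoint hq hV h hbc.symm
  -- base elements
  let b' : V.comap (algebraMap F' L) := ⟨b, hx₁m⟩
  let c' : V.comap (algebraMap F' L) := ⟨c, hzm⟩
  let a : V.comap (algebraMap F' L) := b' - c' ^ q
  let ainv : V.comap (algebraMap F' L) := ⟨(b - c ^ q)⁻¹, by
    show algebraMap F' L (b - c ^ q)⁻¹ ∈ V
    rw [map_inv₀]; exact hAu.inv.mem⟩
  let EB := E.map (baseHom hV)
  let e₁ : V.comap (algebraMap F' L) := EB.eval b'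
  let ι := (algebraMap F' L).comp (V.comap (algebraMap F' L)).subtype
  have hev : ∀ r, evBase V x₁ r = algebraMap F' L (r.eval b' : V.comap (algebraMap F' L)) :=
    fun r => eval₂_at_apply ι b'
  have he₁ : algebraMap F' L e₁ = evalTwo E x₁ z := by
    rw [← evBase_map_baseHom hV E, hev]
  -- the divided difference
  obtain ⟨Δ, hΔ⟩ := X_sub_C_dvd_sub_C_eval (p := EB) (a := b')
  have hΔx : evalTwo E x z - evalTwo E x₁ z = π * evBase V x Δ := by
    have := congrArg (evBase V x) hΔ
    rw [evBase_mul, evBase_X_sub] at this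
    rw [← evBase_map_baseHom hV E, ← he₁, hπ, ← this]
    simp [evBase, EB, e₁]
  have hΔb : Δ.eval b' = (derivative EB).eval b' := by
    have := congrArg (fun p => (derivative p).eval b') hΔ
    simp only [derivative_sub, derivative_C, sub_zero, derivative_mul, derivative_X, one_mul,
      eval_add, eval_mul, eval_sub, eval_X, eval_C, sub_self, zero_mul, add_zero] at this
    exact this.symm
  -- the correction in the binomial expansion
  let r₁ : Polynomial (V.comap (algebraMap F' L)) := C b' * ∑ k ∈ Finset.Ioo 0 q,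
    (X - C b') ^ (k - 1) * C b' ^ (q - k - 1) * ((q.choose k / q : ℕ) : Polynomial _)
  have hbin : x ^ q = π ^ q + x₁ ^ q + (q : L) * π * evBase V x r₁ := by
    have h := add_pow_prime_eq (R := L) hqp π x₁
    rw [show π + x₁ = x by rw [hπ]; ring] at h
    rw [h]
    simp only [r₁, evBase, eval₂_mul, eval₂_C, eval₂_finsetSum, eval₂_pow, eval₂_sub, eval₂_X,
      eval₂_natCast]
    show _ = π ^ q + x₁ ^ q + (q : L) * π * (x₁ * ∑ k ∈ Finset.Ioo 0 q,
      π ^ (k - 1) * x₁ ^ (q - k - 1) * ((q.choose k / q : ℕ) : L))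
    ring
  have hr₁b : r₁.eval b' = b' ^ (q - 1) := by
    simp only [r₁, eval_mul, eval_C, eval_finsetSum, eval_pow, eval_sub, eval_X, sub_self,
      eval_natCast]
    rw [Finset.sum_eq_single 1]
    · rw [Nat.choose_one_right, Nat.div_self hqp.pos, Nat.cast_one, mul_one, Nat.sub_self,
        pow_zero, one_mul, ← pow_succ', show q - 1 - 1 + 1 = q - 1 by have := hqp.two_le; omega]
    · intro k hk hk1
      rw [Finset.mem_Ioo] at hk
      rw [zero_pow (by omega), zero_mul, zero_mul]
    · intro h
      exact absurd (Finset.mem_Ioo.mpr ⟨one_pos, hqp.one_lt⟩) h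
  let Num : Polynomial (V.comap (algebraMap F' L)) :=
    C (e₁ * ainv) - Δ - (C a + (X - C b')) * r₁
  have hNum : evBase V x Num = evalTwo E x₁ z / A - evBase V x Δ - (A + π) * evBase V x r₁ := by
    simp only [Num, evBase, eval₂_sub, eval₂_mul, eval₂_add, eval₂_C, eval₂_X]
    show algebraMap F' L (e₁ * ainv : V.comap (algebraMap F' L)) - _ -
      (algebraMap F' L (a : V.comap (algebraMap F' L)) + (x - x₁)) * _ = _
    rw [show ((e₁ * ainv : V.comap (algebraMap F' L)) : F') = e₁ * (b - c ^ q)⁻¹ from rfl,
      show (a : F') = b - c ^ q from rfl, map_mul, map_inv₀, he₁, ← hA, div_eq_mul_inv]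
  -- the identity
  have key : π ^ (q - 1) * (A + π) = (q : L) * evBase V x Num := by
    have h1 : A * (x₁ ^ q - z) = -((q : L) * evalTwo E x₁ z) := by
      rw [hA']; exact root_prod_eq hq hE hrootb
    have h2 : (A + π) * (x ^ q - z) = -((q : L) * evalTwo E x z) := by
      rw [show A + π = x - z ^ q by rw [hA', hπ]; ring]; exact root_prod_eq hq hE hroot
    have hπq : π ^ q = π ^ (q - 1) * π := (pow_sub_one_mul hqp.ne_zero π).symm
    rw [hNum]
    refine mul_right_cancel₀ (mul_ne_zero hπ0 hAu.ne_zero) ?_
    have hd : evalTwo E x₁ z / A * A = evalTwo E x₁ z := div_mul_cancel₀ _ hAu.ne_zero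
    rw [hbin, hπq] at h2
    linear_combination A * h2 - (A + π) * h1 - ((q : L) * A) * hΔx - ((q : L) * π) * hd
  -- residues
  have hsum : IsUnitAt V (A + π) := by
    refine isUnitAt_of_res_eq (add_mem hAm (ValuationSubring.nonunits_subset hπm)) hAu ?_
    rw [res_add hAm (ValuationSubring.nonunits_subset hπm), res_eq_zero_of_mem_nonunits hπm,
      add_zero]
  set Eb := E.map (mapRingHom (residue W))
  set ev := eval₂RingHom (constRes hq hV) (res V x₁)
  have hdiag : ∀ G : Polynomial (Polynomial W), res V (evalTwo G x₁ z) =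
      ev (diagPoly q (G.map (mapRingHom (residue W)))) := fun G => by
    rw [res_evalTwo hq hV hx₁m hzm, diagPoly, hom_eval₂]
    congr 1
    · refine RingHom.ext fun p => ?_
      show p.eval₂ _ _ = eval₂ _ _ (expand _ q p)
      rw [expand_eq_comp_X_pow, eval₂_comp, eval₂_X_pow, hbc]
    · exact (eval₂_X _ _).symm
  have hΔres : res V (evBase V x Δ) = ev (derivative (diagPoly q Eb)) := by
    rw [derivative_diagPoly, derivative_map, ← hdiag, res_evBase_of_res_eq hx (β := b') hxb, hΔb,
      derivative_map, ← hev, evBase_map_baseHom]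
  have hr₁res : res V (evBase V x r₁) = ev (X ^ (q - 1)) := by
    rw [res_evBase_of_res_eq hx (β := b') hxb, hr₁b]
    show res V (algebraMap F' L (b ^ (q - 1))) = _
    rw [map_pow, res_pow hx₁m]
    simp [ev]
  have hPev : ev (X - X ^ (q * q)) = res V A := by
    rw [hAres]; simp [ev]
  have hE1 : evalTwo E x₁ z ∈ V := evalTwo_mem hq hV hx₁m hzm E
  have hNum' : res V (evBase V x Num) * res V A = ev (midPoly q Eb) := by
    have hΔm := evBase_mem hx Δ
    have hrm := evBase_mem hx r₁
    have hπm' := ValuationSubring.nonunits_subset hπm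
    rw [hNum, div_eq_mul_inv, res_sub (sub_mem (mul_mem hE1 hAu.inv.mem) hΔm)
        (mul_mem (add_mem hAm hπm') hrm), res_sub (mul_mem hE1 hAu.inv.mem) hΔm,
      res_mul hE1 hAu.inv.mem, res_inv hAu, res_mul (add_mem hAm hπm') hrm, res_add hAm hπm',
      res_eq_zero_of_mem_nonunits hπm, add_zero, hΔres, hr₁res, hdiag, midPoly, map_sub, map_sub,
      map_mul, map_mul, map_pow ev, map_pow ev, hPev]
    field_simp [hAu.res_ne_zero]
    ring
  have hNumu : IsUnitAt V (evBase V x Num) := by
    refine (isUnitAt_iff (evBase_mem hx Num)).mpr fun h => ?_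
    rw [h, zero_mul] at hNum'
    exact eval₂_res_ne_zero hq hVb _ (midPoly_ne_zero hqp Eb) hNum'.symm
  refine ⟨Num, hNumu, hsum, key, ?_⟩
  have hw : π ^ (q - 1) / (q : L) = evBase V x Num / (A + π) := by
    rw [div_eq_div_iff hq0 hsum.ne_zero, key, mul_comm]
  rw [hw, res_div (evBase_mem hx Num) hsum,
    res_add hAm (ValuationSubring.nonunits_subset hπm), res_eq_zero_of_mem_nonunits hπm, add_zero,
    ← hAres]
  refine Eq.trans ?_ hNum'
  field_simp [hAu.res_ne_zero]

include hq hE hroot hrootb hV hVb hx hxb hbc hne hbase hfin hgen in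
/-- The middle component is generated linearly with uniformiser `x - ι b`. -/
theorem exists_adjMid :
    Nonempty (AdjData (F' := F') q x (x - algebraMap F' L b) V) := by
  obtain ⟨Num, hNum, hsum, key, -⟩ := exists_mid_identity hq hE hroot hrootb hV hVb hx hxb hbc hne
  have hqp : q.Prime := Fact.out
  let b' : V.comap (algebraMap F' L) := ⟨b, hVb.u_mem.mem⟩
  let a : V.comap (algebraMap F' L) := ⟨b - c ^ q, by
    show algebraMap F' L (b - c ^ q) ∈ V
    rw [map_sub, map_pow]; exact sub_mem hVb.u_mem.mem (pow_mem hV.u_mem.mem q)⟩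
  have hπm : x - algebraMap F' L b ∈ V.nonunits := (res_eq_iff hx hVb.u_mem.mem).mp hxb
  have hXb : evBase V x (X - C b') = x - algebraMap F' L b := evBase_X_sub b'
  refine ⟨{
    finite := hfin
    generate := hgen
    base_disc := hbase
    q_mem := hV.q_mem
    q_ne_zero := Nat.cast_ne_zero.mpr hqp.ne_zero
    x_mem := hx
    π_mem := hπm
    π_ne_zero := sub_ne_zero.mpr hne
    Pπ := X - C b'
    π_eq := hXb.symm
    e := q - 1
    q_val := ?_
    Rq := (X - C b') ^ (q - 1 - 1) * (C a + (X - C b'))
    Sq := Num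
    Sq_unit := hNum
    q_eq := ?_
    H := X - C b'
    H_monic := monic_X_sub_C _
    H_min := ?_
    RH := 1
    SH := 1
    SH_unit := by rw [evBase_one]; exact isUnitAt_one
    H_eq := by rw [hXb, evBase_one] }⟩
  · have h := congrArg V.valuation key
    rw [map_mul, map_mul, hsum, hNum, mul_one, mul_one, map_pow] at h
    exact h.symm
  · rw [← key, evBase_mul, evBase_add, hXb, ← mul_assoc]
    rw [show evBase V x ((X - C b') ^ (q - 1 - 1)) = evBase V x (X - C b') ^ (q - 1 - 1) from
        eval₂_pow _ _ _, hXb, ← pow_succ',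
      show q - 1 - 1 + 1 = q - 1 by have := hqp.two_le; omega]
    rw [show evBase V x (C a) = algebraMap F' L (b - c ^ q) from eval₂_C _ _]
  · intro R hR hR0 i
    rw [degree_X_sub_C, Nat.WithBot.lt_one_iff_le_zero] at hR
    rw [eq_C_of_degree_le_zero hR] at hR0
    simp only [evBase, eval₂_C] at hR0
    rcases eq_or_ne i 0 with rfl | hi
    · exact (mem_nonunits_comap _ _).mpr hR0
    · rw [eq_C_of_degree_le_zero hR, coeff_C, if_neg hi]
      exact zero_mem _

end FermatAgent.BadRed.Carayol
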