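import Fermat.Agent.BadRed.Carayol.Level1
import Fermat.Agent.BadRed.Carayol.Mid

/-!
# The vertical valuation subrings of the level `q² N`

With `M = α (t u) = β (s u)`, `x₁ = α (s u)`, `x₂ = β (t u)` there are three:
`x₁ ≡ M ^ q` (at infinity), `x₂ ≡ M ^ q` (at zero) and `x₁ ^ q ≡ M ≡ x₂ ^ q` (in the middle).
-/

set_option autoImplicit false
set_option linter.unusedSectionVars false

noncomputable section

namespace FermatAgent.BadRed.Carayol

open Polynomial IsLocalRing

section Comap

variable {F' L : Type*} [Field F'] [Field L] {σ : F' →+* L} {V : ValuationSubring L} {a b : F'}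

theorem res_comap_eq_pow_iff (n : ℕ) (ha : σ a ∈ V) (hb : σ b ∈ V) :
    res (V.comap σ) a = res (V.comap σ) b ^ n ↔ res V (σ a) = res V (σ b) ^ n := by
  rw [← res_pow (V := V.comap σ) hb, ← res_pow hb, ← map_pow,
    res_eq_iff_map σ V ha (by rw [map_pow]; exact pow_mem hb n)]

theorem ResSurj.comp {F'' : Type*} [Field F''] {τ : F'' →+* F'} (h : ResSurj σ V)
    (h' : ResSurj τ (V.comap σ)) : ResSurj (σ.comp τ) V := fun y hy => by
  obtain ⟨c, hc, hyc⟩ := h y hy
  obtain ⟨d, hd, hcd⟩ := h' c hc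
  exact ⟨d, hd, hyc.trans ((res_eq_iff_map σ V hc hd).mp hcd)⟩

end Comap

variable {q : ℕ} [Fact q.Prime] {W K F F₁ F₂ : Type*}
  [CommRing W] [IsDomain W] [IsDiscreteValuationRing W]
  [Field K] [CharZero K] [Algebra W K] [IsFractionRing W K]
  [Field F] [Field F₁] [Field F₂] [Algebra K F] [Algebra K F₁] [Algebra K F₂]
  [Algebra W F] [Algebra W F₁] [Algebra W F₂]
  [IsScalarTower W K F] [IsScalarTower W K F₁] [IsScalarTower W K F₂]
  {T : QTower q K F F₁ F₂} {u : F}

/-- The component at infinity. -/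
def IsInf (T : QTower q K F F₁ F₂) (u : F) (V : ValuationSubring F₂) : Prop :=
  res V (T.α (T.s u)) = res V (T.α (T.t u)) ^ q

/-- The component at zero. -/
def IsZero' (T : QTower q K F F₁ F₂) (u : F) (V : ValuationSubring F₂) : Prop :=
  res V (T.β (T.t u)) = res V (T.α (T.t u)) ^ q

/-- The middle component. -/
def IsMid (T : QTower q K F F₁ F₂) (u : F) (V : ValuationSubring F₂) : Prop :=
  res V (T.α (T.t u)) = res V (T.α (T.s u)) ^ q ∧
    res V (T.α (T.t u)) = res V (T.β (T.t u)) ^ q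

theorem isZero_swap_iff {V : ValuationSubring F₂} :
    IsZero' T.swap u V ↔ IsInf T u V := by
  show res V (T.α (T.s u)) = res V (T.β (T.s u)) ^ q ↔ _
  rw [← T.middle_apply]
  rfl

theorem isInf_swap_iff {V : ValuationSubring F₂} :
    IsInf T.swap u V ↔ IsZero' T u V := by
  show res V (T.β (T.t u)) = res V (T.β (T.s u)) ^ q ↔ _
  rw [← T.middle_apply]
  rfl

theorem isMid_swap_iff {V : ValuationSubring F₂} :
    IsMid T.swap u V ↔ IsMid T u V := by
  show res V (T.β (T.s u)) = res V (T.β (T.t u)) ^ q ∧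
    res V (T.β (T.s u)) = res V (T.α (T.s u)) ^ q ↔ _
  rw [← T.middle_apply]
  exact and_comm

theorem isVertical_swap_iff {V : ValuationSubring F₂} :
    IsVertical W q (T.swap.α (T.swap.t u)) V ↔ IsVertical W q (T.α (T.t u)) V := by
  show IsVertical W q (T.β (T.s u)) V ↔ _
  rw [← T.middle_apply]

variable (hq : maximalIdeal W = Ideal.span {(q : W)}) (D : ChartData W T u)
include hq D

theorem isVertical_x₁ {V : ValuationSubring F₂} (hV : IsVertical W q (T.α (T.t u)) V) :
    IsVertical W q (T.α (T.s u)) V :=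
  hV.of_root hq D.kronecker
    (hV.chartRing_le (mem_chartRing_of_evalTwo D.Φ D.monic D.root_α)) D.root_α

theorem isVertical_x₂ {V : ValuationSubring F₂} (hV : IsVertical W q (T.α (T.t u)) V) :
    IsVertical W q (T.β (T.t u)) V :=
  hV.of_root hq D.kronecker
    (hV.chartRing_le (mem_chartRing_of_evalTwo D.Φ D.monic D.root_β)) D.root_β

theorem isVertical_comap_β {V : ValuationSubring F₂} (hV : IsVertical W q (T.α (T.t u)) V) :
    IsVertical W q (T.s u) (V.comap T.β.toRingHom) := by
  rw [T.middle_apply] at hV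
  exact hV.comap T.β

/-- The coordinates at the two ends are different. -/
theorem x₁_ne_x₂ : T.α (T.s u) ≠ T.β (T.t u) := by
  intro h
  let _ : Algebra F₁ F₂ := T.α.toRingHom.toAlgebra
  have := T.finite_α
  have htop : ∀ y : F₂, y ∈ Set.range T.α := fun y => by
    obtain ⟨R, hR⟩ := exists_eq_eval₂_of_adjoin T.α T.finite_α D.generate_α y
    rw [← h] at hR
    exact ⟨R.eval (T.s u), ((eval₂_at_apply T.α.toRingHom (T.s u)).symm.trans hR.symm)⟩
  have hle : Module.finrank F₁ F₂ ≤ 1 := by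
    refine finrank_le_one (1 : F₂) fun y => ?_
    obtain ⟨a, ha⟩ := htop y
    exact ⟨a, by rw [Algebra.smul_def, mul_one]; exact ha⟩
  rw [T.degree_α] at hle
  exact absurd hle (not_le.mpr (Fact.out : q.Prime).one_lt)

/-- The ends cannot both be `q`-th powers of the middle. -/
theorem not_inf_and_zero {V : ValuationSubring F₂} (hV : IsVertical W q (T.α (T.t u)) V)
    (h1 : IsInf T u V) (h2 : IsZero' T u V) : False := by
  obtain ⟨E, hE⟩ := exists_eq_kron_add hq D.Φ D.kronecker
  set x₁ := T.α (T.s u) with hx₁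
  set x₂ := T.β (T.t u) with hx₂
  set z := T.α (T.t u) with hz
  have hx₁m : x₁ ∈ V := (isVertical_x₁ hq D hV).u_mem.mem
  have hx₂m : x₂ ∈ V := (isVertical_x₂ hq D hV).u_mem.mem
  have hzm : z ∈ V := hV.u_mem.mem
  have e1 := D.root_α
  have e2 := D.root_β
  rw [hE, evalTwo_kron_add] at e1 e2
  let hom : Polynomial W →+* V := (aeval z : Polynomial W →ₐ[W] F₂).toRingHom.codRestrict
    V.toSubring fun P => hV.aeval_mem P
  obtain ⟨Δ, hΔ⟩ := sub_dvd_eval_sub (⟨x₂, hx₂m⟩ : V) ⟨x₁, hx₁m⟩ (E.map hom)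
  have hev : ∀ y : V, (((E.map hom).eval y : V) : F₂) = evalTwo E (y : F₂) z := fun y => by
    show V.subtype ((E.map hom).eval y) = _
    rw [eval_map, hom_eval₂]
    rfl
  have hΔ' : evalTwo E x₂ z - evalTwo E x₁ z = (x₂ - x₁) * (Δ : F₂) := by
    have := congrArg (fun y : V => (y : F₂)) hΔ
    simp only [AddSubgroupClass.coe_sub, MulMemClass.coe_mul, hev] at this
    exact this
  set S := ∑ i ∈ Finset.range q, x₂ ^ i * x₁ ^ (q - 1 - i)
  have hS : S * (x₂ - x₁) = x₂ ^ q - x₁ ^ q := geom_sum₂_mul x₂ x₁ q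
  have hSm : S ∈ V := sum_mem fun i _ => mul_mem (pow_mem hx₂m i) (pow_mem hx₁m _)
  have key : (x₂ ^ q - z) + (x₁ - z ^ q) * S + (q : F₂) * Δ = 0 := by
    refine (mul_eq_zero.mp ?_).resolve_left (sub_ne_zero.mpr (x₁_ne_x₂ hq D).symm)
    linear_combination e2 - e1 - (q : F₂) * hΔ' + (x₁ - z ^ q) * hS
  have h3 : res V x₂ ^ q = res V z := by
    rw [← res_pow hx₂m, res_eq_iff (pow_mem hx₂m q) hzm,
      show x₂ ^ q - z = -((x₁ - z ^ q) * S + (q : F₂) * Δ) by linear_combination key]
    refine neg_mem (add_mem ?_ ?_) <;> rw [ValuationSubring.mem_nonunits_iff, map_mul]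
    · refine mul_lt_one_of_lt_of_le ?_ ((V.valuation_le_one_iff _).mpr hSm)
      refine (res_eq_iff hx₁m (pow_mem hzm q)).mp ?_
      rw [res_pow hzm]; exact h1
    · exact mul_lt_one_of_lt_of_le hV.q_mem ((V.valuation_le_one_iff _).mpr Δ.2)
  exact res_branch_disjoint hq hV h2 h3

theorem root_cases {V : ValuationSubring F₂} (hV : IsVertical W q (T.α (T.t u)) V) :
    (res V (T.α (T.s u)) = res V (T.α (T.t u)) ^ q ∨
      res V (T.α (T.t u)) = res V (T.α (T.s u)) ^ q) ∧
    (res V (T.β (T.t u)) = res V (T.α (T.t u)) ^ q ∨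
      res V (T.α (T.t u)) = res V (T.β (T.t u)) ^ q) :=
  ⟨(res_root hq hV (isVertical_x₁ hq D hV).u_mem.mem hV.u_mem.mem D.Φ D.kronecker
      D.root_α).imp_right Eq.symm,
    (res_root hq hV (isVertical_x₂ hq D hV).u_mem.mem hV.u_mem.mem D.Φ D.kronecker
      D.root_β).imp_right Eq.symm⟩

theorem inf_other {V : ValuationSubring F₂} (hV : IsVertical W q (T.α (T.t u)) V)
    (h : IsInf T u V) : res V (T.α (T.t u)) = res V (T.β (T.t u)) ^ q :=
  (root_cases hq D hV).2.resolve_left fun h2 => not_inf_and_zero hq D hV h h2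

theorem zero_other {V : ValuationSubring F₂} (hV : IsVertical W q (T.α (T.t u)) V)
    (h : IsZero' T u V) : res V (T.α (T.t u)) = res V (T.α (T.s u)) ^ q :=
  (root_cases hq D hV).1.resolve_left fun h1 => not_inf_and_zero hq D hV h1 h

theorem level2_cases {V : ValuationSubring F₂} (hV : IsVertical W q (T.α (T.t u)) V) :
    IsInf T u V ∨ IsZero' T u V ∨ IsMid T u V := by
  obtain ⟨h1, h2⟩ := root_cases hq D hV
  rcases h1 with h1 | h1
  · exact Or.inl h1
  · rcases h2 with h2 | h2
    · exact Or.inr (Or.inl h2)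
    · exact Or.inr (Or.inr ⟨h1, h2⟩)

/-- On the middle component the two ends have the same residue. -/
theorem mid_res_eq {V : ValuationSubring F₂} (hV : IsVertical W q (T.α (T.t u)) V)
    (h : IsMid T u V) : res V (T.β (T.t u)) = res V (T.α (T.s u)) := by
  have hk : (q : IsLocalRing.ResidueField V) = 0 := by
    rw [← map_natCast (residue V), ← res_coe]
    exact res_natCast_q hq hV
  have : CharP (IsLocalRing.ResidueField V) q := (CharP.charP_iff_prime_eq_zero Fact.out).mpr hk
  exact frobenius_inj (IsLocalRing.ResidueField V) q (h.2.symm.trans h.1)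

theorem inf_comap_β {V : ValuationSubring F₂} (hV : IsVertical W q (T.α (T.t u)) V)
    (h : IsInf T u V) :
    res (V.comap T.β.toRingHom) (T.s u) = res (V.comap T.β.toRingHom) (T.t u) ^ q := by
  have hz : T.β (T.s u) ∈ V := by rw [← T.middle_apply]; exact hV.u_mem.mem
  rw [res_comap_eq_pow_iff q hz (isVertical_x₂ hq D hV).u_mem.mem]
  show res V (T.β (T.s u)) = _
  rw [← T.middle_apply]
  exact inf_other hq D hV h

theorem mid_comap_α {V : ValuationSubring F₂} (hV : IsVertical W q (T.α (T.t u)) V)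
    (h : IsMid T u V) :
    res (V.comap T.α.toRingHom) (T.t u) = res (V.comap T.α.toRingHom) (T.s u) ^ q :=
  (res_comap_eq_pow_iff (σ := T.α.toRingHom) q hV.u_mem.mem
    (isVertical_x₁ hq D hV).u_mem.mem).mpr h.1

theorem exists_adjInf {V : ValuationSubring F₂} (hV : IsVertical W q (T.α (T.t u)) V)
    (h : IsInf T u V) :
    letI := T.β.toRingHom.toAlgebra
    Nonempty (AdjData (F' := F₁) q (T.α (T.s u)) (q : F₂) V) := by
  let _ : Algebra F₁ F₂ := T.β.toRingHom.toAlgebra
  have : IsScalarTower W F₁ F₂ :=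
    IsScalarTower.of_algebraMap_eq fun w => (map_algebraMap_const T.β w).symm
  have : CharZero F₂ := charZero_of_injective_algebraMap (algebraMap K F₂).injective
  obtain ⟨E, hE⟩ := exists_eq_kron_add hq D.Φ D.kronecker
  have hz : T.α (T.t u) = algebraMap F₁ F₂ (T.s u) := T.middle_apply u
  exact ⟨adjCan hq hE (b := T.s u) (hz ▸ D.root_α) (hz ▸ hV) (isVertical_x₁ hq D hV).u_mem.mem
    (disc₁ hq D (isVertical_t hq D (isVertical_comap_β hq D hV))) T.swap.finite_α
    (exists_eq_eval₂_of_adjoin T.β T.swap.finite_α D.generate_β) (hz ▸ h)⟩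

theorem exists_adjMid₂ {V : ValuationSubring F₂} (hV : IsVertical W q (T.α (T.t u)) V)
    (h : IsMid T u V) :
    letI := T.α.toRingHom.toAlgebra
    Nonempty (AdjData (F' := F₁) q (T.β (T.t u)) (T.β (T.t u) - T.α (T.s u)) V) := by
  let _ : Algebra F₁ F₂ := T.α.toRingHom.toAlgebra
  have : IsScalarTower W F₁ F₂ :=
    IsScalarTower.of_algebraMap_eq fun w => (map_algebraMap_const T.α w).symm
  have : CharZero F₂ := charZero_of_injective_algebraMap (algebraMap K F₂).injective
  obtain ⟨E, hE⟩ := exists_eq_kron_add hq D.Φ D.kronecker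
  exact exists_adjMid hq hE (b := T.s u) (c := T.t u) D.root_β D.root_α hV
    (isVertical_x₁ hq D hV) (isVertical_x₂ hq D hV).u_mem.mem (mid_res_eq hq D hV h) h.1
    (x₁_ne_x₂ hq D).symm (disc₁ hq D (hV.comap T.α)) T.finite_α
    (exists_eq_eval₂_of_adjoin T.α T.finite_α D.generate_α)

/-- The residue of `(x₂ - x₁) ^ (q - 1) / q` on the middle component. -/
theorem mid_res_w {V : ValuationSubring F₂} (hV : IsVertical W q (T.α (T.t u)) V)
    (h : IsMid T u V) {E : Polynomial (Polynomial W)}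
    (hE : D.Φ = kron W q + (q : Polynomial (Polynomial W)) * E) :
    res V ((T.β (T.t u) - T.α (T.s u)) ^ (q - 1) / q) *
        (res V (T.α (T.s u)) - res V (T.α (T.s u)) ^ (q * q)) ^ 2 =
      (midPoly q (E.map (mapRingHom (residue W)))).eval₂ (constRes hq hV)
        (res V (T.α (T.s u))) ∧
    (T.β (T.t u) - T.α (T.s u)) ^ (q - 1) / q ∈ V := by
  let _ : Algebra F₁ F₂ := T.α.toRingHom.toAlgebra
  have : IsScalarTower W F₁ F₂ :=
    IsScalarTower.of_algebraMap_eq fun w => (map_algebraMap_const T.α w).symm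
  have : CharZero F₂ := charZero_of_injective_algebraMap (algebraMap K F₂).injective
  obtain ⟨Num, hNum, hsum, key, hres⟩ := exists_mid_identity hq hE (b := T.s u) (c := T.t u)
    D.root_β D.root_α hV (isVertical_x₁ hq D hV) (isVertical_x₂ hq D hV).u_mem.mem
    (mid_res_eq hq D hV h) h.1 (x₁_ne_x₂ hq D).symm
  refine ⟨hres, ?_⟩
  have hq0 : (q : F₂) ≠ 0 := Nat.cast_ne_zero.mpr (Fact.out : q.Prime).ne_zero
  have hw : (T.β (T.t u) - T.α (T.s u)) ^ (q - 1) / (q : F₂) = evBase V (T.β (T.t u)) Num /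
      (algebraMap F₁ F₂ (T.s u - T.t u ^ q) + (T.β (T.t u) - T.α (T.s u))) := by
    have hne : algebraMap F₁ F₂ (T.s u - T.t u ^ q) + (T.β (T.t u) - T.α (T.s u)) ≠ 0 :=
      hsum.ne_zero
    rw [div_eq_div_iff hq0 hne, mul_comm (evBase V _ Num)]
    exact key
  rw [hw]
  exact (hNum.div hsum).mem

theorem natCast_ne_zero₂ : (q : F₂) ≠ 0 := by
  rw [← map_natCast (algebraMap K F₂)]
  exact (map_ne_zero_iff _ (algebraMap K F₂).injective).mpr (natCast_ne_zero_frac hq)

theorem disc_inf {V : ValuationSubring F₂} (hV : IsVertical W q (T.α (T.t u)) V)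
    (h : IsInf T u V) : Disc (q : F₂) V := by
  obtain ⟨A⟩ := exists_adjInf hq D hV h
  exact @AdjData.disc F₁ F₂ _ _ T.β.toRingHom.toAlgebra _ _ _ _ A

theorem disc_zero {V : ValuationSubring F₂} (hV : IsVertical W q (T.α (T.t u)) V)
    (h : IsZero' T u V) : Disc (q : F₂) V :=
  disc_inf hq D.swap (isVertical_swap_iff.mpr hV) (isInf_swap_iff.mpr h)

theorem disc_mid {V : ValuationSubring F₂} (hV : IsVertical W q (T.α (T.t u)) V)
    (h : IsMid T u V) : Disc (T.β (T.t u) - T.α (T.s u)) V := by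
  obtain ⟨A⟩ := exists_adjMid₂ hq D hV h
  exact @AdjData.disc F₁ F₂ _ _ T.α.toRingHom.toAlgebra _ _ _ _ A

theorem mid_mem_nonunits {V : ValuationSubring F₂} (hV : IsVertical W q (T.α (T.t u)) V)
    (h : IsMid T u V) : T.β (T.t u) - T.α (T.s u) ∈ V.nonunits :=
  (res_eq_iff (isVertical_x₂ hq D hV).u_mem.mem (isVertical_x₁ hq D hV).u_mem.mem).mp
    (mid_res_eq hq D hV h)

/-- The ramification of the middle component. -/
theorem mid_val {V : ValuationSubring F₂} (hV : IsVertical W q (T.α (T.t u)) V)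
    (h : IsMid T u V) :
    V.valuation (q : F₂) = V.valuation (T.β (T.t u) - T.α (T.s u)) ^ (q - 1) := by
  have hq0 := natCast_ne_zero₂ hq D
  obtain ⟨E, hE⟩ := exists_eq_kron_add hq D.Φ D.kronecker
  obtain ⟨hres, hmem⟩ := mid_res_w hq D hV h hE
  have hk : (q : IsLocalRing.ResidueField W) = 0 := by
    rw [← map_natCast (residue W), residue_eq_zero_iff]
    exact natCast_mem_maximalIdeal hq
  have : CharP (IsLocalRing.ResidueField W) q :=
    (CharP.charP_iff_prime_eq_zero Fact.out).mpr hk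
  have hu : IsUnitAt V ((T.β (T.t u) - T.α (T.s u)) ^ (q - 1) / q) := by
    refine (isUnitAt_iff hmem).mpr fun h0 => ?_
    rw [h0, zero_mul] at hres
    exact eval₂_res_ne_zero hq (isVertical_x₁ hq D hV) _
      (midPoly_ne_zero Fact.out _) hres.symm
  rw [IsUnitAt, map_div₀, map_pow,
    div_eq_one_iff_eq ((Valuation.ne_zero_iff _).mpr hq0)] at hu
  exact hu.symm

theorem rankOne₂ {V : ValuationSubring F₂} (hV : IsVertical W q (T.α (T.t u)) V) :
    RankOne q V := by
  have hq0 := natCast_ne_zero₂ hq D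
  rcases level2_cases hq D hV with h | h | h
  · exact rankOne_of_disc (disc_inf hq D hV h) hV.q_mem hq0 hV.q_mem hq0
  · exact rankOne_of_disc (disc_zero hq D hV h) hV.q_mem hq0 hV.q_mem hq0
  · exact rankOne_of_disc (disc_mid hq D hV h) (mid_mem_nonunits hq D hV h)
      (sub_ne_zero.mpr (x₁_ne_x₂ hq D).symm) hV.q_mem hq0

theorem inf_unique {V V' : ValuationSubring F₂} (hV : IsVertical W q (T.α (T.t u)) V)
    (h : IsInf T u V) (hV' : IsVertical W q (T.α (T.t u)) V') (h' : IsInf T u V') : V = V' := by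
  let _ : Algebra F₁ F₂ := T.β.toRingHom.toAlgebra
  have : CharZero F₂ := charZero_of_injective_algebraMap (algebraMap K F₂).injective
  have key : ∀ {V V' : ValuationSubring F₂}, IsVertical W q (T.α (T.t u)) V → IsInf T u V →
      IsVertical W q (T.α (T.t u)) V' → IsInf T u V' → V ≤ V' := fun {V V'} hV h hV' h' => by
    obtain ⟨A⟩ := exists_adjInf hq D hV h
    have hpow : ∀ {U : ValuationSubring F₂}, IsVertical W q (T.α (T.t u)) U → IsInf T u U →
        T.β (T.s u ^ q) ∈ U ∧ res U (T.α (T.s u)) = res U (T.β (T.s u ^ q)) := fun {U} hU hi => by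
      rw [map_pow, ← T.middle_apply, res_pow hU.u_mem.mem]
      exact ⟨pow_mem hU.u_mem.mem q, hi⟩
    exact le_of_linear A (β := T.s u ^ q) (hpow hV h).1 (hpow hV h).2
      (isVertical_x₁ hq D hV').u_mem.mem
      (can_unique hq D (isVertical_t hq D (isVertical_comap_β hq D hV')) (inf_comap_β hq D hV' h')
        (isVertical_t hq D (isVertical_comap_β hq D hV)) (inf_comap_β hq D hV h))
      (hpow hV' h').2
  exact le_antisymm (key hV h hV' h') (key hV' h' hV h)

theorem zero_unique {V V' : ValuationSubring F₂} (hV : IsVertical W q (T.α (T.t u)) V)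
    (h : IsZero' T u V) (hV' : IsVertical W q (T.α (T.t u)) V') (h' : IsZero' T u V') : V = V' :=
  inf_unique hq D.swap (isVertical_swap_iff.mpr hV) (isInf_swap_iff.mpr h)
    (isVertical_swap_iff.mpr hV') (isInf_swap_iff.mpr h')

theorem mid_unique {V V' : ValuationSubring F₂} (hV : IsVertical W q (T.α (T.t u)) V)
    (h : IsMid T u V) (hV' : IsVertical W q (T.α (T.t u)) V') (h' : IsMid T u V') : V = V' := by
  let _ : Algebra F₁ F₂ := T.α.toRingHom.toAlgebra
  have : CharZero F₂ := charZero_of_injective_algebraMap (algebraMap K F₂).injective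
  have key : ∀ {V V' : ValuationSubring F₂}, IsVertical W q (T.α (T.t u)) V → IsMid T u V →
      IsVertical W q (T.α (T.t u)) V' → IsMid T u V' → V ≤ V' := fun {V V'} hV h hV' h' => by
    obtain ⟨A⟩ := exists_adjMid₂ hq D hV h
    exact le_of_linear A (β := T.s u) (isVertical_x₁ hq D hV).u_mem.mem (mid_res_eq hq D hV h)
      (isVertical_x₂ hq D hV').u_mem.mem
      (oth_unique hq D (hV'.comap T.α) (mid_comap_α hq D hV' h') (hV.comap T.α)
        (mid_comap_α hq D hV h))
      (mid_res_eq hq D hV' h')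
  exact le_antisymm (key hV h hV' h') (key hV' h' hV h)

theorem finite_vertical₂ :
    {V : ValuationSubring F₂ | IsVertical W q (T.α (T.t u)) V}.Finite := by
  refine Set.Finite.subset (s := {V | IsVertical W q (T.α (T.t u)) V ∧ IsInf T u V} ∪
      ({V | IsVertical W q (T.α (T.t u)) V ∧ IsZero' T u V} ∪
        {V | IsVertical W q (T.α (T.t u)) V ∧ IsMid T u V}))
      (Set.Finite.union ?_ (Set.Finite.union ?_ ?_)) ?_
  · exact Set.Subsingleton.finite fun a ha b hb => inf_unique hq D ha.1 ha.2 hb.1 hb.2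
  · exact Set.Subsingleton.finite fun a ha b hb => zero_unique hq D ha.1 ha.2 hb.1 hb.2
  · exact Set.Subsingleton.finite fun a ha b hb => mid_unique hq D ha.1 ha.2 hb.1 hb.2
  · intro V hV
    exact (level2_cases hq D hV).imp (fun h => ⟨hV, h⟩)
      (fun h => h.imp (fun h => ⟨hV, h⟩) (fun h => ⟨hV, h⟩))

/-- The component at infinity is rational along `β ∘ t`. -/
theorem rational_inf {V : ValuationSubring F₂} (hV : IsVertical W q (T.α (T.t u)) V)
    (h : IsInf T u V) : RationalAlong (T.β.comp T.t) W q u V := by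
  let _ : Algebra F₁ F₂ := T.β.toRingHom.toAlgebra
  refine rationalAlong_of_resSurj hq D (T.β.comp T.t) (isVertical_x₂ hq D hV) ?_
  obtain ⟨A⟩ := exists_adjInf hq D hV h
  have h1 : ResSurj T.β.toRingHom V := A.resSurj (β := T.s u ^ q) (by
      show T.β (T.s u ^ q) ∈ V
      rw [map_pow, ← T.middle_apply]; exact pow_mem hV.u_mem.mem q) (by
      show _ = res V (T.β (T.s u ^ q))
      rw [map_pow, ← T.middle_apply, res_pow hV.u_mem.mem]; exact h)
  exact h1.comp (resSurj_of_can hq D (isVertical_t hq D (isVertical_comap_β hq D hV))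
    (inf_comap_β hq D hV h))

/-- The component at zero is rational along `α ∘ s`. -/
theorem rational_zero {V : ValuationSubring F₂} (hV : IsVertical W q (T.α (T.t u)) V)
    (h : IsZero' T u V) : RationalAlong (T.α.comp T.s) W q u V :=
  rational_inf hq D.swap (isVertical_swap_iff.mpr hV) (isInf_swap_iff.mpr h)

/-- The middle component is rational along `α ∘ s`. -/
theorem rational_mid {V : ValuationSubring F₂} (hV : IsVertical W q (T.α (T.t u)) V)
    (h : IsMid T u V) : RationalAlong (T.α.comp T.s) W q u V := by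
  let _ : Algebra F₁ F₂ := T.α.toRingHom.toAlgebra
  refine rationalAlong_of_resSurj hq D (T.α.comp T.s) (isVertical_x₁ hq D hV) ?_
  obtain ⟨A⟩ := exists_adjMid₂ hq D hV h
  have h1 : ResSurj T.α.toRingHom V :=
    A.resSurj (β := T.s u) (isVertical_x₁ hq D hV).u_mem.mem (mid_res_eq hq D hV h)
  exact h1.comp (resSurj_of_can hq D.swap (isVertical_s hq D (hV.comap T.α))
    (mid_comap_α hq D hV h))

end FermatAgent.BadRed.Carayol
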