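import Mathlib.FieldTheory.PrimitiveElement
import Mathlib.RingTheory.Norm.Transitivity
import Mathlib.FieldTheory.IsAlgClosed.AlgebraicClosure
import Fermat.Agent.BadRed.Carayol.Level2

/-!
# Conjugates over a component and residues of norms

Over `s u ≡ (t u) ^ q` all conjugates lie on the component at infinity; over the other branch one
lies on the component at zero and `q - 1` on the middle one.
-/

set_option autoImplicit false
set_option linter.unusedSectionVars false

noncomputable section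

namespace FermatAgent.BadRed.Carayol

open Polynomial IsLocalRing

section Extension

variable {A B : Type*} [Field A] [Field B]

/-- Valuation subrings extend along field homomorphisms. -/
theorem exists_extension (f : A →+* B) (V : ValuationSubring A) :
    ∃ U : ValuationSubring B, U.comap f = V := by
  let S : Subring B := V.toSubring.map f
  let j : V →+* S :=
    (f.comp V.subtype).codRestrict S fun a => Subring.mem_map.mpr ⟨a, a.2, rfl⟩
  have hj : Function.Bijective j := by
    refine ⟨fun a b h => Subtype.ext (f.injective ?_), fun b => ?_⟩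
    · have h' : ((j a : S) : B) = (j b : S) := by rw [h]
      exact h'
    · obtain ⟨a, ha, hab⟩ := Subring.mem_map.mp b.2
      exact ⟨⟨a, ha⟩, Subtype.ext hab⟩
  obtain ⟨U, hU, hU'⟩ := Ideal.image_subset_nonunits_valuationSubring (A := S)
    ((maximalIdeal V).map j) (fun h => by
      have h1 := congrArg (Ideal.comap j) h
      rw [Ideal.comap_map_of_bijective _ hj, Ideal.comap_top] at h1
      exact (maximalIdeal.isMaximal V).ne_top h1)
  refine ⟨U, le_antisymm (fun y hy => ?_) fun y hy => hU (Subring.mem_map.mpr ⟨y, hy, rfl⟩)⟩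
  by_contra hyV
  have hy0 : y ≠ 0 := fun h => hyV (h ▸ zero_mem V)
  have hlt : 1 < V.valuation y := lt_of_not_ge fun h => hyV ((V.valuation_le_one_iff y).mp h)
  have hinv : y⁻¹ ∈ V.nonunits := by
    rw [ValuationSubring.mem_nonunits_iff, map_inv₀]
    exact inv_lt_one_of_one_lt₀ hlt
  have h2 : f y⁻¹ ∈ U.nonunits :=
    hU' ⟨_, Ideal.mem_map_of_mem _ (ValuationSubring.coe_mem_nonunits_iff
      (a := (⟨y⁻¹, ValuationSubring.nonunits_subset hinv⟩ : V)) |>.mp hinv), rfl⟩
  have h3 : (1 : B) ∈ U.nonunits := by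
    rw [← mul_inv_cancel₀ ((map_ne_zero f).mpr hy0), ← map_inv₀, ValuationSubring.mem_nonunits_iff,
      map_mul, mul_comm]
    exact mul_lt_one_of_lt_of_le h2 ((U.valuation_le_one_iff _).mpr hy)
  simp [ValuationSubring.mem_nonunits_iff] at h3

theorem mem_of_res_ne_zero {V : ValuationSubring A} {x : A} (h : res V x ≠ 0) : x ∈ V := by
  by_contra hx
  exact h (dif_neg hx)

theorem isVertical_of_comap {W K : Type*} [CommRing W] [IsDomain W] [IsDiscreteValuationRing W]
    [Field K] [Algebra W K] [Algebra K A] [Algebra K B] [Algebra W A] [Algebra W B]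
    [IsScalarTower W K A] [IsScalarTower W K B] {q : ℕ} {v : A} (φ : A →ₐ[K] B)
    {V : ValuationSubring B} (h : IsVertical W q v (V.comap φ.toRingHom)) :
    IsVertical W q (φ v) V where
  const_mem w := by
    rw [← map_algebraMap_const φ]
    exact h.const_mem w
  q_mem := by
    rw [← map_natCast φ.toRingHom, ← mem_nonunits_comap]
    exact h.q_mem
  isUnitAt P hP := by
    rw [← map_aeval_const]
    exact (isUnitAt_comap φ.toRingHom V).mp (h.isUnitAt P hP)

end Extension

section Count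

variable {k : Type*} [Field k] [DecidableEq k] {q : ℕ}

/-- `z ^ q` is a simple root of the residual Kronecker polynomial. -/
theorem count_roots_kron (hq : 0 < q) {z : k} (hz : z ^ (q * q) ≠ z) :
    ((X - C (z ^ q)) * (X ^ q - C z) : Polynomial k).roots.count (z ^ q) = 1 := by
  have h2 : (X ^ q - C z : Polynomial k) ≠ 0 := X_pow_sub_C_ne_zero hq z
  rw [roots_mul (mul_ne_zero (X_sub_C_ne_zero _) h2), roots_X_sub_C, Multiset.count_add,
    Multiset.count_singleton_self, Multiset.count_eq_zero.mpr]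
  intro h
  rw [mem_roots h2, IsRoot, eval_sub, eval_pow, eval_X, eval_C, sub_eq_zero, ← pow_mul] at h
  exact hz h

end Count

section Residual

variable {q : ℕ} [Fact q.Prime] {W Ω : Type*} [CommRing W] [IsDomain W]
  [IsDiscreteValuationRing W] [Field Ω] [Algebra W Ω]
  (hq : maximalIdeal W = Ideal.span {(q : W)}) {z : Ω} {U : ValuationSubring Ω}
  (hU : IsVertical W q z U) (Φ : Polynomial (Polynomial W)) (hm : Φ.Monic)
  (hd : Φ.natDegree = q + 1)
  (hk : Φ.map (mapRingHom (residue W)) = (X - C (X ^ q)) * (X ^ q - C X))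
  {ι : Type*} [Fintype ι] (r : ι → Ω) (hr : Function.Injective r)
  (hroot : ∀ i, evalTwo Φ (r i) z = 0) (hcard : Fintype.card ι = q + 1)
include hq hU hm hd hk hr hroot hcard

/-- The residual roots of a full set of roots. -/
theorem residual_roots :
    (Finset.univ : Finset ι).val.map (fun i => res U (r i)) =
      ((X - C (res U z ^ q)) * (X ^ q - C (res U z)) :
        Polynomial (IsLocalRing.ResidueField U)).roots := by
  classical
  let ev : Polynomial W →+* Ω := (aeval z : Polynomial W →ₐ[W] Ω).toRingHom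
  let P := Φ.map ev
  have hP : P.Monic := hm.map _
  have hdP : P.natDegree = q + 1 := by rw [hm.natDegree_map, hd]
  have hroots : (Finset.univ : Finset ι).val.map r = P.roots := by
    refine Multiset.eq_of_le_of_card_le
      ((Multiset.le_iff_subset (Finset.univ.nodup.map hr)).mpr fun x hx => ?_) ?_
    · obtain ⟨i, -, rfl⟩ := Multiset.mem_map.mp hx
      rw [mem_roots hP.ne_zero, IsRoot, eval_map]
      exact hroot i
    · rw [Multiset.card_map, Finset.card_val, Finset.card_univ, hcard, ← hdP]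
      exact card_roots' P
  have hmem : ∀ i, r i ∈ U := fun i =>
    hU.chartRing_le (mem_chartRing_of_evalTwo Φ hm (hroot i))
  let evU : Polynomial W →+* U := ev.codRestrict U.toSubring fun p => hU.aeval_mem p
  let PU := Φ.map evU
  have hfac : PU = ((Finset.univ : Finset ι).val.map fun i => X - C (⟨r i, hmem i⟩ : U)).prod := by
    refine map_injective U.subtype Subtype.val_injective ?_
    rw [Polynomial.map_map, Polynomial.map_multiset_prod, Multiset.map_map,
      show U.subtype.comp evU = ev from RingHom.ext fun p => rfl]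
    show P = _
    rw [← prod_multiset_X_sub_C_of_monic_of_roots_card_eq hP (by
      rw [← hroots, Multiset.card_map, Finset.card_val, Finset.card_univ, hcard, hdP]), ← hroots,
      Multiset.map_map]
    exact congrArg Multiset.prod (Multiset.map_congr rfl fun i _ => by simp)
  have hres : PU.map (residue U) = (X - C (res U z ^ q)) * (X ^ q - C (res U z)) := by
    rw [Polynomial.map_map, show (residue U).comp evU =
        (eval₂RingHom (constRes hq hU) (res U z)).comp (mapRingHom (residue W)) from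
      RingHom.ext fun p => ?_, ← Polynomial.map_map, hk]
    · simp
    · show residue U ⟨aeval z p, hU.aeval_mem p⟩ = _
      rw [← res_of_mem (hU.aeval_mem p), (res_aeval hq hU hU.u_mem.mem p).2]
      rfl
  rw [← hres, hfac, Polynomial.map_multiset_prod, Multiset.map_map]
  conv_rhs => rw [show ((Finset.univ : Finset ι).val.map (Polynomial.map (residue U) ∘ fun i =>
      X - C (⟨r i, hmem i⟩ : U))) = ((Finset.univ : Finset ι).val.map fun i => res U (r i)).map
      fun a => X - C a by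
    rw [Multiset.map_map]
    exact Multiset.map_congr rfl fun i _ => by simp [res_of_mem (hmem i)]]
  rw [roots_multiset_prod_X_sub_C]

/-- Exactly one root lies on the branch `x ≡ z ^ q`. -/
theorem exists_unique_branch :
    ∃ i₀, res U (r i₀) = res U z ^ q ∧
      ∀ i, i ≠ i₀ → res U (r i) ≠ res U z ^ q ∧ res U (r i) ^ q = res U z := by
  classical
  have hz : res U z ^ (q * q) ≠ res U z := fun h => by
    refine res_branch_disjoint hq hU (x := z ^ q) ?_ ?_
    · rw [res_pow hU.u_mem.mem]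
    · rw [res_pow hU.u_mem.mem, ← pow_mul, h]
  have hR := residual_roots hq hU Φ hm hd hk r hr hroot hcard
  have hcount := count_roots_kron (Fact.out : q.Prime).pos hz
  rw [← hR, Multiset.count_map, ← Finset.filter_val, Finset.card_val, Finset.card_eq_one] at hcount
  obtain ⟨i₀, hi₀⟩ := hcount
  have hmem : i₀ ∈ Finset.univ.filter fun i => res U z ^ q = res U (r i) :=
    hi₀ ▸ Finset.mem_singleton_self i₀
  refine ⟨i₀, ((Finset.mem_filter.mp hmem).2).symm, fun i hi => ?_⟩
  have hne : res U (r i) ≠ res U z ^ q := fun h => hi (Finset.mem_singleton.mp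
    (hi₀ ▸ Finset.mem_filter.mpr ⟨Finset.mem_univ i, h.symm⟩))
  exact ⟨hne, (res_root hq hU (hU.chartRing_le (mem_chartRing_of_evalTwo Φ hm (hroot i)))
    hU.u_mem.mem Φ hk (hroot i)).resolve_left hne⟩

end Residual

variable {q : ℕ} [Fact q.Prime] {W K F F₁ F₂ : Type*}
  [CommRing W] [IsDomain W] [IsDiscreteValuationRing W] [IsAlgClosed (IsLocalRing.ResidueField W)]
  [Field K] [CharZero K] [Algebra W K] [IsFractionRing W K]
  [Field F] [Field F₁] [Field F₂] [Algebra K F] [Algebra K F₁] [Algebra K F₂]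
  [Algebra W F] [Algebra W F₁] [Algebra W F₂]
  [IsScalarTower W K F] [IsScalarTower W K F₁] [IsScalarTower W K F₂]
  {T : QTower q K F F₁ F₂} {u : F}
  (hq : maximalIdeal W = Ideal.span {(q : W)}) (D : ChartData W T u)
include hq D

/-- The branch `s u ≡ (t u) ^ q` occurs. -/
theorem exists_can : ∃ V : ValuationSubring F₁, IsVertical W q (T.t u) V ∧
    res V (T.s u) = res V (T.t u) ^ q := by
  let _ : Algebra F F₁ := T.t.toRingHom.toAlgebra
  have : IsScalarTower K F F₁ := IsScalarTower.of_algebraMap_eq fun c => (T.t.commutes c).symm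
  have : Module.Finite F F₁ := T.finite_t
  have : CharZero F := charZero_of_injective_algebraMap (algebraMap K F).injective
  let Ω := AlgebraicClosure F
  have htr : Transcendental K (algebraMap F Ω u) :=
    transcendental_map (IsScalarTower.toAlgHom K F Ω) D.transcendental
  obtain ⟨U, hU⟩ := exists_isVertical (L := Ω) W q (algebraMap F Ω u) htr hq
  have hz : ∀ σ : F₁ →ₐ[F] Ω, σ (T.t u) = algebraMap F Ω u := fun σ => σ.commutes u
  have hinj : Function.Injective fun σ : F₁ →ₐ[F] Ω => σ (T.s u) := fun σ σ' h => by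
    refine AlgHom.ext fun y => ?_
    obtain ⟨R, hR⟩ := exists_eq_eval₂_of_adjoin T.t T.finite_t D.generate_t y
    have hR' : y = aeval (T.s u) R := hR
    rw [hR', ← aeval_algHom_apply, ← aeval_algHom_apply]
    exact congrArg (fun x => aeval x R) h
  obtain ⟨σ, hσ, -⟩ := exists_unique_branch hq hU D.Φ D.monic D.natDegree_eq D.kronecker
    (fun σ : F₁ →ₐ[F] Ω => σ (T.s u)) hinj (fun σ => by
      rw [← hz σ]
      exact (map_evalTwo_const (σ.restrictScalars K) D.Φ _ _).symm.trans
        (by rw [D.root, map_zero]))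
    ((AlgHom.card F F₁ Ω).trans T.degree_t)
  have hσU : IsVertical W q (σ (T.t u)) U := by rw [hz]; exact hU
  refine ⟨U.comap (σ.restrictScalars K).toRingHom, hσU.comap (σ.restrictScalars K), ?_⟩
  have hs : σ (T.s u) ∈ U := mem_of_res_ne_zero (by
    rw [hσ]
    exact pow_ne_zero _ hU.u_mem.res_ne_zero)
  refine (res_comap_eq_pow_iff (σ := (σ.restrictScalars K).toRingHom) q hs hσU.u_mem.mem).mpr ?_
  show res U (σ (T.s u)) = res U (σ (T.t u)) ^ q
  rw [hσ, hz]

/-- On the component at infinity `q`-th powers of residues come from `α`. -/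
theorem resPow_inf {V : ValuationSubring F₂} (hV : IsVertical W q (T.α (T.t u)) V)
    (h : IsInf T u V) {y : F₂} (hy : y ∈ V) :
    ∃ z : F₁, T.α z ∈ V ∧ res V y ^ q = res V (T.α z) := by
  obtain ⟨a, b, hb, hab⟩ := rational_inf hq D hV h y hy
  let φ := T.β.comp T.t
  have hV₂ := isVertical_x₂ hq D hV
  have hm : ∀ c : chartRing W u, φ c ∈ V := fun c =>
    hV₂.chartRing_le (map_mem_chartRing φ c.2)
  have hbu : IsUnitAt V (φ b) := (isUnitAt_comap φ.toRingHom V).mp
    (isUnitAt_base_of_not_dvd hq D (hV₂.comap φ) hb)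
  have hc : res V y = res V (φ ((a : F) / b)) := by
    rw [map_div₀, res_div (hm a) hbu, eq_div_iff hbu.res_ne_zero]
    exact hab
  have hcm : φ ((a : F) / b) ∈ V := by
    rw [map_div₀, div_eq_mul_inv]; exact mul_mem (hm a) hbu.inv.mem
  obtain ⟨z, hz, hzq⟩ := resPow_of_oth hq D.swap
    (isVertical_comap_β hq D hV) (inf_comap_β hq D hV h) (T.t ((a : F) / b)) hcm
  have hz' : T.β (T.s z) ∈ V := hz
  refine ⟨T.t z, by rw [T.middle_apply]; exact hz', ?_⟩
  rw [T.middle_apply, hc]
  exact (((res_comap_eq_pow_iff (σ := T.β.toRingHom) q hz' hcm).mp hzq.symm)).symm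

section Embeddings

variable {U : ValuationSubring (AlgebraicClosure F₁)}
  (hU : IsVertical W q (T.t u) (U.comap (algebraMap F₁ (AlgebraicClosure F₁))))
include hU

/-- Pullbacks along embeddings over `α` are vertical and lie over the given component. -/
theorem isVertical_emb :
    letI := T.α.toRingHom.toAlgebra
    ∀ σ : F₂ →ₐ[F₁] AlgebraicClosure F₁, IsVertical W q (T.α (T.t u)) (U.comap σ.toRingHom) ∧
      (U.comap σ.toRingHom).comap T.α.toRingHom = U.comap (algebraMap F₁ (AlgebraicClosure F₁)) := by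
  let _ : Algebra F₁ F₂ := T.α.toRingHom.toAlgebra
  intro σ
  have h : (U.comap σ.toRingHom).comap T.α.toRingHom =
      U.comap (algebraMap F₁ (AlgebraicClosure F₁)) := by
    rw [ValuationSubring.comap_comap]
    exact congrArg U.comap (RingHom.ext fun a => σ.commutes a)
  exact ⟨isVertical_of_comap T.α (h.symm ▸ hU), h⟩

/-- Above `s u ≡ (t u) ^ q` there is only the component at infinity. -/
theorem inf_emb
    (h : res (U.comap (algebraMap F₁ (AlgebraicClosure F₁))) (T.s u) =
      res (U.comap (algebraMap F₁ (AlgebraicClosure F₁))) (T.t u) ^ q) :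
    letI := T.α.toRingHom.toAlgebra
    ∀ σ : F₂ →ₐ[F₁] AlgebraicClosure F₁, IsInf T u (U.comap σ.toRingHom) := by
  let _ : Algebra F₁ F₂ := T.α.toRingHom.toAlgebra
  intro σ
  obtain ⟨hV, hc⟩ := isVertical_emb hq D hU σ
  rw [← hc] at h
  exact (res_comap_eq_pow_iff (σ := T.α.toRingHom) q (isVertical_x₁ hq D hV).u_mem.mem
    hV.u_mem.mem).mp h

/-- Above the other branch one embedding gives the component at zero, all others the middle. -/
theorem oth_emb
    (h : res (U.comap (algebraMap F₁ (AlgebraicClosure F₁))) (T.t u) =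
      res (U.comap (algebraMap F₁ (AlgebraicClosure F₁))) (T.s u) ^ q) :
    letI := T.α.toRingHom.toAlgebra
    ∃ σ₀ : F₂ →ₐ[F₁] AlgebraicClosure F₁, IsZero' T u (U.comap σ₀.toRingHom) ∧
      ∀ σ : F₂ →ₐ[F₁] AlgebraicClosure F₁, σ ≠ σ₀ → IsMid T u (U.comap σ.toRingHom) := by
  let _ : Algebra F₁ F₂ := T.α.toRingHom.toAlgebra
  have : IsScalarTower K F₁ F₂ := IsScalarTower.of_algebraMap_eq fun c => (T.α.commutes c).symm
  have : Module.Finite F₁ F₂ := T.finite_α
  have : CharZero F₁ := charZero_of_injective_algebraMap (algebraMap K F₁).injective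
  let Ω := AlgebraicClosure F₁
  let ι := algebraMap F₁ Ω
  have hUz : IsVertical W q (ι (T.t u)) U :=
    isVertical_of_comap (IsScalarTower.toAlgHom K F₁ Ω) hU
  have hs : ι (T.s u) ∈ U := (isVertical_s hq D hU).u_mem.mem
  have hx1 : res U (ι (T.t u)) = res U (ι (T.s u)) ^ q :=
    (res_comap_eq_pow_iff (σ := ι) q hUz.u_mem.mem hs).mp h
  let r : Option (F₂ →ₐ[F₁] Ω) → Ω := fun o => o.elim (ι (T.s u)) fun σ => σ (T.β (T.t u))
  have hne : ∀ σ : F₂ →ₐ[F₁] Ω, σ (T.β (T.t u)) ≠ ι (T.s u) := fun σ hσ =>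
    (x₁_ne_x₂ hq D).symm (σ.toRingHom.injective (hσ.trans (σ.commutes (T.s u)).symm))
  have hr : Function.Injective r := by
    rintro (_ | σ) (_ | σ') hσ
    · rfl
    · exact absurd hσ.symm (hne σ')
    · exact absurd hσ (hne σ)
    · congr 1
      refine AlgHom.ext fun y => ?_
      obtain ⟨R, hR⟩ := exists_eq_eval₂_of_adjoin T.α T.finite_α D.generate_α y
      have hR' : y = aeval (T.β (T.t u)) R := hR
      rw [hR', ← aeval_algHom_apply, ← aeval_algHom_apply]
      exact congrArg (fun x => aeval x R) hσ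
  obtain ⟨o, ho, hrest⟩ := exists_unique_branch hq hUz D.Φ D.monic D.natDegree_eq D.kronecker r hr
    (fun o => by
      rcases o with _ | σ
      · exact (map_evalTwo_const (IsScalarTower.toAlgHom K F₁ Ω) D.Φ _ _).symm.trans
          (by rw [D.root, map_zero])
      · have e : ι (T.t u) = σ (T.α (T.t u)) := (σ.commutes _).symm
        rw [e]
        exact (map_evalTwo_const (σ.restrictScalars K) D.Φ _ _).symm.trans
          (by rw [D.root_β, map_zero]))
    (by rw [Fintype.card_option, AlgHom.card F₁ F₂ Ω]; exact congrArg (· + 1) T.degree_α)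
  obtain _ | σ₀ := o
  · exact (res_branch_disjoint hq hUz (x := ι (T.s u)) ho hx1.symm).elim
  refine ⟨σ₀, ?_, fun σ hσ => ?_⟩
  · obtain ⟨hV, -⟩ := isVertical_emb hq D hU σ₀
    refine (res_comap_eq_pow_iff (σ := σ₀.toRingHom) q
      (isVertical_x₂ hq D hV).u_mem.mem hV.u_mem.mem).mpr ?_
    show res U (σ₀ (T.β (T.t u))) = res U (σ₀ (T.α (T.t u))) ^ q
    rw [show σ₀ (T.α (T.t u)) = ι (T.t u) from σ₀.commutes _]
    exact ho
  · obtain ⟨hV, -⟩ := isVertical_emb hq D hU σ
    obtain ⟨-, h2⟩ := hrest (some σ) fun e => hσ (Option.some_injective _ e)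
    refine ⟨(res_comap_eq_pow_iff (σ := σ.toRingHom) q hV.u_mem.mem
        (isVertical_x₁ hq D hV).u_mem.mem).mpr ?_,
      (res_comap_eq_pow_iff (σ := σ.toRingHom) q hV.u_mem.mem
        (isVertical_x₂ hq D hV).u_mem.mem).mpr ?_⟩
    · show res U (σ (T.α (T.t u))) = res U (σ (T.α (T.s u))) ^ q
      rw [show σ (T.α (T.t u)) = ι (T.t u) from σ.commutes _,
        show σ (T.α (T.s u)) = ι (T.s u) from σ.commutes _]
      exact hx1
    · show res U (σ (T.α (T.t u))) = res U (σ (T.β (T.t u))) ^ q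
      rw [show σ (T.α (T.t u)) = ι (T.t u) from σ.commutes _]
      exact h2.symm

end Embeddings

/-- Norms over the branch `s u ≡ (t u) ^ q`. -/
theorem norm_can {V₁ : ValuationSubring F₁} (hV₁ : IsVertical W q (T.t u) V₁)
    (h : res V₁ (T.s u) = res V₁ (T.t u) ^ q) :
    ∃ V : ValuationSubring F₂, IsVertical W q (T.α (T.t u)) V ∧ IsInf T u V ∧
      V.comap T.α.toRingHom = V₁ ∧
      ∀ y : F₂, IsUnitAt V y → IsUnitAt V₁ (T.normα y) ∧
        ∀ z : F₁, T.α z ∈ V → res V y ^ q = res V (T.α z) →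
          res V₁ (T.normα y) = res V₁ z := by
  let _ : Algebra F₁ F₂ := T.α.toRingHom.toAlgebra
  have : Module.Finite F₁ F₂ := T.finite_α
  have : CharZero F₁ := charZero_of_injective_algebraMap (algebraMap K F₁).injective
  let Ω := AlgebraicClosure F₁
  let ι := algebraMap F₁ Ω
  obtain ⟨U, rfl⟩ := exists_extension (algebraMap F₁ (AlgebraicClosure F₁)) V₁
  have hall := inf_emb hq D hV₁ h
  obtain ⟨σ₁⟩ : Nonempty (F₂ →ₐ[F₁] Ω) := Fintype.card_pos_iff.mp (by
    rw [AlgHom.card F₁ F₂ Ω, T.degree_α]; exact (Fact.out : q.Prime).pos)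
  have hVs := fun σ => isVertical_emb hq D hV₁ σ
  have heq : ∀ σ : F₂ →ₐ[F₁] Ω, U.comap σ.toRingHom = U.comap σ₁.toRingHom := fun σ =>
    inf_unique hq D (hVs σ).1 (hall σ) (hVs σ₁).1 (hall σ₁)
  refine ⟨U.comap σ₁.toRingHom, (hVs σ₁).1, hall σ₁, (hVs σ₁).2, fun y hy => ?_⟩
  have hu : ∀ σ : F₂ →ₐ[F₁] Ω, IsUnitAt U (σ y) := fun σ =>
    (isUnitAt_comap σ.toRingHom U).mp (heq σ ▸ hy)
  have hnorm : ι (T.normα y) = ∏ σ : F₂ →ₐ[F₁] Ω, σ y :=
    Algebra.norm_eq_prod_embeddings F₁ Ω y
  have hN : IsUnitAt U (ι (T.normα y)) := by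
    rw [hnorm, IsUnitAt, map_prod]
    exact Finset.prod_eq_one fun σ _ => hu σ
  refine ⟨(isUnitAt_comap ι U).mpr hN, fun z hz hyz => ?_⟩
  have hzU : ι z ∈ U := by
    have : σ₁ (T.α z) ∈ U := hz
    rwa [show σ₁ (T.α z) = ι z from σ₁.commutes z] at this
  have hpow : ∀ σ : F₂ →ₐ[F₁] Ω, res U (σ y) ^ q = res U (ι z) := fun σ => by
    have e := hyz
    rw [← heq σ] at e
    have e' := (res_comap_eq_pow_iff (σ := σ.toRingHom) q (a := T.α z) (b := y)
      (show σ (T.α z) ∈ U by rw [show σ (T.α z) = ι z from σ.commutes z]; exact hzU)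
      (hu σ).mem).mp e.symm
    rw [← show σ (T.α z) = ι z from σ.commutes z]
    exact e'.symm
  have hUz : IsVertical W q (ι (T.t u)) U :=
    isVertical_of_comap (IsScalarTower.toAlgHom K F₁ Ω) hV₁
  have : CharP (IsLocalRing.ResidueField U) q := (CharP.charP_iff_prime_eq_zero Fact.out).mpr
    (by rw [← map_natCast (residue U), ← res_coe]; exact res_natCast_q hq hUz)
  refine (res_eq_iff_map ι U hN.mem hzU).mpr ?_
  rw [hnorm, res_prod _ fun σ _ => (hu σ).mem,
    Finset.prod_congr rfl fun σ _ => frobenius_inj (IsLocalRing.ResidueField U) q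
      ((hpow σ).trans (hpow σ₁).symm), Finset.prod_const, Finset.card_univ, AlgHom.card F₁ F₂ Ω,
    T.degree_α, hpow]

/-- Norms over the other branch. -/
theorem norm_oth {V₁ : ValuationSubring F₁} (hV₁ : IsVertical W q (T.t u) V₁)
    (h : res V₁ (T.t u) = res V₁ (T.s u) ^ q) :
    ∃ V₀ Vm : ValuationSubring F₂,
      IsVertical W q (T.α (T.t u)) V₀ ∧ IsZero' T u V₀ ∧ V₀.comap T.α.toRingHom = V₁ ∧
      IsVertical W q (T.α (T.t u)) Vm ∧ IsMid T u Vm ∧ Vm.comap T.α.toRingHom = V₁ ∧
      ∀ (y : F₂) (e₀ em : ℤ) (c₀ cm : F),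
        IsUnitAt V₀ (y / (q : F₂) ^ e₀) → res V₀ (y / (q : F₂) ^ e₀) = res V₀ (T.α (T.s c₀)) →
        IsUnitAt Vm (y / (q : F₂) ^ em) → res Vm (y / (q : F₂) ^ em) = res Vm (T.α (T.s cm)) →
        IsUnitAt V₁ (T.normα y / (q : F₁) ^ (e₀ + ((q - 1 : ℕ) : ℤ) * em)) ∧
          res V₁ (T.normα y / (q : F₁) ^ (e₀ + ((q - 1 : ℕ) : ℤ) * em)) =
            res V₁ (T.s (c₀ * cm ^ (q - 1))) := by
  classical
  let _ : Algebra F₁ F₂ := T.α.toRingHom.toAlgebra
  have : Module.Finite F₁ F₂ := T.finite_α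
  have : CharZero F₁ := charZero_of_injective_algebraMap (algebraMap K F₁).injective
  have hqp : q.Prime := Fact.out
  let Ω := AlgebraicClosure F₁
  let ι := algebraMap F₁ Ω
  obtain ⟨U, rfl⟩ := exists_extension (algebraMap F₁ (AlgebraicClosure F₁)) V₁
  obtain ⟨σ₀, h0, hmid⟩ := oth_emb hq D hV₁ h
  have hcard : Fintype.card (F₂ →ₐ[F₁] Ω) = q := (AlgHom.card F₁ F₂ Ω).trans T.degree_α
  obtain ⟨σm, hσm⟩ : ∃ σ : F₂ →ₐ[F₁] Ω, σ ≠ σ₀ :=
    Fintype.exists_ne_of_one_lt_card (hcard.symm ▸ hqp.one_lt) σ₀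
  have hVs := fun σ => isVertical_emb hq D hV₁ σ
  refine ⟨U.comap σ₀.toRingHom, U.comap σm.toRingHom, (hVs σ₀).1, h0, (hVs σ₀).2, (hVs σm).1,
    hmid σm hσm, (hVs σm).2, fun y e₀ em c₀ cm hu₀ hc₀ hum hcm => ?_⟩
  have heq : ∀ σ : F₂ →ₐ[F₁] Ω, σ ≠ σ₀ → U.comap σ.toRingHom = U.comap σm.toRingHom :=
    fun σ hσ => mid_unique hq D (hVs σ).1 (hmid σ hσ) (hVs σm).1 (hmid σm hσm)
  let g : (F₂ →ₐ[F₁] Ω) → Ω := fun σ =>
    σ y / (q : Ω) ^ (if σ = σ₀ then e₀ else em)
  let c : (F₂ →ₐ[F₁] Ω) → F := fun σ => if σ = σ₀ then c₀ else cm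
  have hg : ∀ σ, IsUnitAt U (g σ) ∧ res U (g σ) = res U (ι (T.s (c σ))) ∧ ι (T.s (c σ)) ∈ U := by
    intro σ
    have key : ∀ (e : ℤ) (d : F), IsUnitAt (U.comap σ.toRingHom) (y / (q : F₂) ^ e) →
        res (U.comap σ.toRingHom) (y / (q : F₂) ^ e) =
          res (U.comap σ.toRingHom) (T.α (T.s d)) →
        IsUnitAt U (σ y / (q : Ω) ^ e) ∧ res U (σ y / (q : Ω) ^ e) = res U (ι (T.s d)) ∧
          ι (T.s d) ∈ U := fun e d hu hd => by
      have hu' := (isUnitAt_comap σ.toRingHom U).mp hu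
      have hm' : T.α (T.s d) ∈ U.comap σ.toRingHom :=
        mem_of_res_ne_zero (hd ▸ hu.res_ne_zero)
      have hd' := (res_eq_iff_map σ.toRingHom U hu'.mem hm').mp hd
      have e1 : σ.toRingHom (y / (q : F₂) ^ e) = σ y / (q : Ω) ^ e := by
        rw [map_div₀, map_zpow₀, map_natCast]; rfl
      have e2 : σ.toRingHom (T.α (T.s d)) = ι (T.s d) := σ.commutes _
      rw [e1] at hu' hd'
      rw [e2] at hd'
      refine ⟨hu', hd', ?_⟩
      rw [← e2]; exact hm'
    by_cases hσ : σ = σ₀
    · subst hσ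
      simpa [g, c] using key e₀ c₀ hu₀ hc₀
    · have hk := key em cm (heq σ hσ ▸ hum) (by rw [heq σ hσ]; exact hcm)
      simpa [g, c, hσ] using hk
  have hprod : ι (T.normα y / (q : F₁) ^ (e₀ + ((q - 1 : ℕ) : ℤ) * em)) = ∏ σ, g σ := by
    rw [Finset.prod_div_distrib, map_div₀, map_zpow₀, map_natCast]
    congr 1
    · exact Algebra.norm_eq_prod_embeddings F₁ Ω y
    · rw [← Finset.mul_prod_erase Finset.univ _ (Finset.mem_univ σ₀), if_pos rfl,
        Finset.prod_congr rfl fun σ hσ => by rw [if_neg (Finset.ne_of_mem_erase hσ)],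
        Finset.prod_const, Finset.card_erase_of_mem (Finset.mem_univ σ₀), Finset.card_univ, hcard,
        zpow_add₀ (Nat.cast_ne_zero.mpr hqp.ne_zero), mul_comm ((q - 1 : ℕ) : ℤ), zpow_mul,
        zpow_natCast]
  have hu : IsUnitAt U (∏ σ, g σ) := by
    rw [IsUnitAt, map_prod]
    exact Finset.prod_eq_one fun σ _ => (hg σ).1
  refine ⟨(isUnitAt_comap ι U).mpr (hprod ▸ hu), ?_⟩
  have hc : ι (T.s (c₀ * cm ^ (q - 1))) = ∏ σ, ι (T.s (c σ)) := by
    rw [← Finset.mul_prod_erase Finset.univ _ (Finset.mem_univ σ₀),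
      Finset.prod_congr rfl fun σ hσ => by
        show _ = ι (T.s cm)
        simp only [c, if_neg (Finset.ne_of_mem_erase hσ)],
      Finset.prod_const, Finset.card_erase_of_mem (Finset.mem_univ σ₀), Finset.card_univ, hcard]
    simp [c]
  refine (res_eq_iff_map ι U (hprod ▸ hu.mem) (hc ▸ prod_mem fun σ _ => (hg σ).2.2)).mpr ?_
  rw [hprod, hc, res_prod _ fun σ _ => (hg σ).1.mem, res_prod _ fun σ _ => (hg σ).2.2]
  exact Finset.prod_congr rfl fun σ _ => (hg σ).2.1

end FermatAgent.BadRed.Carayol
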