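import Mathlib.RingTheory.UniqueFactorizationDomain.Multiplicity
import Mathlib.RingTheory.Noetherian.UniqueFactorizationDomain
import Fermat.Agent.BadRed.Carayol.Context
import Fermat.Agent.BadRed.Carayol.Ext

/-!
# The vertical valuation subring of the base level

The prime `q` of the chart ring cuts out the unique vertical valuation subring; the residue of
`u` is not a `q`-th power.
-/

set_option autoImplicit false
set_option linter.unusedSectionVars false

noncomputable section

namespace FermatAgent.BadRed.Carayol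

open Polynomial IsLocalRing

variable {q : ℕ} [Fact q.Prime] {W K F F₁ F₂ : Type*}
  [CommRing W] [IsDomain W] [IsDiscreteValuationRing W]
  [Field K] [CharZero K] [Algebra W K] [IsFractionRing W K]
  [Field F] [Field F₁] [Field F₂] [Algebra K F] [Algebra K F₁] [Algebra K F₂]
  [Algebra W F] [Algebra W F₁] [Algebra W F₂]
  [IsScalarTower W K F] [IsScalarTower W K F₁] [IsScalarTower W K F₂]
  {T : QTower q K F F₁ F₂} {u : F}

/-- The residue field of `V` is the fraction field of the special fibre of the base along `φ`. -/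
def RationalAlong {L : Type*} [Field L] [Algebra K L] (φ : F →ₐ[K] L) (W : Type*) [CommRing W]
    [Algebra W F] (q : ℕ) (u : F) (V : ValuationSubring L) : Prop :=
  ∀ y ∈ V, ∃ a b : chartRing W u, ¬ (q : chartRing W u) ∣ b ∧
    res V y * res V (φ b) = res V (φ a)

variable (hq : maximalIdeal W = Ideal.span {(q : W)}) (D : ChartData W T u)
include hq D

theorem isNoetherianRing_base : IsNoetherianRing (chartRing W u) := by
  have := D.finite_over
  exact isNoetherianRing_chartRing D.transcendental

/-- A polynomial in `u` with nonzero reduction is not divisible by `q` in the chart ring. -/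
theorem not_dvd_aeval {P : Polynomial W} (hP : P.map (residue W) ≠ 0) :
    ¬ (q : chartRing W u) ∣ ⟨aeval u P, aeval_mem_chartRing P⟩ := by
  rintro ⟨c, hc⟩
  obtain ⟨V, hV⟩ := exists_isVertical (L := F) W q u D.transcendental hq
  have h1 := hV.isUnitAt P hP
  have h2 : aeval u P ∈ V.nonunits := by
    rw [show aeval u P = (q : F) * (c : F) by simpa using congrArg Subtype.val hc,
      ValuationSubring.mem_nonunits_iff, map_mul]
    exact mul_lt_one_of_lt_of_le hV.q_mem ((V.valuation_le_one_iff _).mpr (hV.chartRing_le c.2))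
  exact (ne_of_lt h2) h1

/-- Nonunits of a vertical valuation subring in the chart ring are the multiples of `q`. -/
theorem mem_nonunits_iff_dvd {V : ValuationSubring F} (hV : IsVertical W q u V)
    (a : chartRing W u) : (a : F) ∈ V.nonunits ↔ (q : chartRing W u) ∣ a := by
  classical
  constructor
  · intro ha
    by_contra hndvd
    obtain ⟨p, hp, hpa⟩ := mem_chartRing_iff.mp a.2
    choose P hP using fun i => Algebra.adjoin_mem_exists_aeval _ _ (p.coeff i).2
    let c : ℕ → chartRing W u := fun i => ⟨aeval u (P i), aeval_mem_chartRing (P i)⟩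
    have hsum : ∑ i ∈ Finset.range (p.natDegree + 1), c i * a ^ i = 0 := Subtype.ext (by
      push_cast
      rw [eval₂_eq_sum_range] at hpa
      refine (Finset.sum_congr rfl fun i _ => ?_).trans hpa
      show aeval u (P i) * (a : F) ^ i = _
      rw [hP i]; rfl)
    -- the first coefficient with nonzero reduction
    have hex : ∃ i, (P i).map (residue W) ≠ 0 := by
      refine ⟨p.natDegree, fun h => ?_⟩
      have h1 : aeval u (P p.natDegree) = 1 := by
        rw [hP, hp.coeff_natDegree]; rfl
      have h2 : P p.natDegree = 1 := by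
        refine map_injective (algebraMap W K) (IsFractionRing.injective W K)
          (transcendental_iff_injective.mp D.transcendental ?_)
        rw [aeval_map_algebraMap, h1, Polynomial.map_one, map_one]
      rw [h2, Polynomial.map_one] at h
      exact one_ne_zero h
    set m := Nat.find hex
    have hlow : ∀ j < m, (q : chartRing W u) ∣ c j := fun j hj => by
      have h0 : (P j).map (residue W) = 0 := not_not.mp (Nat.find_min hex hj)
      obtain ⟨R, hR⟩ : C (q : W) ∣ P j := by
        rw [C_dvd_iff_dvd_coeff]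
        intro i
        have : residue W ((P j).coeff i) = 0 := by rw [← coeff_map, h0, coeff_zero]
        rwa [residue_eq_zero_iff, hq, Ideal.mem_span_singleton] at this
      exact ⟨⟨aeval u R, aeval_mem_chartRing R⟩, Subtype.ext (by
        simp only [c, hR, map_mul, map_natCast]; rfl)⟩
    have hm : m ≤ p.natDegree := by
      by_contra hlt
      have h1 : aeval u (P m) = 0 := by
        rw [hP, coeff_eq_zero_of_natDegree_lt (not_le.mp hlt)]; rfl
      exact not_dvd_aeval hq D (Nat.find_spec hex) ⟨0, Subtype.ext (by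
        rw [mul_zero]; exact h1)⟩
    have key : (q : chartRing W u) ∣ a ^ m * (c m + a *
        ∑ i ∈ Finset.range (p.natDegree - m), c (m + 1 + i) * a ^ i) := by
      have hsplit : ∑ i ∈ Finset.range (p.natDegree + 1), c i * a ^ i =
          (∑ i ∈ Finset.range m, c i * a ^ i) + a ^ m * (c m + a *
            ∑ i ∈ Finset.range (p.natDegree - m), c (m + 1 + i) * a ^ i) := by
        rw [show p.natDegree + 1 = (m + 1) + (p.natDegree - m) by omega, Finset.sum_range_add,
          Finset.sum_range_succ, mul_add, ← mul_assoc, ← pow_succ, Finset.mul_sum, add_assoc,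
          mul_comm (c m)]
        congr 2
        exact Finset.sum_congr rfl fun i _ => by rw [pow_add]; ring
      rw [hsum] at hsplit
      rw [← eq_neg_iff_add_eq_zero.mpr ((add_comm _ _).trans hsplit.symm) |>.symm.trans rfl]
      exact dvd_neg.mpr (Finset.dvd_sum fun i hi =>
        (hlow i (Finset.mem_range.mp hi)).mul_right _) |> fun h => by simpa using h
    rcases D.q_prime.dvd_or_dvd key with h | h
    · exact hndvd (D.q_prime.dvd_of_dvd_pow h)
    · obtain ⟨d, hd⟩ := h
      have : aeval u (P m) ∈ V.nonunits := by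
        have e : aeval u (P m) = (q : F) * d - (a : F) *
            ((∑ i ∈ Finset.range (p.natDegree - m), c (m + 1 + i) * a ^ i : chartRing W u) : F) := by
          have := congrArg Subtype.val hd
          push_cast at this ⊢
          linear_combination this
        rw [e]
        refine sub_mem ?_ ?_ <;>
          rw [ValuationSubring.mem_nonunits_iff, map_mul]
        · exact mul_lt_one_of_lt_of_le hV.q_mem
            ((V.valuation_le_one_iff _).mpr (hV.chartRing_le d.2))
        · exact mul_lt_one_of_lt_of_le ha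
            ((V.valuation_le_one_iff _).mpr (hV.chartRing_le (Subtype.mem _)))
      exact (ne_of_lt this) (hV.isUnitAt _ (Nat.find_spec hex))
  · rintro ⟨c, rfl⟩
    rw [ValuationSubring.mem_nonunits_iff]
    push_cast
    rw [map_mul]
    exact mul_lt_one_of_lt_of_le (show V.valuation (q : F) < 1 from hV.q_mem)
      ((V.valuation_le_one_iff _).mpr (hV.chartRing_le c.2))

theorem isUnitAt_base_of_not_dvd {V : ValuationSubring F} (hV : IsVertical W q u V)
    {a : chartRing W u} (ha : ¬ (q : chartRing W u) ∣ a) : IsUnitAt V (a : F) :=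
  le_antisymm ((V.valuation_le_one_iff _).mpr (hV.chartRing_le a.2))
    (not_lt.mp fun h => ha ((mem_nonunits_iff_dvd hq D hV a).mp h))

theorem q_ne_zero_base' : (q : F) ≠ 0 := by
  rw [← map_natCast (algebraMap K F)]
  exact (map_ne_zero_iff _ (algebraMap K F).injective).mpr (natCast_ne_zero_frac hq)

/-- Every nonzero element is a power of `q` times a fraction prime to `q`. -/
theorem exists_eq_zpow_mul {y : F} (hy : y ≠ 0) :
    ∃ (k : ℤ) (a b : chartRing W u), ¬ (q : chartRing W u) ∣ a ∧ ¬ (q : chartRing W u) ∣ b ∧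
      y * b = (q : F) ^ k * a := by
  have := isNoetherianRing_base hq D
  have := D.finite_over
  obtain ⟨p, hp0, hpf⟩ :=
    (Algebra.IsAlgebraic.of_finite (IntermediateField.adjoin K {u}) F).isAlgebraic y
  obtain ⟨c, hc, hcz⟩ := (isAlgebraic_adjoin_of_isAlgebraic_intermediateField hq
    D.transcendental p hp0 hpf).exists_integral_multiple
  let A₀ : chartRing W u := ⟨c • y, mem_chartRing_iff.mpr hcz⟩
  let B₀ : chartRing W u := ⟨(c : F), mem_chartRing_iff.mpr (isIntegral_algebraMap (x := c))⟩
  have hB : B₀ ≠ 0 := fun h => hc (Subtype.ext (congrArg (fun x : chartRing W u => (x : F)) h :))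
  have heq : y * (B₀ : F) = (A₀ : F) := by
    show y * (c : F) = c • y
    rw [Algebra.smul_def, mul_comm]
    rfl
  have hA : A₀ ≠ 0 := fun h => by
    rw [h, ZeroMemClass.coe_zero, mul_eq_zero] at heq
    exact heq.elim hy fun h' => hB (Subtype.ext h')
  obtain ⟨a, ha, hadvd⟩ :=
    (FiniteMultiplicity.of_prime_left D.q_prime hA).exists_eq_pow_mul_and_not_dvd
  obtain ⟨b, hb, hbdvd⟩ :=
    (FiniteMultiplicity.of_prime_left D.q_prime hB).exists_eq_pow_mul_and_not_dvd
  refine ⟨(multiplicity (q : chartRing W u) A₀ : ℤ) - multiplicity (q : chartRing W u) B₀, a, b,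
    hadvd, hbdvd, ?_⟩
  rw [zpow_sub₀ (q_ne_zero_base' hq D), zpow_natCast, zpow_natCast, div_mul_eq_mul_div,
    eq_div_iff (pow_ne_zero _ (q_ne_zero_base' hq D))]
  have h1 : ((A₀ : chartRing W u) : F) = (q : F) ^ multiplicity (q : chartRing W u) A₀ * a := by
    conv_lhs => rw [ha]
    push_cast; ring
  have h2 : ((B₀ : chartRing W u) : F) = (q : F) ^ multiplicity (q : chartRing W u) B₀ * b := by
    conv_lhs => rw [hb]
    push_cast; ring
  rw [← h1, ← heq, h2]; ring

theorem disc_base {V : ValuationSubring F} (hV : IsVertical W q u V) : Disc (q : F) V :=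
  fun y hy => by
    obtain ⟨k, a, b, ha, hb, h⟩ := exists_eq_zpow_mul hq D hy
    refine ⟨k, ?_⟩
    have hbu := isUnitAt_base_of_not_dvd hq D hV hb
    rw [show y / (q : F) ^ k = (a : F) / b by
      rw [div_eq_div_iff (zpow_ne_zero k (q_ne_zero_base' hq D)) hbu.ne_zero, h]; ring]
    exact (isUnitAt_base_of_not_dvd hq D hV ha).div hbu

theorem exists_eq_div_base {V : ValuationSubring F} (hV : IsVertical W q u V) {y : F}
    (hy : y ∈ V) : ∃ a b : chartRing W u, ¬ (q : chartRing W u) ∣ b ∧ y * b = a := by
  rcases eq_or_ne y 0 with rfl | hy0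
  · exact ⟨0, 1, fun h => D.q_prime.not_isUnit (isUnit_of_dvd_one h), by simp⟩
  obtain ⟨k, a, b, ha, hb, h⟩ := exists_eq_zpow_mul hq D hy0
  have hk : 0 ≤ k := by
    by_contra hlt
    have h1 : V.valuation y = V.valuation (q : F) ^ k := by
      have := congrArg V.valuation h
      rwa [map_mul, map_mul, map_zpow₀, isUnitAt_base_of_not_dvd hq D hV ha,
        isUnitAt_base_of_not_dvd hq D hV hb, mul_one, mul_one] at this
    have : 1 < V.valuation (q : F) ^ k := one_lt_zpow_of_neg₀
      (zero_lt_iff.mpr ((Valuation.ne_zero_iff _).mpr (q_ne_zero_base' hq D))) hV.q_mem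
      (by omega)
    exact absurd ((V.valuation_le_one_iff y).mpr hy) (not_le.mpr (h1 ▸ this))
  obtain ⟨j, rfl⟩ := Int.eq_ofNat_of_zero_le hk
  exact ⟨(q : chartRing W u) ^ j * a, b, hb, by rw [h, zpow_natCast]; push_cast; rfl⟩

/-- The base has only one vertical valuation subring. -/
theorem isVertical_base_unique {V V' : ValuationSubring F} (hV : IsVertical W q u V)
    (hV' : IsVertical W q u V') : V = V' := by
  have : ∀ {V V' : ValuationSubring F}, IsVertical W q u V → IsVertical W q u V' → V ≤ V' :=
    fun {V V'} hV hV' y hy => by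
      obtain ⟨a, b, hb, h⟩ := exists_eq_div_base hq D hV hy
      have hbu := isUnitAt_base_of_not_dvd hq D hV' hb
      rw [show y = (a : F) * (b : F)⁻¹ by rw [← h, mul_inv_cancel_right₀ hbu.ne_zero]]
      exact mul_mem (hV'.chartRing_le a.2) hbu.inv.mem
  exact le_antisymm (this hV hV') (this hV' hV)

/-- The residue of `u` is not a `q`-th power. -/
theorem res_pow_ne_res [IsAlgClosed (ResidueField W)] {V : ValuationSubring F}
    (hV : IsVertical W q u V) {y : F} (hy : y ∈ V) : res V y ^ q ≠ res V u := by
  intro hyq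
  obtain ⟨a, b, hb, h⟩ := exists_eq_div_base hq D hV hy
  let u₀ : chartRing W u := ⟨u, self_mem_chartRing⟩
  -- `a ^ q ≡ u * b ^ q`
  have hdvd : (q : chartRing W u) ∣ a ^ q - u₀ * b ^ q := by
    rw [← mem_nonunits_iff_dvd hq D hV, ← res_eq_zero_iff (hV.chartRing_le (Subtype.mem _))]
    push_cast
    rw [← h, res_sub (pow_mem (mul_mem hy (hV.chartRing_le b.2)) _)
      (mul_mem hV.u_mem.mem (pow_mem (hV.chartRing_le b.2) _)),
      res_pow (mul_mem hy (hV.chartRing_le b.2)), res_mul hy (hV.chartRing_le b.2), mul_pow, hyq,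
      res_mul hV.u_mem.mem (pow_mem (hV.chartRing_le b.2) _), res_pow (hV.chartRing_le b.2),
      sub_self]
  let I : Ideal (chartRing W u) := Ideal.span {(q : chartRing W u)}
  have : I.IsPrime := (Ideal.span_singleton_prime D.q_prime.ne_zero).mpr D.q_prime
  have := D.fibre_normal
  let mk := Ideal.Quotient.mk I
  have hq0 : 0 < q := (Fact.out : q.Prime).pos
  have h1 : mk b ^ q ∣ mk a ^ q := ⟨mk u₀, by
    rw [← map_pow, ← map_pow, ← map_mul, mul_comm (b ^ q), Ideal.Quotient.eq,
      Ideal.mem_span_singleton]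
    exact hdvd⟩
  obtain ⟨cbar, hc⟩ := (IsIntegrallyClosed.pow_dvd_pow_iff hq0.ne').mp h1
  obtain ⟨c, rfl⟩ := Ideal.Quotient.mk_surjective cbar
  have hcq : mk (c ^ q) = mk u₀ := by
    have hb0 : mk b ^ q ≠ 0 := pow_ne_zero _ fun h0 =>
      hb (Ideal.mem_span_singleton.mp (Ideal.Quotient.eq_zero_iff_mem.mp h0))
    refine mul_left_cancel₀ hb0 ?_
    rw [map_pow, ← mul_pow, ← hc, ← map_pow, ← map_pow, ← map_mul, Ideal.Quotient.eq,
      Ideal.mem_span_singleton, mul_comm]
    exact hdvd
  obtain ⟨d, hd⟩ := Ideal.mem_span_singleton.mp (Ideal.Quotient.eq.mp hcq.symm)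
  -- a point with non-cuspidal value
  classical
  obtain ⟨wbar, hwbar⟩ := Infinite.exists_notMem_finset (D.cusps.image (residue W))
  obtain ⟨w, rfl⟩ := residue_surjective wbar
  let x : chartRing W u := u₀ - algebraMap W _ w
  have hne : Ideal.span {(q : chartRing W u), x} ≠ ⊤ := fun htop => by
    obtain ⟨s, r, hsr⟩ := Ideal.mem_span_pair.mp ((Ideal.eq_top_iff_one _).mp htop)
    let j : Polynomial W →+* (Algebra.adjoin W {u}).toSubring :=
      (aeval u : Polynomial W →ₐ[W] F).toRingHom.codRestrict _
        fun P => aeval_mem_adjoin_singleton W u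
    obtain ⟨V', hV'⟩ : ∃ V' : ValuationSubring F, (∀ e : chartRing W u, (e : F) ∈ V') ∧
        (q : F) ∈ V'.nonunits ∧ (x : F) ∈ V'.nonunits := by
      obtain ⟨V₁, hV₁, hV₁'⟩ := Ideal.image_subset_nonunits_valuationSubring
        (A := (Algebra.adjoin W {u}).toSubring)
        ((RingHom.ker ((residue W).comp (evalRingHom w))).map j) (fun htop' => by
          have hbij : Function.Bijective j := by
            refine ⟨fun P R hPR => ?_, fun z => ?_⟩
            · refine map_injective (algebraMap W K) (IsFractionRing.injective W K)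
                (transcendental_iff_injective.mp D.transcendental ?_)
              rw [aeval_map_algebraMap, aeval_map_algebraMap]
              exact congrArg Subtype.val hPR
            · obtain ⟨P, hP⟩ := Algebra.adjoin_mem_exists_aeval _ _ z.2
              exact ⟨P, Subtype.ext hP⟩
          have h1 := congrArg (Ideal.comap j) htop'
          rw [Ideal.comap_map_of_bijective _ hbij, Ideal.comap_top] at h1
          exact RingHom.ker_ne_top _ h1)
      have hmem : ∀ P : Polynomial W, residue W (P.eval w) = 0 → aeval u P ∈ V₁.nonunits :=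
        fun P hP => hV₁' ⟨_, Ideal.mem_map_of_mem _ hP, rfl⟩
      refine ⟨V₁, fun e => mem_of_mem_chartRing
        (fun c' => hV₁ ((Algebra.adjoin W {u}).algebraMap_mem c'))
        (hV₁ (Algebra.self_mem_adjoin_singleton W u)) e.2, ?_, ?_⟩
      · have := hmem (C (q : W)) (by
          rw [eval_C, residue_eq_zero_iff]; exact natCast_mem_maximalIdeal hq)
        simpa using this
      · have := hmem (X - C w) (by simp)
        simpa [x, u₀] using this
    have h1 : (1 : F) ∈ V'.nonunits := by
      rw [← show (s : F) * q + (r : F) * x = 1 by simpa using congrArg Subtype.val hsr]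
      refine add_mem ?_ ?_ <;> rw [ValuationSubring.mem_nonunits_iff, map_mul, mul_comm]
      · exact mul_lt_one_of_lt_of_le hV'.2.1 ((V'.valuation_le_one_iff _).mpr (hV'.1 s))
      · exact mul_lt_one_of_lt_of_le hV'.2.2 ((V'.valuation_le_one_iff _).mpr (hV'.1 r))
    simp [ValuationSubring.mem_nonunits_iff] at h1
  obtain ⟨Q, hQ, hQle⟩ := Ideal.exists_le_maximal _ hne
  have hqQ : (q : chartRing W u) ∈ Q := hQle (Ideal.subset_span (by simp))
  have hxQ : x ∈ Q := hQle (Ideal.subset_span (by simp))
  have hnc : ∀ b ∈ D.cusps, residue W w ≠ residue W b := fun b hb hwb =>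
    hwbar (hwb ▸ Finset.mem_image_of_mem _ hb)
  obtain ⟨e, he⟩ := exists_sub_mem_of_isMaximal hq Q hqQ c
  -- `x ≡ (c - e) ^ q` modulo `q`
  have hcharp : CharP (chartRing W u ⧸ I) q := (CharP.charP_iff_prime_eq_zero Fact.out).mpr
    (by rw [← map_natCast mk]; exact Ideal.Quotient.eq_zero_iff_mem.mpr (Ideal.mem_span_singleton_self _))
  have hexp : ∃ g : chartRing W u,
      (c - algebraMap W _ e) ^ q = u₀ - algebraMap W _ (e ^ q) + (q : chartRing W u) * g := by
    have : mk ((c - algebraMap W _ e) ^ q) = mk (u₀ - algebraMap W _ (e ^ q)) := by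
      rw [map_pow, map_sub, sub_pow_char, ← map_pow, hcq, map_sub, map_pow, map_pow]
    obtain ⟨g, hg⟩ := Ideal.mem_span_singleton.mp (Ideal.Quotient.eq.mp this)
    exact ⟨g, by linear_combination hg⟩
  obtain ⟨g, hg⟩ := hexp
  have hwe : residue W w = residue W (e ^ q) := residue_eq_of_sub_mem (P := Q) (y := u₀) hxQ (by
    have : u₀ - algebraMap W _ (e ^ q) =
        (c - algebraMap W _ e) ^ q - (q : chartRing W u) * g := by linear_combination -hg
    rw [this]
    exact Q.sub_mem (Q.pow_mem_of_mem he q hq0) (Q.mul_mem_right _ hqQ))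
  obtain ⟨r, hr, hrmem⟩ := D.etale Q hQ hqQ w hnc x rfl hxQ (c - algebraMap W _ e) he
  obtain ⟨h₁, h₂, h12⟩ := Ideal.mem_span_pair.mp hrmem
  -- reduce modulo `q`
  obtain ⟨v, hv⟩ : (q : W) ∣ e ^ q - w := by
    rw [← Ideal.mem_span_singleton, ← hq, ← residue_eq_zero_iff, map_sub, hwe, sub_self]
  have hmod : mk r * mk (c - algebraMap W _ e) = mk h₂ * mk (c - algebraMap W _ e) ^ q := by
    rw [← map_pow, ← map_mul, ← map_mul, Ideal.Quotient.eq, Ideal.mem_span_singleton, hg]
    refine ⟨h₁ + h₂ * algebraMap W _ v - h₂ * g, ?_⟩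
    have hv' : algebraMap W (chartRing W u) (e ^ q) =
        algebraMap W _ w + (q : chartRing W u) * algebraMap W _ v := by
      rw [← map_natCast (algebraMap W (chartRing W u)), ← map_mul, ← hv, ← map_add]
      congr 1; ring
    rw [hv']
    linear_combination -h12
  by_cases hz : mk (c - algebraMap W _ e) = 0
  · have hxu : mk u₀ = mk (algebraMap W _ (e ^ q)) := by
      have := congrArg mk hg
      rw [map_pow, hz, zero_pow hq0.ne', map_add, map_mul,
        show mk (q : chartRing W u) = 0 from
          Ideal.Quotient.eq_zero_iff_mem.mpr (Ideal.mem_span_singleton_self _),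
        zero_mul, add_zero, map_sub, eq_comm, sub_eq_zero] at this
      exact this
    refine not_dvd_aeval hq D (P := X - C (e ^ q)) ?_ ?_
    · rw [Polynomial.map_sub, map_X, map_C]
      exact X_sub_C_ne_zero _
    · have h2 := Ideal.mem_span_singleton.mp (Ideal.Quotient.eq.mp hxu)
      convert h2 using 1
      exact Subtype.ext (by simp [u₀])
  · have h3 : mk r = mk h₂ * mk (c - algebraMap W _ e) ^ (q - 1) := by
      refine mul_right_cancel₀ hz ?_
      rw [mul_assoc, pow_sub_one_mul hq0.ne', hmod]
    rw [← map_pow, ← map_mul, Ideal.Quotient.eq] at h3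
    refine hr ?_
    have hq1 : 0 < q - 1 := by have := (Fact.out : q.Prime).two_le; omega
    rw [← sub_add_cancel r (h₂ * (c - algebraMap W _ e) ^ (q - 1))]
    exact Q.add_mem ((Ideal.span_singleton_le_iff_mem _).mpr hqQ h3)
      (Q.mul_mem_left _ (Q.pow_mem_of_mem he _ hq1))

/-- Elements integral over the chart have residue in the special fibre of the base. -/
theorem exists_res_eq_of_mem_chartRing {L : Type*} [Field L] [Algebra K L] [Algebra W L]
    [IsScalarTower W K L] (φ : F →ₐ[K] L) {V : ValuationSubring L}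
    (hV : IsVertical W q (φ u) V) (hrat : RationalAlong φ W q u V) {y : L}
    (hy : y ∈ chartRing W (φ u)) : ∃ c : chartRing W u, res V y = res V (φ c) := by
  classical
  let I : Ideal (chartRing W u) := Ideal.span {(q : chartRing W u)}
  have : I.IsPrime := (Ideal.span_singleton_prime D.q_prime.ne_zero).mpr D.q_prime
  have := D.fibre_normal
  have hmem : ∀ a : chartRing W u, φ a ∈ V := fun a => hV.chartRing_le (map_mem_chartRing φ a.2)
  let ψ₀ : chartRing W u →+* IsLocalRing.ResidueField V :=
    (residue V).comp ((φ.toRingHom.comp (chartRing W u).val.toRingHom).codRestrict V.toSubring hmem)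
  have hψ₀ : ∀ a, ψ₀ a = res V (φ a) := fun a => (res_of_mem (hmem a)).symm
  have hker : RingHom.ker ψ₀ = I := by
    ext a
    rw [RingHom.mem_ker, hψ₀, res_eq_zero_iff (hmem a), Ideal.mem_span_singleton]
    exact (mem_nonunits_comap φ.toRingHom V).symm.trans
      (mem_nonunits_iff_dvd hq D (hV.comap φ) a)
  let ψ : chartRing W u ⧸ I →+* IsLocalRing.ResidueField V :=
    Ideal.Quotient.lift I ψ₀ fun a ha => RingHom.mem_ker.mp (hker ▸ ha)
  have hψinj : Function.Injective ψ := RingHom.lift_injective_of_ker_le_ideal _ _ hker.le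
  let _ : Algebra (chartRing W u ⧸ I) (IsLocalRing.ResidueField V) := ψ.toAlgebra
  have hyV := hV.chartRing_le hy
  obtain ⟨a, b, hb, hab⟩ := hrat y hyV
  -- the residue is integral over the special fibre
  have hint : IsIntegral (chartRing W u ⧸ I) (res V y) := by
    obtain ⟨p, hp, hpy⟩ := mem_chartRing_iff.mp hy
    have hlift : ∀ i, ∃ P : Polynomial W, aeval (φ u) P = (p.coeff i : L) :=
      fun i => Algebra.adjoin_mem_exists_aeval _ _ (p.coeff i).2
    choose P hP using hlift
    let p' : Polynomial (chartRing W u ⧸ I) :=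
      X ^ p.natDegree + ∑ i ∈ Finset.range p.natDegree,
        C (Ideal.Quotient.mk I ⟨aeval u (P i), aeval_mem_chartRing (P i)⟩) * X ^ i
    refine ⟨p', monic_X_pow_add ?_, ?_⟩
    · refine (degree_sum_le _ _).trans_lt ((Finset.sup_lt_iff (WithBot.bot_lt_coe _)).mpr
        fun i hi => (degree_C_mul_X_pow_le _ _).trans_lt ?_)
      exact_mod_cast Finset.mem_range.mp hi
    · rw [eval₂_add, eval₂_X_pow, eval₂_finsetSum]
      simp only [eval₂_mul, eval₂_C, eval₂_X_pow]
      rw [eval₂_eq_sum_range, Finset.sum_range_succ, hp.coeff_natDegree, map_one, one_mul,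
        add_comm] at hpy
      have hterm : ∀ i, algebraMap (chartRing W u ⧸ I) (IsLocalRing.ResidueField V)
          (Ideal.Quotient.mk I ⟨aeval u (P i), aeval_mem_chartRing (P i)⟩) * res V y ^ i =
          res V (algebraMap _ L (p.coeff i) * y ^ i) := fun i => by
        have e : algebraMap (Algebra.adjoin W {φ u}) L (p.coeff i) = φ (aeval u (P i)) := by
          rw [map_aeval_const, hP]; rfl
        rw [e, res_mul (hmem ⟨_, aeval_mem_chartRing (P i)⟩) (pow_mem hyV i), res_pow hyV,
          ← hψ₀ ⟨_, aeval_mem_chartRing (P i)⟩]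
        rfl
      simp only [hterm]
      have hcmem : ∀ i, algebraMap (Algebra.adjoin W {φ u}) L (p.coeff i) * y ^ i ∈ V := fun i => by
        refine mul_mem ?_ (pow_mem hyV i)
        show (p.coeff i : L) ∈ V
        rw [← hP]
        exact hV.aeval_mem _
      have hsum : ∀ s : Finset ℕ, res V (∑ i ∈ s, algebraMap _ L (p.coeff i) * y ^ i) =
          ∑ i ∈ s, res V (algebraMap (Algebra.adjoin W {φ u}) L (p.coeff i) * y ^ i) := fun s => by
        induction s using Finset.induction_on with
        | empty => simp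
        | insert i t hit ih =>
          rw [Finset.sum_insert hit, Finset.sum_insert hit,
            res_add (hcmem i) (sum_mem fun j _ => hcmem j), ih]
      rw [← hsum, ← res_pow hyV, ← res_add (pow_mem hyV _) (sum_mem fun i _ => hcmem i), hpy,
        res_zero]
  let FK := FractionRing (chartRing W u ⧸ I)
  let Φ' : FK →ₐ[chartRing W u ⧸ I] IsLocalRing.ResidueField V :=
    IsFractionRing.liftAlgHom (g := Algebra.ofId _ _) hψinj
  have hb' : Ideal.Quotient.mk I b ≠ 0 := fun h0 =>
    hb (Ideal.mem_span_singleton.mp (Ideal.Quotient.eq_zero_iff_mem.mp h0))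
  let z : FK := algebraMap _ FK (Ideal.Quotient.mk I a) / algebraMap _ FK (Ideal.Quotient.mk I b)
  have hb'' : algebraMap (chartRing W u ⧸ I) (IsLocalRing.ResidueField V)
      (Ideal.Quotient.mk I b) ≠ 0 := (map_ne_zero_iff _ hψinj).mpr hb'
  have hz : Φ' z = res V y := by
    rw [map_div₀, AlgHom.commutes, AlgHom.commutes, div_eq_iff hb'']
    show ψ₀ a = res V y * ψ₀ b
    rw [hψ₀, hψ₀, hab]
  obtain ⟨cbar, hc⟩ := IsIntegrallyClosed.isIntegral_iff.mp
    ((isIntegral_algHom_iff Φ' Φ'.toRingHom.injective).mp (hz ▸ hint : IsIntegral _ (Φ' z)))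
  obtain ⟨c, rfl⟩ := Ideal.Quotient.mk_surjective cbar
  refine ⟨c, ?_⟩
  rw [← hz, ← hc, AlgHom.commutes, ← hψ₀]
  rfl

end FermatAgent.BadRed.Carayol
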