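import Fermat.Agent.BadRed.Carayol.Kronecker
import Fermat.Agent.BadRed.Carayol.LocalRing

/-!
# Values at a closed point of the special fibre
-/

set_option autoImplicit false
set_option linter.unusedSectionVars false

noncomputable section

namespace FermatAgent.BadRed.Carayol

open Polynomial IsLocalRing

variable {W K L : Type*} [CommRing W] [IsDomain W] [IsDiscreteValuationRing W]
  [Field K] [Algebra W K] [Field L] [Algebra K L] [Algebra W L] [IsScalarTower W K L]
  {q : ℕ} {u : L}
  (hq : maximalIdeal W = Ideal.span {(q : W)}) {P : Ideal (chartRing W u)} [P.IsMaximal]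
  (hqP : (q : chartRing W u) ∈ P)

/-- The constants inside the local ring. -/
def locConst (P : Ideal (chartRing W u)) [P.IsMaximal] : W →+* locRing P :=
  (algebraMap (chartRing W u) (locRing P)).comp (algebraMap W (chartRing W u))

theorem coe_locConst (w : W) : ((locConst P w : locRing P) : L) = algebraMap W L w := rfl

theorem loc_const (w : W) : Loc u P (algebraMap W L w) := (locConst P w).2

theorem loc_self : Loc u P u := chartRing_le_locRing P self_mem_chartRing

theorem loc_natCast (m : ℕ) : Loc u P (m : L) := by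
  rw [← map_natCast (algebraMap W L)]; exact loc_const _

include hq hqP in
theorem locConst_residue_eq_zero (w : W) (hw : w ∈ maximalIdeal W) :
    residue (locRing P) (locConst P w) = 0 := by
  rw [hq, Ideal.mem_span_singleton'] at hw
  obtain ⟨v, rfl⟩ := hw
  rw [map_mul, map_mul, mul_eq_zero]
  refine Or.inr ((residue_eq_zero_iff _).mpr ?_)
  have : InMax P ((q : chartRing W u) : L) := inMax_of_mem hqP
  have h2 := (inMax_iff this.loc).mp this
  convert h2 using 1
  exact Subtype.ext (by rw [coe_locConst, map_natCast]; simp)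

/-- The residue field of the constants maps to the residue field of the point. -/
def pointHom : IsLocalRing.ResidueField W →+* IsLocalRing.ResidueField (locRing P) :=
  Ideal.Quotient.lift (maximalIdeal W) ((residue (locRing P)).comp (locConst P))
    fun w hw => locConst_residue_eq_zero hq hqP w hw

theorem pointHom_residue (w : W) :
    pointHom hq hqP (residue W w) = residue (locRing P) (locConst P w) := rfl

variable [IsAlgClosed (IsLocalRing.ResidueField W)]

theorem pointHom_bijective : Function.Bijective (pointHom hq hqP) := by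
  refine ⟨(pointHom hq hqP).injective, fun r => ?_⟩
  obtain ⟨⟨y, hy⟩, rfl⟩ := residue_surjective r
  obtain ⟨s, a, hs, ha⟩ := hy
  obtain ⟨va, hva⟩ := exists_sub_mem_of_isMaximal hq P hqP a
  obtain ⟨vs, hvs⟩ := exists_sub_mem_of_isMaximal hq P hqP s
  have hconv : ∀ (z : chartRing W u) (v : W), z - algebraMap W _ v ∈ P →
      residue (locRing P) (algebraMap (chartRing W u) (locRing P) z) =
        pointHom hq hqP (residue W v) := fun z v hz => by
    rw [pointHom_residue, locConst, RingHom.comp_apply, ← sub_eq_zero, ← map_sub, ← map_sub,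
      residue_eq_zero_iff]
    exact (IsLocalization.AtPrime.to_map_mem_maximal_iff (locRing P) P _).mpr hz
  have hs0 : residue W vs ≠ 0 := fun h => by
    have h2 := hconv s vs hvs
    rw [h, map_zero, residue_eq_zero_iff,
      IsLocalization.AtPrime.to_map_mem_maximal_iff (locRing P) P] at h2
    exact hs h2
  refine ⟨residue W va / residue W vs, ?_⟩
  rw [map_div₀, div_eq_iff ((map_ne_zero_iff _ (pointHom hq hqP).injective).mpr hs0),
    ← hconv a va hva, ← hconv s vs hvs, ← map_mul]
  congr 1
  exact Subtype.ext ((ha.symm.trans (mul_comm _ _)))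

open Classical in
/-- The value at the point, junk value zero outside the local ring. -/
def pval (y : L) : IsLocalRing.ResidueField W :=
  if h : Loc u P y then
    (RingEquiv.ofBijective _ (pointHom_bijective hq hqP)).symm (residue (locRing P) ⟨y, h⟩)
  else 0

theorem pval_of_loc {y : L} (h : Loc u P y) : pval hq hqP y =
    (RingEquiv.ofBijective _ (pointHom_bijective hq hqP)).symm (residue (locRing P) ⟨y, h⟩) :=
  dif_pos h

theorem pval_locRing (y : locRing P) : pval hq hqP (y : L) =
    (RingEquiv.ofBijective _ (pointHom_bijective hq hqP)).symm (residue (locRing P) y) :=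
  pval_of_loc hq hqP y.2

theorem pval_const (w : W) : pval hq hqP (algebraMap W L w) = residue W w := by
  rw [← coe_locConst (P := P) w, pval_locRing, ← pointHom_residue hq hqP,
    RingEquiv.symm_apply_eq]
  rfl

theorem pval_natCast (m : ℕ) : pval hq hqP (m : L) = (m : IsLocalRing.ResidueField W) := by
  rw [← map_natCast (algebraMap W L), pval_const, map_natCast]

theorem pval_one : pval hq hqP (1 : L) = 1 := by
  have := pval_natCast hq hqP 1
  simpa using this

theorem pval_zero : pval hq hqP (0 : L) = 0 := by
  have := pval_natCast hq hqP 0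
  simpa using this

theorem pval_natCast_q : pval hq hqP (q : L) = 0 := by
  rw [pval_natCast, ← map_natCast (residue W), residue_eq_zero_iff]
  exact natCast_mem_maximalIdeal hq

variable {x y : L}

theorem pval_add (hx : Loc u P x) (hy : Loc u P y) :
    pval hq hqP (x + y) = pval hq hqP x + pval hq hqP y := by
  rw [pval_of_loc hq hqP hx, pval_of_loc hq hqP hy, ← map_add, ← map_add]
  exact pval_locRing hq hqP (⟨x, hx⟩ + ⟨y, hy⟩)

theorem pval_mul (hx : Loc u P x) (hy : Loc u P y) :
    pval hq hqP (x * y) = pval hq hqP x * pval hq hqP y := by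
  rw [pval_of_loc hq hqP hx, pval_of_loc hq hqP hy, ← map_mul, ← map_mul]
  exact pval_locRing hq hqP (⟨x, hx⟩ * ⟨y, hy⟩)

theorem pval_neg (hx : Loc u P x) : pval hq hqP (-x) = -pval hq hqP x := by
  rw [pval_of_loc hq hqP hx, ← map_neg, ← map_neg]
  exact pval_locRing hq hqP (-⟨x, hx⟩)

theorem pval_sub (hx : Loc u P x) (hy : Loc u P y) :
    pval hq hqP (x - y) = pval hq hqP x - pval hq hqP y := by
  rw [sub_eq_add_neg, pval_add hq hqP hx hy.neg, pval_neg hq hqP hy, sub_eq_add_neg]

theorem pval_pow (hx : Loc u P x) (m : ℕ) : pval hq hqP (x ^ m) = pval hq hqP x ^ m := by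
  rw [pval_of_loc hq hqP hx, ← map_pow, ← map_pow]
  exact pval_locRing hq hqP (⟨x, hx⟩ ^ m)

theorem pval_eq_zero_iff (hx : Loc u P x) : pval hq hqP x = 0 ↔ InMax P x := by
  rw [pval_of_loc hq hqP hx, inMax_iff hx, EmbeddingLike.map_eq_zero_iff, residue_eq_zero_iff]

theorem pval_eq_iff (hx : Loc u P x) (hy : Loc u P y) :
    pval hq hqP x = pval hq hqP y ↔ InMax P (x - y) := by
  rw [← sub_eq_zero, ← pval_sub hq hqP hx hy]
  exact pval_eq_zero_iff hq hqP (by rw [sub_eq_add_neg]; exact hx.add hy.neg)

theorem loc_inv_of_pval_ne_zero (hx : Loc u P x) (h : pval hq hqP x ≠ 0) :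
    x ≠ 0 ∧ Loc u P x⁻¹ :=
  (inMax_or_loc_inv hx).resolve_left fun hm => h ((pval_eq_zero_iff hq hqP hx).mpr hm)

theorem pval_ne_zero_of_loc_inv (hx : Loc u P x) (hx' : Loc u P x⁻¹) (hx0 : x ≠ 0) :
    pval hq hqP x ≠ 0 := fun h =>
  ((pval_eq_zero_iff hq hqP hx).mp h).not_loc_inv hx0 hx'

theorem loc_aeval (hx : Loc u P x) (R : Polynomial W) : Loc u P (aeval x R) := by
  have : aeval x R = ((R.eval₂ (locConst P) ⟨x, hx⟩ : locRing P) : L) := by
    rw [← Subring.coe_subtype, hom_eval₂]; rfl
  rw [this]
  exact (R.eval₂ (locConst P) ⟨x, hx⟩).2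

theorem pval_aeval (hx : Loc u P x) (R : Polynomial W) :
    pval hq hqP (aeval x R) = (R.map (residue W)).eval (pval hq hqP x) := by
  have : aeval x R = ((R.eval₂ (locConst P) ⟨x, hx⟩ : locRing P) : L) := by
    rw [← Subring.coe_subtype, hom_eval₂]; rfl
  rw [this, pval_locRing, pval_of_loc hq hqP hx, hom_eval₂, ← RingEquiv.coe_toRingHom, hom_eval₂,
    eval_map]
  congr 1
  refine RingHom.ext fun w => ?_
  exact (pval_locRing hq hqP _).symm.trans (pval_const hq hqP w)

theorem loc_evalTwo {z : L} (hx : Loc u P x) (hz : Loc u P z)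
    (Φ : Polynomial (Polynomial W)) : Loc u P (evalTwo Φ x z) := by
  induction Φ using Polynomial.induction_on' with
  | add a b ha hb => rw [evalTwo_add]; exact ha.add hb
  | monomial m c =>
    rw [show evalTwo (monomial m c) x z = aeval z c * x ^ m from eval₂_monomial _ _]
    exact (loc_aeval hz c).mul (hx.pow m)

theorem pval_evalTwo {z : L} (hx : Loc u P x) (hz : Loc u P z)
    (Φ : Polynomial (Polynomial W)) :
    pval hq hqP (evalTwo Φ x z) = (Φ.map (mapRingHom (residue W))).eval₂
      (evalRingHom (pval hq hqP z)) (pval hq hqP x) := by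
  induction Φ using Polynomial.induction_on' with
  | add a b ha hb =>
    rw [evalTwo_add, pval_add hq hqP (loc_evalTwo hx hz a) (loc_evalTwo hx hz b), ha, hb,
      Polynomial.map_add, eval₂_add]
  | monomial m c =>
    rw [show evalTwo (monomial m c) x z = aeval z c * x ^ m from eval₂_monomial _ _,
      pval_mul hq hqP (loc_aeval hz c) (hx.pow m), pval_pow hq hqP hx, pval_aeval hq hqP hz,
      map_monomial, eval₂_monomial]
    rfl

variable {V : ValuationSubring L}

/-- Residues at a valuation subring through the point determine values. -/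
theorem pval_eq_of_res_eq (hV : IsVertical W q u V) (hT : Through P V) (hx : Loc u P x)
    (hy : Loc u P y) (h : res V x = res V y) : pval hq hqP x = pval hq hqP y := by
  have hA : ∀ z : chartRing W u, (z : L) ∈ V := fun z => hV.chartRing_le z.2
  rw [pval_eq_iff hq hqP hx hy]
  exact hT.inMax hA (by rw [sub_eq_add_neg]; exact hx.add hy.neg)
    ((res_eq_iff (hT.mem hA hx) (hT.mem hA hy)).mp h)

/-- A residual relation with polynomial coefficients in `x` gives the same relation of values. -/
theorem pval_mul_eval_eq {v : L} (hV : IsVertical W q u V) (hV' : IsVertical W q v V)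
    (hT : Through P V) (hy : Loc u P y) (hv : Loc u P v)
    (R₁ R₂ : Polynomial (IsLocalRing.ResidueField W))
    (h : res V y * R₁.eval₂ (constRes hq hV') (res V v) = R₂.eval₂ (constRes hq hV') (res V v)) :
    pval hq hqP y * R₁.eval (pval hq hqP v) = R₂.eval (pval hq hqP v) := by
  obtain ⟨S₁, rfl⟩ := map_surjective (residue W) residue_surjective R₁
  obtain ⟨S₂, rfl⟩ := map_surjective (residue W) residue_surjective R₂
  obtain ⟨h1, h1'⟩ := res_aeval hq hV' hV'.u_mem.mem S₁
  obtain ⟨-, h2'⟩ := res_aeval hq hV' hV'.u_mem.mem S₂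
  have hA : ∀ z : chartRing W u, (z : L) ∈ V := fun z => hV.chartRing_le z.2
  rw [← h1', ← h2', ← res_mul (hT.mem hA hy) h1] at h
  have := pval_eq_of_res_eq hq hqP hV hT (hy.mul (loc_aeval hv S₁)) (loc_aeval hv S₂) h
  rwa [pval_mul hq hqP hy (loc_aeval hv S₁), pval_aeval hq hqP hv, pval_aeval hq hqP hv] at this

omit hq hqP in
/-- A valuation subring centred at a maximal ideal passes through it. -/
theorem through_of_centred (hA : ∀ z : chartRing W u, (z : L) ∈ V)
    (hP : ∀ z : chartRing W u, z ∈ P → (z : L) ∈ V.nonunits) : Through P V := fun z hz => by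
  by_contra hzP
  obtain ⟨s, p, hp, hsp⟩ := Ideal.IsMaximal.exists_inv ‹P.IsMaximal› hzP
  have h1 : (1 : L) ∈ V.nonunits := by
    have e : (1 : L) = (s : L) * z + (p : L) := by
      have := congrArg Subtype.val hsp; push_cast at this; exact this.symm
    rw [e]
    refine add_mem ?_ (hP p hp)
    rw [ValuationSubring.mem_nonunits_iff, map_mul, mul_comm]
    exact mul_lt_one_of_lt_of_le hz ((V.valuation_le_one_iff _).mpr (hA s))
  simp [ValuationSubring.mem_nonunits_iff] at h1

omit hq hqP in
/-- A valuation subring centred at `P` makes the maximal ideal nonunits. -/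
theorem mem_nonunits_of_inMax (hA : ∀ z : chartRing W u, (z : L) ∈ V)
    (hP : ∀ z : chartRing W u, z ∈ P → (z : L) ∈ V.nonunits) (h : InMax P y) :
    y ∈ V.nonunits := by
  obtain ⟨r, a, hr, haP, ha⟩ := h
  have hru : IsUnitAt V (r : L) := le_antisymm ((V.valuation_le_one_iff _).mpr (hA r))
    (not_lt.mp fun h => hr (through_of_centred hA hP r h))
  rw [show y = (r : L)⁻¹ * a by rw [← ha, inv_mul_cancel_left₀ hru.ne_zero],
    ValuationSubring.mem_nonunits_iff, map_mul, mul_comm]
  exact mul_lt_one_of_lt_of_le (hP a haP) ((V.valuation_le_one_iff _).mpr hru.inv.mem)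

omit hq hqP in
/-- The local ring is closed under roots. -/
theorem loc_of_pow {m : ℕ} (hm : 0 < m) (h : Loc u P (x ^ m)) : Loc u P x := by
  refine loc_of_valuations P fun V hA hP => ?_
  have hxm := (through_of_centred hA hP).mem hA h
  rw [← V.valuation_le_one_iff] at hxm ⊢
  rw [map_pow] at hxm
  exact (pow_le_one_iff hm.ne').mp hxm

end FermatAgent.BadRed.Carayol
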