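import Mathlib.RingTheory.DedekindDomain.Ideal.Lemmas
import Mathlib.RingTheory.Ideal.GoingUp
import Fermat.Agent.BadRed.Carayol.Base
import Fermat.Agent.BadRed.Carayol.PointVal

/-!
# The special fibre of the base at a point

The special fibre is a smooth curve: locally principal maximal ideals and normality.
-/

set_option autoImplicit false
set_option linter.unusedSectionVars false

noncomputable section

namespace FermatAgent.BadRed.Carayol

open Polynomial IsLocalRing

variable {q : ℕ} [Fact q.Prime] {W K F F₁ F₂ : Type*}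
  [CommRing W] [IsDomain W] [IsDiscreteValuationRing W]
  [Field K] [CharZero K] [Algebra W K] [IsFractionRing W K]
  [Field F] [Field F₁] [Field F₂] [Algebra K F] [Algebra K F₁] [Algebra K F₂]
  [Algebra W F] [Algebra W F₁] [Algebra W F₂]
  [IsScalarTower W K F] [IsScalarTower W K F₁] [IsScalarTower W K F₂]
  {T : QTower q K F F₁ F₂} {u : F}
  (hq : maximalIdeal W = Ideal.span {(q : W)}) (D : ChartData W T u)
include hq D

theorem isDedekindDomain_fibre :
    IsDedekindDomain (chartRing W u ⧸ Ideal.span {(q : chartRing W u)}) := by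
  let I : Ideal (chartRing W u) := Ideal.span {(q : chartRing W u)}
  have : I.IsPrime := (Ideal.span_singleton_prime D.q_prime.ne_zero).mpr D.q_prime
  have := D.fibre_normal
  have := isNoetherianRing_base hq D
  let mk := Ideal.Quotient.mk I
  let c₀ : IsLocalRing.ResidueField W →+* chartRing W u ⧸ I :=
    Ideal.Quotient.lift (maximalIdeal W) (mk.comp (algebraMap W (chartRing W u))) fun w hw => by
      rw [hq, Ideal.mem_span_singleton'] at hw
      obtain ⟨v, rfl⟩ := hw
      exact Ideal.Quotient.eq_zero_iff_mem.mpr (Ideal.mem_span_singleton'.mpr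
        ⟨algebraMap W _ v, by rw [map_mul, map_natCast]⟩)
  let e := eval₂RingHom c₀ (mk ⟨u, self_mem_chartRing⟩)
  have he : ∀ P : Polynomial W, e (P.map (residue W)) =
      mk ⟨aeval u P, aeval_mem_chartRing P⟩ := fun P => by
    show (P.map (residue W)).eval₂ c₀ _ = _
    rw [eval₂_map]
    have : (⟨aeval u P, aeval_mem_chartRing P⟩ : chartRing W u) =
        aeval ⟨u, self_mem_chartRing⟩ P := Subtype.ext (by rw [← Subalgebra.coe_val, ← aeval_algHom_apply]; rfl)
    rw [this, aeval_def, hom_eval₂]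
    congr 1
  have hint : e.IsIntegral := fun z => by
    obtain ⟨z, rfl⟩ := Ideal.Quotient.mk_surjective z
    obtain ⟨p, hp, hpz⟩ := mem_chartRing_iff.mp z.2
    choose P hP using fun i => Algebra.adjoin_mem_exists_aeval _ _ (p.coeff i).2
    refine ⟨X ^ p.natDegree + ∑ i ∈ Finset.range p.natDegree,
      C ((P i).map (residue W)) * X ^ i, monic_X_pow_add ?_, ?_⟩
    · refine (degree_sum_le _ _).trans_lt ((Finset.sup_lt_iff (WithBot.bot_lt_coe _)).mpr
        fun i hi => (degree_C_mul_X_pow_le _ _).trans_lt ?_)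
      exact_mod_cast Finset.mem_range.mp hi
    · rw [eval₂_add, eval₂_X_pow, eval₂_finsetSum]
      simp only [eval₂_mul, eval₂_C, eval₂_X_pow, he]
      rw [eval₂_eq_sum_range, Finset.sum_range_succ, hp.coeff_natDegree, map_one, one_mul,
        add_comm] at hpz
      have h0 : z ^ p.natDegree + ∑ i ∈ Finset.range p.natDegree,
          (⟨aeval u (P i), aeval_mem_chartRing (P i)⟩ : chartRing W u) * z ^ i = 0 := Subtype.ext (by
        push_cast
        refine Eq.trans ?_ hpz
        congr 1
        refine Finset.sum_congr rfl fun i _ => ?_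
        rw [hP i]; rfl)
      have h1 := congrArg mk h0
      rw [map_add, map_pow, map_sum, map_zero] at h1
      simp only [map_mul, map_pow] at h1
      exact h1
  have hdim : Ring.DimensionLEOne (chartRing W u ⧸ I) := ⟨fun {p} hp hpp => by
    refine Ideal.isMaximal_of_isIntegral_of_isMaximal_comap' e hint p
      (Ideal.IsPrime.isMaximal (Ideal.IsPrime.comap _) ?_)
    obtain ⟨x, hx, hx0⟩ := (Submodule.ne_bot_iff _).mp hp
    let _ : Algebra (Polynomial (IsLocalRing.ResidueField W)) (chartRing W u ⧸ I) := e.toAlgebra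
    exact Ideal.comap_ne_bot_of_integral_mem (R := Polynomial (IsLocalRing.ResidueField W))
      hx0 hx (hint x)⟩
  exact { }

/-- The maximal ideals of the base containing `q` are generated by `q` and one element, locally. -/
theorem exists_base_uniformizer (Q : Ideal (chartRing W u)) [Q.IsMaximal]
    (hqQ : (q : chartRing W u) ∈ Q) {x : chartRing W u} (hx : x ∈ Q)
    (hxq : ¬ (q : chartRing W u) ∣ x) :
    ∃ σ ∈ Q, ∀ y ∈ Q, ∃ r ∉ Q, r * y ∈ Ideal.span {(q : chartRing W u), σ} := by
  let I : Ideal (chartRing W u) := Ideal.span {(q : chartRing W u)}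
  have : I.IsPrime := (Ideal.span_singleton_prime D.q_prime.ne_zero).mpr D.q_prime
  have := isDedekindDomain_fibre hq D
  let mk := Ideal.Quotient.mk I
  let p := Q.map mk
  have hIQ : I ≤ Q := (Ideal.span_singleton_le_iff_mem _).mpr hqQ
  have hmem : ∀ y, mk y ∈ p ↔ y ∈ Q := fun y => by
    rw [Ideal.mem_quotient_iff_mem_sup, sup_eq_left.mpr hIQ]
  have hp : p.IsPrime :=
    Ideal.map_isPrime_of_surjective Ideal.Quotient.mk_surjective (by rwa [Ideal.mk_ker])
  have hp0 : p ≠ ⊥ := fun h => by
    have h1 := (hmem x).mpr hx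
    rw [h, Ideal.mem_bot, Ideal.Quotient.eq_zero_iff_mem, Ideal.mem_span_singleton] at h1
    exact hxq h1
  obtain ⟨s, hs, hs2⟩ := SetLike.exists_of_lt (Ideal.pow_succ_lt_pow hp0 1)
  rw [pow_one] at hs
  obtain ⟨J, hJ⟩ := Ideal.dvd_iff_le.mpr ((Ideal.span_singleton_le_iff_mem _).mpr hs)
  have hJp : ¬ J ≤ p := fun h => hs2 (by
    rw [pow_succ, pow_one]
    exact Ideal.mul_mono_right h (hJ ▸ Ideal.mem_span_singleton_self s))
  obtain ⟨r₀, hr₀, hr₀p⟩ := SetLike.not_le_iff_exists.mp hJp
  obtain ⟨r, rfl⟩ := Ideal.Quotient.mk_surjective r₀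
  obtain ⟨σ, rfl⟩ := Ideal.Quotient.mk_surjective s
  refine ⟨σ, (hmem σ).mp hs, fun y hy => ⟨r, fun h => hr₀p ((hmem r).mpr h), ?_⟩⟩
  have h1 : mk (r * y) ∈ Ideal.span {mk σ} := by
    rw [hJ, map_mul, mul_comm (mk r)]
    exact Ideal.mul_mem_mul ((hmem y).mpr hy) hr₀
  obtain ⟨c, hc⟩ := Ideal.mem_span_singleton'.mp h1
  obtain ⟨c, rfl⟩ := Ideal.Quotient.mk_surjective c
  rw [← map_mul, Ideal.Quotient.eq, Ideal.mem_span_singleton'] at hc
  obtain ⟨d, hd⟩ := hc
  exact Ideal.mem_span_pair.mpr ⟨-d, c, by linear_combination -hd⟩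

/-- The residue of a root of a residue of the chart ring comes from the chart ring. -/
theorem exists_res_eq_of_pow_eq {L : Type*} [Field L] [Algebra K L] [Algebra W L]
    [IsScalarTower W K L] (φ : F →ₐ[K] L) {V : ValuationSubring L}
    (hV : IsVertical W q (φ u) V) (hrat : RationalAlong φ W q u V) {y : L} (hy : y ∈ V) {n : ℕ}
    (hn : 0 < n) {c : chartRing W u} (h : res V y ^ n = res V (φ c)) :
    ∃ e : chartRing W u, res V y = res V (φ e) := by
  let I : Ideal (chartRing W u) := Ideal.span {(q : chartRing W u)}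
  have : I.IsPrime := (Ideal.span_singleton_prime D.q_prime.ne_zero).mpr D.q_prime
  have := D.fibre_normal
  have hmem : ∀ a : chartRing W u, φ a ∈ V := fun a => hV.chartRing_le (map_mem_chartRing φ a.2)
  have hker : ∀ a : chartRing W u, res V (φ a) = 0 ↔ (q : chartRing W u) ∣ a := fun a => by
    rw [res_eq_zero_iff (hmem a)]
    exact (mem_nonunits_comap φ.toRingHom V).symm.trans (mem_nonunits_iff_dvd hq D (hV.comap φ) a)
  obtain ⟨a, b, hb, hab⟩ := hrat y hy
  have hb0 : res V (φ b) ≠ 0 := fun h0 => hb ((hker b).mp h0)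
  have h1 : res V (φ (a ^ n - c * b ^ n : chartRing W u)) = 0 := by
    push_cast
    rw [map_sub, map_mul, map_pow, map_pow, res_sub (pow_mem (hmem a) n)
      (mul_mem (hmem c) (pow_mem (hmem b) n)), res_mul (hmem c) (pow_mem (hmem b) n),
      res_pow (hmem a), res_pow (hmem b), ← h, ← hab, mul_pow, sub_self]
  let mk := Ideal.Quotient.mk I
  have h2 : mk b ^ n ∣ mk a ^ n := ⟨mk c, by
    rw [← map_pow, ← map_pow, ← map_mul, mul_comm (b ^ n), Ideal.Quotient.eq,
      Ideal.mem_span_singleton]
    exact (hker _).mp h1⟩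
  obtain ⟨e₀, he⟩ := (IsIntegrallyClosed.pow_dvd_pow_iff hn.ne').mp h2
  obtain ⟨e, rfl⟩ := Ideal.Quotient.mk_surjective e₀
  refine ⟨e, mul_right_cancel₀ hb0 ?_⟩
  rw [← map_mul, Ideal.Quotient.eq, Ideal.mem_span_singleton] at he
  have h3 := (hker _).mpr he
  push_cast at h3
  rw [map_sub, map_mul, res_sub (hmem a) (mul_mem (hmem b) (hmem e)),
    res_mul (hmem b) (hmem e), sub_eq_zero] at h3
  rw [hab, h3, mul_comm]

section Point

variable {L : Type*} [Field L] [Algebra K L] [Algebra W L] [IsScalarTower W K L] {v : L}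
  {P : Ideal (chartRing W v)} [P.IsMaximal] (hqP : (q : chartRing W v) ∈ P)
  [IsAlgClosed (IsLocalRing.ResidueField W)]
  (φ : F →ₐ[K] L) (hφ : ∀ a : chartRing W u, Loc v P (φ a))

/-- The base chart inside the local ring. -/
def baseLocHom : chartRing W u →+* locRing P :=
  (φ.toRingHom.comp (chartRing W u).val.toRingHom).codRestrict (locRing P) hφ

/-- The point of the base under `P`. -/
def pointIdeal : Ideal (chartRing W u) :=
  RingHom.ker ((residue (locRing P)).comp (baseLocHom φ hφ))

include hqP in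
theorem pointIdeal_isMaximal : (pointIdeal φ hφ).IsMaximal := by
  refine RingHom.ker_isMaximal_of_surjective _ fun r => ?_
  obtain ⟨c, rfl⟩ := (pointHom_bijective hq hqP).2 r
  obtain ⟨w, rfl⟩ := residue_surjective c
  refine ⟨algebraMap W _ w, ?_⟩
  rw [pointHom_residue, RingHom.comp_apply]
  congr 1
  exact Subtype.ext (map_algebraMap_const φ w)

theorem mem_pointIdeal {a : chartRing W u} :
    a ∈ pointIdeal φ hφ ↔ pval hq hqP (φ a) = 0 := by
  rw [pval_eq_zero_iff hq hqP (hφ a), inMax_iff (hφ a), pointIdeal, RingHom.mem_ker,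
    RingHom.comp_apply, residue_eq_zero_iff]
  rfl

end Point

end FermatAgent.BadRed.Carayol
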