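import Mathlib.Tactic.ComputeDegree
import Fermat.Agent.BadRed.Carayol.Kronecker
import Fermat.Agent.BadRed.Carayol.Context

/-!
# The local equation of a Kronecker polynomial at a cusp
-/

set_option autoImplicit false

noncomputable section

namespace FermatAgent.BadRed.Carayol

open Polynomial IsLocalRing

variable {q : ℕ} [Fact q.Prime] {W : Type*} [CommRing W] [IsDomain W]
  [IsDiscreteValuationRing W]

/-- Near a cusp `Φ = ξ ^ (q+1) + τ ^ (q+1) + ξ τ (-1 - (ξ τ) ^ (q-1) + q H)`. -/
theorem exists_cusp_local (hq : maximalIdeal W = Ideal.span {(q : W)})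
    (Φ : Polynomial (Polynomial W))
    (hsymm : ∀ i j : ℕ, (Φ.coeff i).coeff j = (Φ.coeff j).coeff i)
    (hk : Φ.map (mapRingHom (residue W)) = (X - C (X ^ q)) * (X ^ q - C X))
    {a a' : W} (h1 : Φ.map (evalRingHom a) = (X - C a') ^ (q + 1))
    (h2 : Φ.map (evalRingHom a') = (X - C a) ^ (q + 1))
    (ha : residue W a' = residue W a ^ q) (ha' : residue W a = residue W a' ^ q) :
    ∃ H : Polynomial (Polynomial W), ∀ (L : Type _) [CommRing L] [Algebra W L] (x z : L),
      evalTwo Φ x z = (x - algebraMap W L a') ^ (q + 1) + (z - algebraMap W L a) ^ (q + 1) +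
        (x - algebraMap W L a') * (z - algebraMap W L a) *
          (-1 - ((x - algebraMap W L a') * (z - algebraMap W L a)) ^ (q - 1) +
            (q : L) * evalTwo H (x - algebraMap W L a') (z - algebraMap W L a)) := by
  have hqp : q.Prime := Fact.out
  let sh : Polynomial W →+* Polynomial W := compRingHom (X + C a)
  let Ψ : Polynomial (Polynomial W) := Φ.eval₂ (C.comp sh) (X + C (C a'))
  have hΨ : ∀ (L : Type _) [CommRing L] [Algebra W L] (x z : L),
      evalTwo Ψ (x - algebraMap W L a') (z - algebraMap W L a) = evalTwo Φ x z := by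
    intro L _ _ x z
    rw [evalTwo_eq, hom_eval₂, evalTwo]
    congr 1
    · refine RingHom.ext fun P => ?_
      simp [sh, evalTwoHom, aeval_comp]
    · simp [evalTwoHom]
  let D := Ψ - X ^ (q + 1) - C (X ^ (q + 1))
  have hD0 : D.coeff 0 = 0 := by
    have e : Ψ.eval 0 = (Φ.eval (C a')).comp (X + C a) := by
      show (evalRingHom 0) Ψ = compRingHom (X + C a) (Φ.eval₂ (RingHom.id _) (C a'))
      rw [hom_eval₂, hom_eval₂]
      congr 1
      · exact RingHom.ext fun P => by simp [sh]
      · simp
    have e2 : Φ.eval (C a') = (X - C a) ^ (q + 1) := by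
      rw [← h2]
      refine Polynomial.ext fun j => ?_
      rw [coeff_map, coe_evalRingHom, eval_eq_sum_range' (n := Φ.natDegree + 1) (by omega),
        finsetSum_coeff, eval_eq_sum_range' (n := Φ.natDegree + 1)]
      · refine Finset.sum_congr rfl fun i _ => ?_
        rw [← map_pow, coeff_mul_C, hsymm]
      · rw [Nat.lt_succ_iff]
        refine natDegree_le_iff_coeff_eq_zero.mpr fun i hi => ?_
        rw [hsymm, coeff_eq_zero_of_natDegree_lt hi, coeff_zero]
    rw [coeff_zero_eq_eval_zero, show D.eval 0 = Ψ.eval 0 - X ^ (q + 1) by simp [D], e, e2]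
    simp
  obtain ⟨D₁, hD₁⟩ := X_dvd_iff.mpr hD0
  have hDmap : D.map (evalRingHom (0 : W)) = 0 := by
    have e : Ψ.map (evalRingHom (0 : W)) = (Φ.map (evalRingHom a)).comp (X + C a') := by
      show mapRingHom (evalRingHom (0 : W)) Ψ = _
      rw [hom_eval₂, comp, eval₂_map]
      congr 1
      · exact RingHom.ext fun P => by simp [sh]
      · simp
    rw [show D.map (evalRingHom (0 : W)) = Ψ.map (evalRingHom 0) - X ^ (q + 1) by simp [D], e, h1]
    simp
  have hX : C (X : Polynomial W) ∣ D₁ := by
    rw [C_dvd_iff_dvd_coeff]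
    intro i
    have := congrArg (fun p => p.coeff (i + 1)) hDmap
    rw [hD₁] at this
    simp only [coeff_map, coeff_zero, coeff_X_mul, coe_evalRingHom] at this
    rwa [X_dvd_iff, coeff_zero_eq_eval_zero]
  obtain ⟨G, rfl⟩ := hX
  let red := mapRingHom (mapRingHom (residue W))
  have hG : red G = -1 - (X * C X) ^ (q - 1) := by
    have hk' : (q : IsLocalRing.ResidueField W) = 0 := by
      rw [← map_natCast (residue W), residue_eq_zero_iff]
      exact natCast_mem_maximalIdeal hq
    have : CharP (IsLocalRing.ResidueField W) q := (CharP.charP_iff_prime_eq_zero hqp).mpr hk'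
    have e : red Ψ = (X - C (X ^ q)) * (X ^ q - C X) := by
      rw [show red Ψ = (Φ.map (mapRingHom (residue W))).eval₂
          (C.comp (compRingHom (X + C (residue W a)))) (X + C (C (residue W a'))) by
        show red (Φ.eval₂ _ _) = _
        rw [hom_eval₂, eval₂_map]
        congr 1
        · refine RingHom.ext fun P => ?_
          simp [red, sh, map_comp]
        · simp [red], hk]
      simp only [eval₂_mul, eval₂_sub, eval₂_X, eval₂_C, eval₂_X_pow, RingHom.comp_apply,
        coe_compRingHom_apply, X_comp, X_pow_comp, add_pow_char, ← C_pow]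
      rw [ha, show (residue W a ^ q) ^ q = residue W a by rw [← ha, ← ha']]
      simp only [C_add]
      ring
    have e' : red (X * (C X * G)) = X * C X * (-1 - (X * C X) ^ (q - 1)) := by
      rw [← hD₁, map_sub, map_sub, e]
      simp only [red, coe_mapRingHom, map_X, map_C, map_pow]
      have hp : (X * C (X : Polynomial (IsLocalRing.ResidueField W))) ^ q =
          X * C X * (X * C X) ^ (q - 1) := (mul_pow_sub_one hqp.ne_zero _).symm
      rw [mul_pow] at hp
      linear_combination -hp
    have hne : (X * C X : Polynomial (Polynomial (IsLocalRing.ResidueField W))) ≠ 0 :=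
      mul_ne_zero X_ne_zero (C_ne_zero.mpr X_ne_zero)
    refine mul_left_cancel₀ hne ?_
    rw [← e', map_mul, map_mul, ← mul_assoc]
    simp [red]
  have hdvd : C (C (q : W)) ∣ G - (-1 - (X * C X) ^ (q - 1)) := by
    rw [C_dvd_iff_dvd_coeff]
    intro i
    rw [C_dvd_iff_dvd_coeff]
    intro j
    have h0 : red (G - (-1 - (X * C X) ^ (q - 1))) = 0 := by
      rw [map_sub, hG]; simp [red]
    have : residue W (((G - (-1 - (X * C X) ^ (q - 1))).coeff i).coeff j) = 0 := by
      rw [← coeff_map, ← coe_mapRingHom, ← coeff_map (mapRingHom (residue W))]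
      have h0' : (G - (-1 - (X * C X) ^ (q - 1))).map (mapRingHom (residue W)) = 0 := h0
      rw [h0', coeff_zero, coeff_zero]
    rwa [residue_eq_zero_iff, hq, Ideal.mem_span_singleton] at this
  obtain ⟨H, hH⟩ := hdvd
  refine ⟨H, fun L _ _ x z => ?_⟩
  rw [← hΨ L x z]
  set ξ := x - algebraMap W L a'
  set τ := z - algebraMap W L a
  have hΨeq : Ψ = X ^ (q + 1) + C (X ^ (q + 1)) + X * (C X * ((-1 - (X * C X) ^ (q - 1)) +
      C (C (q : W)) * H)) := by
    rw [← hH]
    simp only [D] at hD₁
    linear_combination hD₁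
  rw [hΨeq]
  simp only [evalTwo_eq, map_add, map_mul, map_sub, map_neg, map_one, map_pow, map_natCast]
  simp [evalTwoHom]
  ring

end FermatAgent.BadRed.Carayol
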