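import Fermat.Agent.BadRed.Carayol.Local
import Mathlib.RingTheory.Valuation.LocalSubring

/-!
# Sections with prescribed components

For a coordinate `z`, a function `f` and prescribed `n`-th roots `H i` of `f` on the vertical
components, the module of elements bounded by the `n`-th root of `f` away from the special fibre
and by `H i` on the components.
-/

set_option autoImplicit false
set_option linter.unusedSectionVars false

noncomputable section

namespace FermatAgent.BadRed.Carayol

open Polynomial IsLocalRing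

theorem exists_one_add_pow_eq {R : Type*} [CommRing R] (x : R) (n : ℕ) :
    ∃ G : R, (1 + x) ^ n = 1 + n * x + x ^ 2 * G := by
  induction n with
  | zero => exact ⟨0, by simp⟩
  | succ n ih =>
    obtain ⟨G, hG⟩ := ih
    exact ⟨(n : R) + G + x * G, by rw [pow_succ, hG, Nat.cast_succ]; ring⟩

/-- The data to glue: prescribed `n`-th roots of `f` on the vertical components. -/
structure GlueFrame (W K : Type*) {L : Type*} [CommRing W] [IsLocalRing W] [Field K] [Field L]
    [Algebra K L] [Algebra W L] (q n : ℕ) (f z : L) (ι : Type) where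
  hn : 0 < n
  unit_n : IsUnit (n : W)
  ne_zero : f ≠ 0
  S : ι → ValuationSubring L
  H : ι → L
  vertical : ∀ i, IsVertical W q z (S i)
  exhaust : ∀ V, IsVertical W q z V → ∃ i, V = S i
  rank : ∀ i, RankOne q (S i)
  transc : Transcendental K z
  finite : FiniteDimensional (IntermediateField.adjoin K {z}) L
  root : ∀ i, H i ^ n / f - 1 ∈ (S i).nonunits

variable {W K L : Type*} [CommRing W] [IsDomain W] [IsDiscreteValuationRing W]
  [Field K] [CharZero K] [Algebra W K] [IsFractionRing W K]
  [Field L] [Algebra K L] [Algebra W L] [IsScalarTower W K L]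
  {q n : ℕ} {f z : L} {ι : Type}

theorem const_mem_of_const {U : ValuationSubring L} (hU : ∀ c : K, algebraMap K L c ∈ U) (w : W) :
    algebraMap W L w ∈ U := by
  rw [IsScalarTower.algebraMap_apply W K L]; exact hU _

theorem valuation_const_le {U : ValuationSubring L} (hU : ∀ c : K, algebraMap K L c ∈ U) (c : K) :
    U.valuation (algebraMap K L c) ≤ 1 := (U.valuation_le_one_iff _).mpr (hU c)

/-- An element in every valuation subring containing the constants and a set is integral over the
algebra generated by that set. -/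
theorem isIntegral_of_valuations {s : Set L} {x : L}
    (h : ∀ U : ValuationSubring L, (∀ c : K, algebraMap K L c ∈ U) → s ⊆ U → x ∈ U) :
    IsIntegral (Algebra.adjoin K s) x := by
  by_contra hx
  let R := (integralClosure (Algebra.adjoin K s) L).toSubring
  have : IsIntegrallyClosedIn R L := Subring.isIntegrallyClosedIn_iff.mpr fun {y} hy => by
    obtain ⟨p, hp, hpy⟩ := hy
    have hint : IsIntegral (integralClosure (Algebra.adjoin K s) L) y := ⟨p, hp, hpy⟩
    exact isIntegral_trans (R := Algebra.adjoin K s) _ hint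
  obtain ⟨V, hle, hxV⟩ :=
    Subring.exists_le_valuationSubring_of_isIntegrallyClosedIn (R := R) (x := x) hx
  refine hxV (h V (fun c => hle ?_) fun y hy => hle ?_)
  · exact isIntegral_algebraMap (R := Algebra.adjoin K s)
      (x := ⟨_, (Algebra.adjoin K s).algebraMap_mem c⟩)
  · exact isIntegral_algebraMap (R := Algebra.adjoin K s) (x := ⟨y, Algebra.subset_adjoin hy⟩)

namespace GlueFrame

variable (G : GlueFrame W K q n f z ι)

include G

theorem z_ne_zero : z ≠ 0 := fun h => G.transc (h ▸ isAlgebraic_zero)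

theorem H_ne_zero (i : ι) : G.H i ≠ 0 := fun h => by
  have h1 := G.root i
  rw [h, zero_pow G.hn.ne', zero_div, zero_sub, ValuationSubring.mem_nonunits_iff,
    Valuation.map_neg, map_one] at h1
  exact lt_irrefl _ h1

theorem chart_horizontal {U : ValuationSubring L} (hU : ∀ c : K, algebraMap K L c ∈ U)
    (hz : z ∈ U) {a : L} (ha : a ∈ chartRing W z) : a ∈ U :=
  mem_of_mem_chartRing (const_mem_of_const hU) hz ha

/-- The bounded elements. -/
def sections (s : Set L) : Submodule W L where
  carrier := {y | (∀ U : ValuationSubring L, (∀ c : K, algebraMap K L c ∈ U) → s ⊆ U →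
    U.valuation y ^ n ≤ U.valuation f) ∧ ∀ i, y / G.H i ∈ G.S i}
  zero_mem' := ⟨fun U _ _ => by rw [map_zero, zero_pow G.hn.ne']; exact zero_le,
    fun i => by rw [zero_div]; exact zero_mem _⟩
  add_mem' := by
    rintro x y ⟨hx, hx'⟩ ⟨hy, hy'⟩
    refine ⟨fun U hU hs => ?_, fun i => by rw [add_div]; exact add_mem (hx' i) (hy' i)⟩
    rcases le_total (U.valuation x) (U.valuation y) with h | h
    · exact (pow_le_pow_left' ((Valuation.map_add _ _ _).trans (max_eq_right h).le) n).trans
        (hy U hU hs)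
    · exact (pow_le_pow_left' ((Valuation.map_add _ _ _).trans (max_eq_left h).le) n).trans
        (hx U hU hs)
  smul_mem' := by
    rintro c x ⟨hx, hx'⟩
    rw [Algebra.smul_def]
    refine ⟨fun U hU hs => ?_, fun i => by
      rw [mul_div_assoc]; exact mul_mem ((G.vertical i).const_mem c) (hx' i)⟩
    rw [map_mul, mul_pow]
    exact (mul_le_of_le_one_left' (pow_le_one' ((U.valuation_le_one_iff _).mpr
      (const_mem_of_const hU c)) n)).trans (hx U hU hs)

theorem sections_mono {s s' : Set L} (h : s ⊆ s') : G.sections s ≤ G.sections s' :=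
  fun _ hy => ⟨fun U hU hs => hy.1 U hU (h.trans hs), hy.2⟩

/-- The chart ring acts on the sections. -/
theorem mul_mem_sections {s : Set L} (hs : z ∈ s) {a y : L} (ha : a ∈ chartRing W z)
    (hy : y ∈ G.sections s) : a * y ∈ G.sections s := by
  refine ⟨fun U hU hsU => ?_, fun i => ?_⟩
  · rw [map_mul, mul_pow]
    exact (mul_le_of_le_one_left' (pow_le_one' ((U.valuation_le_one_iff _).mpr
      (G.chart_horizontal hU (hsU hs) ha)) n)).trans (hy.1 U hU hsU)
  · rw [mul_div_assoc]
    exact mul_mem ((G.vertical i).chartRing_le ha) (hy.2 i)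

variable (hq : maximalIdeal W = Ideal.span {(q : W)})
include hq

theorem q_ne_zero : (q : L) ≠ 0 := by
  rw [← map_natCast (algebraMap K L)]
  exact (map_ne_zero_iff _ (algebraMap K L).injective).mpr (natCast_ne_zero_frac hq)

/-- Criterion for the chart ring. -/
theorem mem_chart {x : L}
    (hor : ∀ U : ValuationSubring L, (∀ c : K, algebraMap K L c ∈ U) → z ∈ U → x ∈ U)
    (ver : ∀ i, x ∈ G.S i) : x ∈ chartRing W z := by
  have := G.finite
  refine mem_chartRing_of_vertical hq G.transc
    (isIntegral_of_valuations fun U hU hs => hor U hU (hs rfl)) fun V hV => ?_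
  obtain ⟨i, rfl⟩ := G.exhaust V hV
  exact ver i

/-- Division by a power of `q` does not affect the horizontal bound. -/
theorem div_pow_bound {s : Set L} {U : ValuationSubring L} (hU : ∀ c : K, algebraMap K L c ∈ U)
    (hs : s ⊆ U) {y : L} (hy : y ∈ G.sections s) (m : ℕ) :
    U.valuation (y / (q : L) ^ m) ^ n ≤ U.valuation f := by
  have h : (y / (q : L) ^ m) = algebraMap K L (((q : K) ^ m)⁻¹) * y := by
    rw [map_inv₀, map_pow, map_natCast, div_eq_mul_inv, mul_comm]
  rw [h, map_mul, mul_pow]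
  exact (mul_le_of_le_one_left' (pow_le_one' (valuation_const_le hU _) n)).trans (hy.1 U hU hs)

theorem pow_div_mem_chart {y : L} (hy : y ∈ G.sections {z}) : y ^ n / f ∈ chartRing W z := by
  refine G.mem_chart hq (fun U hU hz => ?_) fun i => ?_
  · rw [← U.valuation_le_one_iff, map_div₀, map_pow]
    exact div_le_one_of_le₀ (hy.1 U hU (Set.singleton_subset_iff.mpr hz)) zero_le
  · have h1 : G.H i ^ n / f ∈ G.S i := by
      have := add_mem (ValuationSubring.nonunits_subset (G.root i)) (one_mem (G.S i))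
      rwa [sub_add_cancel] at this
    rw [show y ^ n / f = (y / G.H i) ^ n * (G.H i ^ n / f) by
      rw [div_pow, ← mul_div_assoc, div_mul_cancel₀ _ (pow_ne_zero n (G.H_ne_zero i))]]
    exact mul_mem (pow_mem (hy.2 i) n) h1

/-- A section close to every prescribed root has `y ^ n / f` close to one. -/
theorem one_sub_mem_nonunits {y : L} {i : ι} (h : y / G.H i - 1 ∈ (G.S i).nonunits) :
    y / G.H i ∈ G.S i ∧ res (G.S i) (y / G.H i) = 1 ∧
      1 - y ^ n / f ∈ (G.S i).nonunits ∧ res (G.S i) (G.H i ^ n / f) = 1 ∧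
      G.H i ^ n / f ∈ G.S i := by
  set V := G.S i
  have hm : y / G.H i ∈ V := by
    have := add_mem (ValuationSubring.nonunits_subset h) (one_mem V)
    rwa [sub_add_cancel] at this
  have hH : G.H i ^ n / f ∈ V := by
    have := add_mem (ValuationSubring.nonunits_subset (G.root i)) (one_mem V)
    rwa [sub_add_cancel] at this
  have r1 : res V (y / G.H i) = 1 := by
    rw [← res_one (V := V)]; exact (res_eq_iff hm (one_mem V)).mpr h
  have r2 : res V (G.H i ^ n / f) = 1 := by
    rw [← res_one (V := V)]; exact (res_eq_iff hH (one_mem V)).mpr (G.root i)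
  refine ⟨hm, r1, ?_, r2, hH⟩
  have e : y ^ n / f = (y / G.H i) ^ n * (G.H i ^ n / f) := by
    rw [div_pow, ← mul_div_assoc, div_mul_cancel₀ _ (pow_ne_zero n (G.H_ne_zero i))]
  refine (res_eq_iff (one_mem V) (e ▸ mul_mem (pow_mem hm n) hH)).mp ?_
  rw [e, res_mul (pow_mem hm n) hH, res_pow hm, r1, r2, one_pow, one_mul, res_one]

/-- The exponent with which the first approximation error is divisible by `q ^ m`. -/
theorem exists_pow_div_mem [Finite ι] {δ : L} (hδ : ∀ i, δ ∈ (G.S i).nonunits) (m : ℕ) :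
    ∃ N, ∀ k, N ≤ k → ∀ i, δ ^ k / (q : L) ^ m ∈ G.S i := by
  have hN := fun i => (G.rank i).pow_div_mem δ (hδ i)
  choose N hN using hN
  obtain ⟨M, hM⟩ := Finite.exists_le fun i => N i * m
  refine ⟨M, fun k hk i => ?_⟩
  obtain ⟨d, rfl⟩ := Nat.exists_eq_add_of_le ((hM i).trans hk)
  rw [pow_add, pow_mul, mul_div_right_comm, ← div_pow]
  exact mul_mem (pow_mem (hN i) m) (pow_mem (ValuationSubring.nonunits_subset (hδ i)) d)

/-- An approximate global root. -/
def IsApprox (m : ℕ) (y : L) : Prop :=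
  y ∈ G.sections {z} ∧ (∀ i, y / G.H i - 1 ∈ (G.S i).nonunits) ∧
    (1 - y ^ n / f) / (q : L) ^ m ∈ chartRing W z

/-- Newton's method improves a first approximation arbitrarily. -/
theorem exists_approx [Finite ι] {y₀ : L} (hy₀ : y₀ ∈ G.sections {z})
    (h₀ : ∀ i, y₀ / G.H i - 1 ∈ (G.S i).nonunits) (m : ℕ) : ∃ y, G.IsApprox m y := by
  obtain ⟨c, hc⟩ := G.unit_n.exists_left_inv
  set A := chartRing W z
  set δ₀ := 1 - y₀ ^ n / f
  have hδ₀ : δ₀ ∈ A := sub_mem (one_mem _) (G.pow_div_mem_chart hq hy₀)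
  have hstep : ∀ j : ℕ, ∃ y : L, ∃ a ∈ A, y ∈ G.sections {z} ∧
      (∀ i, y / G.H i - 1 ∈ (G.S i).nonunits) ∧ 1 - y ^ n / f = δ₀ ^ (2 ^ j) * a := by
    intro j
    induction j with
    | zero => exact ⟨y₀, 1, one_mem _, hy₀, h₀, by simp [δ₀]⟩
    | succ j ih =>
      obtain ⟨y, a, ha, hy, hy1, he⟩ := ih
      set δ := 1 - y ^ n / f with hδdef
      have hδA : δ ∈ A := sub_mem (one_mem _) (G.pow_div_mem_chart hq hy)
      let x : A := algebraMap W A c * ⟨δ, hδA⟩
      obtain ⟨G₁, hG₁⟩ := exists_one_add_pow_eq x n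
      have hx : (x : L) = algebraMap W L c * δ := rfl
      have hcn : (n : L) * algebraMap W L c = 1 := by
        rw [← map_natCast (algebraMap W L), ← map_mul, mul_comm, hc, map_one]
      have hG : (1 + (x : L)) ^ n = 1 + δ + δ ^ 2 * (algebraMap W L c ^ 2 * (G₁ : L)) := by
        have := congrArg (fun w : A => (w : L)) hG₁
        push_cast at this
        rw [this, hx, ← mul_assoc, hcn]
        ring
      refine ⟨(1 + (x : L)) * y,
        a ^ 2 * (1 - (1 - δ) * (algebraMap W L c ^ 2 * (G₁ : L))), ?_,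
        G.mul_mem_sections (Set.mem_singleton z) (add_mem (one_mem _) x.2) hy, fun i => ?_, ?_⟩
      · exact mul_mem (pow_mem ha 2) (sub_mem (one_mem _) (mul_mem (sub_mem (one_mem _) hδA)
          (mul_mem (pow_mem (A.algebraMap_mem c) 2) G₁.2)))
      · obtain ⟨hm, -, hnu, -, -⟩ := G.one_sub_mem_nonunits hq (hy1 i)
        rw [show (1 + (x : L)) * y / G.H i - 1 =
            (y / G.H i - 1) + δ * (y / G.H i * algebraMap W L c) by rw [hx]; ring]
        refine add_mem (hy1 i) ?_
        rw [ValuationSubring.mem_nonunits_iff, map_mul]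
        exact mul_lt_one_of_lt_of_le hnu
          (((G.S i).valuation_le_one_iff _).mpr (mul_mem hm ((G.vertical i).const_mem c)))
      · rw [mul_pow, hG, mul_div_assoc, show y ^ n / f = 1 - δ by rw [hδdef]; ring,
          pow_succ 2 j, pow_mul, he]
        ring
  have hδ0 : ∀ i, δ₀ ∈ (G.S i).nonunits := fun i => (G.one_sub_mem_nonunits hq (h₀ i)).2.2.1
  obtain ⟨N, hN⟩ := G.exists_pow_div_mem hq hδ0 m
  obtain ⟨y, a, ha, hy, hy1, he⟩ := hstep N
  refine ⟨y, hy, hy1, G.mem_chart hq (fun U hU hz => ?_) fun i => ?_⟩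
  · rw [show (1 - y ^ n / f) / (q : L) ^ m =
        algebraMap K L (((q : K) ^ m)⁻¹) * (1 - y ^ n / f) by
      rw [map_inv₀, map_pow, map_natCast, div_eq_mul_inv, mul_comm]]
    exact mul_mem (hU _) (G.chart_horizontal hU hz
      (sub_mem (one_mem _) (G.pow_div_mem_chart hq hy)))
  · rw [he, mul_div_right_comm]
    exact mul_mem (hN _ N.lt_two_pow_self.le i) ((G.vertical i).chartRing_le ha)

/-- Two approximations agree modulo `q ^ m` on every component. -/
theorem approx_congr {m : ℕ} {y y' : L} (i : ι) (hy : y / G.H i - 1 ∈ (G.S i).nonunits)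
    (hy' : y' / G.H i - 1 ∈ (G.S i).nonunits) (ha : (1 - y ^ n / f) / (q : L) ^ m ∈ G.S i)
    (ha' : (1 - y' ^ n / f) / (q : L) ^ m ∈ G.S i) : (y - y') / (q : L) ^ m / G.H i ∈ G.S i := by
  set V := G.S i
  obtain ⟨hm, r1, -, rH, hH⟩ := G.one_sub_mem_nonunits hq hy
  obtain ⟨hm', r1', -, -, -⟩ := G.one_sub_mem_nonunits hq hy'
  set a := y / G.H i
  set b := y' / G.H i
  set Sg := ∑ k ∈ Finset.range n, a ^ k * b ^ (n - 1 - k)
  have hSgm : Sg ∈ V := sum_mem fun k _ => mul_mem (pow_mem hm _) (pow_mem hm' _)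
  have hSgr : res V Sg = (n : ResidueField V) := by
    have h : ∀ k ∈ Finset.range n, (⟨a, hm⟩ : V) ^ k * ⟨b, hm'⟩ ^ (n - 1 - k) ∈
        {w : V | residue V w = 1} := fun k _ => by
      show residue V _ = 1
      rw [map_mul, map_pow, map_pow, ← res_of_mem hm, ← res_of_mem hm', r1, r1', one_pow, one_pow,
        one_mul]
    have e : Sg = ((∑ k ∈ Finset.range n, (⟨a, hm⟩ : V) ^ k * ⟨b, hm'⟩ ^ (n - 1 - k) : V) : L) := by
      rw [show ∀ w : V, (w : L) = V.subtype w from fun _ => rfl, map_sum]
      simp only [map_mul, map_pow]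
      rfl
    rw [e, res_coe, map_sum, Finset.sum_congr rfl h, Finset.sum_const, Finset.card_range,
      nsmul_one]
  have hnu : (n : ResidueField V) ≠ 0 := by
    let j : W →+* V := (algebraMap W L).codRestrict V.toSubring (G.vertical i).const_mem
    rw [← map_natCast ((residue V).comp j)]
    exact (G.unit_n.map _).ne_zero
  have hSgu : IsUnitAt V Sg := (isUnitAt_iff hSgm).mpr (hSgr ▸ hnu)
  have hHu : IsUnitAt V (G.H i ^ n / f) := (isUnitAt_iff hH).mpr (by rw [rH]; exact one_ne_zero)
  have hq0 := G.q_ne_zero hq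
  have key : (y - y') / (q : L) ^ m / G.H i =
      ((1 - y' ^ n / f) / (q : L) ^ m - (1 - y ^ n / f) / (q : L) ^ m) *
        (G.H i ^ n / f)⁻¹ * Sg⁻¹ := by
    have hg := geom_sum₂_mul a b n
    rw [eq_mul_inv_iff_mul_eq₀ hSgu.ne_zero, eq_mul_inv_iff_mul_eq₀ hHu.ne_zero,
      show (y - y') / (q : L) ^ m / G.H i = (a - b) / (q : L) ^ m by
        simp only [a, b]; ring,
      show (a - b) / (q : L) ^ m * Sg = (a ^ n - b ^ n) / (q : L) ^ m by
        rw [div_mul_eq_mul_div, mul_comm, hg]]
    simp only [a, b, div_pow]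
    have := G.H_ne_zero i
    have := G.ne_zero
    field_simp
    ring
  rw [key]
  exact mul_mem (mul_mem (sub_mem ha' ha) hHu.inv.mem) hSgu.inv.mem

end GlueFrame

end FermatAgent.BadRed.Carayol
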