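import Fermat.Agent.BadRed.Carayol.Inv
import Fermat.Agent.BadRed.Carayol.Sections
import Mathlib.RingTheory.Filtration

/-!
# Gluing the two charts

The module of sections on the overlap modulo those on the two charts is finitely generated over
`W`, so Krull's intersection theorem turns compatible approximations into a global root.
-/

set_option autoImplicit false
set_option linter.unusedSectionVars false

noncomputable section

namespace FermatAgent.BadRed.Carayol

open Polynomial IsLocalRing

variable {W K L : Type*} [CommRing W] [IsDomain W] [IsDiscreteValuationRing W]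
  [Field K] [CharZero K] [Algebra W K] [IsFractionRing W K]
  [Field L] [Algebra K L] [Algebra W L] [IsScalarTower W K L]
  {q n : ℕ} {f z : L} {ι : Type}

theorem adjoin_inv_eq (z : L) :
    IntermediateField.adjoin K {z⁻¹} = IntermediateField.adjoin K {z} := by
  refine le_antisymm (IntermediateField.adjoin_simple_le_iff.mpr
    (inv_mem (IntermediateField.mem_adjoin_simple_self K z)))
    (IntermediateField.adjoin_simple_le_iff.mpr ?_)
  simpa using inv_mem (IntermediateField.mem_adjoin_simple_self K z⁻¹)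

/-- Laurent polynomials become polynomials after multiplying by a power of the variable. -/
theorem exists_pow_mul_mem_adjoin (hz : z ≠ 0) {c : L}
    (hc : c ∈ Algebra.adjoin K ({z, z⁻¹} : Set L)) :
    ∃ k : ℕ, ∀ l, k ≤ l → z ^ l * c ∈ Algebra.adjoin K ({z} : Set L) := by
  have hzm : z ∈ Algebra.adjoin K ({z} : Set L) := Algebra.subset_adjoin rfl
  induction hc using Algebra.adjoin_induction with
  | mem x hx =>
    rcases hx with rfl | rfl
    · exact ⟨0, fun l _ => mul_mem (pow_mem hzm l) hzm⟩
    · refine ⟨1, fun l hl => ?_⟩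
      obtain ⟨d, rfl⟩ := Nat.exists_eq_add_of_le hl
      rw [add_comm, pow_succ, mul_assoc, mul_inv_cancel₀ hz, mul_one]
      exact pow_mem hzm d
  | algebraMap r => exact ⟨0, fun l _ => mul_mem (pow_mem hzm l) (Subalgebra.algebraMap_mem _ r)⟩
  | add x y _ _ hx hy =>
    obtain ⟨a, ha⟩ := hx
    obtain ⟨b, hb⟩ := hy
    refine ⟨a + b, fun l hl => ?_⟩
    rw [mul_add]
    exact add_mem (ha l (by omega)) (hb l (by omega))
  | mul x y _ _ hx hy =>
    obtain ⟨a, ha⟩ := hx
    obtain ⟨b, hb⟩ := hy
    refine ⟨a + b, fun l hl => ?_⟩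
    obtain ⟨d, rfl⟩ := Nat.exists_eq_add_of_le hl
    rw [show z ^ (a + b + d) * (x * y) = z ^ (a + d) * x * (z ^ b * y) by ring]
    exact mul_mem (ha _ (by omega)) (hb _ le_rfl)

/-- An element bounded where both `z` and `1/z` are integral becomes bounded where `z` is integral
after multiplying by a power of `z`. -/
theorem exists_pow_mul_mem_of_valuations (hz : z ≠ 0) {w : L}
    (h : ∀ U : ValuationSubring L, (∀ c : K, algebraMap K L c ∈ U) → ({z, z⁻¹} : Set L) ⊆ U →
      w ∈ U) :
    ∃ k : ℕ, ∀ l, k ≤ l → ∀ U : ValuationSubring L, (∀ c : K, algebraMap K L c ∈ U) → z ∈ U →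
      z ^ l * w ∈ U := by
  classical
  obtain ⟨p, hp, hpw⟩ := isIntegral_of_valuations (K := K) h
  choose k hk using fun i => exists_pow_mul_mem_adjoin hz (p.coeff i).2
  refine ⟨(Finset.range p.natDegree).sup k + 1, fun l hl U hU hzU => ?_⟩
  by_contra hbad
  have hgt : 1 < U.valuation (z ^ l * w) :=
    not_le.mp fun h' => hbad ((U.valuation_le_one_iff _).mp h')
  set t := z ^ l * w with ht
  have hadj : ∀ a ∈ Algebra.adjoin K ({z} : Set L), a ∈ U := fun a ha => by
    induction ha using Algebra.adjoin_induction with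
    | mem x hx => exact (Set.mem_singleton_iff.mp hx) ▸ hzU
    | algebraMap r => exact hU r
    | add x y _ _ hx hy => exact add_mem hx hy
    | mul x y _ _ hx hy => exact mul_mem hx hy
  set d := p.natDegree
  rw [eval₂_eq_sum_range, Finset.sum_range_succ, hp.coeff_natDegree, map_one, one_mul] at hpw
  have hsum : t ^ d =
      -∑ i ∈ Finset.range d, z ^ (l * (d - i)) * (p.coeff i : L) * t ^ i := by
    have h1 : z ^ (l * d) * (∑ i ∈ Finset.range d, (p.coeff i : L) * w ^ i + w ^ d) = 0 := by
      rw [show (∑ i ∈ Finset.range d, (p.coeff i : L) * w ^ i + w ^ d) = 0 from hpw, mul_zero]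
    rw [mul_add, Finset.mul_sum] at h1
    rw [eq_neg_iff_add_eq_zero, ht, mul_pow, ← pow_mul, ← h1, add_comm]
    congr 1
    refine Finset.sum_congr rfl fun i hi => ?_
    have hi' := Finset.mem_range.mp hi
    rw [mul_pow, ← pow_mul, show l * d = l * (d - i) + l * i by
      rw [← mul_add, Nat.sub_add_cancel hi'.le], pow_add]
    ring
  rcases Nat.eq_zero_or_pos d with hd | hd
  · rw [hd] at hsum
    simp at hsum
  have hlt : U.valuation (∑ i ∈ Finset.range d, z ^ (l * (d - i)) * (p.coeff i : L) * t ^ i) <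
      U.valuation t ^ d := by
    refine Valuation.map_sum_lt _ (pow_ne_zero _ (zero_lt_one.trans hgt).ne') fun i hi => ?_
    have hi' := Finset.mem_range.mp hi
    have hkl : k i ≤ l * (d - i) := by
      refine le_trans ?_ (Nat.le_mul_of_pos_right l (by omega))
      have := Finset.le_sup (f := k) hi
      omega
    rw [map_mul, map_pow U.valuation t i]
    exact (mul_le_of_le_one_left' ((U.valuation_le_one_iff _).mpr
      (hadj _ (hk i _ hkl)))).trans_lt (pow_lt_pow_right₀ hgt hi')
  have := congrArg U.valuation hsum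
  rw [Valuation.map_neg, map_pow] at this
  exact (ne_of_lt hlt) this.symm

/-- Every element is a quotient of elements of the chart ring. -/
theorem exists_mul_mem_chartRing (hq : maximalIdeal W = Ideal.span {(q : W)})
    (hu : Transcendental K z) [FiniteDimensional (IntermediateField.adjoin K {z}) L] (x : L) :
    ∃ B : L, B ≠ 0 ∧ B ∈ chartRing W z ∧ B * x ∈ chartRing W z := by
  have halg : IsAlgebraic (Algebra.adjoin W {z}) x :=
    isAlgebraic_adjoin_of_isAlgebraic_intermediateField hq hu _
      (minpoly.ne_zero (Algebra.IsIntegral.isIntegral (R := IntermediateField.adjoin K {z}) x))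
      (minpoly.aeval _ _)
  obtain ⟨y, hy0, hy⟩ := halg.exists_integral_multiple
  refine ⟨(y : L), fun h => hy0 (Subtype.ext h), ?_, ?_⟩
  · exact mem_chartRing_iff.mpr (isIntegral_algebraMap (R := Algebra.adjoin W {z}) (x := y))
  · refine mem_chartRing_iff.mpr ?_
    rw [Algebra.smul_def] at hy
    exact hy

namespace GlueFrame

variable (G : GlueFrame W K q n f z ι)

/-- The same data in the inverse coordinate. -/
def inv : GlueFrame W K q n f z⁻¹ ι where
  hn := G.hn
  unit_n := G.unit_n
  ne_zero := G.ne_zero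
  S := G.S
  H := G.H
  vertical i := (G.vertical i).inv
  exhaust V hV := G.exhaust V (inv_inv z ▸ hV.inv)
  rank := G.rank
  transc h := G.transc (by simpa using h.inv)
  finite := by rw [adjoin_inv_eq]; exact G.finite
  root := G.root

include G

/-- Multiplication by a power of `z` moves sections on the overlap into the chart. -/
theorem exists_pow_mul_sections {x : L} (hx : x ∈ G.sections {z, z⁻¹}) :
    ∃ i : ℕ, ∀ j, i ≤ j → z ^ j * x ∈ G.sections {z} := by
  obtain ⟨k, hk⟩ := exists_pow_mul_mem_of_valuations (K := K) G.z_ne_zero (w := x ^ n / f)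
    fun U hU hs => by
      rw [← U.valuation_le_one_iff, map_div₀, map_pow]
      exact div_le_one_of_le₀ (hx.1 U hU hs) zero_le
  refine ⟨k, fun j hj => ⟨fun U hU hs => ?_, fun i => ?_⟩⟩
  · have hzU : z ∈ U := hs rfl
    have h1 := (U.valuation_le_one_iff _).mpr
      (hk (j * n) (hj.trans (Nat.le_mul_of_pos_right j G.hn)) U hU hzU)
    rw [pow_mul, ← mul_div_assoc, ← mul_pow, map_div₀, map_pow] at h1
    have hf0 : 0 < U.valuation f :=
      zero_lt_iff.mpr ((Valuation.ne_zero_iff _).mpr G.ne_zero)
    exact (div_le_one₀ hf0).mp h1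
  · rw [mul_div_assoc]
    exact mul_mem (pow_mem (G.vertical i).u_mem.mem j) (hx.2 i)

/-- Dually for the chart at infinity. -/
theorem exists_pow_mul_sections_inv {x : L} (hx : x ∈ G.sections {z, z⁻¹}) :
    ∃ i : ℕ, ∀ j, i ≤ j → x / z ^ j ∈ G.sections {z⁻¹} := by
  have hset : ({z⁻¹, z⁻¹⁻¹} : Set L) = {z, z⁻¹} := by rw [inv_inv, Set.pair_comm]
  obtain ⟨i, hi⟩ := G.inv.exists_pow_mul_sections (x := x) (hset ▸ hx)
  refine ⟨i, fun j hj => ?_⟩
  have := hi j hj
  rwa [inv_pow, mul_comm, ← div_eq_mul_inv] at this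

variable (hq : maximalIdeal W = Ideal.span {(q : W)})
include hq

/-- The sections on a chart are finitely generated over the polynomials. -/
theorem exists_generators [Finite ι] : ∃ s : Finset L, (∀ g ∈ s, g ∈ G.sections {z}) ∧
    ∀ x ∈ G.sections {z}, x ∈ Submodule.span (Algebra.adjoin W {z}) (s : Set L) := by
  classical
  have := G.finite
  let A := Algebra.adjoin W {z}
  have := moduleFinite_chartRing (W := W) G.transc
  have htr : Transcendental W z := by
    rw [transcendental_iff_injective]
    intro a b hab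
    refine map_injective (algebraMap W K) (IsFractionRing.injective W K)
      (transcendental_iff_injective.mp G.transc ?_)
    rw [aeval_map_algebraMap, aeval_map_algebraMap]
    exact hab
  have : IsNoetherianRing A :=
    isNoetherianRing_of_ringEquiv _ (algEquivOfTranscendental W z htr).toRingEquiv
  let J : Submodule A L :=
    { carrier := G.sections {z}
      zero_mem' := zero_mem _
      add_mem' := add_mem
      smul_mem' := fun a x hx => by
        rw [Algebra.smul_def]
        exact G.mul_mem_sections (Set.mem_singleton z)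
          (mem_chartRing_iff.mpr (isIntegral_algebraMap (R := A) (x := a))) hx }
  obtain ⟨B, hB0, hB, hBf⟩ := exists_mul_mem_chartRing hq G.transc f
  choose N hN using fun i => (G.rank i).exists_mul_mem (B * G.H i)
  obtain ⟨M, hM⟩ := Finite.exists_le N
  set lam := (q : L) ^ M * B with hlam
  have hqm : ∀ i, (q : L) ∈ G.S i := fun i => by
    have := (G.vertical i).q_mem
    exact ValuationSubring.nonunits_subset this
  have hlam0 : lam ≠ 0 := mul_ne_zero (pow_ne_zero _ (G.q_ne_zero hq)) hB0
  let C : Submodule A L := Subalgebra.toSubmodule (integralClosure A L)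
  have hCfg : C.FG := Module.Finite.iff_fg.mp (inferInstanceAs (Module.Finite A (integralClosure A L)))
  have : IsNoetherian A C := isNoetherian_of_fg_of_noetherian C hCfg
  have hle : J.map (LinearMap.mulLeft A lam) ≤ C := by
    rintro _ ⟨x, hx, rfl⟩
    refine mem_chartRing_iff.mp (G.mem_chart hq (fun U hU hz => ?_) fun i => ?_)
    · rw [LinearMap.mulLeft_apply, ← U.valuation_le_one_iff]
      have hlamU : U.valuation lam ≤ 1 := (U.valuation_le_one_iff _).mpr
        (G.chart_horizontal hU hz (mul_mem (pow_mem (natCast_mem _ q) M) hB))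
      have h2 : U.valuation (lam * f) ≤ 1 := (U.valuation_le_one_iff _).mpr
        (G.chart_horizontal hU hz (by
          rw [hlam, mul_assoc]; exact mul_mem (pow_mem (natCast_mem _ q) M) hBf))
      refine (pow_le_one_iff G.hn.ne').mp ?_
      calc U.valuation (lam * x) ^ n = U.valuation lam ^ n * U.valuation x ^ n := by
            rw [map_mul, mul_pow]
        _ ≤ U.valuation lam * U.valuation f := mul_le_mul'
            (pow_le_of_le_one zero_le hlamU G.hn.ne') (hx.1 U hU (Set.singleton_subset_iff.mpr hz))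
        _ ≤ 1 := by rw [← map_mul]; exact h2
    · rw [LinearMap.mulLeft_apply]
      obtain ⟨d, hd⟩ := Nat.exists_eq_add_of_le (hM i)
      have hH := G.H_ne_zero i
      rw [show lam * x = (q : L) ^ d * ((q : L) ^ N i * (B * G.H i)) * (x / G.H i) by
        rw [hlam, hd, pow_add]; field_simp]
      exact mul_mem (mul_mem (pow_mem (hqm i) d) (hN i)) (hx.2 i)
  have hJ : J.FG := by
    refine Submodule.fg_of_fg_map_injective (LinearMap.mulLeft A lam)
      (fun a b h => mul_left_cancel₀ hlam0 h) ?_
    exact isNoetherian_submodule.mp inferInstance _ hle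
  obtain ⟨s, hs⟩ := hJ
  refine ⟨s, fun g hg => ?_, fun x hx => ?_⟩
  · have : g ∈ J := hs ▸ Submodule.subset_span hg
    exact this
  · rw [hs]; exact hx

/-- The obstruction group is finitely generated over `W`. -/
theorem exists_finite_cover [Finite ι] : ∃ T : Finset L, (∀ t ∈ T, t ∈ G.sections {z, z⁻¹}) ∧
    ∀ x ∈ G.sections {z, z⁻¹},
      x ∈ Submodule.span W (T : Set L) ⊔ (G.sections {z} ⊔ G.sections {z⁻¹}) := by
  classical
  obtain ⟨s, hs, hgen⟩ := G.exists_generators hq
  have h01 : G.sections {z} ≤ G.sections {z, z⁻¹} :=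
    G.sections_mono (Set.singleton_subset_iff.mpr (Or.inl rfl))
  choose N hN using fun g : s => G.exists_pow_mul_sections_inv (h01 (hs g g.2))
  let M := Finset.univ.sup N
  let T := (s ×ˢ Finset.range M).image fun p => p.1 / z ^ p.2
  set Big := Submodule.span W (T : Set L) ⊔ (G.sections {z} ⊔ G.sections {z⁻¹})
  have hz := G.z_ne_zero
  refine ⟨T, fun t ht => ?_, fun x hx => ?_⟩
  · obtain ⟨⟨g, j⟩, hgj, rfl⟩ := Finset.mem_image.mp ht
    refine ⟨fun U hU hs' => ?_, fun i => ?_⟩
    · rw [map_div₀, map_pow, div_eq_mul_inv, mul_pow, mul_comm, ← inv_pow, ← map_inv₀]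
      exact (mul_le_of_le_one_left' (pow_le_one' (pow_le_one'
        ((U.valuation_le_one_iff _).mpr (hs' (Or.inr rfl))) j) n)).trans
        ((hs g (Finset.mem_product.mp hgj).1).1 U hU
          (Set.singleton_subset_iff.mpr (hs' (Or.inl rfl))))
    · rw [div_right_comm, div_eq_mul_inv]
      exact mul_mem ((hs g (Finset.mem_product.mp hgj).1).2 i)
        ((G.vertical i).u_mem.pow j).inv.mem
  · have key : ∀ y ∈ Submodule.span (Algebra.adjoin W {z}) (s : Set L),
        ∀ (P : Polynomial W) (i : ℕ), aeval z P * y / z ^ i ∈ Big := by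
      intro y hy
      induction hy using Submodule.span_induction with
      | mem g hg =>
        intro P
        induction P using Polynomial.induction_on' with
        | add P R hP hR => intro i; rw [map_add, add_mul, add_div]; exact add_mem (hP i) (hR i)
        | monomial j c =>
          intro i
          rw [aeval_monomial, mul_assoc, mul_div_assoc, ← Algebra.smul_def]
          refine Submodule.smul_mem _ c ?_
          rcases le_or_gt i j with hij | hij
          · obtain ⟨d, rfl⟩ := Nat.exists_eq_add_of_le hij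
            rw [pow_add, mul_assoc, mul_div_cancel_left₀ _ (pow_ne_zero i hz)]
            refine Submodule.mem_sup_right (Submodule.mem_sup_left ?_)
            exact G.mul_mem_sections (Set.mem_singleton z)
              (pow_mem self_mem_chartRing d) (hs g hg)
          · obtain ⟨d, rfl⟩ := Nat.exists_eq_add_of_le hij.le
            rw [pow_add, mul_div_mul_left _ _ (pow_ne_zero j hz)]
            rcases lt_or_ge d M with hd | hd
            · exact Submodule.mem_sup_left (Submodule.subset_span (Finset.mem_image.mpr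
                ⟨(g, d), Finset.mem_product.mpr ⟨hg, Finset.mem_range.mpr hd⟩, rfl⟩))
            · exact Submodule.mem_sup_right (Submodule.mem_sup_right
                (hN ⟨g, hg⟩ d ((Finset.le_sup (Finset.mem_univ _)).trans hd)))
      | zero => intro P i; rw [mul_zero, zero_div]; exact zero_mem _
      | add a b _ _ ha hb => intro P i; rw [mul_add, add_div]; exact add_mem (ha P i) (hb P i)
      | smul a b _ hb =>
        intro P i
        obtain ⟨R, hR⟩ := Algebra.adjoin_mem_exists_aeval _ _ a.2
        rw [Algebra.smul_def, show algebraMap (Algebra.adjoin W {z}) L a = (a : L) from rfl,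
          ← hR, ← mul_assoc, ← map_mul]
        exact hb (P * R) i
    obtain ⟨i, hi⟩ := G.exists_pow_mul_sections hx
    have := key _ (hgen _ (hi i le_rfl)) 1 i
    rwa [map_one, one_mul, mul_div_cancel_left₀ _ (pow_ne_zero i hz)] at this

/-- Classes divisible by all powers of `q` vanish; torsion is bounded. -/
theorem exists_torsion_bound [Finite ι] :
    (∀ d : L, (∀ m : ℕ, ∃ x ∈ G.sections {z, z⁻¹},
        d - (q : L) ^ m * x ∈ G.sections {z} ⊔ G.sections {z⁻¹}) →
      d ∈ G.sections {z} ⊔ G.sections {z⁻¹}) ∧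
    ∃ e : ℕ, ∀ x ∈ G.sections {z, z⁻¹}, ∀ m : ℕ,
      (q : L) ^ m * x ∈ G.sections {z} ⊔ G.sections {z⁻¹} →
      (q : L) ^ e * x ∈ G.sections {z} ⊔ G.sections {z⁻¹} := by
  classical
  set N := G.sections {z} ⊔ G.sections {z⁻¹}
  set P : Submodule W (L ⧸ N) := (G.sections {z, z⁻¹}).map N.mkQ
  obtain ⟨T, hT, hcov⟩ := G.exists_finite_cover hq
  have hP : P = Submodule.span W (N.mkQ '' (T : Set L)) := by
    refine le_antisymm ?_ ?_
    · rintro _ ⟨x, hx, rfl⟩
      obtain ⟨a, ha, b, hb, rfl⟩ := Submodule.mem_sup.mp (hcov x hx)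
      rw [map_add, (Submodule.Quotient.mk_eq_zero N).mpr hb |> fun h => show N.mkQ b = 0 from h,
        add_zero, ← Submodule.map_span]
      exact Submodule.mem_map_of_mem ha
    · rw [Submodule.span_le]
      rintro _ ⟨t, ht, rfl⟩
      exact Submodule.mem_map_of_mem (hT t ht)
  have : Module.Finite W P := Module.Finite.of_fg ⟨T.image N.mkQ, by
    rw [Finset.coe_image, hP]⟩
  have hmk : ∀ {x : L}, N.mkQ x = 0 ↔ x ∈ N := Submodule.Quotient.mk_eq_zero N
  have hsmul : ∀ (m : ℕ) (x : L), ((q : W) ^ m) • N.mkQ x = N.mkQ ((q : L) ^ m * x) := fun m x => by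
    rw [← map_smul, Algebra.smul_def, map_pow, map_natCast]
  constructor
  · intro d hd
    obtain ⟨x₀, hx₀, hx₀'⟩ := hd 0
    have hdP : N.mkQ d ∈ P := by
      have h : N.mkQ d = N.mkQ x₀ := by
        rw [← sub_eq_zero, ← map_sub]
        exact hmk.mpr (by simpa using hx₀')
      exact h ▸ Submodule.mem_map_of_mem hx₀
    have h0 : (⟨N.mkQ d, hdP⟩ : P) ∈ (⨅ m : ℕ, maximalIdeal W ^ m • ⊤ : Submodule W P) := by
      refine Submodule.mem_iInf _ |>.mpr fun m => ?_
      obtain ⟨x, hx, hx'⟩ := hd m
      rw [show (⟨N.mkQ d, hdP⟩ : P) = ((q : W) ^ m) • ⟨N.mkQ x, Submodule.mem_map_of_mem hx⟩ from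
        Subtype.ext (by
          show N.mkQ d = ((q : W) ^ m) • N.mkQ x
          rw [hsmul, ← sub_eq_zero, ← map_sub]; exact hmk.mpr hx')]
      refine Submodule.smul_mem_smul (Ideal.pow_mem_pow ?_ m) trivial
      rw [hq]; exact Ideal.mem_span_singleton_self _
    rw [Ideal.iInf_pow_smul_eq_bot_of_isLocalRing _ (maximalIdeal.isMaximal W).ne_top,
      Submodule.mem_bot] at h0
    exact hmk.mp (congrArg Subtype.val h0)
  · let K' : ℕ →o Submodule W P :=
      ⟨fun m => LinearMap.ker (LinearMap.lsmul W P ((q : W) ^ m)), fun a b hab x hx => by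
        rw [LinearMap.mem_ker, LinearMap.lsmul_apply] at hx ⊢
        obtain ⟨c, rfl⟩ := Nat.exists_eq_add_of_le hab
        rw [pow_add, mul_comm, mul_smul, hx, smul_zero]⟩
    obtain ⟨e, he⟩ := monotone_stabilizes_iff_noetherian.mpr
      (inferInstance : IsNoetherian W P) K'
    refine ⟨e, fun x hx m hm => ?_⟩
    have h1 : (⟨N.mkQ x, Submodule.mem_map_of_mem hx⟩ : P) ∈ K' (max e m) := by
      refine K'.monotone (le_max_right e m) ?_
      show LinearMap.lsmul W P ((q : W) ^ m) ⟨N.mkQ x, Submodule.mem_map_of_mem hx⟩ = 0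
      exact Subtype.ext ((hsmul m x).trans (hmk.mpr hm))
    rw [← he _ (le_max_left e m)] at h1
    exact hmk.mp ((hsmul e x).symm.trans (congrArg Subtype.val h1))

/-- **Gluing.** Local roots on both charts give a global root up to a constant. -/
theorem exists_global_root [Finite ι] [Nonempty ι]
    (hconst : ∀ x : L, IsAlgebraic K x → x ∈ Set.range (algebraMap K L))
    (h₀ : ∃ y ∈ G.sections {z}, ∀ i, y / G.H i - 1 ∈ (G.S i).nonunits)
    (h₁ : ∃ y ∈ G.sections {z⁻¹}, ∀ i, y / G.H i - 1 ∈ (G.S i).nonunits) :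
    ∃ (c : K) (y : L), c ≠ 0 ∧ y ^ n = algebraMap K L c * f := by
  classical
  obtain ⟨y₀, hy₀, hy₀'⟩ := h₀
  obtain ⟨y₁, hy₁, hy₁'⟩ := h₁
  choose y hy using fun m => G.exists_approx hq hy₀ hy₀' m
  choose y' hy' using fun m => G.inv.exists_approx hq hy₁ hy₁' m
  set S₀₁ := G.sections {z, z⁻¹}
  set N := G.sections {z} ⊔ G.sections {z⁻¹}
  have h0le : G.sections {z} ≤ S₀₁ := G.sections_mono (Set.singleton_subset_iff.mpr (Or.inl rfl))
  have h1le : G.sections {z⁻¹} ≤ S₀₁ := G.sections_mono (Set.singleton_subset_iff.mpr (Or.inr rfl))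
  have hq0 := G.q_ne_zero hq
  have hAm : ∀ m i, (1 - y m ^ n / f) / (q : L) ^ m ∈ G.S i := fun m i =>
    (G.vertical i).chartRing_le (hy m).2.2
  have hBm : ∀ m i, (1 - y' m ^ n / f) / (q : L) ^ m ∈ G.S i := fun m i =>
    (G.vertical i).inv.chartRing_le (hy' m).2.2
  have hqi : ∀ i, (q : L) ∈ G.S i := fun i =>
    ValuationSubring.nonunits_subset (G.vertical i).q_mem
  -- the difference of the two approximations
  have hd : ∀ m, (y m - y' m) / (q : L) ^ m ∈ S₀₁ := fun m =>
    ⟨fun U hU hs => G.div_pow_bound hq hU hs (sub_mem (h0le (hy m).1) (h1le (hy' m).1)) m,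
      fun i => G.approx_congr hq i ((hy m).2.1 i) ((hy' m).2.1 i) (hAm m i) (hBm m i)⟩
  obtain ⟨hkrull, e, he⟩ := G.exists_torsion_bound hq
  have hdN : ∀ l, y l - y' l ∈ N := fun l => hkrull _ fun m => ⟨_, hd m, by
    rw [mul_div_cancel₀ _ (pow_ne_zero m hq0),
      show (y l - y' l) - (y m - y' m) = (y l - y m) + (-(y' l - y' m)) by ring]
    exact add_mem (Submodule.mem_sup_left (sub_mem (hy l).1 (hy m).1))
      (Submodule.mem_sup_right (neg_mem (sub_mem (hy' l).1 (hy' m).1)))⟩
  set m := e + 1
  have hx : (q : L) ^ e * ((y m - y' m) / (q : L) ^ m) ∈ N :=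
    he _ (hd m) m (by rw [mul_div_cancel₀ _ (pow_ne_zero m hq0)]; exact hdN m)
  obtain ⟨a, ha, b, hb, hab⟩ := Submodule.mem_sup.mp hx
  have hab' : (q : L) * a + (q : L) * b = y m - y' m := by
    rw [← mul_add, hab]; simp only [m, pow_succ]; field_simp
  have hqa : (q : L) * a ∈ G.sections {z} :=
    G.mul_mem_sections (Set.mem_singleton z) (natCast_mem _ q) ha
  have hqb : (q : L) * b ∈ G.sections {z⁻¹} :=
    G.inv.mul_mem_sections (Set.mem_singleton z⁻¹) (natCast_mem _ q) hb
  set r := y m - (q : L) * a with hr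
  have hr0 : r ∈ G.sections {z} := sub_mem (hy m).1 hqa
  have hr1 : r ∈ G.sections {z⁻¹} := by
    rw [show r = y' m + (q : L) * b by rw [hr]; linear_combination -hab']
    exact add_mem (hy' m).1 hqb
  have hrne : r ≠ 0 := fun h => by
    let i := Classical.arbitrary ι
    have h1 : r / G.H i - 1 ∈ (G.S i).nonunits := by
      rw [show r / G.H i - 1 = (y m / G.H i - 1) + -((q : L) * (a / G.H i)) by rw [hr]; ring]
      refine add_mem ((hy m).2.1 i) (neg_mem ?_)
      rw [ValuationSubring.mem_nonunits_iff, map_mul]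
      exact mul_lt_one_of_lt_of_le (G.vertical i).q_mem
        (((G.S i).valuation_le_one_iff _).mpr (ha.2 i))
    rw [h, zero_div, zero_sub, ValuationSubring.mem_nonunits_iff, Valuation.map_neg, map_one] at h1
    exact lt_irrefl _ h1
  have hall : ∀ U : ValuationSubring L, (∀ c : K, algebraMap K L c ∈ U) → r ^ n / f ∈ U := by
    intro U hU
    rw [← U.valuation_le_one_iff, map_div₀, map_pow]
    rcases U.mem_or_inv_mem z with hz | hz
    · exact div_le_one_of_le₀ (hr0.1 U hU (Set.singleton_subset_iff.mpr hz)) zero_le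
    · exact div_le_one_of_le₀ (hr1.1 U hU (Set.singleton_subset_iff.mpr hz)) zero_le
  have hint : IsIntegral (Algebra.adjoin K (∅ : Set L)) (r ^ n / f) :=
    isIntegral_of_valuations fun U hU _ => hall U hU
  have : Algebra.IsIntegral K (Algebra.adjoin K (∅ : Set L)) := ⟨fun a => by
    obtain ⟨c, hc⟩ := Algebra.mem_bot.mp ((Algebra.adjoin_empty K L).le a.2)
    rw [show a = algebraMap K _ c from Subtype.ext hc.symm]
    exact isIntegral_algebraMap⟩
  obtain ⟨c, hc⟩ := hconst _ (isIntegral_trans (R := K) _ hint).isAlgebraic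
  have e1 : r ^ n = algebraMap K L c * f := by rw [hc, div_mul_cancel₀ _ G.ne_zero]
  refine ⟨c, r, fun h => pow_ne_zero n hrne ?_, e1⟩
  rw [e1, h, map_zero, zero_mul]

end GlueFrame

end FermatAgent.BadRed.Carayol
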