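import Fermat.Agent.BadRed.Carayol.Twist
import Mathlib.Algebra.Polynomial.Reverse

/-!
# The chart at infinity

Replacing the coordinate by its inverse keeps the vertical components and all data attached to
them, so the twisted roots are balanced in both charts at once.
-/

set_option autoImplicit false
set_option linter.unusedSectionVars false

noncomputable section

namespace FermatAgent.BadRed.Carayol

open Polynomial IsLocalRing

/-- Inverting the coordinate keeps the vertical valuations. -/
theorem IsVertical.inv {W : Type*} {L : Type*} [CommRing W] [IsDomain W]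
    [IsDiscreteValuationRing W] [Field L] [Algebra W L] {q : ℕ} {v : L} {V : ValuationSubring L} (hV : IsVertical W q v V) :
    IsVertical W q v⁻¹ V := by
  refine ⟨hV.const_mem, hV.q_mem, fun P hP => ?_⟩
  have hne : P.reverse.map (residue W) ≠ 0 := by
    intro h
    refine hP (Polynomial.ext fun i => ?_)
    rw [coeff_map, coeff_zero]
    rcases le_or_gt i P.natDegree with hi | hi
    · have := congrArg (fun Q : Polynomial (ResidueField W) => Q.coeff (P.natDegree - i)) h
      simp only [coeff_map, coeff_zero, coeff_reverse, revAt_le (Nat.sub_le _ _)] at this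
      rwa [Nat.sub_sub_self hi] at this
    · rw [coeff_eq_zero_of_natDegree_lt hi, map_zero]
  have hu := hV.isUnitAt _ hne
  have hv := hV.u_mem
  let _ : Invertible v⁻¹ := invertibleOfNonzero (inv_ne_zero hv.ne_zero)
  have e := eval₂_reverse_mul_pow (algebraMap W L) v⁻¹ P
  rw [invOf_eq_inv, inv_inv] at e
  rw [IsUnitAt, aeval_def, ← e, map_mul, show V.valuation (eval₂ (algebraMap W L) v P.reverse) = 1
    from hu, one_mul, map_pow, show V.valuation v⁻¹ = 1 by rw [map_inv₀, show _ = _ from hv, inv_one],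
    one_pow]

theorem res_eq_pow_inv {L : Type*} [Field L] {V : ValuationSubring L} {a b : L} (ha : IsUnitAt V a)
    (hb : IsUnitAt V b) {k : ℕ} (h : res V a = res V b ^ k) : res V a⁻¹ = res V b⁻¹ ^ k := by
  rw [← one_div, ← one_div, res_div (one_mem V) ha, res_div (one_mem V) hb, res_one, h, one_div,
    one_div, inv_pow]

variable {q : ℕ} [Fact q.Prime] {W K F F₁ F₂ : Type*}
  [CommRing W] [IsDomain W] [IsDiscreteValuationRing W] [IsAlgClosed (IsLocalRing.ResidueField W)]
  [Field K] [CharZero K] [Algebra W K] [IsFractionRing W K]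
  [Field F] [Field F₁] [Field F₂] [Algebra K F] [Algebra K F₁] [Algebra K F₂]
  [Algebra W F] [Algebra W F₁] [Algebra W F₂]
  [IsScalarTower W K F] [IsScalarTower W K F₁] [IsScalarTower W K F₂]
  {T : QTower q K F F₁ F₂} {u : F}
  (hq : maximalIdeal W = Ideal.span {(q : W)}) (D : ChartData W T u)
include hq D

theorem isInf_inv {V : ValuationSubring F₂} (hV : IsVertical W q (T.α (T.t u)) V)
    (h : IsInf T u V) : IsInf T u⁻¹ V := by
  simp only [IsInf, map_inv₀]
  exact res_eq_pow_inv (isVertical_x₁ hq D hV).u_mem hV.u_mem h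

theorem isZero_inv {V : ValuationSubring F₂} (hV : IsVertical W q (T.α (T.t u)) V)
    (h : IsZero' T u V) : IsZero' T u⁻¹ V := by
  simp only [IsZero', map_inv₀]
  exact res_eq_pow_inv (isVertical_x₂ hq D hV).u_mem hV.u_mem h

theorem isMid_inv {V : ValuationSubring F₂} (hV : IsVertical W q (T.α (T.t u)) V)
    (h : IsMid T u V) : IsMid T u⁻¹ V := by
  simp only [IsMid, map_inv₀]
  exact ⟨res_eq_pow_inv hV.u_mem (isVertical_x₁ hq D hV).u_mem h.1,
    res_eq_pow_inv hV.u_mem (isVertical_x₂ hq D hV).u_mem h.2⟩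

/-- The components in the chart at infinity. -/
def Comps.inv (C : Comps W T u) : Comps W T u⁻¹ where
  VI := C.VI
  V0 := C.V0
  Vm := C.Vm
  vI := by rw [map_inv₀, map_inv₀]; exact C.vI.inv
  v0 := by rw [map_inv₀, map_inv₀]; exact C.v0.inv
  vm := by rw [map_inv₀, map_inv₀]; exact C.vm.inv
  inf := isInf_inv hq D C.vI C.inf
  zero := isZero_inv hq D C.v0 C.zero
  mid := isMid_inv hq D C.vm C.mid

/-- The normalisation in the chart at infinity. -/
def Normal.inv {C : Comps W T u} {n : ℕ} {f : F₂} (N : Normal C n f) :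
    Normal (C.inv hq D) n f where
  ne_zero := N.ne_zero
  div := N.div
  dI := N.dI
  d₀ := N.d₀
  dm := N.dm
  expI := N.expI
  exp₀ := N.exp₀
  expm := N.expm
  normα := N.normα
  normβ := N.normβ

/-- The roots in the chart at infinity. -/
def RootSet.inv {C : Comps W T u} {n : ℕ} {f : F₂} {N : Normal C n f} (R : RootSet N) :
    RootSet (N.inv hq D) where
  hI := R.hI
  h₀ := R.h₀
  hm := R.hm
  memI := R.memI
  mem₀ := R.mem₀
  memm := R.memm
  rootI := R.rootI
  root₀ := R.root₀
  rootm := R.rootm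

/-- After raising to a fixed power, roots can be chosen balanced in both charts. -/
theorem exists_balanced (D' : ChartData W T u⁻¹) (C : Comps W T u) {n : ℕ} (hn : 0 < n) {f : F₂}
    {N : Normal C n f} (R : RootSet N) :
    ∃ (N' : Normal C n (f ^ (q * q - 1))) (R' : RootSet N'),
      R'.Balanced hq D ∧ (R'.inv hq D).Balanced hq D' := by
  obtain ⟨A, B, h, hA, hB, hAB⟩ := exists_sideRel hq D hn R
  obtain ⟨A', B', h', hA', hB', hAB'⟩ := exists_sideRel hq D.swap hn R.swap
  set Z := residue W A / residue W B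
  set Z' := residue W A' / residue W B'
  have hZ0 : Z ≠ 0 := div_ne_zero hA hB
  have hZ'0 : Z' ≠ 0 := div_ne_zero hA' hB'
  obtain ⟨a₀, ha₀⟩ := residue_surjective ((Z / Z') ^ (q - 1))⁻¹
  obtain ⟨am, ham⟩ := residue_surjective (Z ^ q * Z')⁻¹
  obtain ⟨N', R', ⟨hdI, hd₀, hdm⟩, hI, h₀, hm⟩ := R.exists_twist hq D (q * q - 1)
    (a₀ := a₀) (am := am)
    (by rw [ha₀, inv_pow, pow_right_comm, div_pow, hAB, hAB', div_one, one_pow, inv_one])
    (by rw [ham, inv_pow, mul_pow, pow_right_comm, hAB, hAB', one_pow, one_mul, inv_one])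
  have e₀ : residue W a₀ * (Z / Z') ^ (q - 1) = 1 := by
    rw [ha₀, inv_mul_cancel₀ (pow_ne_zero _ (div_ne_zero hZ0 hZ'0))]
  have em : residue W am * (Z ^ q * Z') = 1 := by
    rw [ham, inv_mul_cancel₀ (mul_ne_zero (pow_ne_zero _ hZ0) hZ'0)]
  exact ⟨N', R', balanced_of_sideRel hq D hn R h h' hB hA' hB' e₀ em R' hdI hd₀ hdm hI h₀ hm,
    balanced_of_sideRel hq D' hn (R.inv hq D) h h' hB hA' hB' e₀ em (R'.inv hq D) hdI hd₀ hdm hI
      h₀ hm⟩

end FermatAgent.BadRed.Carayol
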