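import Fermat.Agent.BadRed.Carayol.Base
import Fermat.Agent.BadRed.Carayol.Branch

/-!
# The vertical valuation subrings of the level `q N`

There are two of them: on one `s u ≡ (t u) ^ q`, on the other `t u ≡ (s u) ^ q`.
-/

set_option autoImplicit false
set_option linter.unusedSectionVars false

noncomputable section

namespace FermatAgent.BadRed.Carayol

open Polynomial IsLocalRing

section General

variable {q : ℕ} [Fact q.Prime] {W L : Type*} [CommRing W] [IsDomain W]
  [IsDiscreteValuationRing W] [Field L] [Algebra W L]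

/-- Being vertical is symmetric in the two roots of a Kronecker polynomial. -/
theorem IsVertical.of_root (hq : maximalIdeal W = Ideal.span {(q : W)}) {x z : L}
    {V : ValuationSubring L} (hV : IsVertical W q z V) {Φ : Polynomial (Polynomial W)}
    (h : Φ.map (mapRingHom (residue W)) = (X - C (X ^ q)) * (X ^ q - C X)) (hx : x ∈ V)
    (hroot : evalTwo Φ x z = 0) : IsVertical W q x V where
  const_mem := hV.const_mem
  q_mem := hV.q_mem
  isUnitAt P hP := by
    obtain ⟨hmem, hres⟩ := res_aeval hq hV hx P
    refine (isUnitAt_iff hmem).mpr ?_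
    rw [hres]
    intro h0
    have hk : (q : IsLocalRing.ResidueField W) = 0 := by
      rw [← map_natCast (residue W), residue_eq_zero_iff]
      exact natCast_mem_maximalIdeal hq
    have : CharP (IsLocalRing.ResidueField W) q :=
      (CharP.charP_iff_prime_eq_zero Fact.out).mpr hk
    have : CharP (IsLocalRing.ResidueField V) q := (CharP.charP_iff_prime_eq_zero Fact.out).mpr
      (by rw [← map_natCast (constRes hq hV), hk, map_zero])
    rcases res_root hq hV hx hV.u_mem.mem Φ h hroot with h1 | h1
    · refine eval₂_res_ne_zero hq hV ((P.map (residue W)).comp (X ^ q)) ?_ ?_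
      · rw [← expand_eq_comp_X_pow]
        exact (expand_ne_zero (Fact.out : q.Prime).pos).mpr hP
      · rw [eval₂_comp, eval₂_X_pow, ← h1]
        exact h0
    · refine eval₂_res_ne_zero hq hV ((P.map (residue W)).map (frobenius _ q)) ?_ ?_
      · exact (Polynomial.map_ne_zero_iff (frobenius_inj _ q)).mpr hP
      · rw [eval₂_map, ← h1, ← frobenius_def]
        have hcomm : (constRes hq hV).comp (frobenius (IsLocalRing.ResidueField W) q) =
            (frobenius (IsLocalRing.ResidueField V) q).comp (constRes hq hV) :=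
          RingHom.ext fun r => map_pow (constRes hq hV) r q
        rw [hcomm, ← hom_eval₂, h0, map_zero]

end General

variable {q : ℕ} [Fact q.Prime] {W K F F₁ F₂ : Type*}
  [CommRing W] [IsDomain W] [IsDiscreteValuationRing W]
  [Field K] [CharZero K] [Algebra W K] [IsFractionRing W K]
  [Field F] [Field F₁] [Field F₂] [Algebra K F] [Algebra K F₁] [Algebra K F₂]
  [Algebra W F] [Algebra W F₁] [Algebra W F₂]
  [IsScalarTower W K F] [IsScalarTower W K F₁] [IsScalarTower W K F₂]
  {T : QTower q K F F₁ F₂} {u : F}

variable (hq : maximalIdeal W = Ideal.span {(q : W)}) (D : ChartData W T u)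
include hq D

/-- A rational residue field gives rationality along the map. -/
theorem rationalAlong_of_resSurj {L : Type*} [Field L] [Algebra K L] [Algebra W L]
    [IsScalarTower W K L] (φ : F →ₐ[K] L) {V : ValuationSubring L}
    (hV : IsVertical W q (φ u) V) (h : ResSurj φ.toRingHom V) : RationalAlong φ W q u V :=
  fun y hy => by
  obtain ⟨c, hc, hyc⟩ := h y hy
  obtain ⟨a, b, hb, hab⟩ := exists_eq_div_base hq D (hV.comap φ) (y := c) hc
  refine ⟨a, b, hb, ?_⟩
  have hbmem : φ b ∈ V := hV.chartRing_le (map_mem_chartRing φ b.2)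
  rw [hyc, show (φ.toRingHom c : L) = φ c from rfl, ← res_mul (show φ c ∈ V from hc) hbmem,
    ← map_mul, hab]

theorem isVertical_s {V : ValuationSubring F₁} (hV : IsVertical W q (T.t u) V) :
    IsVertical W q (T.s u) V :=
  hV.of_root hq D.kronecker
    (hV.chartRing_le (mem_chartRing_of_evalTwo D.Φ D.monic D.root)) D.root

theorem isVertical_t {V : ValuationSubring F₁} (hV : IsVertical W q (T.s u) V) :
    IsVertical W q (T.t u) V :=
  isVertical_s hq D.swap hV

theorem level1_cases {V : ValuationSubring F₁} (hV : IsVertical W q (T.t u) V) :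
    res V (T.s u) = res V (T.t u) ^ q ∨ res V (T.t u) = res V (T.s u) ^ q :=
  (res_root hq hV (isVertical_s hq D hV).u_mem.mem hV.u_mem.mem D.Φ D.kronecker D.root).imp_right
    Eq.symm

theorem level1_not_both {V : ValuationSubring F₁} (hV : IsVertical W q (T.t u) V)
    (h1 : res V (T.s u) = res V (T.t u) ^ q) (h2 : res V (T.t u) = res V (T.s u) ^ q) : False :=
  res_branch_disjoint hq hV h1 h2.symm

theorem exists_adjCan {V : ValuationSubring F₁} (hV : IsVertical W q (T.t u) V)
    (h : res V (T.s u) = res V (T.t u) ^ q) :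
    letI := T.t.toRingHom.toAlgebra
    Nonempty (AdjData (F' := F) q (T.s u) (q : F₁) V) := by
  let _ : Algebra F F₁ := T.t.toRingHom.toAlgebra
  have : IsScalarTower W F F₁ :=
    IsScalarTower.of_algebraMap_eq fun w => (map_algebraMap_const T.t w).symm
  have : CharZero F₁ := charZero_of_injective_algebraMap (algebraMap K F₁).injective
  obtain ⟨E, hE⟩ := exists_eq_kron_add hq D.Φ D.kronecker
  exact ⟨adjCan hq hE D.root hV (isVertical_s hq D hV).u_mem.mem
    (disc_base hq D (hV.comap T.t)) T.finite_t
    (exists_eq_eval₂_of_adjoin T.t T.finite_t D.generate_t) h⟩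

/-- On the branch `s u ≡ (t u) ^ q` the residues come from the base along `t`. -/
theorem resSurj_of_can {V : ValuationSubring F₁} (hV : IsVertical W q (T.t u) V)
    (h : res V (T.s u) = res V (T.t u) ^ q) : ResSurj T.t.toRingHom V := by
  let _ : Algebra F F₁ := T.t.toRingHom.toAlgebra
  obtain ⟨A⟩ := exists_adjCan hq D hV h
  refine A.resSurj (β := u ^ q) (by
    show T.t (u ^ q) ∈ V
    rw [map_pow]; exact pow_mem hV.u_mem.mem q) ?_
  show _ = res V (T.t (u ^ q))
  rw [map_pow, res_pow hV.u_mem.mem]; exact h

theorem disc_of_can {V : ValuationSubring F₁} (hV : IsVertical W q (T.t u) V)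
    (h : res V (T.s u) = res V (T.t u) ^ q) : Disc (q : F₁) V := by
  obtain ⟨A⟩ := exists_adjCan hq D hV h
  exact @AdjData.disc F F₁ _ _ T.t.toRingHom.toAlgebra _ _ _ _ A

/-- Every vertical valuation subring of the level `q N` has uniformiser `q`. -/
theorem disc₁ {V : ValuationSubring F₁} (hV : IsVertical W q (T.t u) V) : Disc (q : F₁) V :=
  (level1_cases hq D hV).elim (disc_of_can hq D hV)
    (disc_of_can hq D.swap (isVertical_s hq D hV))

theorem rankOne₁ {V : ValuationSubring F₁} (hV : IsVertical W q (T.t u) V) : RankOne q V := by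
  have : (q : F₁) ≠ 0 := by
    rw [← map_natCast (algebraMap K F₁)]
    exact (map_ne_zero_iff _ (algebraMap K F₁).injective).mpr (natCast_ne_zero_frac hq)
  exact rankOne_of_disc (disc₁ hq D hV) hV.q_mem this hV.q_mem this

/-- The branch `s u ≡ (t u) ^ q` contains only one valuation subring. -/
theorem can_unique {V V' : ValuationSubring F₁} (hV : IsVertical W q (T.t u) V)
    (h : res V (T.s u) = res V (T.t u) ^ q) (hV' : IsVertical W q (T.t u) V')
    (h' : res V' (T.s u) = res V' (T.t u) ^ q) : V = V' := by
  let _ : Algebra F F₁ := T.t.toRingHom.toAlgebra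
  have : CharZero F₁ := charZero_of_injective_algebraMap (algebraMap K F₁).injective
  have key : ∀ {V V' : ValuationSubring F₁}, IsVertical W q (T.t u) V →
      res V (T.s u) = res V (T.t u) ^ q → IsVertical W q (T.t u) V' →
      res V' (T.s u) = res V' (T.t u) ^ q → V ≤ V' := fun {V V'} hV h hV' h' => by
    obtain ⟨A⟩ := exists_adjCan hq D hV h
    refine le_of_linear A (β := u ^ q) ?_ ?_ (isVertical_s hq D hV').u_mem.mem
      (isVertical_base_unique hq D (hV'.comap T.t) (hV.comap T.t)) ?_
    · show T.t (u ^ q) ∈ V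
      rw [map_pow]; exact pow_mem hV.u_mem.mem q
    · show _ = res V (T.t (u ^ q))
      rw [map_pow, res_pow hV.u_mem.mem]; exact h
    · show _ = res V' (T.t (u ^ q))
      rw [map_pow, res_pow hV'.u_mem.mem]; exact h'
  exact le_antisymm (key hV h hV' h') (key hV' h' hV h)

theorem oth_unique {V V' : ValuationSubring F₁} (hV : IsVertical W q (T.t u) V)
    (h : res V (T.t u) = res V (T.s u) ^ q) (hV' : IsVertical W q (T.t u) V')
    (h' : res V' (T.t u) = res V' (T.s u) ^ q) : V = V' :=
  can_unique hq D.swap (isVertical_s hq D hV) h (isVertical_s hq D hV') h'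

theorem finite_vertical₁ :
    {V : ValuationSubring F₁ | IsVertical W q (T.t u) V}.Finite := by
  refine Set.Finite.subset (s := {V | IsVertical W q (T.t u) V ∧
      res V (T.s u) = res V (T.t u) ^ q} ∪ {V | IsVertical W q (T.t u) V ∧
      res V (T.t u) = res V (T.s u) ^ q}) (Set.Finite.union ?_ ?_) ?_
  · exact Set.Subsingleton.finite fun a ha b hb => can_unique hq D ha.1 ha.2 hb.1 hb.2
  · exact Set.Subsingleton.finite fun a ha b hb => oth_unique hq D ha.1 ha.2 hb.1 hb.2
  · intro V hV
    exact (level1_cases hq D hV).imp (fun h => ⟨hV, h⟩) (fun h => ⟨hV, h⟩)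

/-- On the other branch the `q`-th powers of residues come from the base along `t`. -/
theorem resPow_of_oth [IsAlgClosed (IsLocalRing.ResidueField W)] {V : ValuationSubring F₁}
    (hV : IsVertical W q (T.t u) V) (h : res V (T.t u) = res V (T.s u) ^ q) :
    ResPow q T.t.toRingHom V := by
  let _ : Algebra F F₁ := T.t.toRingHom.toAlgebra
  have : IsScalarTower W F F₁ :=
    IsScalarTower.of_algebraMap_eq fun w => (map_algebraMap_const T.t w).symm
  have : CharZero F₁ := charZero_of_injective_algebraMap (algebraMap K F₁).injective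
  obtain ⟨E, hE⟩ := exists_eq_kron_add hq D.Φ D.kronecker
  have hVb := hV.comap T.t
  refine (adjPow hq hE D.root hV (isVertical_s hq D hV).u_mem.mem (disc_base hq D hVb)
    T.finite_t (exists_eq_eval₂_of_adjoin T.t T.finite_t D.generate_t) h.symm ?_).resPow
    (β := u) hV.u_mem.mem h.symm
  intro r hr
  obtain ⟨y, rfl⟩ := residue_surjective r
  exact res_pow_ne_res hq D hVb y.2 (by rw [res_of_mem (V := V.comap T.t.toRingHom) y.2]; exact hr)

end FermatAgent.BadRed.Carayol
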