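import Fermat.Agent.BadRed.Carayol.Glue

/-!
# A first root on one chart

At every point the prescribed residue roots come from the local ring; a partition of unity gives
a section on the chart close to all of them.
-/

set_option autoImplicit false
set_option linter.unusedSectionVars false

noncomputable section

namespace FermatAgent.BadRed.Carayol

open Polynomial IsLocalRing

variable {q : ℕ} [Fact q.Prime] {W K F F₁ F₂ : Type*}
  [CommRing W] [IsDomain W] [IsDiscreteValuationRing W] [IsAlgClosed (IsLocalRing.ResidueField W)]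
  [Field K] [CharZero K] [Algebra W K] [IsFractionRing W K]
  [Field F] [Field F₁] [Field F₂] [Algebra K F] [Algebra K F₁] [Algebra K F₂]
  [Algebra W F] [Algebra W F₁] [Algebra W F₂]
  [IsScalarTower W K F] [IsScalarTower W K F₁] [IsScalarTower W K F₂]
  {T : QTower q K F F₁ F₂} {u : F}
  (hq : maximalIdeal W = Ideal.span {(q : W)}) (D : ChartData W T u)
include hq D

/-- The gluing data of a set of roots. -/
def RootSet.frame {C : Comps W T u} {n : ℕ} (hn : 0 < n) (hnu : IsUnit (n : W)) {f : F₂}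
    {N : Normal C n f} (R : RootSet N) : GlueFrame W K q n f (T.α (T.t u)) (Fin 3) where
  hn := hn
  unit_n := hnu
  ne_zero := N.ne_zero
  S := ![C.VI, C.V0, C.Vm]
  H := ![R.hI * (q : F₂) ^ N.dI, R.h₀ * (q : F₂) ^ N.d₀, R.hm * (q : F₂) ^ N.dm]
  vertical i := by fin_cases i; exacts [C.vI, C.v0, C.vm]
  exhaust V hV := by
    rcases C.cases hq D hV with rfl | rfl | rfl
    exacts [⟨0, rfl⟩, ⟨1, rfl⟩, ⟨2, rfl⟩]
  rank i := by
    fin_cases i
    exacts [rankOne₂ hq D C.vI, rankOne₂ hq D C.v0, rankOne₂ hq D C.vm]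
  transc := D.transcendental_middle
  finite := D.finite_over₂
  root i := by
    have key : ∀ {V : ValuationSubring F₂} {h : F₂} {d : ℤ}, h ∈ V →
        HasExp q V f ((n : ℤ) * d) → res V h ^ n = res V (f / (q : F₂) ^ ((n : ℤ) * d)) →
        (h * (q : F₂) ^ d) ^ n / f - 1 ∈ V.nonunits := fun {V h d} hh hd hr => by
      have hu := (hasExp_iff (natCast_ne_zero₂ hq D)).mp hd
      have e : (h * (q : F₂) ^ d) ^ n / f = h ^ n / (f / (q : F₂) ^ ((n : ℤ) * d)) := by
        rw [mul_pow, div_div_eq_mul_div, ← zpow_natCast ((q : F₂) ^ d) n, ← zpow_mul, mul_comm d]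
      have hm : h ^ n / (f / (q : F₂) ^ ((n : ℤ) * d)) ∈ V := by
        rw [div_eq_mul_inv]; exact mul_mem (pow_mem hh n) hu.inv.mem
      rw [e]
      refine (res_eq_iff hm (one_mem V)).mp ?_
      rw [res_div (pow_mem hh n) hu, res_pow hh, hr, div_self hu.res_ne_zero, res_one]
    fin_cases i
    exacts [key R.memI N.expI R.rootI, key R.mem₀ N.exp₀ R.root₀, key R.memm N.expm R.rootm]

variable {P : Ideal (chartRing W (T.α (T.t u)))} [P.IsMaximal]
  (hqP : (q : chartRing W (T.α (T.t u))) ∈ P)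
include hqP

/-- Two local `n`-th roots with the same nonzero value can be combined. -/
theorem exists_glue_two {n : ℕ} (hn : 0 < n) (hnu : IsUnit (n : W)) {ε y y' : F₂}
    (hε : Loc (T.α (T.t u)) P ε) (hy : Loc (T.α (T.t u)) P y) (hy' : Loc (T.α (T.t u)) P y')
    (hval : pval hq hqP y' = pval hq hqP y) (h0 : pval hq hqP y ≠ 0) :
    ∃ w, Loc (T.α (T.t u)) P w ∧ ∀ V : ValuationSubring F₂,
      IsVertical W q (T.α (T.t u)) V → Through P V →
      (res V y ^ n = res V ε → res V w = res V y) ∧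
      (res V y' ^ n = res V ε → res V w = res V y') := by
  let SL : locRing P :=
    ∑ i ∈ Finset.range n, (⟨y', hy'⟩ : locRing P) ^ i * ⟨y, hy⟩ ^ (n - 1 - i)
  have hS : (SL : F₂) * (y' - y) = y' ^ n - y ^ n := by
    rw [show (SL : F₂) = ∑ i ∈ Finset.range n, y' ^ i * y ^ (n - 1 - i) by
      simp only [SL, show ∀ a : locRing P, (a : F₂) = (locRing P).subtype a from fun _ => rfl,
        map_sum, map_mul, map_pow]
      rfl]
    exact geom_sum₂_mul y' y n
  have hSv : pval hq hqP (SL : F₂) ≠ 0 := by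
    let g : locRing P →+* IsLocalRing.ResidueField W :=
      (RingEquiv.ofBijective _ (pointHom_bijective hq hqP)).symm.toRingHom.comp (residue (locRing P))
    have hg : ∀ a : locRing P, g a = pval hq hqP (a : F₂) := fun a => (pval_locRing hq hqP a).symm
    have h : ∀ i ∈ Finset.range n, g ((⟨y', hy'⟩ : locRing P) ^ i * ⟨y, hy⟩ ^ (n - 1 - i)) =
        pval hq hqP y ^ (n - 1) := fun i hi => by
      rw [map_mul, map_pow, map_pow, hg, hg]
      show pval hq hqP y' ^ i * pval hq hqP y ^ (n - 1 - i) = _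
      rw [hval, ← pow_add]
      congr 1
      have := Finset.mem_range.mp hi
      omega
    rw [← hg, map_sum, Finset.sum_congr rfl h, Finset.sum_const, Finset.card_range, nsmul_eq_mul]
    refine mul_ne_zero ?_ (pow_ne_zero _ h0)
    rw [← map_natCast (residue W)]
    exact (hnu.map (residue W)).ne_zero
  obtain ⟨hS0, hSi⟩ := loc_inv_of_pval_ne_zero hq hqP SL.2 hSv
  have hd : Loc (T.α (T.t u)) P (y ^ n + -ε) := (hy.pow n).add hε.neg
  refine ⟨y + -((y ^ n + -ε) * (SL : F₂)⁻¹), hy.add (hd.mul hSi).neg, fun V hV hT => ?_⟩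
  have hA : ∀ z : chartRing W (T.α (T.t u)), (z : F₂) ∈ V := fun z => hV.chartRing_le z.2
  have hyV := hT.mem hA hy
  have hy'V := hT.mem hA hy'
  have hεV := hT.mem hA hε
  have hSiV := hT.mem hA hSi
  have key : ∀ {a : F₂}, a ∈ V → res V a ^ n = res V ε →
      res V (a + -((a ^ n + -ε) * (SL : F₂)⁻¹)) = res V a := fun {a} ha h => by
    have hm : (a ^ n + -ε) * (SL : F₂)⁻¹ ∈ V :=
      mul_mem (add_mem (pow_mem ha n) (neg_mem hεV)) hSiV
    rw [res_add ha (neg_mem hm), res_neg hm, res_mul (add_mem (pow_mem ha n) (neg_mem hεV)) hSiV,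
      res_add (pow_mem ha n) (neg_mem hεV), res_neg hεV, res_pow ha, h, add_neg_cancel, zero_mul,
      neg_zero, add_zero]
  refine ⟨key hyV, fun h => ?_⟩
  rw [show y + -((y ^ n + -ε) * (SL : F₂)⁻¹) = y' + -((y' ^ n + -ε) * (SL : F₂)⁻¹) by
    field_simp; linear_combination -hS]
  exact key hy'V h

/-- Near every point the prescribed roots are the residues of one local element. -/
theorem exists_loc_all {C : Comps W T u} {n : ℕ} (hn : 0 < n) (hnu : IsUnit (n : W)) {f : F₂}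
    {N : Normal C n f} (R : RootSet N) (hbal : R.Balanced hq D) :
    ∃ ε γ z₀ : F₂, ε ≠ 0 ∧ γ ≠ 0 ∧ Loc (T.α (T.t u)) P ε ∧ Loc (T.α (T.t u)) P ε⁻¹ ∧
      f = ε * γ ^ n ∧ Loc (T.α (T.t u)) P z₀ ∧
      ∀ i, Through P ((R.frame hq D hn hnu).S i) →
        IsUnitAt ((R.frame hq D hn hnu).S i) ((R.frame hq D hn hnu).H i / γ) ∧
        res ((R.frame hq D hn hnu).S i) z₀ =
          res ((R.frame hq D hn hnu).S i) ((R.frame hq D hn hnu).H i / γ) := by
  obtain ⟨ε, γ, hε0, hγ0, hε, hεi, hf⟩ := exists_decomp hq D hqP hn N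
  set G := R.frame hq D hn hnu
  have lift : ∀ i, Through P (G.S i) → IsUnitAt (G.S i) (G.H i / γ) ∧
      res (G.S i) (G.H i / γ) ^ n = res (G.S i) ε ∧
      ∃ y, Loc (T.α (T.t u)) P y ∧ res (G.S i) y = res (G.S i) (G.H i / γ) := by
    intro i hT
    obtain ⟨h, d, hd, hh, hr, hH⟩ : ∃ (h : F₂) (d : ℤ), HasExp q (G.S i) f ((n : ℤ) * d) ∧
        h ∈ G.S i ∧ res (G.S i) h ^ n = res (G.S i) (f / (q : F₂) ^ ((n : ℤ) * d)) ∧
        G.H i = h * (q : F₂) ^ d := by
      fin_cases i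
      exacts [⟨_, _, N.expI, R.memI, R.rootI, rfl⟩, ⟨_, _, N.exp₀, R.mem₀, R.root₀, rfl⟩,
        ⟨_, _, N.expm, R.memm, R.rootm, rfl⟩]
    obtain ⟨-, hm, hpow, y, hy, hres⟩ :=
      exists_loc_root hq D hqP (G.vertical i) hT hn hd hh hr hε hεi hε0 hf
    rw [← hH] at hm hpow hres
    refine ⟨(isUnitAt_iff hm).mpr fun h0 => ?_, hpow, y, hy, hres⟩
    rw [h0, zero_pow hn.ne'] at hpow
    have hA : ∀ z : chartRing W (T.α (T.t u)), (z : F₂) ∈ G.S i :=
      fun z => (G.vertical i).chartRing_le z.2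
    have hu : IsUnitAt (G.S i) ε := by
      refine le_antisymm (((G.S i).valuation_le_one_iff _).mpr (hT.mem hA hε)) ?_
      have := ((G.S i).valuation_le_one_iff _).mpr (hT.mem hA hεi)
      rwa [map_inv₀, inv_le_one₀ (zero_lt_iff.mpr ((Valuation.ne_zero_iff _).mpr hε0))] at this
    exact hu.res_ne_zero hpow.symm
  suffices ∃ z₀, Loc (T.α (T.t u)) P z₀ ∧
      ∀ i, Through P (G.S i) → res (G.S i) z₀ = res (G.S i) (G.H i / γ) by
    obtain ⟨z₀, hz₀, h⟩ := this
    exact ⟨ε, γ, z₀, hε0, hγ0, hε, hεi, hf, hz₀, fun i hT => ⟨(lift i hT).1, h i hT⟩⟩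
  by_cases hss : IsSSPt hq D hqP
  · obtain ⟨hTI, hT0, hTm⟩ := ss_through hq D hqP hss C
    obtain ⟨-, hpI, yI, hyI, eI⟩ := lift 0 hTI
    obtain ⟨-, hp0, y₀, hy₀, e₀⟩ := lift 1 hT0
    obtain ⟨-, hpm, ym, hym, em⟩ := lift 2 hTm
    obtain ⟨hv0, hvm⟩ := hbal P hqP hss ε γ hε hεi hε0 hγ0 hf yI y₀ ym hyI hy₀ hym eI e₀ em
    have hne := pval_root_ne_zero hq D hqP C.vI hTI hn hyI hε hεi hε0 hpI eI
    obtain ⟨y₁, hy₁, hy₁'⟩ := exists_glue_two hq D hqP hn hnu hε hyI hy₀ hv0 hne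
    have a := (hy₁' _ C.vI hTI).1 ((congrArg (· ^ n) eI).trans hpI)
    have b := (hy₁' _ C.v0 hT0).2 ((congrArg (· ^ n) e₀).trans hp0)
    have hv1 : pval hq hqP y₁ = pval hq hqP yI :=
      pval_eq_of_res_eq hq hqP C.vI hTI hy₁ hyI a
    obtain ⟨z₀, hz₀, hz₀'⟩ :=
      exists_glue_two hq D hqP hn hnu hε hy₁ hym (hvm.trans hv1.symm) (hv1.symm ▸ hne)
    refine ⟨z₀, hz₀, fun i hT => ?_⟩
    fin_cases i
    · exact ((hz₀' _ C.vI hTI).1 ((congrArg (· ^ n) (a.trans eI)).trans hpI)).trans (a.trans eI)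
    · exact ((hz₀' _ C.v0 hT0).1 ((congrArg (· ^ n) (b.trans e₀)).trans hp0)).trans (b.trans e₀)
    · exact ((hz₀' _ C.vm hTm).2 ((congrArg (· ^ n) em).trans hpm)).trans em
  · have := D.finite_over₂
    obtain ⟨V, hV, hT⟩ := exists_through (K := K) hq D.transcendental_middle
      (finite_vertical₂ hq D) (fun U hU => rankOne₂ hq D hU) hqP
    obtain ⟨i, rfl⟩ := G.exhaust V hV
    obtain ⟨-, -, y, hy, e⟩ := lift i hT
    refine ⟨y, hy, fun j hj => ?_⟩
    obtain ⟨-, -, y', hy', e'⟩ := lift j hj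
    fin_cases i <;> fin_cases j
    · exact e
    · exact absurd (isSSPt_of_inf hq D hqP C.vI hT C.inf C.v0 hj (zero_other hq D C.v0 C.zero)) hss
    · exact absurd (isSSPt_of_inf hq D hqP C.vI hT C.inf C.vm hj C.mid.1) hss
    · exact absurd (isSSPt_of_inf hq D hqP C.vI hj C.inf C.v0 hT (zero_other hq D C.v0 C.zero)) hss
    · exact e
    · exact absurd (isSSPt_of_zero hq D hqP C.v0 hT C.zero C.vm hj C.mid.2) hss
    · exact absurd (isSSPt_of_inf hq D hqP C.vI hj C.inf C.vm hT C.mid.1) hss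
    · exact absurd (isSSPt_of_zero hq D hqP C.v0 hj C.zero C.vm hT C.mid.2) hss
    · exact e

omit hqP in
/-- **The first root on one chart.** -/
theorem exists_section {C : Comps W T u} {n : ℕ} (hn : 0 < n) (hnu : IsUnit (n : W)) {f : F₂}
    {N : Normal C n f} (R : RootSet N) (hbal : R.Balanced hq D) :
    ∃ y ∈ (R.frame hq D hn hnu).sections {T.α (T.t u)},
      ∀ i, y / (R.frame hq D hn hnu).H i - 1 ∈ ((R.frame hq D hn hnu).S i).nonunits := by
  classical
  set G := R.frame hq D hn hnu with hG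
  set A := chartRing W (T.α (T.t u))
  have hcA : ∀ i (a : A), (a : F₂) ∈ G.S i := fun i a => (G.vertical i).chartRing_le a.2
  have hnm : ∀ i {a b : F₂}, a ∈ G.S i → b ∈ (G.S i).nonunits → a * b ∈ (G.S i).nonunits := by
    intro i a b ha hb
    rw [ValuationSubring.mem_nonunits_iff, map_mul, mul_comm]
    exact mul_lt_one_of_lt_of_le hb (((G.S i).valuation_le_one_iff _).mpr ha)
  let I : Ideal A :=
    { carrier := {a | ∃ y ∈ G.sections {T.α (T.t u)}, ∀ i, (a : F₂) - y / G.H i ∈ (G.S i).nonunits}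
      zero_mem' := ⟨0, zero_mem _, fun i => by simp⟩
      add_mem' := by
        rintro a b ⟨y, hy, hy'⟩ ⟨z, hz, hz'⟩
        refine ⟨y + z, add_mem hy hz, fun i => ?_⟩
        push_cast
        rw [add_div, add_sub_add_comm]
        exact add_mem (hy' i) (hz' i)
      smul_mem' := by
        rintro c a ⟨y, hy, hy'⟩
        refine ⟨(c : F₂) * y, G.mul_mem_sections (Set.mem_singleton _) c.2 hy, fun i => ?_⟩
        rw [smul_eq_mul, MulMemClass.coe_mul, mul_div_assoc, ← mul_sub]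
        exact hnm i (hcA i c) (hy' i) }
  by_cases hI : I = ⊤
  · obtain ⟨y, hy, hy'⟩ : (1 : A) ∈ I := hI ▸ Submodule.mem_top
    refine ⟨y, hy, fun i => ?_⟩
    have := neg_mem (hy' i)
    rwa [neg_sub, OneMemClass.coe_one] at this
  exfalso
  obtain ⟨P, hP, hIP⟩ := Ideal.exists_le_maximal I hI
  have hqP : (q : A) ∈ P := hIP ⟨0, zero_mem _, fun i => by
    simpa using (G.vertical i).q_mem⟩
  obtain ⟨ε, γ, z₀, hε0, hγ0, hε, hεi, hf, hz₀, hres⟩ := exists_loc_all hq D hqP hn hnu R hbal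
  -- a function vanishing on the components away from the point
  have hx : ∀ i, ∃ x : A, x ∉ P ∧ (¬ Through P (G.S i) → (x : F₂) ∈ (G.S i).nonunits) := fun i => by
    by_cases hT : Through P (G.S i)
    · exact ⟨1, P.ne_top_iff_one.mp hP.ne_top, fun h => absurd hT h⟩
    · simp only [Through, not_forall] at hT
      obtain ⟨x, h1, h2⟩ := hT
      exact ⟨x, h2, fun _ => h1⟩
  choose x hxP hxV using hx
  set g : A := x 0 * x 1 * x 2
  have hgP : g ∉ P := fun h => (hP.isPrime.mem_or_mem h).elim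
    (fun h' => (hP.isPrime.mem_or_mem h').elim (hxP 0) (hxP 1)) (hxP 2)
  have hgV : ∀ i, ¬ Through P (G.S i) → (g : F₂) ∈ (G.S i).nonunits := fun i hT => by
    have h := hxV i hT
    obtain ⟨r, hr⟩ : ∃ r : A, g = r * x i := by
      fin_cases i
      exacts [⟨x 1 * x 2, show x 0 * x 1 * x 2 = x 1 * x 2 * x 0 by ring⟩,
        ⟨x 0 * x 2, show x 0 * x 1 * x 2 = x 0 * x 2 * x 1 by ring⟩, ⟨x 0 * x 1, rfl⟩]
    rw [hr, MulMemClass.coe_mul]
    exact hnm i (hcA i r) h
  -- denominators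
  obtain ⟨r₁, a₁, hr₁, ha₁⟩ := hz₀
  obtain ⟨r₂, a₂, hr₂, ha₂⟩ := hεi
  set s : A := r₁ * r₂
  have hsP : s ∉ P := fun h => (hP.isPrime.mem_or_mem h).elim hr₁ hr₂
  -- the exponent
  have hM : ∀ i, ∃ M : ℕ, ∀ k, M ≤ k → ¬ Through P (G.S i) →
      (g : F₂) ^ k * ((s : F₂) ^ 2 * (γ * z₀ / G.H i)) ∈ (G.S i).nonunits ∧
        (g : F₂) ^ k ∈ (G.S i).nonunits := fun i => by
    by_cases hT : Through P (G.S i)
    · exact ⟨0, fun k _ h => absurd hT h⟩
    have hg := hgV i hT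
    obtain ⟨k, hk⟩ := (G.rank i).exists_mul_mem ((s : F₂) ^ 2 * (γ * z₀ / G.H i))
    obtain ⟨l, hl⟩ := (G.rank i).pow_div_mem _ hg
    refine ⟨l * k + 1, fun j hj _ => ?_⟩
    obtain ⟨d, rfl⟩ := Nat.exists_eq_add_of_le hj
    have hgm := pow_mem (hcA i g) d
    constructor
    · have hq0 := G.q_ne_zero hq
      rw [show (g : F₂) ^ (l * k + 1 + d) * ((s : F₂) ^ 2 * (γ * z₀ / G.H i)) =
          (((g : F₂) ^ l / q) ^ k * ((q : F₂) ^ k * ((s : F₂) ^ 2 * (γ * z₀ / G.H i))) *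
            (g : F₂) ^ d) * g by
        rw [div_pow, ← pow_mul]; field_simp; ring]
      exact hnm i (mul_mem (mul_mem (pow_mem hl k) hk) hgm) hg
    · rw [show (g : F₂) ^ (l * k + 1 + d) = (g : F₂) ^ (l * k) * (g : F₂) ^ d * g by ring]
      exact hnm i (mul_mem (pow_mem (hcA i g) _) hgm) hg
  choose M hM using hM
  set m := M 0 + M 1 + M 2
  have hMle : ∀ i, M i ≤ m := fun i => by
    fin_cases i
    exacts [show M 0 ≤ M 0 + M 1 + M 2 by omega, show M 1 ≤ M 0 + M 1 + M 2 by omega,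
      show M 2 ≤ M 0 + M 1 + M 2 by omega]
  set a : A := s ^ 2 * g ^ m
  refine (fun h : a ∈ P => ?_) (hIP ⟨γ * z₀ * (a : F₂), ⟨fun U hU hzU => ?_, fun i => ?_⟩,
    fun i => ?_⟩)
  · rcases hP.isPrime.mem_or_mem h with h' | h'
    · exact hsP (hP.isPrime.mem_of_pow_mem _ h')
    · exact hgP (hP.isPrime.mem_of_pow_mem _ h')
  · obtain ⟨E, hE⟩ : ∃ E : A, (γ * z₀ * (a : F₂)) ^ n = f * (E : F₂) := by
      obtain ⟨k, rfl⟩ := Nat.exists_eq_add_of_le hn
      refine ⟨(r₂ * a₁) ^ (1 + k) * (a₂ * r₁) * s ^ k * (g ^ m) ^ (1 + k), ?_⟩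
      simp only [a, s]
      push_cast
      rw [hf, ← ha₁, ← ha₂]
      field_simp
      ring
    rw [← map_pow, hE, map_mul]
    exact mul_le_of_le_one_right' ((U.valuation_le_one_iff _).mpr
      (G.chart_horizontal hU (hzU rfl) E.2))
  all_goals
    by_cases hT : Through P (G.S i)
    · obtain ⟨hu, he⟩ := hres i hT
      have hz : z₀ ∈ G.S i := hT.mem (hcA i) ⟨r₁, a₁, hr₁, ha₁⟩
      have hq1 : z₀ / (G.H i / γ) ∈ G.S i := by
        rw [div_eq_mul_inv]; exact mul_mem hz hu.inv.mem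
      have e : γ * z₀ * (a : F₂) / G.H i = (a : F₂) * (z₀ / (G.H i / γ)) := by
        rw [div_div_eq_mul_div]; ring
      first
        | (rw [e]; exact mul_mem (hcA i a) hq1)
        | (rw [e, show (a : F₂) - (a : F₂) * (z₀ / (G.H i / γ)) =
              (a : F₂) * (1 - z₀ / (G.H i / γ)) by ring]
           refine hnm i (hcA i a) ((res_eq_iff (one_mem _) hq1).mp ?_)
           rw [res_div hz hu, he, div_self hu.res_ne_zero, res_one])
    · obtain ⟨h1, h2⟩ := hM i m (hMle i) hT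
      have e : γ * z₀ * (a : F₂) / G.H i =
          (g : F₂) ^ m * ((s : F₂) ^ 2 * (γ * z₀ / G.H i)) := by
        simp only [a]; push_cast; ring
      first
        | (rw [e]; exact ValuationSubring.nonunits_subset h1)
        | (rw [e]
           refine sub_mem ?_ h1
           simp only [a]; push_cast
           exact hnm i (pow_mem (hcA i s) 2) h2)

end FermatAgent.BadRed.Carayol
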