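import Fermat.Agent.BadRed.Carayol.Norms

/-!
# Normalising a function with norms equal to constants times `n`-th powers

After a bounded power and a power of `q` the orders at the three components are divisible by `n`.
-/

set_option autoImplicit false
set_option linter.unusedSectionVars false

noncomputable section

namespace FermatAgent.BadRed.Carayol

open Polynomial IsLocalRing

section Exp

variable {L : Type*} [Field L] {q : ℕ} {V : ValuationSubring L}

variable (q V) in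
/-- `y` has the order of `q ^ a`. -/
def HasExp (y : L) (a : ℤ) : Prop :=
  V.valuation y = V.valuation (q : L) ^ a

variable {x y : L} {a b : ℤ}

theorem HasExp.mul (hx : HasExp q V x a) (hy : HasExp q V y b) (hq0 : (q : L) ≠ 0) :
    HasExp q V (x * y) (a + b) := by
  rw [HasExp, map_mul, hx, hy, zpow_add₀ ((Valuation.ne_zero_iff _).mpr hq0)]

theorem HasExp.pow (hx : HasExp q V x a) (k : ℕ) : HasExp q V (x ^ k) ((k : ℤ) * a) := by
  rw [HasExp, map_pow, hx, mul_comm, zpow_mul, zpow_natCast]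

theorem hasExp_zpow (j : ℤ) : HasExp q V ((q : L) ^ j) j := map_zpow₀ _ _ _

theorem hasExp_zero_iff : HasExp q V y 0 ↔ IsUnitAt V y := by
  rw [HasExp, zpow_zero]; rfl

theorem hasExp_iff (hq0 : (q : L) ≠ 0) :
    HasExp q V y a ↔ IsUnitAt V (y / (q : L) ^ a) := by
  rw [HasExp, IsUnitAt, map_div₀, map_zpow₀,
    div_eq_one_iff_eq (zpow_ne_zero a ((Valuation.ne_zero_iff _).mpr hq0))]

theorem HasExp.unique (hx : HasExp q V x a) (hx' : HasExp q V x b) (hq0 : (q : L) ≠ 0)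
    (hq1 : (q : L) ∈ V.nonunits) : a = b := by
  have hpos : 0 < V.valuation (q : L) := zero_lt_iff.mpr ((Valuation.ne_zero_iff _).mpr hq0)
  exact (zpow_right_strictAnti₀ hpos hq1).injective (hx.symm.trans hx')

theorem HasExp.ne_zero (hx : HasExp q V x a) (hq0 : (q : L) ≠ 0) : x ≠ 0 := fun h => by
  rw [HasExp, h, map_zero] at hx
  exact zpow_ne_zero a ((Valuation.ne_zero_iff _).mpr hq0) hx.symm

theorem hasExp_comap {L' : Type*} [Field L'] {σ : L →+* L'} {V' : ValuationSubring L'}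
    (hq0 : (q : L) ≠ 0) : HasExp q (V'.comap σ) x a ↔ HasExp q V' (σ x) a := by
  have hq0' : (q : L') ≠ 0 := by rw [← map_natCast σ]; exact (map_ne_zero σ).mpr hq0
  rw [hasExp_iff hq0, hasExp_iff hq0', isUnitAt_comap, map_div₀, map_zpow₀, map_natCast]

theorem exists_hasExp_of_disc {y : L} (h : Disc (q : L) V) (hq0 : (q : L) ≠ 0) (hy : y ≠ 0) :
    ∃ k, HasExp q V y k := by
  obtain ⟨k, hk⟩ := h y hy
  exact ⟨k, (hasExp_iff hq0).mpr hk⟩

end Exp

theorem DivisibleOn.mul_const {K L : Type*} [Field K] [Field L] [Algebra K L] {f : L} {n : ℕ}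
    (h : DivisibleOn K f n) (k : ℕ) {c : K} (hc : c ≠ 0) :
    DivisibleOn K (f ^ k * algebraMap K L c) n := fun V hV => by
  obtain ⟨g, hg⟩ := h V hV
  refine ⟨g ^ k, ?_⟩
  have h1 : IsUnitAt V (algebraMap K L c) :=
    le_antisymm ((V.valuation_le_one_iff _).mpr (hV c)) (by
      have := (V.valuation_le_one_iff _).mpr (hV c⁻¹)
      rw [map_inv₀, map_inv₀, inv_le_one₀ (zero_lt_iff.mpr ((Valuation.ne_zero_iff _).mpr
        ((_root_.map_ne_zero _).mpr hc)))] at this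
      exact this)
  rw [map_mul, h1, mul_one, map_pow, hg, map_pow, ← pow_mul, ← pow_mul, mul_comm]

theorem exists_zpow_mul_unit {W K : Type*} [CommRing W] [IsDomain W] [IsDiscreteValuationRing W]
    [Field K] [Algebra W K] [IsFractionRing W K] {q : ℕ}
    (hq : maximalIdeal W = Ideal.span {(q : W)}) {c : K} (hc : c ≠ 0) :
    ∃ (k : ℤ) (w : Wˣ), c = (q : K) ^ k * algebraMap W K (w : W) := by
  obtain ⟨m, v, hv⟩ := exists_pow_mul_eq_algebraMap hq c
  have hqK : (q : K) ≠ 0 := natCast_ne_zero_frac hq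
  have hv0 : v ≠ 0 := fun h => by
    rw [h, map_zero, mul_eq_zero] at hv
    exact hv.elim (pow_ne_zero m hqK) hc
  obtain ⟨j, w, rfl⟩ :=
    IsDiscreteValuationRing.eq_unit_mul_pow_irreducible hv0 (natCast_irreducible hq)
  refine ⟨(j : ℤ) - m, w, ?_⟩
  rw [zpow_sub₀ hqK, zpow_natCast, zpow_natCast, div_mul_eq_mul_div, eq_div_iff (pow_ne_zero m hqK),
    mul_comm c, hv, map_mul, map_pow, map_natCast, mul_comm]

variable {q : ℕ} [Fact q.Prime] {W K F F₁ F₂ : Type*}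
  [CommRing W] [IsDomain W] [IsDiscreteValuationRing W] [IsAlgClosed (IsLocalRing.ResidueField W)]
  [Field K] [CharZero K] [Algebra W K] [IsFractionRing W K]
  [Field F] [Field F₁] [Field F₂] [Algebra K F] [Algebra K F₁] [Algebra K F₂]
  [Algebra W F] [Algebra W F₁] [Algebra W F₂]
  [IsScalarTower W K F] [IsScalarTower W K F₁] [IsScalarTower W K F₂]
  {T : QTower q K F F₁ F₂} {u : F}

variable (W T u) in
/-- The three components of the special fibre at level `q² N`. -/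
structure Comps where
  VI : ValuationSubring F₂
  V0 : ValuationSubring F₂
  Vm : ValuationSubring F₂
  vI : IsVertical W q (T.α (T.t u)) VI
  v0 : IsVertical W q (T.α (T.t u)) V0
  vm : IsVertical W q (T.α (T.t u)) Vm
  inf : IsInf T u VI
  zero : IsZero' T u V0
  mid : IsMid T u Vm

/-- The components for the interchanged tower. -/
def Comps.swap (C : Comps W T u) : Comps W T.swap u where
  VI := C.V0
  V0 := C.VI
  Vm := C.Vm
  vI := isVertical_swap_iff.mpr C.v0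
  v0 := isVertical_swap_iff.mpr C.vI
  vm := isVertical_swap_iff.mpr C.vm
  inf := isInf_swap_iff.mpr C.zero
  zero := isZero_swap_iff.mpr C.inf
  mid := isMid_swap_iff.mpr C.mid

variable (hq : maximalIdeal W = Ideal.span {(q : W)}) (D : ChartData W T u)
include hq D

theorem exists_comps : Nonempty (Comps W T u) := by
  obtain ⟨Vc, hVc, hc⟩ := exists_can hq D
  obtain ⟨Vo, hVo, ho⟩ := exists_can hq D.swap
  obtain ⟨VI, hI, hI', -⟩ := norm_can hq D hVc hc
  obtain ⟨V0, Vm, h0, h0', -, hm, hm', -⟩ := norm_oth hq D (isVertical_t hq D hVo) ho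
  exact ⟨⟨VI, V0, Vm, hI, h0, hm, hI', h0', hm'⟩⟩

theorem Comps.cases (C : Comps W T u) {V : ValuationSubring F₂}
    (hV : IsVertical W q (T.α (T.t u)) V) : V = C.VI ∨ V = C.V0 ∨ V = C.Vm := by
  rcases level2_cases hq D hV with h | h | h
  · exact Or.inl (inf_unique hq D hV h C.vI C.inf)
  · exact Or.inr (Or.inl (zero_unique hq D hV h C.v0 C.zero))
  · exact Or.inr (Or.inr (mid_unique hq D hV h C.vm C.mid))

theorem natCast_ne_zero₁ : (q : F₁) ≠ 0 := by
  rw [← map_natCast (algebraMap K F₁)]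
  exact (map_ne_zero_iff _ (algebraMap K F₁).injective).mpr (natCast_ne_zero_frac hq)

/-- A residue on a rational component comes from the base field. -/
theorem exists_rep {L : Type*} [Field L] [Algebra K L] [Algebra W L] [IsScalarTower W K L]
    (φ : F →ₐ[K] L) {V : ValuationSubring L} (hV : IsVertical W q (φ u) V)
    (hrat : RationalAlong φ W q u V) {y : L} (hy : y ∈ V) :
    ∃ c : F, φ c ∈ V ∧ res V y = res V (φ c) := by
  obtain ⟨a, b, hb, hab⟩ := hrat y hy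
  have hm : ∀ c : chartRing W u, φ c ∈ V := fun c => hV.chartRing_le (map_mem_chartRing φ c.2)
  have hbu : IsUnitAt V (φ b) := (isUnitAt_comap φ.toRingHom V).mp
    (isUnitAt_base_of_not_dvd hq D (hV.comap φ) hb)
  refine ⟨(a : F) / b, ?_, ?_⟩
  · rw [map_div₀, div_eq_mul_inv]; exact mul_mem (hm a) hbu.inv.mem
  · rw [map_div₀, res_div (hm a) hbu, eq_div_iff hbu.res_ne_zero]
    exact hab

theorem comap_inf (C : Comps W T u) :
    IsVertical W q (T.t u) (C.VI.comap T.α.toRingHom) ∧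
      res (C.VI.comap T.α.toRingHom) (T.s u) = res (C.VI.comap T.α.toRingHom) (T.t u) ^ q :=
  ⟨C.vI.comap T.α, (res_comap_eq_pow_iff (σ := T.α.toRingHom) q
    (isVertical_x₁ hq D C.vI).u_mem.mem C.vI.u_mem.mem).mpr C.inf⟩

/-- Exponents of a norm over the branch below infinity. -/
theorem hasExp_norm_can (C : Comps W T u) {f : F₂} {a : ℤ} (ha : HasExp q C.VI f a) :
    HasExp q (C.VI.comap T.α.toRingHom) (T.normα f) ((q : ℤ) * a) := by
  obtain ⟨hv, hc⟩ := comap_inf hq D C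
  obtain ⟨V, hV, hVi, hVc, hnorm⟩ := norm_can hq D hv hc
  obtain rfl := inf_unique hq D hV hVi C.vI C.inf
  have hu := (hnorm _ ((hasExp_iff (natCast_ne_zero₂ hq D)).mp ha)).1
  let _ : Algebra F₁ F₂ := T.α.toRingHom.toAlgebra
  have e : T.normα (f / (q : F₂) ^ a) = T.normα f / (q : F₁) ^ ((q : ℤ) * a) := by
    have h1 : (f / (q : F₂) ^ a) = f * algebraMap F₁ F₂ ((q : F₁) ^ (-a)) := by
      rw [map_zpow₀, map_natCast, zpow_neg, div_eq_mul_inv]
    rw [h1, map_mul, show T.normα (algebraMap F₁ F₂ ((q : F₁) ^ (-a))) =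
        Algebra.norm F₁ (algebraMap F₁ F₂ ((q : F₁) ^ (-a))) from rfl, Algebra.norm_algebraMap,
      T.degree_α, ← zpow_natCast, ← zpow_mul, neg_mul, zpow_neg, mul_comm (a : ℤ), div_eq_mul_inv]
  rw [e] at hu
  exact (hasExp_iff (natCast_ne_zero₁ hq D)).mpr hu

/-- Exponents of a norm over the branch below zero and the middle. -/
theorem hasExp_norm_oth (C : Comps W T u) {f : F₂} {a₀ am : ℤ} (ha₀ : HasExp q C.V0 f a₀)
    (ham : HasExp q C.Vm f am) :
    HasExp q (C.Vm.comap T.α.toRingHom) (T.normα f) (a₀ + ((q - 1 : ℕ) : ℤ) * am) := by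
  obtain ⟨V₀, Vm, h0, h0', -, hm, hm', hmc, hnorm⟩ :=
    norm_oth hq D (C.vm.comap T.α) (mid_comap_α hq D C.vm C.mid)
  obtain rfl := zero_unique hq D h0 h0' C.v0 C.zero
  obtain rfl := mid_unique hq D hm hm' C.vm C.mid
  have hq0 := natCast_ne_zero₂ hq D
  obtain ⟨c₀, -, hc₀⟩ := exists_rep hq D (T.α.comp T.s) (isVertical_x₁ hq D C.v0)
    (rational_zero hq D C.v0 C.zero) ((hasExp_iff hq0).mp ha₀).mem
  obtain ⟨cm, -, hcm⟩ := exists_rep hq D (T.α.comp T.s) (isVertical_x₁ hq D C.vm)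
    (rational_mid hq D C.vm C.mid) ((hasExp_iff hq0).mp ham).mem
  exact (hasExp_iff (natCast_ne_zero₁ hq D)).mpr
    (hnorm f a₀ am c₀ cm ((hasExp_iff hq0).mp ha₀) hc₀ ((hasExp_iff hq0).mp ham) hcm).1

/-- Congruence of exponents forced by a norm. -/
theorem dvd_of_norm (C : Comps W T u) {f : F₂} {aI a₀ am : ℤ} {n : ℕ} (hn : 0 < n)
    (hI : HasExp q C.VI f aI) (h0 : HasExp q C.V0 f a₀) (hm : HasExp q C.Vm f am)
    (hN : ∃ (c : K) (g : F₁), T.normα f = algebraMap K F₁ c * g ^ n) :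
    (n : ℤ) ∣ a₀ + ((q - 1 : ℕ) : ℤ) * am - (q : ℤ) * aI := by
  obtain ⟨c, g, hcg⟩ := hN
  have hq0 := natCast_ne_zero₁ hq D
  have hcan := hasExp_norm_can hq D C hI
  have hoth := hasExp_norm_oth hq D C h0 hm
  have hc0 : c ≠ 0 := fun h => by
    rw [h, map_zero, zero_mul] at hcg
    exact hcan.ne_zero hq0 hcg
  have hg0 : g ≠ 0 := fun h => by
    rw [h, zero_pow hn.ne', mul_zero] at hcg
    exact hcan.ne_zero hq0 hcg
  obtain ⟨k, w, rfl⟩ := exists_zpow_mul_unit hq hc0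
  have key : ∀ V : ValuationSubring F₁, IsVertical W q (T.t u) V → ∀ a : ℤ,
      HasExp q V (T.normα f) a → ∃ j : ℤ, a = k + n * j := fun V hV a ha => by
    obtain ⟨j, hj⟩ := exists_hasExp_of_disc (disc₁ hq D hV) hq0 hg0
    refine ⟨j, ha.unique ?_ hq0 hV.q_mem⟩
    rw [hcg, map_mul, map_zpow₀, map_natCast, ← IsScalarTower.algebraMap_apply]
    have hwu : IsUnitAt V (algebraMap W F₁ (w : W)) := by
      have := hV.isUnitAt (Polynomial.C (w : W)) (by
        rw [map_C, Ne, C_eq_zero]; exact (w.isUnit.map (residue W)).ne_zero)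
      simpa using this
    have h1 : HasExp q V ((q : F₁) ^ k * algebraMap W F₁ (w : W)) k := by
      simpa using (hasExp_zpow k).mul (hasExp_zero_iff.mpr hwu) hq0
    exact h1.mul (hj.pow n) hq0
  obtain ⟨j, hj⟩ := key _ (C.vI.comap T.α) _ hcan
  obtain ⟨j', hj'⟩ := key _ (C.vm.comap T.α) _ hoth
  exact ⟨j' - j, by rw [hj', hj]; ring⟩

omit hq D in
/-- A function normalised at the three components. -/
structure Normal (C : Comps W T u) (n : ℕ) (f : F₂) where
  ne_zero : f ≠ 0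
  div : DivisibleOn K f n
  dI : ℤ
  d₀ : ℤ
  dm : ℤ
  expI : HasExp q C.VI f (n * dI)
  exp₀ : HasExp q C.V0 f (n * d₀)
  expm : HasExp q C.Vm f (n * dm)
  normα : ∃ (w : Wˣ) (g : F₁), T.normα f = algebraMap W F₁ (w : W) * g ^ n
  normβ : ∃ (w : Wˣ) (g : F₁), T.normβ f = algebraMap W F₁ (w : W) * g ^ n

omit hq D in
/-- The same function for the interchanged tower. -/
def Normal.swap {C : Comps W T u} {n : ℕ} {f : F₂} (N : Normal C n f) : Normal C.swap n f where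
  ne_zero := N.ne_zero
  div := N.div
  dI := N.d₀
  d₀ := N.dI
  dm := N.dm
  expI := N.exp₀
  exp₀ := N.expI
  expm := N.expm
  normα := N.normβ
  normβ := N.normα

/-- Powers of a normalised function. -/
theorem Normal.exists_pow {C : Comps W T u} {n : ℕ} {f : F₂} (N : Normal C n f) (k : ℕ) :
    ∃ N' : Normal C n (f ^ k),
      N'.dI = (k : ℤ) * N.dI ∧ N'.d₀ = (k : ℤ) * N.d₀ ∧ N'.dm = (k : ℤ) * N.dm := by
  refine ⟨{ ne_zero := pow_ne_zero k N.ne_zero, div := ?_, dI := (k : ℤ) * N.dI,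
            d₀ := (k : ℤ) * N.d₀, dm := (k : ℤ) * N.dm, expI := ?_, exp₀ := ?_, expm := ?_,
            normα := ?_, normβ := ?_ }, rfl, rfl, rfl⟩
  · simpa using N.div.mul_const k (one_ne_zero (α := K))
  · rw [mul_left_comm]; exact N.expI.pow k
  · rw [mul_left_comm]; exact N.exp₀.pow k
  · rw [mul_left_comm]; exact N.expm.pow k
  · obtain ⟨w, g, h⟩ := N.normα
    exact ⟨w ^ k, g ^ k, by rw [map_pow, h, Units.val_pow_eq_pow_val, map_pow, mul_pow, pow_right_comm]⟩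
  · obtain ⟨w, g, h⟩ := N.normβ
    exact ⟨w ^ k, g ^ k, by rw [map_pow, h, Units.val_pow_eq_pow_val, map_pow, mul_pow, pow_right_comm]⟩

/-- Normal form of a norm. -/
theorem exists_norm_unit (C : Comps W T u) {f : F₂} {dI : ℤ} {n : ℕ} (hn : 0 < n)
    (hI : HasExp q C.VI f (n * dI))
    (hN : ∃ (c : K) (g : F₁), T.normα f = algebraMap K F₁ c * g ^ n) :
    ∃ (w : Wˣ) (g : F₁), T.normα f = algebraMap W F₁ (w : W) * g ^ n := by
  have hq0 := natCast_ne_zero₁ hq D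
  have hcan := hasExp_norm_can hq D C hI
  obtain ⟨c, g, hcg⟩ := hN
  have hc0 : c ≠ 0 := fun h => by
    rw [h, map_zero, zero_mul] at hcg
    exact hcan.ne_zero hq0 hcg
  have hg0 : g ≠ 0 := fun h => by
    rw [h, zero_pow hn.ne', mul_zero] at hcg
    exact hcan.ne_zero hq0 hcg
  obtain ⟨k, w, rfl⟩ := exists_zpow_mul_unit hq hc0
  have hV := C.vI.comap T.α
  obtain ⟨j, hj⟩ := exists_hasExp_of_disc (disc₁ hq D hV) hq0 hg0
  have hwu : IsUnitAt (C.VI.comap T.α.toRingHom) (algebraMap W F₁ (w : W)) := by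
    have := hV.isUnitAt (Polynomial.C (w : W)) (by
      rw [map_C, Ne, C_eq_zero]; exact (w.isUnit.map (residue W)).ne_zero)
    simpa using this
  have hk : (q : ℤ) * ((n : ℤ) * dI) = k + n * j := by
    refine hcan.unique ?_ hq0 hV.q_mem
    rw [hcg, map_mul, map_zpow₀, map_natCast, ← IsScalarTower.algebraMap_apply]
    have h1 : HasExp q (C.VI.comap T.α.toRingHom) ((q : F₁) ^ k * algebraMap W F₁ (w : W)) k := by
      simpa using (hasExp_zpow k).mul (hasExp_zero_iff.mpr hwu) hq0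
    exact h1.mul (hj.pow n) hq0
  refine ⟨w, (q : F₁) ^ ((q : ℤ) * dI - j) * g, ?_⟩
  rw [hcg, map_mul, map_zpow₀, map_natCast, ← IsScalarTower.algebraMap_apply, mul_pow,
    ← zpow_natCast ((q : F₁) ^ _) n, ← zpow_mul,
    show ((q : ℤ) * dI - j) * n = k by linear_combination hk]
  ring

/-- A bounded power of `f`, times a power of `q`, is normalised. -/
theorem exists_normal (C : Comps W T u) {n : ℕ} (hn : 0 < n) {f : F₂} (hf : f ≠ 0)
    (hdiv : DivisibleOn K f n) (hα : ∃ (c : K) (g : F₁), T.normα f = algebraMap K F₁ c * g ^ n)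
    (hβ : ∃ (c : K) (g : F₁), T.normβ f = algebraMap K F₁ c * g ^ n) :
    ∃ c : K, c ≠ 0 ∧ Nonempty (Normal C n (f ^ ((q - 1) * (q * q - 1)) * algebraMap K F₂ c)) := by
  have hqp : q.Prime := Fact.out
  have hq0 := natCast_ne_zero₂ hq D
  have hqK : (q : K) ≠ 0 := natCast_ne_zero_frac hq
  -- integral exponents
  obtain ⟨kI, hkI⟩ := exists_hasExp_of_disc (disc_inf hq D C.vI C.inf) hq0 hf
  obtain ⟨k₀, hk₀⟩ := exists_hasExp_of_disc (disc_zero hq D C.v0 C.zero) hq0 hf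
  obtain ⟨km, hkm⟩ : ∃ km, HasExp q C.Vm (f ^ (q - 1)) km := by
    have hπ0 : T.β (T.t u) - T.α (T.s u) ≠ 0 := sub_ne_zero.mpr (x₁_ne_x₂ hq D).symm
    obtain ⟨k, hk⟩ := disc_mid hq D C.vm C.mid f hf
    refine ⟨k, ?_⟩
    rw [IsUnitAt, map_div₀, map_zpow₀,
      div_eq_one_iff_eq (zpow_ne_zero k ((Valuation.ne_zero_iff _).mpr hπ0))] at hk
    rw [HasExp, map_pow, hk, mid_val hq D C.vm C.mid, ← zpow_natCast, ← zpow_natCast, ← zpow_mul,
      ← zpow_mul, mul_comm]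
  set f₁ := f ^ (q - 1) with hf₁
  have hI₁ := hkI.pow (q - 1)
  have h0₁ := hk₀.pow (q - 1)
  set aI := ((q - 1 : ℕ) : ℤ) * kI
  set a₀ := ((q - 1 : ℕ) : ℤ) * k₀
  have hpowN : ∀ (φ : F₂ →* F₁), (∃ (c : K) (g : F₁), φ f = algebraMap K F₁ c * g ^ n) →
      ∃ (c : K) (g : F₁), φ f₁ = algebraMap K F₁ c * g ^ n := fun φ ⟨c, g, h⟩ =>
    ⟨c ^ (q - 1), g ^ (q - 1), by rw [hf₁, map_pow, h, map_pow, mul_pow, pow_right_comm]⟩
  have hf₁0 : f₁ ≠ 0 := pow_ne_zero _ hf
  have cα := dvd_of_norm hq D C hn hI₁ h0₁ hkm (hpowN T.normα hα)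
  have cβ := dvd_of_norm hq D.swap C.swap hn h0₁ hI₁ hkm (hpowN T.normβ hβ)
  set m := q * q - 1 with hm
  have hq1 : ((q - 1 : ℕ) : ℤ) = (q : ℤ) - 1 := by
    rw [Nat.cast_sub hqp.one_le]; simp
  have hmZ : ((m : ℕ) : ℤ) = (q : ℤ) * q - 1 := by
    rw [hm, Nat.cast_sub (Nat.one_le_iff_ne_zero.mpr (mul_ne_zero hqp.ne_zero hqp.ne_zero))]
    push_cast; ring
  obtain ⟨e₁, he₁⟩ := cα
  obtain ⟨e₂, he₂⟩ := cβ
  rw [hq1] at he₁ he₂
  -- the normalised exponents
  have hd₀ : (m : ℤ) * a₀ - (m : ℤ) * aI = (n : ℤ) * (((q : ℤ) - 1) * (e₁ - e₂)) := by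
    rw [hmZ]; linear_combination ((q : ℤ) - 1) * he₁ - ((q : ℤ) - 1) * he₂
  have hdm : (m : ℤ) * km - (m : ℤ) * aI = (n : ℤ) * ((q : ℤ) * e₁ + e₂) := by
    rw [hmZ]; linear_combination (q : ℤ) * he₁ + he₂
  let z : ℤ := -((m : ℤ) * aI)
  refine ⟨(q : K) ^ z, zpow_ne_zero _ hqK, ⟨?_⟩⟩
  rw [pow_mul, ← hf₁, map_zpow₀, map_natCast]
  have hI₂ : HasExp q C.VI (f₁ ^ m * (q : F₂) ^ z) ((n : ℤ) * 0) := by
    rw [mul_zero]
    convert (hI₁.pow m).mul (hasExp_zpow z) hq0 using 1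
    simp only [z, aI]; ring
  have h0₂ : HasExp q C.V0 (f₁ ^ m * (q : F₂) ^ z) ((n : ℤ) * (((q : ℤ) - 1) * (e₁ - e₂))) := by
    rw [← hd₀, sub_eq_add_neg]
    exact (h0₁.pow m).mul (hasExp_zpow z) hq0
  have hm₂ : HasExp q C.Vm (f₁ ^ m * (q : F₂) ^ z) ((n : ℤ) * ((q : ℤ) * e₁ + e₂)) := by
    rw [← hdm, sub_eq_add_neg]
    exact (hkm.pow m).mul (hasExp_zpow z) hq0
  have hcz : (q : F₂) ^ z = algebraMap K F₂ ((q : K) ^ z) := by rw [map_zpow₀, map_natCast]
  have hnorm : ∀ (φ : F₂ →* F₁), (∀ c : K, φ (algebraMap K F₂ c) = algebraMap K F₁ (c ^ q)) →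
      (∃ (c : K) (g : F₁), φ f = algebraMap K F₁ c * g ^ n) →
      ∃ (c : K) (g : F₁), φ (f₁ ^ m * (q : F₂) ^ z) = algebraMap K F₁ c * g ^ n := by
    rintro φ hφ h
    obtain ⟨c, g, hcg⟩ := hpowN φ h
    refine ⟨c ^ m * ((q : K) ^ z) ^ q, g ^ m, ?_⟩
    rw [hcz, map_mul φ, map_pow φ, hcg, hφ, mul_pow, map_mul, map_pow, map_pow, pow_right_comm g]
    ring
  have hconst : ∀ (S : QTower q K F F₁ F₂) (c : K),
      S.normα (algebraMap K F₂ c) = algebraMap K F₁ (c ^ q) := fun S c => by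
    let _ : Algebra F₁ F₂ := S.α.toRingHom.toAlgebra
    rw [show algebraMap K F₂ c = algebraMap F₁ F₂ (algebraMap K F₁ c) from (S.α.commutes c).symm,
      show S.normα (algebraMap F₁ F₂ (algebraMap K F₁ c)) =
        Algebra.norm F₁ (algebraMap F₁ F₂ (algebraMap K F₁ c)) from rfl,
      Algebra.norm_algebraMap, S.degree_α, map_pow]
  exact {
    ne_zero := mul_ne_zero (pow_ne_zero _ hf₁0) (zpow_ne_zero _ hq0)
    div := by
      rw [hcz, hf₁, ← pow_mul]
      exact hdiv.mul_const _ (zpow_ne_zero _ hqK)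
    dI := 0
    d₀ := ((q : ℤ) - 1) * (e₁ - e₂)
    dm := (q : ℤ) * e₁ + e₂
    expI := hI₂
    exp₀ := h0₂
    expm := hm₂
    normα := exists_norm_unit hq D C hn hI₂ (hnorm T.normα (hconst T) hα)
    normβ := exists_norm_unit hq D.swap C.swap hn h0₂ (hnorm T.normβ (hconst T.swap) hβ) }

end FermatAgent.BadRed.Carayol
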