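import Fermat.Agent.BadRed.Carayol.Mid

/-!
# The logarithmic-type derivative `-q Φ_T / Φ_X` on the two branches
-/

set_option autoImplicit false
set_option linter.unusedSectionVars false

noncomputable section

namespace FermatAgent.BadRed.Carayol

open Polynomial IsLocalRing

variable {q : ℕ} [Fact q.Prime] {W L : Type*} [CommRing W] [IsDomain W]
  [IsDiscreteValuationRing W] [Field L] [Algebra W L] [CharZero L]

variable (q) in
/-- `-q Φ_T / Φ_X` at `(x, z)`. -/
def rhoElt (Φ : Polynomial (Polynomial W)) (x z : L) : L :=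
  -((q : L) * evalTwo (derivInner Φ) x z / evalTwo Φ.derivative x z)

variable (hq : maximalIdeal W = Ideal.span {(q : W)}) {Φ E : Polynomial (Polynomial W)}
  (hk : Φ.map (mapRingHom (residue W)) = (X - C (X ^ q)) * (X ^ q - C X))
  (hE : Φ = kron W q + (q : Polynomial (Polynomial W)) * E) {x z : L}
  (hroot : evalTwo Φ x z = 0) {V : ValuationSubring L} (hV : IsVertical W q z V) (hx : x ∈ V)
include hq hk hE hroot hV hx

/-- On the branch `x ≡ z ^ q` it vanishes. -/
theorem rho_can (h : res V x = res V z ^ q) :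
    rhoElt q Φ x z ∈ V ∧ res V (rhoElt q Φ x z) = 0 := by
  have hzm := hV.u_mem.mem
  have hd : IsUnitAt V (evalTwo Φ.derivative x z) := by
    have hm := evalTwo_mem hq hV hx hzm Φ.derivative
    refine (isUnitAt_iff hm).mpr ?_
    rw [hE, evalTwo_derivative_kron_add]
    have hm' : x ^ (q - 1) * (x - z ^ q) + evalTwo E.derivative x z ∈ V :=
      add_mem (mul_mem (pow_mem hx _) (sub_mem hx (pow_mem hzm q))) (evalTwo_mem hq hV hx hzm _)
    have hqm : (q : L) * (x ^ (q - 1) * (x - z ^ q) + evalTwo E.derivative x z) ∈ V :=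
      mul_mem (natCast_mem V q) hm'
    rw [res_add (sub_mem (pow_mem hx q) hzm) hqm, res_mul (natCast_mem V q) hm',
      res_natCast_q hq hV, zero_mul, add_zero, res_sub (pow_mem hx q) hzm, res_pow hx, sub_ne_zero]
    exact fun h2 => res_branch_disjoint hq hV h h2
  have hn : rhoElt q Φ x z ∈ V.nonunits := by
    rw [rhoElt, ValuationSubring.mem_nonunits_iff, Valuation.map_neg, map_div₀, hd, div_one,
      map_mul]
    exact mul_lt_one_of_lt_of_le hV.q_mem
      ((V.valuation_le_one_iff _).mpr (evalTwo_mem hq hV hx hzm _))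
  exact ⟨ValuationSubring.nonunits_subset hn, res_eq_zero_of_mem_nonunits hn⟩

/-- On the branch `z ≡ x ^ q` it is `-P ^ 2 / N`. -/
theorem rho_oth (hVx : IsVertical W q x V) (h : res V z = res V x ^ q) :
    rhoElt q Φ x z ∈ V ∧
      res V (rhoElt q Φ x z) *
          (midPoly q (E.map (mapRingHom (residue W)))).eval₂ (constRes hq hV) (res V x) =
        -(res V x - res V x ^ (q * q)) ^ 2 := by
  have hqp : q.Prime := Fact.out
  have hkW : (q : IsLocalRing.ResidueField W) = 0 := by
    rw [← map_natCast (residue W), residue_eq_zero_iff]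
    exact natCast_mem_maximalIdeal hq
  have : CharP (IsLocalRing.ResidueField W) q := (CharP.charP_iff_prime_eq_zero hqp).mpr hkW
  have hzm := hV.u_mem.mem
  set A := x - z ^ q with hA
  have hAm : A ∈ V := sub_mem hx (pow_mem hzm q)
  have hAres : res V A = res V x - res V x ^ (q * q) := by
    rw [hA, res_sub hx (pow_mem hzm q), res_pow hzm, h, ← pow_mul]
  have hAu : IsUnitAt V A := by
    refine (isUnitAt_iff hAm).mpr ?_
    rw [hA, res_sub hx (pow_mem hzm q), res_pow hzm, sub_ne_zero]
    exact fun h1 => res_branch_disjoint hq hV h1 h.symm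
  set Dq := x ^ (q - 1) * A + evalTwo E.derivative x z - evalTwo E x z / A with hDq
  have hEm := evalTwo_mem hq hV hx hzm E
  have hE'm := evalTwo_mem hq hV hx hzm E.derivative
  have hpm := pow_mem hx (q - 1)
  have hroot' : A * (x ^ q - z) = -((q : L) * evalTwo E x z) := by
    rw [hE, evalTwo_kron_add] at hroot
    linear_combination hroot
  have hder : evalTwo Φ.derivative x z = (q : L) * Dq := by
    rw [hE, evalTwo_derivative_kron_add, hDq]
    field_simp [hAu.ne_zero]
    linear_combination hroot'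
  set ev := eval₂RingHom (constRes hq hV) (res V x)
  set Eb := E.map (mapRingHom (residue W))
  have hdiag : ∀ G : Polynomial (Polynomial W), res V (evalTwo G x z) =
      ev (diagPoly q (G.map (mapRingHom (residue W)))) := fun G => by
    rw [res_evalTwo hq hV hx hzm, diagPoly, hom_eval₂]
    congr 1
    · refine RingHom.ext fun p => ?_
      show p.eval₂ _ _ = eval₂ _ _ (expand _ q p)
      rw [expand_eq_comp_X_pow, eval₂_comp, eval₂_X_pow, h]
    · exact (eval₂_X _ _).symm
  have hPev : ev (X - X ^ (q * q)) = res V A := by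
    rw [hAres]; simp [ev]
  have hXev : ev X = res V x := eval₂_X _ _
  have hDm : Dq ∈ V := by
    rw [hDq, div_eq_mul_inv]
    exact sub_mem (add_mem (mul_mem hpm hAm) hE'm) (mul_mem hEm hAu.inv.mem)
  have hDres : res V Dq * res V A = -ev (midPoly q Eb) := by
    rw [hDq, div_eq_mul_inv, res_sub (add_mem (mul_mem hpm hAm) hE'm)
      (mul_mem hEm hAu.inv.mem), res_add (mul_mem hpm hAm) hE'm, res_mul hpm hAm, res_pow hx,
      res_mul hEm hAu.inv.mem, res_inv hAu, hdiag, hdiag, ← derivative_map, ← derivative_diagPoly,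
      midPoly, map_sub, map_sub, map_mul, map_mul, map_pow ev, map_pow ev, hPev, hXev]
    field_simp [hAu.res_ne_zero]
    ring
  have hDu : IsUnitAt V Dq := by
    refine (isUnitAt_iff hDm).mpr fun h0 => ?_
    rw [h0, zero_mul, eq_comm, neg_eq_zero] at hDres
    have hc : constRes hq hVx = constRes hq hV := Ideal.Quotient.ringHom_ext rfl
    refine eval₂_res_ne_zero hq hVx _ (midPoly_ne_zero hqp Eb) ?_
    rw [hc]
    exact hDres
  have hq0 : (q : L) ≠ 0 := Nat.cast_ne_zero.mpr hqp.ne_zero
  have hrho : rhoElt q Φ x z = -(evalTwo (derivInner Φ) x z / Dq) := by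
    rw [rhoElt, hder, mul_div_mul_left _ _ hq0]
  have hdim := evalTwo_mem hq hV hx hzm (derivInner Φ)
  refine ⟨hrho ▸ neg_mem (by rw [div_eq_mul_inv]; exact mul_mem hdim hDu.inv.mem), ?_⟩
  rw [hrho, res_neg (by rw [div_eq_mul_inv]; exact mul_mem hdim hDu.inv.mem), res_div hdim hDu,
    res_derivInner hq hV hx hzm Φ hk]
  have h2 : res V x - res V z ^ q = res V A := by rw [hA, res_sub hx (pow_mem hzm q), res_pow hzm]
  rw [h2, ← hAres, show (midPoly q Eb).eval₂ (constRes hq hV) (res V x) = ev (midPoly q Eb) from rfl,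
    ← neg_neg (ev (midPoly q Eb)), ← hDres]
  field_simp [hDu.res_ne_zero]

end FermatAgent.BadRed.Carayol
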