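import Fermat.Agent.BadRed.Carayol.Cusp
import Fermat.Agent.BadRed.Carayol.PointVal
import Fermat.Agent.BadRed.Carayol.Rho
import Fermat.Agent.BadRed.Carayol.Level1

/-!
# Separating the two branches of a root at a point of the special fibre

Away from the supersingular points a point lies on one branch only: at a cusp the ratio
`ξ ^ q / τ` takes the values `0` and `1`, elsewhere `-q Φ_T / Φ_X` separates the branches.
-/

set_option autoImplicit false
set_option linter.unusedSectionVars false

noncomputable section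

namespace FermatAgent.BadRed.Carayol

open Polynomial IsLocalRing

section Elementary

variable {L : Type*} [Field L] {q : ℕ}

/-- The cusp equation bounds `ξ ^ q / τ`. -/
theorem div_mem_of_cusp_eq {V : ValuationSubring L} {ξ τ G : L} (hq : 0 < q) (hξ : ξ ∈ V.nonunits)
    (hG : G ∈ V) (hξ0 : ξ ≠ 0)
    (h : ξ ^ (q + 1) + τ ^ (q + 1) + ξ * τ * G = 0) : ξ ^ q / τ ∈ V := by
  rcases eq_or_ne τ 0 with rfl | hτ0
  · simp [zero_mem]
  rw [← V.valuation_le_one_iff, map_div₀, map_pow,
    div_le_one₀ (zero_lt_iff.mpr ((Valuation.ne_zero_iff _).mpr hτ0))]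
  by_contra hlt
  rw [not_le] at hlt
  set a := V.valuation ξ
  set b := V.valuation τ
  have ha1 : a ≤ 1 := le_of_lt hξ
  have ha0 : 0 < a := zero_lt_iff.mpr ((Valuation.ne_zero_iff _).mpr hξ0)
  have hba : b < a := lt_of_lt_of_le hlt (pow_le_of_le_one zero_le ha1 hq.ne')
  have h1 : V.valuation (ξ ^ (q + 1)) ≤ max (b ^ (q + 1)) (a * b) := by
    rw [show ξ ^ (q + 1) = -(τ ^ (q + 1) + ξ * τ * G) by linear_combination h, Valuation.map_neg]
    refine (Valuation.map_add _ _ _).trans (max_le_max ?_ ?_)
    · rw [map_pow]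
    · rw [map_mul, map_mul]
      exact mul_le_of_le_one_right' ((V.valuation_le_one_iff _).mpr hG)
  rw [map_pow] at h1
  refine absurd h1 (not_le.mpr (max_lt (pow_lt_pow_left₀ hba zero_le (Nat.succ_ne_zero q)) ?_))
  rw [pow_succ']
  exact mul_lt_mul_of_pos_left hlt ha0

end Elementary

section MidPolyRoot

variable {k : Type*} [CommRing k] [IsDomain k] {q : ℕ}

/-- At an `F_{q²}`-rational zero of `E(X, X ^ q)` the middle polynomial has a double zero. -/
theorem exists_midPoly_eq [CharP k q] (_hq : q.Prime) (E : Polynomial (Polynomial k)) {b : k}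
    (hb : b ^ (q * q) = b) (he : (diagPoly q E).eval b = 0) :
    ∃ N U : Polynomial k, midPoly q E = (X - C b) ^ 2 * N ∧
      (X - X ^ (q * q) : Polynomial k) = (X - C b) * U ∧ U.eval b = 1 := by
  obtain ⟨U, hU⟩ := (dvd_iff_isRoot (p := (X - X ^ (q * q) : Polynomial k)) (a := b)).mpr
    (by simp [IsRoot, hb])
  obtain ⟨e₁, he₁⟩ := (dvd_iff_isRoot (p := diagPoly q E) (a := b)).mpr he
  have hU1 : U.eval b = 1 := by
    have := congrArg (fun p => (derivative p).eval b) hU
    simpa [derivative_X_pow, derivative_mul] using this.symm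
  obtain ⟨U₁, hU₁⟩ := (dvd_iff_isRoot (p := 1 - U) (a := b)).mpr (by simp [IsRoot, hU1])
  refine ⟨e₁ * U₁ - derivative e₁ * U - X ^ (q - 1) * U ^ 2, U, ?_, hU, hU1⟩
  rw [midPoly, hU, he₁, derivative_mul, derivative_sub, derivative_X, derivative_C, sub_zero,
    one_mul]
  linear_combination ((X - C b) * e₁) * hU₁

end MidPolyRoot

variable {q : ℕ} [Fact q.Prime] {W K F F₁ F₂ : Type*}
  [CommRing W] [IsDomain W] [IsDiscreteValuationRing W]
  [Field K] [CharZero K] [Algebra W K] [IsFractionRing W K]
  [Field F] [Field F₁] [Field F₂] [Algebra K F] [Algebra K F₁] [Algebra K F₂]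
  [Algebra W F] [Algebra W F₁] [Algebra W F₂]
  [IsScalarTower W K F] [IsScalarTower W K F₁] [IsScalarTower W K F₂]
  {T : QTower q K F F₁ F₂} {u : F}

/-- The error term `(Φ - kron) / q`. -/
def kronErr (hq : maximalIdeal W = Ideal.span {(q : W)}) (D : ChartData W T u) :
    Polynomial (Polynomial W) :=
  (exists_eq_kron_add hq D.Φ D.kronecker).choose

theorem kronErr_spec (hq : maximalIdeal W = Ideal.span {(q : W)}) (D : ChartData W T u) :
    D.Φ = kron W q + (q : Polynomial (Polynomial W)) * kronErr hq D :=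
  (exists_eq_kron_add hq D.Φ D.kronecker).choose_spec

/-- `b` is the residue of a cusp. -/
def ChartData.IsCuspVal (D : ChartData W T u) (b : IsLocalRing.ResidueField W) : Prop :=
  ∃ a ∈ D.cusps, residue W a = b

/-- The pair of values of a supersingular point. -/
def ChartData.IsSSVal (hq : maximalIdeal W = Ideal.span {(q : W)}) (D : ChartData W T u)
    (b b₁ : IsLocalRing.ResidueField W) : Prop :=
  ¬ D.IsCuspVal b ∧ b₁ = b ^ q ∧ b = b₁ ^ q ∧
    (diagPoly q ((kronErr hq D).map (mapRingHom (residue W)))).eval b₁ ≠ 0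

variable {L : Type*} [Field L] [Algebra K L] [Algebra W L] [IsScalarTower W K L]
  (hq : maximalIdeal W = Ideal.span {(q : W)}) (D : ChartData W T u)
  {v x : L} (hroot : evalTwo D.Φ x v = 0) {P : Ideal (chartRing W v)} [P.IsMaximal]
  (hqP : (q : chartRing W v) ∈ P) [IsAlgClosed (IsLocalRing.ResidueField W)]

include hq D in
theorem charP_residue : CharP (IsLocalRing.ResidueField W) q :=
  (CharP.charP_iff_prime_eq_zero Fact.out).mpr (by
    rw [← map_natCast (residue W), residue_eq_zero_iff]
    exact natCast_mem_maximalIdeal hq)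

include hroot in
theorem loc_root : Loc v P x :=
  chartRing_le_locRing P (mem_chartRing_of_evalTwo D.Φ D.monic hroot)

include hq D hroot hqP

/-- The values of a root lie on one of the Kronecker lines. -/
theorem pval_root :
    pval hq hqP x = pval hq hqP v ^ q ∨ pval hq hqP v = pval hq hqP x ^ q := by
  have h := pval_evalTwo hq hqP (loc_root D hroot) loc_self D.Φ
  rw [hroot, pval_zero, D.kronecker] at h
  simp only [eval₂_mul, eval₂_sub, eval₂_X, eval₂_C, eval₂_X_pow, coe_evalRingHom, eval_pow,
    eval_X, eq_comm (a := (0 : IsLocalRing.ResidueField W)), mul_eq_zero, sub_eq_zero] at h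
  exact h.imp_right Eq.symm

/-- Over a cusp the root takes the value of the conjugate cusp. -/
theorem pval_root_cusp {a : W} (ha : a ∈ D.cusps) (hv : pval hq hqP v = residue W a) :
    pval hq hqP x = residue W (D.conj a) := by
  have := charP_residue hq D
  rw [D.conj_residue a ha]
  rcases pval_root hq D hroot hqP with h | h
  · rw [h, hv]
  · refine frobenius_inj (IsLocalRing.ResidueField W) q ?_
    rw [frobenius_def, frobenius_def, ← h, hv, ← D.conj_residue a ha,
      ← D.conj_residue _ (D.conj_mem a ha), D.conj_conj a ha]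

/-- The two cusp ratios and their equation. -/
theorem exists_cusp_data (htr : Transcendental K v) {a : W} (ha : a ∈ D.cusps)
    (hv : pval hq hqP v = residue W a) :
    x - algebraMap W L (D.conj a) ≠ 0 ∧ v - algebraMap W L a ≠ 0 ∧
    InMax P (x - algebraMap W L (D.conj a)) ∧ InMax P (v - algebraMap W L a) ∧
    Loc v P ((x - algebraMap W L (D.conj a)) ^ q / (v - algebraMap W L a)) ∧
    Loc v P ((v - algebraMap W L a) ^ q / (x - algebraMap W L (D.conj a))) ∧
    ∃ H : Polynomial (Polynomial W),
      ∀ y z : L,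
        evalTwo D.Φ y z = (y - algebraMap W L (D.conj a)) ^ (q + 1) +
          (z - algebraMap W L a) ^ (q + 1) +
          (y - algebraMap W L (D.conj a)) * (z - algebraMap W L a) *
            (-1 - ((y - algebraMap W L (D.conj a)) * (z - algebraMap W L a)) ^ (q - 1) +
              (q : L) * evalTwo H (y - algebraMap W L (D.conj a)) (z - algebraMap W L a)) := by
  obtain ⟨H, hH⟩ := exists_cusp_local hq D.Φ D.symm D.kronecker (D.cusp_fibre a ha)
    (by rw [D.cusp_fibre _ (D.conj_mem a ha), D.conj_conj a ha]) (D.conj_residue a ha)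
    (by rw [← D.conj_residue _ (D.conj_mem a ha), D.conj_conj a ha])
  have hxl : Loc v P x := loc_root D hroot
  set ξ := x - algebraMap W L (D.conj a)
  set τ := v - algebraMap W L a
  have hξl : Loc v P ξ := by
    rw [show ξ = x + -algebraMap W L (D.conj a) from sub_eq_add_neg _ _]
    exact hxl.add (loc_const _).neg
  have hτl : Loc v P τ := by
    rw [show τ = v + -algebraMap W L a from sub_eq_add_neg _ _]
    exact loc_self.add (loc_const _).neg
  have hξm : InMax P ξ :=
    (pval_eq_iff hq hqP hxl (loc_const _)).mp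
      (by rw [pval_root_cusp hq D hroot hqP ha hv, pval_const])
  have hτm : InMax P τ :=
    (pval_eq_iff hq hqP loc_self (loc_const _)).mp (by rw [hv, pval_const])
  have hτ0 : τ ≠ 0 := fun h => htr (by
    rw [sub_eq_zero.mp h, IsScalarTower.algebraMap_apply W K L]
    exact isAlgebraic_algebraMap _)
  have heq : ξ ^ (q + 1) + τ ^ (q + 1) + ξ * τ * (-1 - (ξ * τ) ^ (q - 1) +
      (q : L) * evalTwo H ξ τ) = 0 := (hH L x v).symm.trans hroot
  have hξ0 : ξ ≠ 0 := fun h => by
    rw [h] at heq
    simp [hτ0] at heq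
  have hGl : Loc v P (-1 - (ξ * τ) ^ (q - 1) + (q : L) * evalTwo H ξ τ) := by
    rw [sub_eq_add_neg]
    exact (((loc_of_mem (Ideal.IsPrime.ne_top inferInstance) (one_mem _)).neg).add
      ((hξl.mul hτl).pow _).neg).add ((loc_natCast q).mul (loc_evalTwo hξl hτl H))
  refine ⟨hξ0, hτ0, hξm, hτm, ?_, ?_, H, fun y z => hH L y z⟩
  · exact loc_of_valuations P fun V hA hP => div_mem_of_cusp_eq (Fact.out : q.Prime).pos
      (mem_nonunits_of_inMax hA hP hξm) ((through_of_centred hA hP).mem hA hGl) hξ0 heq
  · exact loc_of_valuations P fun V hA hP => div_mem_of_cusp_eq (Fact.out : q.Prime).pos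
      (mem_nonunits_of_inMax hA hP hτm) ((through_of_centred hA hP).mem hA hGl) hτ0
      (by linear_combination heq)

omit hroot hqP in
/-- The residue of a translated coordinate is a unit. -/
theorem isUnitAt_sub_const {y : L} {V : ValuationSubring L} (hVy : IsVertical W q y V) (w : W) :
    IsUnitAt V (y - algebraMap W L w) := by
  have := hVy.isUnitAt (X - C w) (by
    rw [Polynomial.map_sub, map_X, map_C]; exact X_sub_C_ne_zero _)
  simpa using this

omit hqP in
/-- Residues of the cusp coordinates on the branch `x ≡ v ^ q`. -/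
theorem res_cusp_can {V : ValuationSubring L} (hV : IsVertical W q v V) {a : W}
    (ha : a ∈ D.cusps) (h : res V x = res V v ^ q) :
    res V (x - algebraMap W L (D.conj a)) = res V (v - algebraMap W L a) ^ q := by
  have hx := hV.chartRing_le (mem_chartRing_of_evalTwo D.Φ D.monic hroot)
  have := charP_residue hq D
  have : CharP (IsLocalRing.ResidueField V) q := (CharP.charP_iff_prime_eq_zero Fact.out).mpr
    (by rw [← map_natCast (residue V), ← res_coe]; exact res_natCast_q hq hV)
  rw [res_sub hx (hV.const_mem _), res_sub hV.u_mem.mem (hV.const_mem _), sub_pow_char, ← h,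
    ← constRes_residue hq hV, ← constRes_residue hq hV, D.conj_residue a ha, map_pow]

omit hqP in
/-- Residues of the cusp coordinates on the branch `v ≡ x ^ q`. -/
theorem res_cusp_oth {V : ValuationSubring L} (hV : IsVertical W q v V) {a : W}
    (ha : a ∈ D.cusps) (h : res V v = res V x ^ q) :
    res V (v - algebraMap W L a) = res V (x - algebraMap W L (D.conj a)) ^ q := by
  have hx := hV.chartRing_le (mem_chartRing_of_evalTwo D.Φ D.monic hroot)
  have := charP_residue hq D
  have : CharP (IsLocalRing.ResidueField V) q := (CharP.charP_iff_prime_eq_zero Fact.out).mpr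
    (by rw [← map_natCast (residue V), ← res_coe]; exact res_natCast_q hq hV)
  rw [res_sub hx (hV.const_mem _), res_sub hV.u_mem.mem (hV.const_mem _), sub_pow_char, ← h,
    ← constRes_residue hq hV, ← constRes_residue hq hV, ← map_pow,
    ← D.conj_residue _ (D.conj_mem a ha), D.conj_conj a ha]

/-- On the branch `v ≡ x ^ q` the cusp ratio has value one. -/
theorem res_cusp_ratio_oth {V : ValuationSubring L} (hV : IsVertical W q v V) {a : W}
    (ha : a ∈ D.cusps) (h : res V v = res V x ^ q) :
    res V ((x - algebraMap W L (D.conj a)) ^ q / (v - algebraMap W L a)) = 1 := by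
  have hx := hV.chartRing_le (mem_chartRing_of_evalTwo D.Φ D.monic hroot)
  have hτ := isUnitAt_sub_const hq D hV a
  rw [res_div (pow_mem (sub_mem hx (hV.const_mem _)) q) hτ,
    res_pow (sub_mem hx (hV.const_mem _)), ← res_cusp_oth hq D hroot hV ha h,
    div_self hτ.res_ne_zero]

variable (htr : Transcendental K v) [FiniteDimensional (IntermediateField.adjoin K {v}) L]
  (hfin : {V : ValuationSubring L | IsVertical W q v V}.Finite)
  (hrank : ∀ V : ValuationSubring L, IsVertical W q v V → RankOne q V)
  (hint : ∃ N : ℕ, IsIntegral (Algebra.adjoin K {v})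
    (aeval v (∏ a ∈ D.cusps, (X - C a)) ^ N *
      (-evalTwo (derivInner D.Φ) x v / evalTwo D.Φ.derivative x v)))
include htr hfin hrank hint

/-- Away from the cusps `-q Φ_T / Φ_X` lies in the local ring. -/
theorem loc_rho (hc : ¬ D.IsCuspVal (pval hq hqP v)) : Loc v P (rhoElt q D.Φ x v) := by
  have : CharZero L := charZero_of_injective_algebraMap (algebraMap K L).injective
  obtain ⟨N, hN⟩ := hint
  set c := aeval v (∏ a ∈ D.cusps, (X - C a))
  have hcl : Loc v P c := loc_aeval loc_self _
  have hc0 : pval hq hqP c ≠ 0 := by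
    rw [pval_aeval hq hqP loc_self, Polynomial.map_prod, eval_prod]
    refine Finset.prod_ne_zero_iff.mpr fun a ha h => hc ⟨a, ha, ?_⟩
    rw [Polynomial.map_sub, map_X, map_C, eval_sub, eval_X, eval_C, sub_eq_zero] at h
    exact h.symm
  obtain ⟨hcne, hcinv⟩ := loc_inv_of_pval_ne_zero hq hqP hcl hc0
  have hy : Loc v P (c ^ N * rhoElt q D.Φ x v) := by
    refine loc_of_through (K := K) hq htr hfin hrank ?_ fun V hV _ => ?_
    · rw [show c ^ N * rhoElt q D.Φ x v = (q : L) * (c ^ N *
          (-evalTwo (derivInner D.Φ) x v / evalTwo D.Φ.derivative x v)) by rw [rhoElt]; ring]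
      refine IsIntegral.mul ?_ hN
      rw [← map_natCast (algebraMap (Algebra.adjoin K {v}) L)]
      exact isIntegral_algebraMap
    · have hx := hV.chartRing_le (mem_chartRing_of_evalTwo D.Φ D.monic hroot)
      refine mul_mem (pow_mem (hV.aeval_mem _) N) ?_
      rcases res_root hq hV hx hV.u_mem.mem D.Φ D.kronecker hroot with h | h
      · exact (rho_can hq D.kronecker (kronErr_spec hq D) hroot hV hx h).1
      · exact (rho_oth hq D.kronecker (kronErr_spec hq D) hroot hV hx
          (hV.of_root hq D.kronecker hx hroot) h.symm).1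
  have : rhoElt q D.Φ x v = c⁻¹ ^ N * (c ^ N * rhoElt q D.Φ x v) := by
    rw [← mul_assoc, ← mul_pow, inv_mul_cancel₀ hcne, one_pow, one_mul]
  rw [this]
  exact (hcinv.pow N).mul hy

/-- A point on both branches is supersingular. -/
theorem isSSVal_of_two_branches {V V' : ValuationSubring L} (hV : IsVertical W q v V)
    (hT : Through P V) (h : res V x = res V v ^ q) (hV' : IsVertical W q v V')
    (hT' : Through P V') (h' : res V' v = res V' x ^ q) :
    D.IsSSVal hq (pval hq hqP v) (pval hq hqP x) := by
  have : CharZero L := charZero_of_injective_algebraMap (algebraMap K L).injective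
  have := charP_residue hq D
  have hqp : q.Prime := Fact.out
  have hxl : Loc v P x := loc_root D hroot
  have h1 : pval hq hqP x = pval hq hqP v ^ q := by
    rw [← pval_pow hq hqP loc_self]
    exact pval_eq_of_res_eq hq hqP hV hT hxl (loc_self.pow q) (by rw [res_pow hV.u_mem.mem, h])
  have hx' := hV'.chartRing_le (mem_chartRing_of_evalTwo D.Φ D.monic hroot)
  have h2 : pval hq hqP v = pval hq hqP x ^ q := by
    rw [← pval_pow hq hqP hxl]
    exact pval_eq_of_res_eq hq hqP hV' hT' loc_self (hxl.pow q) (by rw [res_pow hx', h'])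
  have hnc : ¬ D.IsCuspVal (pval hq hqP v) := by
    rintro ⟨a, ha, hva⟩
    obtain ⟨hξ0, hτ0, hξm, hτm, hν, -, -⟩ := exists_cusp_data hq D hroot hqP htr ha hva.symm
    have hx := hV.chartRing_le (mem_chartRing_of_evalTwo D.Φ D.monic hroot)
    set ξ := x - algebraMap W L (D.conj a)
    set τ := v - algebraMap W L a
    have hτu : IsUnitAt V τ := isUnitAt_sub_const hq D hV a
    have hξV : ξ ∈ V := sub_mem hx (hV.const_mem _)
    have e1 : pval hq hqP (ξ ^ q / τ) = 0 := by
      rw [pval_eq_of_res_eq hq hqP hV hT hν (hτm.loc.pow (q * q - 1)) (by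
        rw [res_div (pow_mem hξV q) hτu, res_pow hξV, res_cusp_can hq D hroot hV ha h,
          res_pow hτu.mem, ← pow_mul, div_eq_iff hτu.res_ne_zero, ← pow_succ,
          Nat.sub_add_cancel (Nat.one_le_iff_ne_zero.mpr (mul_ne_zero hqp.ne_zero hqp.ne_zero))])]
      rw [pval_pow hq hqP hτm.loc, (pval_eq_zero_iff hq hqP hτm.loc).mpr hτm, zero_pow]
      have := hqp.two_le
      have : 1 < q * q := by nlinarith
      omega
    have e2 : pval hq hqP (ξ ^ q / τ) = 1 := by
      rw [pval_eq_of_res_eq hq hqP hV' hT' hν (loc_of_mem (Ideal.IsPrime.ne_top inferInstance)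
        (one_mem _)) (by rw [res_cusp_ratio_oth hq D hroot hqP hV' ha h', res_one]), pval_one]
    exact zero_ne_one (e1.symm.trans e2)
  refine ⟨hnc, h1, h2, fun he => ?_⟩
  set b := pval hq hqP x
  have hb : b ^ (q * q) = b := by rw [pow_mul, ← h2, h1]
  obtain ⟨N, U, hN, hU, hU1⟩ := exists_midPoly_eq hqp _ hb he
  have hρ := loc_rho hq D hroot hqP htr hfin hrank hint hnc
  have e1 : pval hq hqP (rhoElt q D.Φ x v) = 0 := by
    have hx := hV.chartRing_le (mem_chartRing_of_evalTwo D.Φ D.monic hroot)
    rw [pval_eq_of_res_eq hq hqP hV hT hρ (loc_of_mem (Ideal.IsPrime.ne_top inferInstance)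
      (zero_mem _)) (by rw [(rho_can hq D.kronecker (kronErr_spec hq D) hroot hV hx h).2, res_zero]),
      pval_zero]
  have hVx := hV'.of_root hq D.kronecker hx' hroot
  obtain ⟨-, hres⟩ := rho_oth hq D.kronecker (kronErr_spec hq D) hroot hV' hx' hVx h'
  have hc : constRes hq hV' = constRes hq hVx := Ideal.Quotient.ringHom_ext rfl
  set ev := eval₂RingHom (constRes hq hVx) (res V' x)
  have hres' : res V' (rhoElt q D.Φ x v) * ev N = ev (-U ^ 2) := by
    have hP : res V' x - res V' x ^ (q * q) = ev ((X - C b) * U) := by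
      rw [← hU]; simp [ev]
    rw [hc, hN, hP, show eval₂ (constRes hq hVx) (res V' x) ((X - C b) ^ 2 * N) =
      ev ((X - C b) ^ 2 * N) from rfl, map_mul, map_mul, map_pow] at hres
    have hne : ev (X - C b) ≠ 0 := eval₂_res_ne_zero hq hVx _ (X_sub_C_ne_zero b)
    rw [map_neg, map_pow]
    refine mul_left_cancel₀ (pow_ne_zero 2 hne) ?_
    linear_combination hres
  have e2 := pval_mul_eval_eq hq hqP hV' hVx hT' hρ hxl N (-U ^ 2) hres'
  rw [e1, zero_mul, eval_neg, eval_pow, hU1, one_pow] at e2
  exact one_ne_zero (neg_eq_zero.mp e2.symm)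

end FermatAgent.BadRed.Carayol
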