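import Fermat.Agent.BadRed.Carayol.BasePoint
import Fermat.Agent.BadRed.Carayol.Level2
import Fermat.Agent.BadRed.Carayol.TwoBranch

/-!
# The points of the special fibre at level `q² N` which are not supersingular

Such a point lies on one component, its maximal ideal has two generators, and the residues of
the local ring at the component are normal.
-/

set_option autoImplicit false
set_option linter.unusedSectionVars false

noncomputable section

namespace FermatAgent.BadRed.Carayol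

open Polynomial IsLocalRing

theorem Disc.mul_unit {L : Type*} [Field L] {π c : L} {V : ValuationSubring L} (h : Disc π V)
    (hc : IsUnitAt V c) : Disc (π * c) V := fun y hy => by
  obtain ⟨k, hk⟩ := h y hy
  refine ⟨k, ?_⟩
  have hck : IsUnitAt V (c ^ k) := by rw [IsUnitAt, map_zpow₀, hc, one_zpow]
  rw [mul_zpow, ← div_div]
  exact hk.div hck

theorem isIntegral_adjoin_map {K A B : Type*} [Field K] [Field A] [Field B] [Algebra K A]
    [Algebra K B] (σ : A →ₐ[K] B) {v y : A} (h : IsIntegral (Algebra.adjoin K {v}) y) :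
    IsIntegral (Algebra.adjoin K {σ v}) (σ y) := by
  obtain ⟨p, hp, hpy⟩ := h
  have hmem : ∀ b : Algebra.adjoin K {v}, σ (b : A) ∈ Algebra.adjoin K {σ v} := fun b => by
    obtain ⟨R, hR⟩ := Algebra.adjoin_mem_exists_aeval _ _ b.2
    rw [← hR, ← aeval_algHom_apply]
    exact aeval_mem_adjoin_singleton K _
  let ι : Algebra.adjoin K {v} →+* Algebra.adjoin K {σ v} :=
    (σ.toRingHom.comp (algebraMap (Algebra.adjoin K {v}) A)).codRestrict
      (Algebra.adjoin K {σ v}).toSubring hmem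
  refine ⟨p.map ι, hp.map _, ?_⟩
  rw [eval₂_map]
  exact (hom_eval₂ p _ σ.toRingHom y).symm.trans ((congrArg σ hpy).trans (map_zero σ))

variable {q : ℕ} [Fact q.Prime] {W K F F₁ F₂ : Type*}
  [CommRing W] [IsDomain W] [IsDiscreteValuationRing W] [IsAlgClosed (IsLocalRing.ResidueField W)]
  [Field K] [CharZero K] [Algebra W K] [IsFractionRing W K]
  [Field F] [Field F₁] [Field F₂] [Algebra K F] [Algebra K F₁] [Algebra K F₂]
  [Algebra W F] [Algebra W F₁] [Algebra W F₂]
  [IsScalarTower W K F] [IsScalarTower W K F₁] [IsScalarTower W K F₂]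
  {T : QTower q K F F₁ F₂} {u : F}
  (hq : maximalIdeal W = Ideal.span {(q : W)}) (D : ChartData W T u)
  {P : Ideal (chartRing W (T.α (T.t u)))} [P.IsMaximal]
  (hqP : (q : chartRing W (T.α (T.t u))) ∈ P)

/-- A supersingular point of the special fibre. -/
def IsSSPt : Prop :=
  D.IsSSVal hq (pval hq hqP (T.α (T.t u))) (pval hq hqP (T.α (T.s u)))

include D in
theorem loc_x₁ : Loc (T.α (T.t u)) P (T.α (T.s u)) := loc_root D D.root_α

include D in
theorem loc_x₂ : Loc (T.α (T.t u)) P (T.β (T.t u)) := loc_root D D.root_β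

include D in
theorem integral_deriv₁ : ∃ N : ℕ, IsIntegral (Algebra.adjoin K {T.α (T.t u)})
    (aeval (T.α (T.t u)) (∏ a ∈ D.cusps, (X - C a)) ^ N *
      (-evalTwo (derivInner D.Φ) (T.α (T.s u)) (T.α (T.t u)) /
        evalTwo D.Φ.derivative (T.α (T.s u)) (T.α (T.t u)))) := by
  obtain ⟨N, hN⟩ := D.deriv_integral
  refine ⟨N, ?_⟩
  have := isIntegral_adjoin_map T.α hN
  rwa [map_mul, map_pow, map_aeval_const, map_div₀, map_neg, map_evalTwo_const,
    map_evalTwo_const] at this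

include D in
theorem integral_deriv₂ : ∃ N : ℕ, IsIntegral (Algebra.adjoin K {T.α (T.t u)})
    (aeval (T.α (T.t u)) (∏ a ∈ D.cusps, (X - C a)) ^ N *
      (-evalTwo (derivInner D.Φ) (T.β (T.t u)) (T.α (T.t u)) /
        evalTwo D.Φ.derivative (T.β (T.t u)) (T.α (T.t u)))) := by
  obtain ⟨N, hN⟩ := D.deriv_integral'
  refine ⟨N, ?_⟩
  have := isIntegral_adjoin_map T.β hN
  rw [map_mul, map_pow, map_aeval_const, map_div₀, map_neg, map_evalTwo_const,
    map_evalTwo_const] at this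
  rwa [T.middle_apply]

include hq D

/-- Infinity and another component meet only at supersingular points. -/
theorem isSSPt_of_inf {V V' : ValuationSubring F₂} (hV : IsVertical W q (T.α (T.t u)) V)
    (hT : Through P V) (h : IsInf T u V) (hV' : IsVertical W q (T.α (T.t u)) V')
    (hT' : Through P V') (h' : res V' (T.α (T.t u)) = res V' (T.α (T.s u)) ^ q) :
    IsSSPt hq D hqP := by
  have := D.finite_over₂
  exact isSSVal_of_two_branches hq D D.root_α hqP D.transcendental_middle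
    (finite_vertical₂ hq D) (fun U hU => rankOne₂ hq D hU) (integral_deriv₁ D) hV hT h hV' hT' h'

/-- Zero and another component meet only at supersingular points. -/
theorem isSSPt_of_zero {V V' : ValuationSubring F₂} (hV : IsVertical W q (T.α (T.t u)) V)
    (hT : Through P V) (h : IsZero' T u V) (hV' : IsVertical W q (T.α (T.t u)) V')
    (hT' : Through P V') (h' : res V' (T.α (T.t u)) = res V' (T.β (T.t u)) ^ q) :
    IsSSPt hq D hqP := by
  have := D.finite_over₂
  obtain ⟨h1, h2, h3, h4⟩ := isSSVal_of_two_branches hq D D.root_β hqP D.transcendental_middle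
    (finite_vertical₂ hq D) (fun U hU => rankOne₂ hq D hU) (integral_deriv₂ D) hV hT h hV' hT' h'
  have := charP_residue hq D
  have e : pval hq hqP (T.α (T.s u)) = pval hq hqP (T.β (T.t u)) := by
    rcases pval_root hq D D.root_α hqP with he | he
    · rw [he, h2]
    · exact frobenius_inj (IsLocalRing.ResidueField W) q (he.symm.trans h3)
  exact ⟨h1, e.trans h2, e.symm ▸ h3, e.symm ▸ h4⟩

/-- A point which is not supersingular lies on one component only. -/
theorem unique_through (hns : ¬ IsSSPt hq D hqP) {V V' : ValuationSubring F₂}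
    (hV : IsVertical W q (T.α (T.t u)) V) (hT : Through P V)
    (hV' : IsVertical W q (T.α (T.t u)) V') (hT' : Through P V') : V = V' := by
  rcases level2_cases hq D hV with h | h | h <;> rcases level2_cases hq D hV' with h' | h' | h'
  · exact inf_unique hq D hV h hV' h'
  · exact absurd (isSSPt_of_inf hq D hqP hV hT h hV' hT' (zero_other hq D hV' h')) hns
  · exact absurd (isSSPt_of_inf hq D hqP hV hT h hV' hT' h'.1) hns
  · exact absurd (isSSPt_of_inf hq D hqP hV' hT' h' hV hT (zero_other hq D hV h)) hns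
  · exact zero_unique hq D hV h hV' h'
  · exact absurd (isSSPt_of_zero hq D hqP hV hT h hV' hT' h'.2) hns
  · exact absurd (isSSPt_of_inf hq D hqP hV' hT' h' hV hT h.1) hns
  · exact absurd (isSSPt_of_zero hq D hqP hV' hT' h' hV hT h.2) hns
  · exact mid_unique hq D hV h hV' h'

/-- Divisibility by `q` in the local ring is tested on the components through the point. -/
theorem loc_div_q {y : F₂} (hy : Loc (T.α (T.t u)) P y)
    (hV : ∀ V : ValuationSubring F₂, IsVertical W q (T.α (T.t u)) V → Through P V →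
      y / q ∈ V) : Loc (T.α (T.t u)) P (y / q) := by
  have := D.finite_over₂
  obtain ⟨s, b, hs, hsb⟩ := hy
  have hb : Loc (T.α (T.t u)) P ((b : F₂) / q) := by
    refine loc_of_through (K := K) hq D.transcendental_middle (finite_vertical₂ hq D)
      (fun U hU => rankOne₂ hq D hU) ?_ fun V hV' hT => ?_
    · rw [div_eq_mul_inv, ← map_natCast (algebraMap K F₂), ← map_inv₀,
        IsScalarTower.algebraMap_apply K (Algebra.adjoin K {T.α (T.t u)}) F₂]
      exact (isIntegral_adjoin_frac b.2).mul isIntegral_algebraMap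
    · rw [← hsb, mul_div_assoc]
      exact mul_mem (hV'.chartRing_le s.2) (hV V hV' hT)
  rw [show y / (q : F₂) = (s : F₂)⁻¹ * ((b : F₂) / q) by
    rw [← hsb, mul_div_assoc, inv_mul_cancel_left₀ (ne_zero_of_notMem hs)]]
  exact (loc_inv_of_notMem hs).mul hb

/-- A uniformiser of the middle component at a point off the other components. -/
theorem exists_mid_uniformizer (hns : ¬ IsSSPt hq D hqP) {V : ValuationSubring F₂}
    (hV : IsVertical W q (T.α (T.t u)) V) (hT : Through P V) (h : IsMid T u V) :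
    ∃ π : F₂, π ≠ 0 ∧ π ∈ V.nonunits ∧ InMax P π ∧ Disc π V ∧ π ^ (q - 1) / q ∈ V ∧
      Loc (T.α (T.t u)) P (π ^ (q - 1) / q) ∧ pval hq hqP (π ^ (q - 1) / q) ≠ 0 := by
  have := D.finite_over₂
  have : CharZero F₂ := charZero_of_injective_algebraMap (algebraMap K F₂).injective
  have hchar := charP_residue hq D
  have hqp : q.Prime := Fact.out
  have hV₁ := isVertical_x₁ hq D hV
  have hV₂ := isVertical_x₂ hq D hV
  have hA : ∀ z : chartRing W (T.α (T.t u)), (z : F₂) ∈ V := fun z => hV.chartRing_le z.2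
  set x₁ := T.α (T.s u) with hx₁
  set x₂ := T.β (T.t u) with hx₂
  set π := x₂ - x₁ with hπ
  have hπ0 : π ≠ 0 := sub_ne_zero.mpr (x₁_ne_x₂ hq D).symm
  have hπm : π ∈ V.nonunits := mid_mem_nonunits hq D hV h
  have hl₁ : Loc (T.α (T.t u)) P x₁ := loc_x₁ D
  have hl₂ : Loc (T.α (T.t u)) P x₂ := loc_x₂ D
  have hlπ : Loc (T.α (T.t u)) P π := by rw [hπ, sub_eq_add_neg]; exact hl₂.add hl₁.neg
  have hπM : InMax P π := (pval_eq_iff hq hqP hl₂ hl₁).mp
    (pval_eq_of_res_eq hq hqP hV hT hl₂ hl₁ (mid_res_eq hq D hV h))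
  obtain ⟨hres, hw⟩ := mid_res_w hq D hV h (kronErr_spec hq D)
  have hdisc : Disc π V := disc_mid hq D hV h
  have hloc : ∀ π' : F₂, Loc (T.α (T.t u)) P π' → π' ^ (q - 1) / (q : F₂) ∈ V →
      Loc (T.α (T.t u)) P (π' ^ (q - 1) / q) := fun π' hl hm =>
    loc_div_q hq D (hl.pow _) fun U hU hTU => (unique_through hq D hqP hns hV hT hU hTU) ▸ hm
  by_cases hc : D.IsCuspVal (pval hq hqP (T.α (T.t u)))
  swap
  · refine ⟨π, hπ0, hπm, hπM, hdisc, hw, hloc π hlπ hw, fun h0 => ?_⟩
    have hwl := hloc π hlπ hw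
    have hρ := loc_rho hq D D.root_α hqP D.transcendental_middle (finite_vertical₂ hq D)
      (fun U hU => rankOne₂ hq D hU) (integral_deriv₁ D) hc
    obtain ⟨hρV, hρres⟩ := rho_oth hq D.kronecker (kronErr_spec hq D) D.root_α hV hV₁.u_mem.mem
      hV₁ h.1
    have hP0 : res V x₁ - res V x₁ ^ (q * q) ≠ 0 := by
      rw [sub_ne_zero, pow_mul, ← h.1]
      exact fun e => res_branch_disjoint hq hV e h.1.symm
    have hN0 : (midPoly q ((kronErr hq D).map (mapRingHom (residue W)))).eval₂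
        (constRes hq hV) (res V x₁) ≠ 0 := by
      rw [show constRes hq hV = constRes hq hV₁ from Ideal.Quotient.ringHom_ext rfl]
      exact eval₂_res_ne_zero hq hV₁ _ (midPoly_ne_zero hqp _)
    have e : res V (π ^ (q - 1) / q * rhoElt q D.Φ x₁ (T.α (T.t u))) = res V (-1) := by
      rw [res_mul hw hρV, res_neg (one_mem V), res_one]
      refine mul_right_cancel₀ (mul_ne_zero hN0 (pow_ne_zero 2 hP0)) ?_
      linear_combination (res V (rhoElt q D.Φ x₁ (T.α (T.t u))) *
          (midPoly q ((kronErr hq D).map (mapRingHom (residue W)))).eval₂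
            (constRes hq hV) (res V x₁)) * hres +
        (midPoly q ((kronErr hq D).map (mapRingHom (residue W)))).eval₂
            (constRes hq hV) (res V x₁) * hρres
    have h1l : Loc (T.α (T.t u)) P (1 : F₂) := loc_of_mem (Ideal.IsPrime.ne_top inferInstance) (one_mem _)
    have := pval_eq_of_res_eq hq hqP hV hT (hwl.mul hρ) h1l.neg e
    rw [pval_mul hq hqP hwl hρ, h0, zero_mul, pval_neg hq hqP h1l, pval_one, eq_comm,
      neg_eq_zero] at this
    exact one_ne_zero this
  -- the cuspidal case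
  obtain ⟨a, ha, hMa⟩ := hc
  obtain ⟨hξ0, hτ0, hξm, hτm, hν, hμ, H, hH⟩ :=
    exists_cusp_data hq D D.root_α hqP D.transcendental_middle ha hMa.symm
  obtain ⟨hη0, -, hηm, -, hν₂, -, -⟩ :=
    exists_cusp_data hq D D.root_β hqP D.transcendental_middle ha hMa.symm
  rw [← hx₁] at hξ0 hξm hν hμ
  rw [← hx₂] at hη0 hηm hν₂
  set ξ := x₁ - algebraMap W F₂ (D.conj a) with hξdef
  set η := x₂ - algebraMap W F₂ (D.conj a) with hηdef
  set τ := (T.α (T.t u)) - algebraMap W F₂ a with hτdef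
  set ν := ξ ^ q / τ with hνdef
  set μ := τ ^ q / ξ with hμdef
  set r := η / ξ with hrdef
  have hξu : IsUnitAt V ξ := isUnitAt_sub_const hq D hV₁ _
  have hτu : IsUnitAt V τ := isUnitAt_sub_const hq D hV _
  have h1l : Loc (T.α (T.t u)) P (1 : F₂) := loc_of_mem (Ideal.IsPrime.ne_top inferInstance) (one_mem _)
  have hν1 : pval hq hqP ν = 1 := by
    rw [pval_eq_of_res_eq hq hqP hV hT hν h1l
      (by rw [res_cusp_ratio_oth hq D D.root_α hqP hV ha h.1, res_one]), pval_one]
  have hν21 : pval hq hqP (η ^ q / τ) = 1 := by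
    rw [pval_eq_of_res_eq hq hqP hV hT hν₂ h1l
      (by rw [res_cusp_ratio_oth hq D D.root_β hqP hV ha h.2, res_one]), pval_one]
  obtain ⟨hν0, hνinv⟩ := loc_inv_of_pval_ne_zero hq hqP hν (by rw [hν1]; exact one_ne_zero)
  have hrq : r ^ q = η ^ q / τ * ν⁻¹ := by
    rw [hrdef, hνdef, div_pow, inv_div]; field_simp
  have hrl : Loc (T.α (T.t u)) P r := loc_of_pow hqp.pos (hrq ▸ hν₂.mul hνinv)
  have hr1 : pval hq hqP r = 1 := by
    refine frobenius_inj (IsLocalRing.ResidueField W) q ?_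
    rw [frobenius_def, frobenius_def, one_pow, ← pval_pow hq hqP hrl, hrq,
      pval_mul hq hqP hν₂ hνinv, hν21, one_mul]
    have := pval_mul hq hqP hν hνinv
    rwa [mul_inv_cancel₀ hν0, pval_one, hν1, one_mul, eq_comm] at this
  set π' := r - 1 with hπ'def
  have hπ'eq : π' = π * ξ⁻¹ := by
    have hd : π = η - ξ := by rw [hπ, hηdef, hξdef]; ring
    rw [hd, sub_mul, mul_inv_cancel₀ hξ0, ← div_eq_mul_inv]
  have hπ'0 : π' ≠ 0 := hπ'eq ▸ mul_ne_zero hπ0 (inv_ne_zero hξ0)
  have hπ'n : π' ∈ V.nonunits := by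
    rw [hπ'eq, ValuationSubring.mem_nonunits_iff, map_mul, hξu.inv, mul_one]
    exact hπm
  have hπ'l : Loc (T.α (T.t u)) P π' := by rw [hπ'def, sub_eq_add_neg]; exact hrl.add h1l.neg
  have hπ'M : InMax P π' := (pval_eq_iff hq hqP hrl h1l).mp (by rw [hr1, pval_one])
  have hwV : π' ^ (q - 1) / (q : F₂) ∈ V := by
    rw [hπ'eq, mul_pow, mul_div_right_comm]
    exact mul_mem hw (pow_mem hξu.inv.mem _)
  have hwl := hloc π' hπ'l hwV
  refine ⟨π', hπ'0, hπ'n, hπ'M, hπ'eq ▸ hdisc.mul_unit hξu.inv, hwV, hwl, fun h0 => ?_⟩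
  -- the binomial correction
  let U : F₂ := ∑ k ∈ Finset.Ioo 0 q, π' ^ (k - 1) * (1 : F₂) ^ (q - k - 1) * ((q.choose k / q : ℕ) : F₂)
  have hbin : r ^ q = π' ^ q + 1 + (q : F₂) * π' * U := by
    have := add_pow_prime_eq (R := F₂) hqp π' 1
    rw [show π' + 1 = r by rw [hπ'def]; ring, one_pow, mul_one] at this
    exact this
  let Uloc : locRing P := ∑ k ∈ Finset.Ioo 0 q,
    (⟨π', hπ'l⟩ : locRing P) ^ (k - 1) * 1 ^ (q - k - 1) * ((q.choose k / q : ℕ) : locRing P)
  have hUl : Loc (T.α (T.t u)) P U := by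
    have : U = ((Uloc : locRing P) : F₂) := by
      rw [show ((Uloc : locRing P) : F₂) = (locRing P).subtype Uloc from rfl, map_sum]
      exact Finset.sum_congr rfl fun k _ => by simp
    rw [this]; exact Uloc.2
  have hU1 : pval hq hqP U = 1 := by
    have hz : InMax P (U - 1) := by
      have hmem : U - 1 = π' * ((∑ k ∈ Finset.Ioo 1 q, π' ^ (k - 2) * ((q.choose k / q : ℕ) : F₂))) := by
        rw [Finset.mul_sum, sub_eq_iff_eq_add]
        have hsplit : Finset.Ioo 0 q = insert 1 (Finset.Ioo 1 q) := by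
          ext k; simp only [Finset.mem_Ioo, Finset.mem_insert]; have := hqp.two_le; omega
        show ∑ k ∈ Finset.Ioo 0 q, _ = _
        rw [hsplit, Finset.sum_insert (by simp), add_comm]
        congr 1
        · refine Finset.sum_congr rfl fun k hk => ?_
          rw [Finset.mem_Ioo] at hk
          rw [one_pow, mul_one, ← mul_assoc, ← pow_succ', show k - 2 + 1 = k - 1 by omega]
        · rw [Nat.choose_one_right, Nat.div_self hqp.pos]; simp
      rw [hmem]
      refine hπ'M.mul_right ?_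
      have : (∑ k ∈ Finset.Ioo 1 q, π' ^ (k - 2) * ((q.choose k / q : ℕ) : F₂)) =
          ((∑ k ∈ Finset.Ioo 1 q, (⟨π', hπ'l⟩ : locRing P) ^ (k - 2) *
            ((q.choose k / q : ℕ) : locRing P) : locRing P) : F₂) := by
        rw [show ∀ z : locRing P, ((z : locRing P) : F₂) = (locRing P).subtype z from fun _ => rfl,
          map_sum]
        exact Finset.sum_congr rfl fun k _ => by simp
      rw [this]; exact (mem_locRing P).mp (Subtype.mem _)
    rw [(pval_eq_iff hq hqP hUl h1l).mpr hz, pval_one]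
  -- the divided difference of `H`
  have hηl : Loc (T.α (T.t u)) P η := hηm.loc
  let ev : Polynomial W →+* locRing P := eval₂RingHom (locConst P) ⟨τ, hτm.loc⟩
  obtain ⟨Δ, hΔ⟩ := sub_dvd_eval_sub (⟨η, hηl⟩ : locRing P) ⟨ξ, hξm.loc⟩ (H.map ev)
  have hev : ∀ z : locRing P, (((H.map ev).eval z : locRing P) : F₂) = evalTwo H (z : F₂) τ :=
    fun z => by
      show (locRing P).subtype ((H.map ev).eval z) = _
      rw [eval_map, hom_eval₂]
      refine congrArg (fun f => H.eval₂ f (z : F₂)) (Polynomial.ringHom_ext (fun w => ?_) ?_)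
      · simp [ev, coe_locConst]
      · simp [ev]
  have hΔ' : evalTwo H η τ - evalTwo H ξ τ = (η - ξ) * (Δ : F₂) := by
    have := congrArg (fun y : locRing P => (y : F₂)) hΔ
    simp only [AddSubgroupClass.coe_sub, MulMemClass.coe_mul, hev] at this
    exact this
  set H₁ := evalTwo H ξ τ
  set H₂ := evalTwo H η τ
  have hηr : η = r * ξ := (div_mul_cancel₀ η hξ0).symm
  have hνμ : μ * ν = (ξ * τ) ^ (q - 1) := by
    rw [hνdef, hμdef]
    field_simp
    rw [mul_pow_sub_one hqp.ne_zero, mul_pow, mul_comm]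
  have eν : ξ ^ q = ν * τ := (div_mul_cancel₀ _ hτ0).symm
  have eμ : τ ^ q = μ * ξ := (div_mul_cancel₀ _ hξ0).symm
  have E1 : ν + μ - 1 - μ * ν + (q : F₂) * H₁ = 0 := by
    have e := (hH x₁ (T.α (T.t u))).symm.trans D.root_α
    rw [← hξdef, ← hτdef, pow_succ, pow_succ, eν, eμ, ← hνμ] at e
    refine mul_left_cancel₀ (mul_ne_zero hξ0 hτ0) ?_
    linear_combination e
  have E2 : ν * r ^ q * r + μ - r - r ^ q * (μ * ν) + r * ((q : F₂) * H₂) = 0 := by
    have e := (hH x₂ (T.α (T.t u))).symm.trans D.root_β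
    rw [← hηdef, ← hτdef, pow_succ, pow_succ, eμ, hηr, mul_pow r ξ q, eν, mul_assoc r ξ τ,
      mul_pow r (ξ * τ) (q - 1), ← hνμ,
      show evalTwo H (r * ξ) τ = H₂ by rw [← hηr]] at e
    refine mul_left_cancel₀ (mul_ne_zero hξ0 hτ0) ?_
    rw [← pow_sub_one_mul hqp.ne_zero r] at e ⊢
    linear_combination e
  have hq0 : (q : F₂) ≠ 0 := natCast_ne_zero₂ hq D
  set w' := π' ^ (q - 1) / (q : F₂) with hw'
  have key : ν * (r - μ) * (1 - μ) * (w' + U) = -(r * ξ * (Δ : F₂) * (1 - μ) - μ * H₁) := by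
    have hS : r ^ q - 1 = π' * ((q : F₂) * (w' + U)) := by
      rw [hbin, hw', mul_add, mul_div_cancel₀ _ hq0, ← pow_sub_one_mul hqp.ne_zero π']; ring
    have hZ : ν * (r * ((q : F₂) * (w' + U)) + 1) - 1 - μ * ν * ((q : F₂) * (w' + U)) +
        (q : F₂) * (H₁ + r * ξ * (Δ : F₂)) = 0 := by
      refine mul_left_cancel₀ hπ'0 ?_
      rw [hπ'def] at hS ⊢
      linear_combination E2 - E1 - (ν * r - μ * ν) * hS - (r * (q : F₂)) * hΔ' -
        (r * (q : F₂) * (Δ : F₂)) * hηr
    refine mul_left_cancel₀ hq0 ?_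
    linear_combination (1 - μ) * hZ - E1
  have hμ0 : pval hq hqP μ = 0 := by
    rw [pval_eq_of_res_eq hq hqP hV hT hμ (hξm.loc.pow (q * q - 1)) (by
      rw [res_div (pow_mem hτu.mem q) hξu, res_pow hτu.mem,
        res_cusp_oth hq D D.root_α hV ha h.1, res_pow hξu.mem, ← pow_mul,
        div_eq_iff hξu.res_ne_zero, ← pow_succ,
        Nat.sub_add_cancel (Nat.one_le_iff_ne_zero.mpr (mul_ne_zero hqp.ne_zero hqp.ne_zero))]),
      pval_pow hq hqP hξm.loc, (pval_eq_zero_iff hq hqP hξm.loc).mpr hξm, zero_pow]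
    have : 1 < q * q := by have := hqp.two_le; nlinarith
    omega
  have hξv := (pval_eq_zero_iff hq hqP hξm.loc).mpr hξm
  have h1μ : Loc (T.α (T.t u)) P (1 - μ) := by rw [sub_eq_add_neg]; exact h1l.add hμ.neg
  have hrμ : Loc (T.α (T.t u)) P (r - μ) := by rw [sub_eq_add_neg]; exact hrl.add hμ.neg
  have hH1l : Loc (T.α (T.t u)) P H₁ := loc_evalTwo hξm.loc hτm.loc H
  have hfirst : Loc (T.α (T.t u)) P (r * ξ * (Δ : F₂) * (1 - μ)) := ((hrl.mul hξm.loc).mul Δ.2).mul h1μ
  have hrhs : Loc (T.α (T.t u)) P (r * ξ * (Δ : F₂) * (1 - μ) - μ * H₁) := by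
    rw [sub_eq_add_neg]; exact hfirst.add (hμ.mul hH1l).neg
  have := congrArg (pval hq hqP) key
  rw [pval_mul hq hqP ((hν.mul hrμ).mul h1μ) (hwl.add hUl), pval_mul hq hqP (hν.mul hrμ) h1μ,
    pval_mul hq hqP hν hrμ, pval_add hq hqP hwl hUl, pval_sub hq hqP hrl hμ,
    pval_sub hq hqP h1l hμ, pval_one, hν1, hr1, hμ0, h0, hU1, pval_neg hq hqP hrhs,
    pval_sub hq hqP hfirst (hμ.mul hH1l), pval_mul hq hqP ((hrl.mul hξm.loc).mul Δ.2) h1μ,
    pval_mul hq hqP (hrl.mul hξm.loc) Δ.2, pval_mul hq hqP hrl hξm.loc, pval_mul hq hqP hμ hH1l,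
    hξv, hμ0] at this
  simp at this

section Along

variable (φ : F →ₐ[K] F₂) {V : ValuationSubring F₂}
  (hφv : IsVertical W q (φ u) V) (hrat : RationalAlong φ W q u V)
  (hφu : φ u ∈ chartRing W (T.α (T.t u)))

omit hq D in
include hφu in
theorem loc_base (a : chartRing W u) : Loc (T.α (T.t u)) P (φ a) :=
  chartRing_le_locRing P (chartRing_le_chartRing hφu (map_mem_chartRing φ a.2))

variable (hV : IsVertical W q (T.α (T.t u)) V) (hT : Through P V)
include hqP hφv hrat hφu hV hT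

/-- The residue of an element of the local ring is a fraction of base residues. -/
theorem exists_res_mul_eq (heq : chartRing W (φ u) = chartRing W (T.α (T.t u))) {y : F₂}
    (hy : Loc (T.α (T.t u)) P y) :
    ∃ c d : chartRing W u, pval hq hqP (φ d) ≠ 0 ∧ res V y * res V (φ d) = res V (φ c) := by
  obtain ⟨r, a, hr, ha⟩ := hy
  obtain ⟨c, hc⟩ := exists_res_eq_of_mem_chartRing hq D φ hφv hrat (y := (a : F₂)) (heq.symm.le a.2)
  obtain ⟨d, hd⟩ := exists_res_eq_of_mem_chartRing hq D φ hφv hrat (y := (r : F₂)) (heq.symm.le r.2)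
  refine ⟨c, d, ?_, ?_⟩
  · rw [← pval_eq_of_res_eq hq hqP hV hT (chartRing_le_locRing P r.2) (loc_base φ hφu d) hd]
    exact fun h0 => hr (mem_of_inMax ((pval_eq_zero_iff hq hqP (chartRing_le_locRing P r.2)).mp h0))
  · have hyV := hT.mem (fun z => hV.chartRing_le z.2) ⟨r, a, hr, ha⟩
    rw [← hd, ← res_mul hyV (hV.chartRing_le r.2), mul_comm, ha, hc]

/-- Residues of the local ring at a component form a normal ring. -/
theorem exists_loc_res_eq_of_pow_eq (heq : chartRing W (φ u) = chartRing W (T.α (T.t u)))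
    {z y : F₂} {n : ℕ} (hn : 0 < n) (hz : z ∈ V)
    (hy : Loc (T.α (T.t u)) P y) (h : res V z ^ n = res V y) :
    ∃ y' : F₂, Loc (T.α (T.t u)) P y' ∧ res V y' = res V z := by
  obtain ⟨c, d, hd, hcd⟩ := exists_res_mul_eq hq D hqP φ hφv hrat hφu hV hT heq hy
  have hmem : ∀ a : chartRing W u, φ a ∈ V := fun a => hφv.chartRing_le (map_mem_chartRing φ a.2)
  obtain ⟨e, he⟩ := exists_res_eq_of_pow_eq hq D φ hφv hrat (mul_mem hz (hmem d)) hn
    (c := c * d ^ (n - 1)) (by
      push_cast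
      rw [map_mul, map_pow, res_mul hz (hmem d), mul_pow, h,
        res_mul (hmem c) (pow_mem (hmem d) _), res_pow (hmem d), ← hcd, mul_assoc, ← pow_succ',
        Nat.sub_add_cancel hn])
  obtain ⟨hd0, hdinv⟩ := loc_inv_of_pval_ne_zero hq hqP (loc_base φ hφu d) hd
  refine ⟨φ e * (φ d)⁻¹, (loc_base φ hφu e).mul hdinv, ?_⟩
  have hA : ∀ z : chartRing W (T.α (T.t u)), (z : F₂) ∈ V := fun z => hV.chartRing_le z.2
  rw [res_mul (hmem e) (hT.mem hA hdinv), ← he, res_mul hz (hmem d), mul_assoc,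
    ← res_mul (hmem d) (hT.mem hA hdinv), mul_inv_cancel₀ hd0, res_one, mul_one]

/-- The maximal ideal is generated by a uniformiser and one element from the base. -/
theorem exists_generators_of_uniformizer
    (heq : chartRing W (φ u) = chartRing W (T.α (T.t u))) {π : F₂} (_hπ : InMax P π)
    (hdiv : ∀ z : F₂, Loc (T.α (T.t u)) P z → z ∈ V.nonunits →
      ∃ k, Loc (T.α (T.t u)) P k ∧ z = k * π) :
    ∃ σ : F₂, InMax P σ ∧ ∀ y : F₂, InMax P y →
      ∃ c d : F₂, Loc (T.α (T.t u)) P c ∧ Loc (T.α (T.t u)) P d ∧ y = c * π + d * σ := by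
  have hA : ∀ z : chartRing W (T.α (T.t u)), (z : F₂) ∈ V := fun z => hV.chartRing_le z.2
  have hφl := fun a : chartRing W u => loc_base (P := P) φ hφu a
  let Q := pointIdeal φ hφl
  have : Q.IsMaximal := pointIdeal_isMaximal hq D hqP φ hφl
  obtain ⟨w, hw⟩ := residue_surjective (pval hq hqP (φ u))
  let x₀ : chartRing W u := ⟨aeval u (X - C w), aeval_mem_chartRing _⟩
  have hx₀ : x₀ ∈ Q := by
    rw [mem_pointIdeal hq D hqP φ hφl, map_aeval_const,
      pval_aeval hq hqP (chartRing_le_locRing P hφu)]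
    simp [hw]
  have hx₀q : ¬ (q : chartRing W u) ∣ x₀ :=
    not_dvd_aeval hq D (by rw [Polynomial.map_sub, map_X, map_C]; exact X_sub_C_ne_zero _)
  have hqQ : (q : chartRing W u) ∈ Q := by
    rw [mem_pointIdeal hq D hqP φ hφl]
    push_cast
    rw [map_natCast, pval_natCast_q]
  obtain ⟨σ, hσ, hgen⟩ := exists_base_uniformizer hq D Q hqQ hx₀ hx₀q
  have hσm : InMax P (φ σ) :=
    (pval_eq_zero_iff hq hqP (hφl σ)).mp ((mem_pointIdeal hq D hqP φ hφl).mp hσ)
  refine ⟨φ σ, hσm, fun y hy => ?_⟩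
  obtain ⟨c, d, hd, hcd⟩ := exists_res_mul_eq hq D hqP φ hφv hrat hφu hV hT heq hy.loc
  have hyV := hT.mem hA hy.loc
  have hmem : ∀ a : chartRing W u, φ a ∈ V := fun a => hφv.chartRing_le (map_mem_chartRing φ a.2)
  have hcQ : c ∈ Q := by
    rw [mem_pointIdeal hq D hqP φ hφl, ← pval_eq_of_res_eq hq hqP hV hT (hy.loc.mul (hφl d)) (hφl c)
      (by rw [res_mul hyV (hmem d), hcd]), pval_mul hq hqP hy.loc (hφl d),
      (pval_eq_zero_iff hq hqP hy.loc).mpr hy, zero_mul]
  obtain ⟨r, hr, hrc⟩ := hgen c hcQ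
  obtain ⟨e₁, e₂, he⟩ := Ideal.mem_span_pair.mp hrc
  have hr0 : pval hq hqP (φ r) ≠ 0 := fun h0 => hr ((mem_pointIdeal hq D hqP φ hφl).mpr h0)
  have hdr : pval hq hqP (φ d * φ r) ≠ 0 := by
    rw [pval_mul hq hqP (hφl d) (hφl r)]; exact mul_ne_zero hd hr0
  obtain ⟨hdr0, hdrinv⟩ := loc_inv_of_pval_ne_zero hq hqP ((hφl d).mul (hφl r)) hdr
  set g := φ e₂ * (φ d * φ r)⁻¹
  have hgl : Loc (T.α (T.t u)) P g := (hφl e₂).mul hdrinv
  have hzl : Loc (T.α (T.t u)) P (y - g * φ σ) := by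
    rw [sub_eq_add_neg]; exact hy.loc.add (hgl.mul hσm.loc).neg
  have hzn : y - g * φ σ ∈ V.nonunits := by
    refine (res_eq_iff hyV (hT.mem hA (hgl.mul hσm.loc))).mp ?_
    have hu : res V (φ d) * res V (φ r) ≠ 0 := by
      rw [← res_mul (hmem d) (hmem r)]
      refine (isUnitAt_iff (mul_mem (hmem d) (hmem r))).mp ?_
      refine le_antisymm ((V.valuation_le_one_iff _).mpr (mul_mem (hmem d) (hmem r))) ?_
      have := (V.valuation_le_one_iff _).mpr (hT.mem hA hdrinv)
      rwa [map_inv₀, inv_le_one₀ (zero_lt_iff.mpr ((Valuation.ne_zero_iff _).mpr hdr0))] at this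
    refine mul_right_cancel₀ hu ?_
    rw [← mul_assoc, hcd, ← res_mul (hmem c) (hmem r), ← res_mul (hmem d) (hmem r),
      ← res_mul (hT.mem hA (hgl.mul hσm.loc)) (mul_mem (hmem d) (hmem r))]
    have e : g * φ σ * (φ d * φ r) = φ e₂ * φ σ := by
      rw [mul_right_comm, mul_assoc (φ e₂), inv_mul_cancel₀ hdr0, mul_one]
    have e' : φ c * φ r = φ e₁ * (q : F₂) + φ e₂ * φ σ := by
      have := congrArg (fun a : chartRing W u => φ a) he
      push_cast at this
      rw [map_add, map_mul, map_mul, map_mul, map_natCast] at this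
      linear_combination -this
    rw [e, e', res_add (mul_mem (hmem e₁) (natCast_mem V q)) (mul_mem (hmem e₂) (hmem σ)),
      res_mul (hmem e₁) (natCast_mem V q), res_natCast_q hq hV, mul_zero, zero_add]
  obtain ⟨k, hk, hzk⟩ := hdiv _ hzl hzn
  exact ⟨k, g, hk, hgl, by linear_combination hzk⟩

end Along

include hqP in
/-- Every component comes with a map from the base along which it is rational. -/
theorem exists_rational {V : ValuationSubring F₂} (hV : IsVertical W q (T.α (T.t u)) V) :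
    ∃ φ : F →ₐ[K] F₂, IsVertical W q (φ u) V ∧ RationalAlong φ W q u V ∧
      φ u ∈ chartRing W (T.α (T.t u)) ∧ chartRing W (φ u) = chartRing W (T.α (T.t u)) := by
  have e₁ : chartRing W (T.α (T.s u)) = chartRing W (T.α (T.t u)) :=
    le_antisymm (chartRing_le_chartRing (mem_chartRing_of_evalTwo D.Φ D.monic D.root_α))
      (chartRing_le_chartRing (mem_chartRing_of_evalTwo D.Φ D.monic
        ((evalTwo_comm D.Φ D.symm _ _).trans D.root_α)))
  have e₂ : chartRing W (T.β (T.t u)) = chartRing W (T.α (T.t u)) :=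
    le_antisymm (chartRing_le_chartRing (mem_chartRing_of_evalTwo D.Φ D.monic D.root_β))
      (chartRing_le_chartRing (mem_chartRing_of_evalTwo D.Φ D.monic
        ((evalTwo_comm D.Φ D.symm _ _).trans D.root_β)))
  rcases level2_cases hq D hV with h | h | h
  · exact ⟨T.β.comp T.t, isVertical_x₂ hq D hV, rational_inf hq D hV h,
      mem_chartRing_of_evalTwo D.Φ D.monic D.root_β, e₂⟩
  · exact ⟨T.α.comp T.s, isVertical_x₁ hq D hV, rational_zero hq D hV h,
      mem_chartRing_of_evalTwo D.Φ D.monic D.root_α, e₁⟩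
  · exact ⟨T.α.comp T.s, isVertical_x₁ hq D hV, rational_mid hq D hV h,
      mem_chartRing_of_evalTwo D.Φ D.monic D.root_α, e₁⟩

include hqP in
/-- Two generators of the maximal ideal at a point which is not supersingular. -/
theorem exists_generators (hns : ¬ IsSSPt hq D hqP) {V : ValuationSubring F₂}
    (hV : IsVertical W q (T.α (T.t u)) V) (hT : Through P V) :
    ∃ a b : F₂, InMax P a ∧ InMax P b ∧ ∀ y : F₂, InMax P y →
      ∃ c d : F₂, Loc (T.α (T.t u)) P c ∧ Loc (T.α (T.t u)) P d ∧ y = c * a + d * b := by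
  have : CharZero F₂ := charZero_of_injective_algebraMap (algebraMap K F₂).injective
  have hqp : q.Prime := Fact.out
  have hA : ∀ z : chartRing W (T.α (T.t u)), (z : F₂) ∈ V := fun z => hV.chartRing_le z.2
  have hq0 : (q : F₂) ≠ 0 := natCast_ne_zero₂ hq D
  obtain ⟨φ, hφv, hrat, hφu, heq⟩ := exists_rational hq D hqP hV
  suffices ∃ π : F₂, InMax P π ∧ ∀ z : F₂, Loc (T.α (T.t u)) P z → z ∈ V.nonunits →
      ∃ k, Loc (T.α (T.t u)) P k ∧ z = k * π by
    obtain ⟨π, hπ, hdiv⟩ := this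
    obtain ⟨σ, hσ, hgen⟩ :=
      exists_generators_of_uniformizer hq D hqP φ hφv hrat hφu hV hT heq hπ hdiv
    exact ⟨π, σ, hπ, hσ, hgen⟩
  have hqm : InMax P (q : F₂) := by
    simpa using inMax_of_mem hqP
  have hq' : Disc (q : F₂) V → ∀ z : F₂, Loc (T.α (T.t u)) P z → z ∈ V.nonunits →
      ∃ k, Loc (T.α (T.t u)) P k ∧ z = k * q := fun hd z hz hzn =>
    ⟨z / q, loc_div_q hq D hz fun U hU hTU => (unique_through hq D hqP hns hV hT hU hTU) ▸
      hd.div_mem hV.q_mem hq0 hzn, (div_mul_cancel₀ z hq0).symm⟩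
  rcases level2_cases hq D hV with h | h | h
  · exact ⟨q, hqm, hq' (disc_inf hq D hV h)⟩
  · exact ⟨q, hqm, hq' (disc_zero hq D hV h)⟩
  · obtain ⟨π, hπ0, hπn, hπM, hdisc, hwV, hwl, hw0⟩ :=
      exists_mid_uniformizer hq D hqP hns hV hT h
    refine ⟨π, hπM, fun z hz hzn => ⟨z / π, ?_, (div_mul_cancel₀ z hπ0).symm⟩⟩
    obtain ⟨hwne, hwinv⟩ := loc_inv_of_pval_ne_zero hq hqP hwl hw0
    have hm : z * π ^ (q - 1 - 1) / (q : F₂) = z / π * (π ^ (q - 1) / q) := by
      rw [show π ^ (q - 1) = π ^ (q - 1 - 1) * π by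
        rw [← pow_succ, show q - 1 - 1 + 1 = q - 1 by have := hqp.two_le; omega]]
      field_simp
    have hl : Loc (T.α (T.t u)) P (z * π ^ (q - 1 - 1) / (q : F₂)) :=
      loc_div_q hq D (hz.mul (hπM.loc.pow _)) fun U hU hTU =>
        (unique_through hq D hqP hns hV hT hU hTU) ▸
          hm ▸ mul_mem (hdisc.div_mem hπn hπ0 hzn) hwV
    rw [show z / π = z * π ^ (q - 1 - 1) / (q : F₂) * (π ^ (q - 1) / (q : F₂))⁻¹ by
      rw [hm, mul_inv_cancel_right₀ hwne]]
    exact hl.mul hwinv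

end FermatAgent.BadRed.Carayol
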