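import Fermat.Agent.BadRed.Carayol.Normalise

/-!
# `n`-th roots of the residues of a normalised function, and their relation to the norms
-/

set_option autoImplicit false
set_option linter.unusedSectionVars false

noncomputable section

namespace FermatAgent.BadRed.Carayol

open Polynomial IsLocalRing

/-- An element whose `q`-th power is an `n`-th power, with `q` prime to `n`, is an `n`-th power. -/
theorem exists_pow_eq_of_pow_eq_pow {L : Type*} [Field L] {q n : ℕ} (hqn : q.Coprime n) {x y : L}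
    (hx : x ≠ 0) (h : x ^ q = y ^ n) : ∃ z : L, z ^ n = x := by
  refine ⟨y ^ Nat.gcdA q n * x ^ Nat.gcdB q n, ?_⟩
  have hg : ((q : ℤ) * Nat.gcdA q n + (n : ℤ) * Nat.gcdB q n) = 1 := by
    rw [← Nat.gcd_eq_gcd_ab, hqn.gcd_eq_one]; rfl
  calc (y ^ Nat.gcdA q n * x ^ Nat.gcdB q n) ^ n
      = (y ^ n) ^ Nat.gcdA q n * x ^ ((n : ℤ) * Nat.gcdB q n) := by
        rw [mul_pow, ← zpow_natCast (y ^ Nat.gcdA q n) n, ← zpow_mul, mul_comm _ (n : ℤ),
          zpow_mul, zpow_natCast, ← zpow_natCast (x ^ Nat.gcdB q n) n, ← zpow_mul,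
          mul_comm _ (n : ℤ)]
    _ = x ^ ((q : ℤ) * Nat.gcdA q n + (n : ℤ) * Nat.gcdB q n) := by
        rw [← h, zpow_add₀ hx, zpow_mul x (q : ℤ), zpow_natCast]
    _ = x := by rw [hg, zpow_one]

variable {q : ℕ} [Fact q.Prime] {W K F F₁ F₂ : Type*}
  [CommRing W] [IsDomain W] [IsDiscreteValuationRing W] [IsAlgClosed (IsLocalRing.ResidueField W)]
  [Field K] [CharZero K] [Algebra W K] [IsFractionRing W K]
  [Field F] [Field F₁] [Field F₂] [Algebra K F] [Algebra K F₁] [Algebra K F₂]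
  [Algebra W F] [Algebra W F₁] [Algebra W F₂]
  [IsScalarTower W K F] [IsScalarTower W K F₁] [IsScalarTower W K F₂]
  {T : QTower q K F F₁ F₂} {u : F}

section Const

variable {L : Type*} [Field L] [Algebra W L] (hq : maximalIdeal W = Ideal.span {(q : W)})
include hq

/-- A residue with constant nonzero `n`-th power is constant. -/
theorem exists_const_of_pow_eq {v : L} {V : ValuationSubring L} (hV : IsVertical W q v V)
    {x : IsLocalRing.ResidueField V} {n : ℕ} (hn : 0 < n) {w : W}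
    (h : x ^ n = res V (algebraMap W L w)) : ∃ A : W, x = res V (algebraMap W L A) := by
  let c := constRes hq hV
  let _ := c.toAlgebra
  have hint : IsIntegral (IsLocalRing.ResidueField W) x := by
    refine ⟨X ^ n - C (residue W w), monic_X_pow_sub_C _ hn.ne', ?_⟩
    rw [eval₂_sub, eval₂_X_pow, eval₂_C, h,
      show algebraMap (IsLocalRing.ResidueField W) (IsLocalRing.ResidueField V) = c from rfl,
      constRes_residue, sub_self]
  obtain ⟨r, hr⟩ := minpoly.mem_range_of_degree_eq_one (IsLocalRing.ResidueField W) x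
    (IsAlgClosed.degree_eq_one_of_irreducible _ (minpoly.irreducible hint))
  obtain ⟨A, rfl⟩ := residue_surjective r
  exact ⟨A, by rw [← hr, ← constRes_residue hq hV]; rfl⟩

theorem exists_const_root {v : L} {V : ValuationSubring L} (hV : IsVertical W q v V) {n : ℕ}
    (hn : 0 < n) (w : Wˣ) :
    ∃ ω : IsLocalRing.ResidueField V, ω ≠ 0 ∧ ω ^ n = res V (algebraMap W L (w : W)) := by
  obtain ⟨r, hr⟩ := IsAlgClosed.exists_pow_nat_eq (residue W (w : W)) hn
  refine ⟨constRes hq hV r, ?_, by rw [← map_pow, hr, constRes_residue]⟩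
  rw [_root_.map_ne_zero]
  intro h
  rw [h, zero_pow hn.ne'] at hr
  exact (w.isUnit.map (residue W)).ne_zero hr.symm

theorem isUnitAt_const {v : L} {V : ValuationSubring L} (hV : IsVertical W q v V) {a : W}
    (ha : residue W a ≠ 0) : IsUnitAt V (algebraMap W L a) := by
  have := hV.isUnitAt (Polynomial.C a) (by rw [map_C, Ne, C_eq_zero]; exact ha)
  simpa using this

end Const

/-- Residual `n`-th roots at the three components. -/
structure RootSet {C : Comps W T u} {n : ℕ} {f : F₂} (N : Normal C n f) where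
  hI : F₂
  h₀ : F₂
  hm : F₂
  memI : hI ∈ C.VI
  mem₀ : h₀ ∈ C.V0
  memm : hm ∈ C.Vm
  rootI : res C.VI hI ^ n = res C.VI (f / (q : F₂) ^ ((n : ℤ) * N.dI))
  root₀ : res C.V0 h₀ ^ n = res C.V0 (f / (q : F₂) ^ ((n : ℤ) * N.d₀))
  rootm : res C.Vm hm ^ n = res C.Vm (f / (q : F₂) ^ ((n : ℤ) * N.dm))

/-- The roots for the interchanged tower. -/
def RootSet.swap {C : Comps W T u} {n : ℕ} {f : F₂} {N : Normal C n f} (R : RootSet N) :
    RootSet N.swap where
  hI := R.h₀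
  h₀ := R.hI
  hm := R.hm
  memI := R.mem₀
  mem₀ := R.memI
  memm := R.memm
  rootI := R.root₀
  root₀ := R.rootI
  rootm := R.rootm

variable (hq : maximalIdeal W = Ideal.span {(q : W)}) (D : ChartData W T u)
include hq D

theorem vertical_comap_eq (C : Comps W T u) :
    C.V0.comap T.α.toRingHom = C.Vm.comap T.α.toRingHom :=
  oth_unique hq D (C.v0.comap T.α) ((res_comap_eq_pow_iff (σ := T.α.toRingHom) q C.v0.u_mem.mem
      (isVertical_x₁ hq D C.v0).u_mem.mem).mpr (zero_other hq D C.v0 C.zero))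
    (C.vm.comap T.α) (mid_comap_α hq D C.vm C.mid)

/-- The exponent of the `n`-th root part of a norm. -/
theorem hasExp_of_norm {V : ValuationSubring F₁} (hV : IsVertical W q (T.t u) V) {N g : F₁}
    {w : Wˣ} {n : ℕ} (hn : 0 < n) (h : N = algebraMap W F₁ (w : W) * g ^ n) {e : ℤ}
    (he : HasExp q V N ((n : ℤ) * e)) : HasExp q V g e := by
  have hw : IsUnitAt V (algebraMap W F₁ (w : W)) :=
    isUnitAt_const hq hV (w.isUnit.map (residue W)).ne_zero
  rw [HasExp, h, map_mul, hw, one_mul, map_pow, mul_comm, zpow_mul, zpow_natCast] at he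
  exact (pow_left_inj₀ zero_le zero_le hn.ne').mp he

theorem norm_div_zpow (f : F₂) (a : ℤ) :
    T.normα (f / (q : F₂) ^ a) = T.normα f / (q : F₁) ^ ((q : ℤ) * a) := by
  let _ : Algebra F₁ F₂ := T.α.toRingHom.toAlgebra
  have h1 : (f / (q : F₂) ^ a) = f * algebraMap F₁ F₂ ((q : F₁) ^ (-a)) := by
    rw [map_zpow₀, map_natCast, zpow_neg, div_eq_mul_inv]
  rw [h1, map_mul, show T.normα (algebraMap F₁ F₂ ((q : F₁) ^ (-a))) =
      Algebra.norm F₁ (algebraMap F₁ F₂ ((q : F₁) ^ (-a))) from rfl, Algebra.norm_algebraMap,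
    T.degree_α, ← zpow_natCast, ← zpow_mul, neg_mul, zpow_neg, mul_comm (a : ℤ), div_eq_mul_inv]

/-- The residue of the norm at the component at infinity. -/
theorem res_norm_inf (C : Comps W T u) {y : F₂} (hy : IsUnitAt C.VI y) :
    res C.VI y ^ q = res C.VI (T.α (T.normα y)) ∧ IsUnitAt C.VI (T.α (T.normα y)) := by
  obtain ⟨hv, hc⟩ := comap_inf hq D C
  obtain ⟨V, hV, hVi, -, hnorm⟩ := norm_can hq D hv hc
  obtain rfl := inf_unique hq D hV hVi C.vI C.inf
  obtain ⟨hu, hz⟩ := hnorm y hy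
  obtain ⟨z, hzm, hyz⟩ := resPow_inf hq D C.vI C.inf hy.mem
  have hu' : IsUnitAt C.VI (T.α (T.normα y)) := (isUnitAt_comap T.α.toRingHom C.VI).mp hu
  exact ⟨hyz.trans ((res_eq_iff_map T.α.toRingHom C.VI hu'.mem hzm).mp (hz z hzm hyz)).symm, hu'⟩

/-- The residue of a norm at the component at infinity, normalised. -/
theorem res_norm_inf_normal {C : Comps W T u} {n : ℕ} (hn : 0 < n) {f : F₂} (N : Normal C n f)
    {w : Wˣ} {g : F₁} (hg : T.normα f = algebraMap W F₁ (w : W) * g ^ n) :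
    IsUnitAt C.VI (T.α (g / (q : F₁) ^ ((q : ℤ) * N.dI))) ∧
      res C.VI (f / (q : F₂) ^ ((n : ℤ) * N.dI)) ^ q = res C.VI (algebraMap W F₂ (w : W)) *
        res C.VI (T.α (g / (q : F₁) ^ ((q : ℤ) * N.dI))) ^ n := by
  have hq1 := natCast_ne_zero₁ hq D
  have hq2 := natCast_ne_zero₂ hq D
  have hv := C.vI.comap T.α
  have he : HasExp q (C.VI.comap T.α.toRingHom) (T.normα f) ((n : ℤ) * ((q : ℤ) * N.dI)) := by
    rw [mul_left_comm]; exact hasExp_norm_can hq D C N.expI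
  have hgu : IsUnitAt C.VI (T.α (g / (q : F₁) ^ ((q : ℤ) * N.dI))) :=
    (isUnitAt_comap T.α.toRingHom C.VI).mp
      ((hasExp_iff hq1).mp (hasExp_of_norm hq D hv hn hg he))
  refine ⟨hgu, ?_⟩
  obtain ⟨h, -⟩ := res_norm_inf hq D C ((hasExp_iff hq2).mp N.expI)
  have hw : IsUnitAt C.VI (algebraMap W F₂ (w : W)) :=
    isUnitAt_const hq C.vI (w.isUnit.map (residue W)).ne_zero
  rw [h, norm_div_zpow hq D, hg, ← res_pow hgu.mem, ← res_mul hw.mem (hgu.pow n).mem]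
  congr 1
  rw [map_div₀, map_mul, map_pow, map_zpow₀, map_natCast, map_algebraMap_const, map_div₀,
    map_zpow₀, map_natCast, div_pow, mul_div_assoc, ← zpow_natCast ((q : F₂) ^ ((q : ℤ) * N.dI)) n,
    ← zpow_mul, show ((q : ℤ) * N.dI) * n = (q : ℤ) * ((n : ℤ) * N.dI) by ring]

/-- The residue of a norm on the branch below zero and the middle, normalised. -/
theorem res_norm_oth_normal {C : Comps W T u} {n : ℕ} (hn : 0 < n) {f : F₂} (N : Normal C n f)
    {w : Wˣ} {g : F₁} (hg : T.normα f = algebraMap W F₁ (w : W) * g ^ n) {c₀ cm : F}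
    (hc₀ : res C.V0 (f / (q : F₂) ^ ((n : ℤ) * N.d₀)) = res C.V0 (T.α (T.s c₀)))
    (hcm : res C.Vm (f / (q : F₂) ^ ((n : ℤ) * N.dm)) = res C.Vm (T.α (T.s cm)))
    {V : ValuationSubring F₂} (hV : V = C.V0 ∨ V = C.Vm) :
    IsUnitAt V (T.α (g / (q : F₁) ^ (N.d₀ + ((q - 1 : ℕ) : ℤ) * N.dm))) ∧
      res V (algebraMap W F₂ (w : W)) *
        res V (T.α (g / (q : F₁) ^ (N.d₀ + ((q - 1 : ℕ) : ℤ) * N.dm))) ^ n =
        res V (T.α (T.s (c₀ * cm ^ (q - 1)))) := by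
  have hq1 := natCast_ne_zero₁ hq D
  have hq2 := natCast_ne_zero₂ hq D
  obtain ⟨V₀, Vm, h0, h0', -, hm, hm', -, hnorm⟩ :=
    norm_oth hq D (C.vm.comap T.α) (mid_comap_α hq D C.vm C.mid)
  obtain rfl := zero_unique hq D h0 h0' C.v0 C.zero
  obtain rfl := mid_unique hq D hm hm' C.vm C.mid
  obtain ⟨hu, hres⟩ := hnorm f _ _ c₀ cm ((hasExp_iff hq2).mp N.exp₀) hc₀
    ((hasExp_iff hq2).mp N.expm) hcm
  have hcomap : V.comap T.α.toRingHom = C.Vm.comap T.α.toRingHom := by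
    rcases hV with rfl | rfl
    · exact vertical_comap_eq hq D C
    · rfl
  have hVv : IsVertical W q (T.α (T.t u)) V := by
    rcases hV with rfl | rfl
    exacts [C.v0, C.vm]
  set e := N.d₀ + ((q - 1 : ℕ) : ℤ) * N.dm
  have hne : (n : ℤ) * N.d₀ + ((q - 1 : ℕ) : ℤ) * ((n : ℤ) * N.dm) = (n : ℤ) * e := by
    simp only [e]; ring
  rw [hne] at hu hres
  have hge : HasExp q (C.Vm.comap T.α.toRingHom) g e :=
    hasExp_of_norm hq D (C.vm.comap T.α) hn hg ((hasExp_iff hq1).mpr hu)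
  rw [← hcomap] at hge hu hres
  have hgu : IsUnitAt V (T.α (g / (q : F₁) ^ e)) :=
    (isUnitAt_comap T.α.toRingHom V).mp ((hasExp_iff hq1).mp hge)
  refine ⟨hgu, ?_⟩
  have hu' := (isUnitAt_comap T.α.toRingHom V).mp hu
  have hcmem : T.s (c₀ * cm ^ (q - 1)) ∈ V.comap T.α.toRingHom :=
    mem_of_res_ne_zero (hres ▸ hu.res_ne_zero)
  have hres' : res V (T.α (T.normα f / (q : F₁) ^ ((n : ℤ) * e))) =
      res V (T.α (T.s (c₀ * cm ^ (q - 1)))) :=
    (res_eq_iff_map T.α.toRingHom V hu'.mem hcmem).mp hres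
  have hw : IsUnitAt V (algebraMap W F₂ (w : W)) :=
    isUnitAt_const hq hVv (w.isUnit.map (residue W)).ne_zero
  rw [← hres', hg, ← res_pow hgu.mem, ← res_mul hw.mem (hgu.pow n).mem]
  congr 1
  rw [map_div₀, map_div₀, map_mul, map_pow, map_zpow₀, map_zpow₀, map_natCast,
    map_algebraMap_const, div_pow, mul_div_assoc, ← zpow_natCast ((q : F₂) ^ e) n, ← zpow_mul,
    mul_comm e]

/-- A root at the component at infinity. -/
theorem exists_root_inf {C : Comps W T u} {n : ℕ} (hn : 0 < n) (hqn : ¬ q ∣ n) {f : F₂}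
    (N : Normal C n f) :
    ∃ h : F₂, h ∈ C.VI ∧ res C.VI h ^ n = res C.VI (f / (q : F₂) ^ ((n : ℤ) * N.dI)) := by
  obtain ⟨w, g, hg⟩ := N.normα
  obtain ⟨hgu, hres⟩ := res_norm_inf_normal hq D hn N hg
  obtain ⟨ω, hω0, hω⟩ := exists_const_root hq C.vI hn w
  obtain ⟨z, hz⟩ := exists_pow_eq_of_pow_eq_pow
    ((Nat.Prime.coprime_iff_not_dvd Fact.out).mpr hqn)
    ((hasExp_iff (natCast_ne_zero₂ hq D)).mp N.expI).res_ne_zero
    (y := ω * res C.VI (T.α (g / (q : F₁) ^ ((q : ℤ) * N.dI))))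
    (by rw [hres, ← hω, mul_pow])
  obtain ⟨⟨h, hh⟩, rfl⟩ := residue_surjective z
  exact ⟨h, hh, by rw [res_of_mem hh]; exact hz⟩

omit hq D in
theorem res_alg_rep {L : Type*} [Field L] {V : ValuationSubring L} (φ : F →+* L) {r : F}
    (hr : φ r ∈ V) (n : ℕ) : res V (φ (r ^ n)) = res V (φ r) ^ n := by
  rw [map_pow, res_pow hr]

/-- After raising to the power `q - 1` all three roots exist. -/
theorem exists_roots {C : Comps W T u} {n : ℕ} (hn : 0 < n) (hqn : ¬ q ∣ n) {f : F₂}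
    (N : Normal C n f) :
    ∃ N' : Normal C n (f ^ (q - 1)), Nonempty (RootSet N') := by
  have hqp : q.Prime := Fact.out
  have hq0 := natCast_ne_zero₂ hq D
  obtain ⟨N', hdI, hd₀, hdm⟩ := N.exists_pow hq D (q - 1)
  obtain ⟨hI, hIm, hIroot⟩ := exists_root_inf hq D hn hqn N
  obtain ⟨h₀, h₀m, h₀root⟩ := exists_root_inf hq D.swap hn hqn N.swap
  obtain ⟨w, g, hg⟩ := N.normα
  have hu₀ := (hasExp_iff hq0).mp N.exp₀
  have hum := (hasExp_iff hq0).mp N.expm
  obtain ⟨r₀, hr₀m, hr₀⟩ := exists_rep hq D (T.α.comp T.s) (isVertical_x₁ hq D C.v0)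
    (rational_zero hq D C.v0 C.zero) h₀m
  have hum' := hum.mem
  obtain ⟨cm, hcmm, hcm⟩ := exists_rep hq D (T.α.comp T.s) (isVertical_x₁ hq D C.vm)
    (rational_mid hq D C.vm C.mid) hum'
  have hc₀ : res C.V0 (f / (q : F₂) ^ ((n : ℤ) * N.d₀)) = res C.V0 (T.α (T.s (r₀ ^ n))) := by
    rw [show T.α (T.s (r₀ ^ n)) = (T.α.comp T.s).toRingHom (r₀ ^ n) from rfl,
      res_alg_rep (V := C.V0) (T.α.comp T.s).toRingHom hr₀m n]
    exact h₀root.symm.trans (congrArg (· ^ n) hr₀)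
  obtain ⟨hgu, hres⟩ := res_norm_oth_normal hq D hn N hg hc₀ hcm (Or.inr rfl)
  obtain ⟨ω, hω0, hω⟩ := exists_const_root hq C.vm hn w
  have hcomap := vertical_comap_eq hq D C
  have hr₀m' : T.α (T.s r₀) ∈ C.Vm := by
    have : T.s r₀ ∈ C.V0.comap T.α.toRingHom := hr₀m
    rw [hcomap] at this
    exact this
  set γ := res C.Vm (T.α (g / (q : F₁) ^ (N.d₀ + ((q - 1 : ℕ) : ℤ) * N.dm)))
  have hprod : res C.Vm (T.α (T.s (r₀ ^ n * cm ^ (q - 1)))) =
      res C.Vm (T.α (T.s r₀)) ^ n * res C.Vm (f / (q : F₂) ^ ((n : ℤ) * N.dm)) ^ (q - 1) := by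
    rw [map_mul, map_mul, map_pow, map_pow, map_pow, map_pow,
      res_mul (pow_mem hr₀m' n) (pow_mem (show T.α (T.s cm) ∈ C.Vm from hcmm) _),
      res_pow hr₀m', res_pow (show T.α (T.s cm) ∈ C.Vm from hcmm), hcm]
    rfl
  rw [hprod] at hres
  have hlhs : res C.Vm (algebraMap W F₂ (w : W)) * γ ^ n ≠ 0 := mul_ne_zero
    (isUnitAt_const hq C.vm (w.isUnit.map (residue W)).ne_zero).res_ne_zero
    (pow_ne_zero _ hgu.res_ne_zero)
  have hr0ne : res C.Vm (T.α (T.s r₀)) ≠ 0 := fun h => hlhs (by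
    rw [hres, h, zero_pow hn.ne', zero_mul])
  obtain ⟨⟨hm, hmm⟩, hm'⟩ := residue_surjective (ω * γ / res C.Vm (T.α (T.s r₀)))
  have hpow : ∀ (V : ValuationSubring F₂) (d d' : ℤ),
      IsUnitAt V (f / (q : F₂) ^ ((n : ℤ) * d)) → d' = ((q - 1 : ℕ) : ℤ) * d →
      res V (f ^ (q - 1) / (q : F₂) ^ ((n : ℤ) * d')) =
        res V (f / (q : F₂) ^ ((n : ℤ) * d)) ^ (q - 1) := by
    rintro V d d' hu rfl
    rw [← res_pow hu.mem, div_pow, ← zpow_natCast ((q : F₂) ^ ((n : ℤ) * d)) (q - 1), ← zpow_mul]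
    congr 2
    ring
  refine ⟨N', ⟨{
    hI := hI ^ (q - 1)
    h₀ := h₀ ^ (q - 1)
    hm := hm
    memI := pow_mem hIm _
    mem₀ := pow_mem h₀m _
    memm := hmm
    rootI := by
      rw [hpow C.VI _ _ ((hasExp_iff hq0).mp N.expI) hdI, res_pow hIm, pow_right_comm, hIroot]
    root₀ := by
      rw [hpow C.V0 _ _ hu₀ hd₀, res_pow (show h₀ ∈ C.V0 from h₀m), pow_right_comm]
      exact congrArg (· ^ (q - 1)) h₀root
    rootm := by
      rw [hpow C.Vm _ _ hum hdm, res_of_mem hmm, hm', div_pow, mul_pow, hω, hres,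
        mul_div_cancel_left₀ _ (pow_ne_zero n hr0ne)] }⟩⟩

omit hq D in
/-- Powers of a set of roots, twisted by roots of unity. -/
theorem RootSet.exists_twist (hq : maximalIdeal W = Ideal.span {(q : W)}) (D : ChartData W T u)
    {C : Comps W T u} {n : ℕ} {f : F₂} {N : Normal C n f} (R : RootSet N) (k : ℕ)
    {a₀ am : W} (h₀ : residue W a₀ ^ n = 1) (hm : residue W am ^ n = 1) :
    ∃ (N' : Normal C n (f ^ k)) (R' : RootSet N'),
      (N'.dI = (k : ℤ) * N.dI ∧ N'.d₀ = (k : ℤ) * N.d₀ ∧ N'.dm = (k : ℤ) * N.dm) ∧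
      R'.hI = R.hI ^ k ∧ R'.h₀ = R.h₀ ^ k * algebraMap W F₂ a₀ ∧
      R'.hm = R.hm ^ k * algebraMap W F₂ am := by
  have hq0 := natCast_ne_zero₂ hq D
  obtain ⟨N', hdI, hd₀, hdm⟩ := N.exists_pow hq D k
  have hpow : ∀ (V : ValuationSubring F₂) (d d' : ℤ),
      IsUnitAt V (f / (q : F₂) ^ ((n : ℤ) * d)) → d' = (k : ℤ) * d →
      res V (f ^ k / (q : F₂) ^ ((n : ℤ) * d')) = res V (f / (q : F₂) ^ ((n : ℤ) * d)) ^ k := by
    rintro V d d' hu rfl
    rw [← res_pow hu.mem, div_pow, ← zpow_natCast ((q : F₂) ^ ((n : ℤ) * d)) k, ← zpow_mul]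
    congr 2
    ring
  refine ⟨N', {
    hI := R.hI ^ k
    h₀ := R.h₀ ^ k * algebraMap W F₂ a₀
    hm := R.hm ^ k * algebraMap W F₂ am
    memI := pow_mem R.memI _
    mem₀ := mul_mem (pow_mem R.mem₀ _) (C.v0.const_mem a₀)
    memm := mul_mem (pow_mem R.memm _) (C.vm.const_mem am)
    rootI := by
      rw [hpow C.VI _ _ ((hasExp_iff hq0).mp N.expI) hdI, res_pow R.memI, pow_right_comm, R.rootI]
    root₀ := by
      rw [hpow C.V0 _ _ ((hasExp_iff hq0).mp N.exp₀) hd₀,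
        res_mul (pow_mem R.mem₀ _) (C.v0.const_mem a₀), res_pow R.mem₀, mul_pow, pow_right_comm,
        R.root₀, ← constRes_residue hq C.v0, ← map_pow, h₀, map_one, mul_one]
    rootm := by
      rw [hpow C.Vm _ _ ((hasExp_iff hq0).mp N.expm) hdm,
        res_mul (pow_mem R.memm _) (C.vm.const_mem am), res_pow R.memm, mul_pow, pow_right_comm,
        R.rootm, ← constRes_residue hq C.vm, ← map_pow, hm, map_one, mul_one] },
    ⟨hdI, hd₀, hdm⟩, rfl, rfl, rfl⟩

/-- The norm equation compared with the roots on the two branches: one constant `A` at infinity,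
one constant `B` on the other side. -/
theorem exists_side_consts {C : Comps W T u} {n : ℕ} (hn : 0 < n) {f : F₂} {N : Normal C n f}
    (R : RootSet N) {w : Wˣ} {g : F₁} (hg : T.normα f = algebraMap W F₁ (w : W) * g ^ n) :
    ∃ A B : W, residue W A ^ n * residue W (w : W) = 1 ∧ residue W B ^ n * residue W (w : W) = 1 ∧
      res C.VI (T.α (g / (q : F₁) ^ ((q : ℤ) * N.dI))) =
        res C.VI (algebraMap W F₂ A) * res C.VI R.hI ^ q ∧
      ∃ r₀ rm : F, T.α (T.s r₀) ∈ C.V0 ∧ T.α (T.s rm) ∈ C.Vm ∧ T.α (T.s rm) ∈ C.V0 ∧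
        res C.V0 R.h₀ = res C.V0 (T.α (T.s r₀)) ∧ res C.Vm R.hm = res C.Vm (T.α (T.s rm)) ∧
        res C.V0 (T.α (g / (q : F₁) ^ (N.d₀ + ((q - 1 : ℕ) : ℤ) * N.dm))) =
          res C.V0 (algebraMap W F₂ B) * res C.V0 (T.α (T.s (r₀ * rm ^ (q - 1)))) := by
  have hq0 := natCast_ne_zero₂ hq D
  -- at infinity
  obtain ⟨hgI, hresI⟩ := res_norm_inf_normal hq D hn N hg
  set γI := res C.VI (T.α (g / (q : F₁) ^ ((q : ℤ) * N.dI)))
  have hρI : res C.VI R.hI ≠ 0 := fun h => ((hasExp_iff hq0).mp N.expI).res_ne_zero (by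
    rw [← R.rootI, h, zero_pow hn.ne'])
  have hwI : res C.VI (algebraMap W F₂ (w : W)) ≠ 0 :=
    (isUnitAt_const hq C.vI (w.isUnit.map (residue W)).ne_zero).res_ne_zero
  have hηI : (γI / res C.VI R.hI ^ q) ^ n =
      res C.VI (algebraMap W F₂ ((w⁻¹ : Wˣ) : W)) := by
    rw [← R.rootI, pow_right_comm] at hresI
    rw [div_pow, hresI, div_mul_cancel_right₀ (pow_ne_zero _ hgI.res_ne_zero)]
    refine inv_eq_of_mul_eq_one_right ?_
    rw [← constRes_residue hq C.vI, ← constRes_residue hq C.vI, ← map_mul, ← map_mul,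
      Units.mul_inv, map_one, map_one]
  obtain ⟨A, hA⟩ := exists_const_of_pow_eq hq C.vI hn hηI
  -- below zero
  obtain ⟨r₀, hr₀m, hr₀⟩ := exists_rep hq D (T.α.comp T.s) (isVertical_x₁ hq D C.v0)
    (rational_zero hq D C.v0 C.zero) R.mem₀
  obtain ⟨rm, hrmm, hrm⟩ := exists_rep hq D (T.α.comp T.s) (isVertical_x₁ hq D C.vm)
    (rational_mid hq D C.vm C.mid) R.memm
  have hrm0 : T.α (T.s rm) ∈ C.V0 := by
    have : T.s rm ∈ C.Vm.comap T.α.toRingHom := hrmm
    rw [← vertical_comap_eq hq D C] at this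
    exact this
  have hc₀ : res C.V0 (f / (q : F₂) ^ ((n : ℤ) * N.d₀)) = res C.V0 (T.α (T.s (r₀ ^ n))) := by
    rw [show T.α (T.s (r₀ ^ n)) = (T.α.comp T.s).toRingHom (r₀ ^ n) from rfl,
      res_alg_rep (V := C.V0) (T.α.comp T.s).toRingHom hr₀m n]
    exact R.root₀.symm.trans (congrArg (· ^ n) hr₀)
  have hcm : res C.Vm (f / (q : F₂) ^ ((n : ℤ) * N.dm)) = res C.Vm (T.α (T.s (rm ^ n))) := by
    rw [show T.α (T.s (rm ^ n)) = (T.α.comp T.s).toRingHom (rm ^ n) from rfl,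
      res_alg_rep (V := C.Vm) (T.α.comp T.s).toRingHom hrmm n]
    exact R.rootm.symm.trans (congrArg (· ^ n) hrm)
  obtain ⟨hg0, hres0⟩ := res_norm_oth_normal hq D hn N hg hc₀ hcm (Or.inl rfl)
  set γ0 := res C.V0 (T.α (g / (q : F₁) ^ (N.d₀ + ((q - 1 : ℕ) : ℤ) * N.dm)))
  set ρ := res C.V0 (T.α (T.s (r₀ * rm ^ (q - 1))))
  have hprod : res C.V0 (T.α (T.s (r₀ ^ n * (rm ^ n) ^ (q - 1)))) = ρ ^ n := by
    simp only [ρ]
    rw [← pow_mul, mul_comm n, pow_mul, ← mul_pow, map_pow, map_pow, res_pow]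
    rw [map_mul, map_mul, map_pow, map_pow]
    exact mul_mem hr₀m (pow_mem hrm0 _)
  rw [hprod] at hres0
  have hw0 : res C.V0 (algebraMap W F₂ (w : W)) ≠ 0 :=
    (isUnitAt_const hq C.v0 (w.isUnit.map (residue W)).ne_zero).res_ne_zero
  have hρ0 : ρ ≠ 0 := fun h => by
    rw [h, zero_pow hn.ne'] at hres0
    exact mul_ne_zero hw0 (pow_ne_zero _ hg0.res_ne_zero) hres0
  have hη0 : (γ0 / ρ) ^ n = res C.V0 (algebraMap W F₂ ((w⁻¹ : Wˣ) : W)) := by
    rw [div_pow, ← hres0, div_mul_cancel_right₀ (pow_ne_zero _ hg0.res_ne_zero)]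
    refine inv_eq_of_mul_eq_one_right ?_
    rw [← constRes_residue hq C.v0, ← constRes_residue hq C.v0, ← map_mul, ← map_mul,
      Units.mul_inv, map_one, map_one]
  obtain ⟨B, hB⟩ := exists_const_of_pow_eq hq C.v0 hn hη0
  have hkey : ∀ {V : ValuationSubring F₂} (hV : IsVertical W q (T.α (T.t u)) V) (a : W),
      res V (algebraMap W F₂ a) ^ n = res V (algebraMap W F₂ ((w⁻¹ : Wˣ) : W)) →
      residue W a ^ n * residue W (w : W) = 1 := fun {V} hV a ha => by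
    rw [← constRes_residue hq hV, ← constRes_residue hq hV, ← map_pow] at ha
    rw [(constRes hq hV).injective ha, ← map_mul, Units.inv_mul, map_one]
  refine ⟨A, B, hkey C.vI A (by rw [← hA]; exact hηI), hkey C.v0 B (by rw [← hB]; exact hη0),
    ?_, r₀, rm, hr₀m, hrmm, hrm0, hr₀, hrm, ?_⟩
  · rw [← hA, div_mul_cancel₀ _ (pow_ne_zero _ hρI)]
  · rw [← hB, div_mul_cancel₀ _ hρ0]

end FermatAgent.BadRed.Carayol
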