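import Mathlib.RingTheory.Polynomial.RationalRoot
import Fermat.Agent.BadRed.Carayol.Points

/-!
# The supersingular points at level `q² N`

The ring generated over the base by the two ends is already regular at such a point, with
parameters the translates of the two ends. In particular the point is alone above its image on
the level `q N`.
-/

set_option autoImplicit false
set_option linter.unusedSectionVars false

noncomputable section

namespace FermatAgent.BadRed.Carayol

open Polynomial IsLocalRing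

variable {q : ℕ} [Fact q.Prime] {W K F F₁ F₂ : Type*}
  [CommRing W] [IsDomain W] [IsDiscreteValuationRing W] [IsAlgClosed (IsLocalRing.ResidueField W)]
  [Field K] [CharZero K] [Algebra W K] [IsFractionRing W K]
  [Field F] [Field F₁] [Field F₂] [Algebra K F] [Algebra K F₁] [Algebra K F₂]
  [Algebra W F] [Algebra W F₁] [Algebra W F₂]
  [IsScalarTower W K F] [IsScalarTower W K F₁] [IsScalarTower W K F₂]
  {T : QTower q K F F₁ F₂} {u : F}
  (hq : maximalIdeal W = Ideal.span {(q : W)}) (D : ChartData W T u)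
  {P : Ideal (chartRing W (T.α (T.t u)))} [P.IsMaximal]
  (hqP : (q : chartRing W (T.α (T.t u))) ∈ P)

theorem loc_middle (c : chartRing W u) : Loc (T.α (T.t u)) P (T.α (T.t c)) :=
  chartRing_le_locRing P (map_mem_chartRing T.α (map_mem_chartRing T.t c.2))

/-- The base and the two ends, inside the local ring. -/
def genLocHom (D : ChartData W T u) (P : Ideal (chartRing W (T.α (T.t u)))) [P.IsMaximal] :
    Polynomial (Polynomial (chartRing W u)) →+* locRing P :=
  eval₂RingHom (eval₂RingHom (baseLocHom (T.α.comp T.t) fun c => loc_middle c)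
    ⟨T.α (T.s u), loc_x₁ D⟩) ⟨T.β (T.t u), loc_x₂ D⟩

/-- The ring generated by the base and the two ends. -/
def genRing (D : ChartData W T u) (P : Ideal (chartRing W (T.α (T.t u)))) [P.IsMaximal] :
    Subring F₂ :=
  RingHom.range (R := Polynomial (Polynomial (chartRing W u)))
    ((locRing P).subtype.comp (genLocHom D P))

include hq D hqP

/-- At a supersingular point the two ends have the same value. -/
theorem ss_pval_x₂ (hss : IsSSPt hq D hqP) :
    pval hq hqP (T.β (T.t u)) = pval hq hqP (T.α (T.s u)) := by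
  obtain ⟨-, h2, h3, -⟩ := hss
  have := charP_residue hq D
  rcases pval_root hq D D.root_β hqP with h | h
  · rw [h, h2]
  · exact frobenius_inj (IsLocalRing.ResidueField W) q (h.symm.trans h3)

omit hq hqP in
theorem genRing_le_locRing : genRing D P ≤ locRing P := by
  rintro _ ⟨G, rfl⟩
  exact (genLocHom D P G).2

omit hq hqP in
theorem mem_genRing (c : chartRing W u) : T.α (T.t c) ∈ genRing D P :=
  ⟨C (C c), by simp [genLocHom, baseLocHom]⟩

omit hq hqP in
theorem x₁_mem_genRing : T.α (T.s u) ∈ genRing D P := ⟨C X, by simp [genLocHom]⟩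

omit hq hqP in
theorem x₂_mem_genRing : T.β (T.t u) ∈ genRing D P := ⟨X, by simp [genLocHom]⟩

omit hq hqP in
theorem const_mem_genRing (w : W) : algebraMap W F₂ w ∈ genRing D P := by
  have := mem_genRing D (P := P) (algebraMap W (chartRing W u) w)
  rwa [show ((algebraMap W (chartRing W u) w : chartRing W u) : F) = algebraMap W F w from rfl,
    map_algebraMap_const, map_algebraMap_const] at this

omit hq hqP in
theorem middle_mem_genRing : T.α (T.t u) ∈ genRing D P :=
  mem_genRing D ⟨u, self_mem_chartRing⟩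

omit hqP in
/-- Every element is a fraction of elements of the generated ring. -/
theorem exists_mul_eq_genRing (y : F₂) :
    ∃ a b : genRing D P, (b : F₂) ≠ 0 ∧ y * b = a := by
  let S := Subfield.closure (genRing D P : Set F₂)
  have hle : ∀ z ∈ genRing D P, z ∈ S := fun z hz => Subfield.subset_closure hz
  have hF : ∀ c : F, T.α (T.t c) ∈ S := fun c => by
    rcases eq_or_ne c 0 with rfl | hc
    · simp [zero_mem]
    obtain ⟨k, a, b, -, hb, h⟩ := exists_eq_zpow_mul hq D hc
    have hb0 : (b : F) ≠ 0 := fun h0 => hb (by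
      rw [show b = 0 from Subtype.ext h0]; exact dvd_zero _)
    rw [show c = (q : F) ^ k * a / b by rw [← h, mul_div_cancel_right₀ _ hb0], map_div₀, map_div₀,
      map_mul, map_mul, map_zpow₀, map_zpow₀, map_natCast, map_natCast]
    exact div_mem (mul_mem (zpow_mem (natCast_mem S q) k) (hle _ (mem_genRing D a)))
      (hle _ (mem_genRing D b))
  have hF₁ : ∀ z : F₁, T.α z ∈ S := fun z => by
    obtain ⟨R, rfl⟩ := exists_eq_eval₂_of_adjoin T.t T.finite_t D.generate_t z
    rw [show T.α (R.eval₂ T.t.toRingHom (T.s u)) =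
      T.α.toRingHom (R.eval₂ T.t.toRingHom (T.s u)) from rfl, hom_eval₂, eval₂_eq_sum_range]
    exact sum_mem fun i _ => mul_mem (hF _) (pow_mem (hle _ (x₁_mem_genRing D)) i)
  have hy : y ∈ S := by
    obtain ⟨R, rfl⟩ := exists_eq_eval₂_of_adjoin T.α T.finite_α D.generate_α y
    rw [eval₂_eq_sum_range]
    exact sum_mem fun i _ => mul_mem (hF₁ _) (pow_mem (hle _ (x₂_mem_genRing D)) i)
  obtain ⟨a, ha, b, hb, hab⟩ := Subfield.mem_closure_iff.mp hy
  rw [Subring.closure_eq] at ha hb
  rcases eq_or_ne b 0 with rfl | hb0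
  · exact ⟨0, 1, one_ne_zero, by rw [← hab]; simp⟩
  exact ⟨⟨a, ha⟩, ⟨b, hb⟩, hb0, by rw [← hab]; exact div_mul_cancel₀ a hb0⟩

/-- The ring generated at a supersingular point gives the local ring, with two parameters. -/
theorem ss_structure (hss : IsSSPt hq D hqP) :
    ∃ β₁ : W, InMax P (T.α (T.s u) - algebraMap W F₂ β₁) ∧
      InMax P (T.β (T.t u) - algebraMap W F₂ β₁) ∧
      (∀ y : F₂, InMax P y → ∃ c d : F₂, Loc (T.α (T.t u)) P c ∧ Loc (T.α (T.t u)) P d ∧
        y = c * (T.α (T.s u) - algebraMap W F₂ β₁) + d * (T.β (T.t u) - algebraMap W F₂ β₁)) ∧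
      ∀ y : F₂, Loc (T.α (T.t u)) P y →
        ∃ a s : genRing D P, ¬ InMax P (s : F₂) ∧ y * s = a := by
  have hqp : q.Prime := Fact.out
  have := charP_residue hq D
  have : CharZero F₂ := charZero_of_injective_algebraMap (algebraMap K F₂).injective
  have := D.finite_over₂
  have hx₂v := ss_pval_x₂ hq D hqP hss
  obtain ⟨hnc, hb1, hb, hē⟩ := hss
  obtain ⟨β₁, hβ₁⟩ := residue_surjective (pval hq hqP (T.α (T.s u)))
  obtain ⟨β, hβ⟩ := residue_surjective (pval hq hqP (T.α (T.t u)))
  refine ⟨β₁, ?_⟩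
  set x₁ := T.α (T.s u) with hx₁
  set x₂ := T.β (T.t u) with hx₂
  set ξ₁ := x₁ - algebraMap W F₂ β₁ with hξ₁def
  set ξ₂ := x₂ - algebraMap W F₂ β₁ with hξ₂def
  have hl₁ : Loc (T.α (T.t u)) P x₁ := loc_x₁ D
  have hl₂ : Loc (T.α (T.t u)) P x₂ := loc_x₂ D
  have hξ₁m : InMax P ξ₁ :=
    (pval_eq_iff hq hqP hl₁ (loc_const _)).mp (by rw [pval_const, hβ₁])
  have hξ₂m : InMax P ξ₂ :=
    (pval_eq_iff hq hqP hl₂ (loc_const _)).mp (by rw [pval_const, hβ₁, hx₂v])
  -- the localisation of the generated ring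
  let R₀ := genRing D P
  let inc : R₀ →+* locRing P := Subring.inclusion (genRing_le_locRing D)
  let m : Ideal R₀ := (maximalIdeal (locRing P)).comap inc
  have hm : ∀ z : R₀, z ∈ m ↔ InMax P (z : F₂) := fun z => (inMax_iff (inc z).2).symm
  have : m.IsPrime := Ideal.IsPrime.comap _
  let R := (LocalSubring.ofPrime R₀ m).toSubring
  have hR₀R : ∀ z : R₀, (z : F₂) ∈ R := fun z => LocalSubring.le_ofPrime R₀ m z.2
  have hRloc : ∀ z ∈ R, Loc (T.α (T.t u)) P z := fun z hz => by
    obtain ⟨⟨a, s⟩, h⟩ := IsLocalization.surj m.primeCompl (⟨z, hz⟩ : R)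
    have h' : z * (s : R₀) = (a : F₂) := congrArg (fun x : R => (x : F₂)) h
    have hs : ¬ InMax P ((s : R₀) : F₂) := fun hh => s.2 ((hm _).mpr hh)
    obtain ⟨hs0, hsinv⟩ := (inMax_or_loc_inv (inc s).2).resolve_left hs
    rw [show z = (a : F₂) * ((s : R₀) : F₂)⁻¹ by
      rw [← h', mul_inv_cancel_right₀ (show ((s : R₀) : F₂) ≠ 0 from hs0)]]
    exact Loc.mul (inc a).2 hsinv
  have : IsNoetherianRing (chartRing W u) := isNoetherianRing_base hq D
  have : IsNoetherianRing R₀ := isNoetherianRing_range _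
  have : IsNoetherianRing R := IsLocalization.isNoetherianRing m.primeCompl R inferInstance
  let ι : R₀ →+* R := algebraMap R₀ R
  let ξ₁' : R₀ := ⟨ξ₁, sub_mem (x₁_mem_genRing D) (const_mem_genRing D β₁)⟩
  let ξ₂' : R₀ := ⟨ξ₂, sub_mem (x₂_mem_genRing D) (const_mem_genRing D β₁)⟩
  let τ' : R₀ := ⟨T.α (T.t u) - algebraMap W F₂ β,
    sub_mem (middle_mem_genRing D) (const_mem_genRing D β)⟩
  let M' : R₀ := ⟨T.α (T.t u), middle_mem_genRing D⟩
  let A₁ : R₀ := ⟨x₁, x₁_mem_genRing D⟩
  let A₂ : R₀ := ⟨x₂, x₂_mem_genRing D⟩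
  have hIm : ∀ z : R₀, InMax P (z : F₂) → ι z ∈ maximalIdeal R := fun z hz =>
    (IsLocalization.AtPrime.to_map_mem_maximal_iff R m z).mpr ((hm z).mpr hz)
  have hv : ∀ z : R₀, pval hq hqP (z : F₂) = 0 → ι z ∈ maximalIdeal R := fun z hz =>
    hIm z ((pval_eq_zero_iff hq hqP (inc z).2).mp hz)
  let 𝔪 := maximalIdeal R
  let J : Ideal R := Ideal.span {ι ξ₁', ι ξ₂'} ⊔ 𝔪 * 𝔪
  -- `q` lies in the square of the maximal ideal
  have hqJ : (q : R) ∈ J := by
    refine Ideal.mem_sup_right ?_
    let homW : W →+* R₀ :=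
      (algebraMap W F₂).codRestrict R₀ (const_mem_genRing D)
    let homT : Polynomial W →+* R₀ := eval₂RingHom homW M'
    let e : R₀ := (kronErr hq D).eval₂ homT A₁
    have he : (e : F₂) = evalTwo (kronErr hq D) x₁ (T.α (T.t u)) := by
      show R₀.subtype ((kronErr hq D).eval₂ homT A₁) = _
      rw [hom_eval₂]
      exact congrArg (fun f => (kronErr hq D).eval₂ f x₁)
        (Polynomial.ringHom_ext (fun w => by simp [homT, homW]) (by simp [homT, M']))
    have he0 : pval hq hqP (e : F₂) ≠ 0 := by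
      rw [he, pval_evalTwo hq hqP hl₁ loc_self]
      convert hē using 1
      rw [diagPoly, ← coe_evalRingHom, hom_eval₂]
      congr 1
      · refine RingHom.ext fun p => ?_
        show p.eval _ = (expand _ q p).eval _
        rw [expand_eval, ← hb]
      · exact (eval_X).symm
    have heu : IsUnit (ι e) :=
      IsLocalization.map_units (M := m.primeCompl) R ⟨e, fun h =>
        he0 ((pval_eq_zero_iff hq hqP (inc e).2).mpr ((hm e).mp h))⟩
    have hA : ι (A₁ - M' ^ q) ∈ 𝔪 := hv _ (by
      push_cast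
      rw [show ((A₁ : R₀) : F₂) = x₁ from rfl, show ((M' : R₀) : F₂) = T.α (T.t u) from rfl,
        pval_sub hq hqP hl₁ (loc_self.pow q), pval_pow hq hqP loc_self, ← hb1, sub_self])
    have hB : ι (A₁ ^ q - M') ∈ 𝔪 := hv _ (by
      push_cast
      rw [show ((A₁ : R₀) : F₂) = x₁ from rfl, show ((M' : R₀) : F₂) = T.α (T.t u) from rfl,
        pval_sub hq hqP (hl₁.pow q) loc_self, pval_pow hq hqP hl₁, ← hb, sub_self])
    have heq : (q : R) = -(ι (A₁ - M' ^ q) * ι (A₁ ^ q - M')) * (heu.unit⁻¹ : Rˣ) := by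
      refine (Units.eq_mul_inv_iff_mul_eq _).mpr (Subtype.ext ?_)
      rw [IsUnit.unit_spec]
      show (q : F₂) * (e : F₂) = -((x₁ - T.α (T.t u) ^ q) * (x₁ ^ q - T.α (T.t u)))
      have hr := D.root_α
      rw [kronErr_spec hq D, evalTwo_kron_add] at hr
      rw [he]
      linear_combination hr
    rw [heq]
    exact Ideal.mul_mem_right _ _ ((𝔪 * 𝔪).neg_mem (Ideal.mul_mem_mul hA hB))
  -- `τ` as well
  have hτJ : ι τ' ∈ J := by
    let homW : W →+* R₀ := (algebraMap W F₂).codRestrict R₀ (const_mem_genRing D)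
    let homT : Polynomial W →+* R₀ := eval₂RingHom homW M'
    obtain ⟨Δ, hΔ⟩ := sub_dvd_eval_sub A₂ A₁ ((kronErr hq D).map homT)
    have hev : ∀ z : R₀, ((((kronErr hq D).map homT).eval z : R₀) : F₂) =
        evalTwo (kronErr hq D) (z : F₂) (T.α (T.t u)) := fun z => by
      show R₀.subtype (((kronErr hq D).map homT).eval z) = _
      rw [eval_map, hom_eval₂]
      exact congrArg (fun f => (kronErr hq D).eval₂ f (z : F₂))
        (Polynomial.ringHom_ext (fun w => by simp [homT, homW]) (by simp [homT, M']))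
    let S : R₀ := ∑ i ∈ Finset.range q, A₂ ^ i * A₁ ^ (q - 1 - i)
    have key : ι (A₂ ^ q - M') + ι (A₁ - M' ^ q) * ι S + (q : R) * ι Δ = 0 := by
      rw [← map_mul, ← map_add, ← map_natCast ι, ← map_mul, ← map_add]
      have hι : Function.Injective ι := fun a b h => by
        have h' : ((ι a : R) : F₂) = (ι b : R) := by rw [h]
        exact Subtype.ext h'
      refine (map_eq_zero_iff ι hι).mpr (Subtype.ext ?_)
      push_cast
      show (x₂ ^ q - T.α (T.t u)) + (x₁ - T.α (T.t u) ^ q) * (S : F₂) + (q : F₂) * (Δ : F₂) = 0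
      have e1 := D.root_α
      have e2 := D.root_β
      rw [kronErr_spec hq D, evalTwo_kron_add] at e1 e2
      have hS : (S : F₂) * (x₂ - x₁) = x₂ ^ q - x₁ ^ q := by
        rw [show (S : F₂) = R₀.subtype S from rfl, map_sum]
        simp only [map_mul, map_pow]
        exact geom_sum₂_mul x₂ x₁ q
      have hΔ' : evalTwo (kronErr hq D) x₂ (T.α (T.t u)) -
          evalTwo (kronErr hq D) x₁ (T.α (T.t u)) = (x₂ - x₁) * (Δ : F₂) := by
        have := congrArg (fun y : R₀ => (y : F₂)) hΔ
        simp only [AddSubgroupClass.coe_sub, MulMemClass.coe_mul, hev] at this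
        exact this
      refine (mul_eq_zero.mp ?_).resolve_left (sub_ne_zero.mpr (x₁_ne_x₂ hq D).symm)
      linear_combination e2 - e1 - (q : F₂) * hΔ' + (x₁ - T.α (T.t u) ^ q) * hS
    have hA : ι (A₁ - M' ^ q) ∈ 𝔪 := hv _ (by
      push_cast
      rw [show ((A₁ : R₀) : F₂) = x₁ from rfl, show ((M' : R₀) : F₂) = T.α (T.t u) from rfl,
        pval_sub hq hqP hl₁ (loc_self.pow q), pval_pow hq hqP loc_self, ← hb1, sub_self])
    have hS : ι S ∈ 𝔪 := hv _ (by
      have : ∀ i ∈ Finset.range q, pval hq hqP ((A₂ ^ i * A₁ ^ (q - 1 - i) : R₀) : F₂) =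
          pval hq hqP x₁ ^ (q - 1) := fun i hi => by
        push_cast
        rw [show ((A₁ : R₀) : F₂) = x₁ from rfl, show ((A₂ : R₀) : F₂) = x₂ from rfl,
          pval_mul hq hqP (hl₂.pow i) (hl₁.pow _), pval_pow hq hqP hl₂, pval_pow hq hqP hl₁,
          hx₂v, ← pow_add]
        congr 1
        have := Finset.mem_range.mp hi
        omega
      let g : R₀ →+* IsLocalRing.ResidueField W :=
        (RingEquiv.ofBijective _ (pointHom_bijective hq hqP)).symm.toRingHom.comp
          ((residue (locRing P)).comp inc)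
      have hg : ∀ z : R₀, g z = pval hq hqP (z : F₂) := fun z => (pval_locRing hq hqP (inc z)).symm
      rw [← hg, map_sum, Finset.sum_congr rfl fun i hi => (hg _).trans (this i hi),
        Finset.sum_const, Finset.card_range, nsmul_eq_mul, CharP.cast_eq_zero, zero_mul])
    -- the constant part of `x₂ ^ q - M`
    obtain ⟨v, hv'⟩ : (q : W) ∣ β₁ ^ q - β := by
      rw [← Ideal.mem_span_singleton, ← hq, ← residue_eq_zero_iff, map_sub, map_pow, hβ₁, hβ, ← hb,
        sub_self]
    obtain ⟨r, hr⟩ := exists_add_pow_prime_eq hqp ξ₂'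
      (⟨algebraMap W F₂ β₁, const_mem_genRing D β₁⟩ : R₀)
    have hsplit : ι τ' = ι ξ₂' ^ q + (q : R) * ι (ξ₂' *
        ⟨algebraMap W F₂ β₁, const_mem_genRing D β₁⟩ * r) +
        (q : R) * ι ⟨algebraMap W F₂ v, const_mem_genRing D v⟩ - ι (A₂ ^ q - M') := by
      rw [← map_pow, ← map_natCast ι, ← map_mul, ← map_mul, ← map_add, ← map_add, ← map_sub]
      congr 1
      have hA₂ : A₂ = ξ₂' + ⟨algebraMap W F₂ β₁, const_mem_genRing D β₁⟩ :=
        Subtype.ext (by show x₂ = ξ₂ + _; rw [hξ₂def]; simp)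
      rw [hA₂, hr]
      refine Subtype.ext ?_
      push_cast
      show T.α (T.t u) - algebraMap W F₂ β = _
      have hvW : algebraMap W F₂ β₁ ^ q - algebraMap W F₂ β = (q : F₂) * algebraMap W F₂ v := by
        rw [← map_pow, ← map_sub, hv', map_mul, map_natCast]
      show _ = (ξ₂ : F₂) ^ q + _ + _ - (_ - T.α (T.t u))
      linear_combination hvW
    have h2 : ι (A₂ ^ q - M') ∈ J := by
      rw [show ι (A₂ ^ q - M') = -(ι (A₁ - M' ^ q) * ι S + (q : R) * ι Δ) by linear_combination key]
      exact J.neg_mem (J.add_mem (Ideal.mem_sup_right (Ideal.mul_mem_mul hA hS))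
        (J.mul_mem_right _ hqJ))
    rw [hsplit]
    refine J.sub_mem (J.add_mem (J.add_mem ?_ (J.mul_mem_right _ hqJ)) (J.mul_mem_right _ hqJ)) h2
    exact Ideal.mem_sup_left (Ideal.pow_mem_of_mem _ (Ideal.subset_span (by simp)) q hqp.pos)
  -- the generated ring modulo the two parameters is the base
  have hbase : ∀ c : chartRing W u, pval hq hqP (T.α (T.t c)) = 0 →
      ι ⟨T.α (T.t c), mem_genRing D c⟩ ∈ J := fun c hc => by
    let φ := T.α.comp T.t
    have hφl : ∀ a : chartRing W u, Loc (T.α (T.t u)) P (φ a) := fun a => loc_middle a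
    let Q := pointIdeal φ hφl
    have : Q.IsMaximal := pointIdeal_isMaximal hq D hqP φ hφl
    let x₀ : chartRing W u := ⟨u - algebraMap W F β, sub_mem self_mem_chartRing
      ((chartRing W u).algebraMap_mem β)⟩
    have hx₀ : x₀ ∈ Q := by
      rw [mem_pointIdeal hq D hqP φ hφl]
      show pval hq hqP (φ (u - algebraMap W F β)) = 0
      rw [map_sub, map_algebraMap_const]
      show pval hq hqP (T.α (T.t u) - _) = 0
      rw [pval_sub hq hqP loc_self (loc_const _), pval_const, hβ, sub_self]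
    have hqQ : (q : chartRing W u) ∈ Q := by
      rw [mem_pointIdeal hq D hqP φ hφl]
      push_cast
      rw [map_natCast, pval_natCast_q]
    obtain ⟨r, hr, hrc⟩ := D.etale Q inferInstance hqQ β
      (fun a ha h => hnc ⟨a, ha, by rw [← h, hβ]⟩) x₀ rfl hx₀ c
      ((mem_pointIdeal hq D hqP φ hφl).mpr hc)
    obtain ⟨e₁, e₂, he⟩ := Ideal.mem_span_pair.mp hrc
    let f : chartRing W u →+* R := ι.comp
      (((T.α.comp T.t).toRingHom.comp (chartRing W u).val.toRingHom).codRestrict R₀
        fun c => mem_genRing D c)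
    have hru : IsUnit (f r) := IsLocalization.map_units (M := m.primeCompl) R
      ⟨_, fun h => hr ((mem_pointIdeal hq D hqP φ hφl).mpr
        ((pval_eq_zero_iff hq hqP (hφl r)).mpr ((hm _).mp h)))⟩
    have hx : f x₀ = ι τ' := congrArg ι (Subtype.ext (by
      show T.α (T.t (u - algebraMap W F β)) = T.α (T.t u) - _
      rw [map_sub, map_sub, map_algebraMap_const, map_algebraMap_const]))
    have : f r * f c ∈ J := by
      rw [← map_mul, ← he, map_add, map_mul, map_mul, map_natCast, hx]
      exact J.add_mem (J.mul_mem_left _ hqJ) (J.mul_mem_left _ hτJ)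
    exact (Ideal.unit_mul_mem_iff_mem _ hru).mp this
  have hgen : ∀ z : R₀, InMax P (z : F₂) → ι z ∈ J := by
    let f : chartRing W u →+* R₀ :=
      ((T.α.comp T.t).toRingHom.comp (chartRing W u).val.toRingHom).codRestrict R₀
        fun c => mem_genRing D c
    let Θ : Polynomial (Polynomial (chartRing W u)) →+* R₀ := eval₂RingHom (eval₂RingHom f A₁) A₂
    let κ := (Ideal.Quotient.mk J).comp ι
    let bb : chartRing W u := algebraMap W _ β₁
    have hfbb : f bb = ⟨algebraMap W F₂ β₁, const_mem_genRing D β₁⟩ :=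
      Subtype.ext ((T.α.comp T.t).commutes' (algebraMap W K β₁) |> fun _ =>
        map_algebraMap_const (T.α.comp T.t) β₁)
    have hκ₁ : κ A₁ = κ (f bb) := by
      rw [hfbb, ← sub_eq_zero, ← map_sub]
      exact Ideal.Quotient.eq_zero_iff_mem.mpr (Ideal.mem_sup_left (Ideal.subset_span (by
        left; exact congrArg ι (Subtype.ext rfl))))
    have hκ₂ : κ A₂ = κ (f bb) := by
      rw [hfbb, ← sub_eq_zero, ← map_sub]
      exact Ideal.Quotient.eq_zero_iff_mem.mpr (Ideal.mem_sup_left (Ideal.subset_span (by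
        right; exact congrArg ι (Subtype.ext rfl))))
    intro z hz
    obtain ⟨G, hG⟩ := z.2
    have hGz : Θ G = z := by
      refine Subtype.ext ?_
      rw [← hG]
      refine (RingHom.congr_fun (?_ : R₀.subtype.comp Θ =
        (locRing P).subtype.comp (genLocHom D P)) G)
      refine Polynomial.ringHom_ext' (Polynomial.ringHom_ext' ?_ ?_) ?_
      · refine RingHom.ext fun c => ?_
        simp [Θ, f, genLocHom, baseLocHom]
      · simp [Θ, genLocHom, A₁]
        rfl
      · simp [Θ, genLocHom, A₂]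
        rfl
    let c := (G.eval (C bb)).eval bb
    have hκz : κ z = κ (f c) := by
      rw [← hGz]
      refine (RingHom.congr_fun (?_ : κ.comp Θ =
        (κ.comp f).comp ((evalRingHom bb).comp (evalRingHom (C bb)))) G)
      refine Polynomial.ringHom_ext' (Polynomial.ringHom_ext' ?_ ?_) ?_
      · exact RingHom.ext fun c => by simp [Θ]
      · simpa [Θ] using hκ₁
      · simpa [Θ] using hκ₂
    have hdiff : ι z - ι (f c) ∈ J := Ideal.Quotient.eq.mp hκz
    have hJm : J ≤ 𝔪 := sup_le (by
      rw [Ideal.span_le]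
      rintro _ (rfl | rfl)
      exacts [hIm _ hξ₁m, hIm _ hξ₂m]) Ideal.mul_le_left
    have hfc : ι (f c) ∈ 𝔪 := by
      have := 𝔪.sub_mem (hIm z hz) (hJm hdiff)
      rwa [sub_sub_cancel] at this
    have hfc' : pval hq hqP (T.α (T.t c)) = 0 :=
      (pval_eq_zero_iff hq hqP (loc_middle c)).mpr
        ((hm (f c)).mp ((IsLocalization.AtPrime.to_map_mem_maximal_iff R m _).mp hfc))
    rw [← sub_add_cancel (ι z) (ι (f c))]
    exact J.add_mem hdiff (hbase c hfc')
  have hmJ : 𝔪 ≤ J := by
    rw [show 𝔪 = m.map (algebraMap R₀ R) from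
      (IsLocalization.AtPrime.map_eq_maximalIdeal m R).symm]
    exact Ideal.map_le_iff_le_comap.mpr fun z hz => hgen z ((hm z).mp hz)
  have h𝔪 : 𝔪 = Ideal.span {ι ξ₁', ι ξ₂'} := le_antisymm
    (Submodule.le_of_le_smul_of_le_jacobson_bot (IsNoetherian.noetherian 𝔪)
      (IsLocalRing.maximalIdeal_le_jacobson _) (by rw [smul_eq_mul]; exact hmJ))
    (by
      rw [Ideal.span_le]
      rintro _ (rfl | rfl)
      exacts [hIm _ hξ₁m, hIm _ hξ₂m])
  -- dimension two
  have hA : ∀ {V : ValuationSubring F₂}, IsVertical W q (T.α (T.t u)) V →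
      ∀ z : chartRing W (T.α (T.t u)), (z : F₂) ∈ V := fun hV z => hV.chartRing_le z.2
  obtain ⟨V, hV, hT⟩ := exists_through (K := K) hq D.transcendental_middle (finite_vertical₂ hq D)
    (fun U hU => rankOne₂ hq D hU) hqP
  let toV : R →+* V :=
    (Subring.subtype R).codRestrict V.toSubring fun z => hT.mem (hA hV) (hRloc z z.2)
  have hprime : ∃ p : Ideal R, p.IsPrime ∧ p ≠ ⊥ ∧ p ≠ maximalIdeal R := by
    refine ⟨(maximalIdeal V).comap toV, Ideal.IsPrime.comap _, fun h => ?_, fun h => ?_⟩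
    · have : (q : R) ∈ (maximalIdeal V).comap toV := by
        rw [Ideal.mem_comap, map_natCast, ← ValuationSubring.coe_mem_nonunits_iff]
        simpa using hV.q_mem
      rw [h, Ideal.mem_bot] at this
      exact natCast_ne_zero₂ hq D (by
        have := congrArg (fun x : R => (x : F₂)) this
        simpa using this)
    · have : ι ξ₁' ∈ (maximalIdeal V).comap toV := h ▸ hIm _ hξ₁m
      rw [Ideal.mem_comap, ← ValuationSubring.coe_mem_nonunits_iff] at this
      exact (ne_of_lt this) (isUnitAt_sub_const hq D (isVertical_x₁ hq D hV) β₁)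
  have : UniqueFactorizationMonoid R :=
    uniqueFactorizationMonoid_of_maximalIdeal_eq_span_pair h𝔪 hprime
  -- normality
  have hchart : ∀ y ∈ chartRing W (T.α (T.t u)), y ∈ R := fun y hy => by
    obtain ⟨p, hp, hpy⟩ := mem_chartRing_iff.mp hy
    have hmem : ∀ a : Algebra.adjoin W {T.α (T.t u)}, (a : F₂) ∈ R := fun a => by
      obtain ⟨Q, hQ⟩ := Algebra.adjoin_mem_exists_aeval _ _ a.2
      rw [← hQ, aeval_eq_sum_range]
      exact sum_mem fun i _ => by
        rw [Algebra.smul_def]
        exact mul_mem (hR₀R ⟨_, const_mem_genRing D _⟩) (pow_mem (hR₀R M') i)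
    have hint : IsIntegral R y :=
      ⟨p.map ((algebraMap (Algebra.adjoin W {T.α (T.t u)}) F₂).codRestrict R hmem), hp.map _,
        by rw [eval₂_map]; exact hpy⟩
    obtain ⟨a, b, hb0, hab⟩ := exists_mul_eq_genRing hq D (P := P) y
    let FK := FractionRing R
    have hinj : Function.Injective (algebraMap R F₂) := Subtype.val_injective
    let Ψ : FK →ₐ[R] F₂ := IsFractionRing.liftAlgHom (g := Algebra.ofId R F₂) hinj
    let a' : R := ⟨a, hR₀R a⟩
    let b' : R := ⟨b, hR₀R b⟩
    have hz : Ψ (algebraMap R FK a' / algebraMap R FK b') = y := by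
      rw [map_div₀, AlgHom.commutes, AlgHom.commutes]
      show (a : F₂) / (b : F₂) = y
      rw [← hab, mul_div_cancel_right₀ _ hb0]
    obtain ⟨c, hc⟩ := IsIntegrallyClosed.isIntegral_iff.mp
      ((isIntegral_algHom_iff Ψ Ψ.toRingHom.injective).mp (hz ▸ hint : IsIntegral _ (Ψ _)))
    have : y = (c : F₂) := by rw [← hz, ← hc, AlgHom.commutes]; rfl
    exact this ▸ c.2
  have hloc : ∀ y : F₂, Loc (T.α (T.t u)) P y → y ∈ R := fun y ⟨r, a, hr, ha⟩ => by
    have hru : IsUnit (⟨(r : F₂), hchart r r.2⟩ : R) := by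
      by_contra hnu
      obtain ⟨⟨r₀, s⟩, h⟩ := IsLocalization.surj m.primeCompl (⟨(r : F₂), hchart r r.2⟩ : R)
      have h' : (r : F₂) * (s : R₀) = (r₀ : F₂) := congrArg (fun x : R => (x : F₂)) h
      have hm' : ι r₀ ∈ 𝔪 := by rw [← h]; exact 𝔪.mul_mem_right _ hnu
      have hr₀ : InMax P (r₀ : F₂) :=
        (hm r₀).mp ((IsLocalization.AtPrime.to_map_mem_maximal_iff R m _).mp hm')
      rw [← h'] at hr₀
      obtain ⟨hs0, hsinv⟩ := (inMax_or_loc_inv (inc s).2).resolve_left fun hh => s.2 ((hm _).mpr hh)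
      have := hr₀.mul_right hsinv
      rw [mul_assoc, show ((s : R₀) : F₂) * ((inc s : locRing P) : F₂)⁻¹ = 1 from mul_inv_cancel₀ hs0,
        mul_one] at this
      exact hr (mem_of_inMax this)
    obtain ⟨v, hv⟩ := hru.exists_right_inv
    have hv' : (r : F₂) * (v : F₂) = 1 := congrArg (fun x : R => (x : F₂)) hv
    rw [show y = (v : F₂) * (a : F₂) by
      rw [← ha, ← mul_assoc, mul_comm (v : F₂), hv', one_mul]]
    exact mul_mem v.2 (hchart a a.2)
  refine ⟨hξ₁m, hξ₂m, fun y hy => ?_, fun y hy => ?_⟩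
  · have hyR := hloc y hy.loc
    have : (⟨y, hyR⟩ : R) ∈ 𝔪 := by
      intro hu
      obtain ⟨v, hv⟩ := hu.exists_right_inv
      exact not_inMax_one (P := P) (by
        have := hy.mul_right (hRloc v v.2)
        rwa [show y * (v : F₂) = 1 from congrArg (fun x : R => (x : F₂)) hv] at this)
    rw [h𝔪] at this
    obtain ⟨c, d, hcd⟩ := Ideal.mem_span_pair.mp this
    exact ⟨c, d, hRloc c c.2, hRloc d d.2, (congrArg (fun x : R => (x : F₂)) hcd).symm⟩
  · obtain ⟨⟨a, s⟩, h⟩ := IsLocalization.surj m.primeCompl (⟨y, hloc y hy⟩ : R)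
    exact ⟨a, s, fun hh => s.2 ((hm _).mpr hh), congrArg (fun x : R => (x : F₂)) h⟩

/-- A supersingular point is alone above its image on the level `q N`. -/
theorem eq_of_pval_eq (hss : IsSSPt hq D hqP) {P' : Ideal (chartRing W (T.α (T.t u)))}
    [P'.IsMaximal] (hqP' : (q : chartRing W (T.α (T.t u))) ∈ P')
    (h : ∀ y : F₁, y ∈ chartRing W (T.t u) → pval hq hqP' (T.α y) = pval hq hqP (T.α y)) :
    P' = P := by
  have hss' : IsSSPt hq D hqP' := by
    rw [IsSSPt, h _ self_mem_chartRing, h _ (mem_chartRing_of_evalTwo D.Φ D.monic D.root)]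
    exact hss
  have hx₂ : pval hq hqP' (T.β (T.t u)) = pval hq hqP (T.β (T.t u)) := by
    rw [ss_pval_x₂ hq D hqP hss, ss_pval_x₂ hq D hqP' hss',
      h _ (mem_chartRing_of_evalTwo D.Φ D.monic D.root)]
  -- values agree on the generated ring
  have hgen : ∀ z ∈ genRing D P, Loc (T.α (T.t u)) P' z ∧ pval hq hqP' z = pval hq hqP z := by
    rintro _ ⟨G, rfl⟩
    let g := (RingEquiv.ofBijective _ (pointHom_bijective hq hqP)).symm.toRingHom.comp
      ((residue (locRing P)).comp (genLocHom D P))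
    let g' := (RingEquiv.ofBijective _ (pointHom_bijective hq hqP')).symm.toRingHom.comp
      ((residue (locRing P')).comp (genLocHom D P'))
    have e0 : (locRing P).subtype.comp (genLocHom D P) =
        (locRing P').subtype.comp (genLocHom D P') := by
      refine Polynomial.ringHom_ext' (Polynomial.ringHom_ext' ?_ ?_) ?_
      · exact RingHom.ext fun c => by simp [genLocHom, baseLocHom]
      · simp [genLocHom]
      · simp [genLocHom]
    have hg : ∀ G, g G = pval hq hqP (genLocHom D P G : F₂) := fun G =>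
      (pval_locRing hq hqP _).symm
    have hg' : ∀ G, g' G = pval hq hqP' (genLocHom D P' G : F₂) := fun G =>
      (pval_locRing hq hqP' _).symm
    have e1 : g' = g := by
      refine Polynomial.ringHom_ext' (Polynomial.ringHom_ext' ?_ ?_) ?_
      · refine RingHom.ext fun c => ?_
        show g' (C (C c)) = g (C (C c))
        rw [hg', hg]
        simpa [genLocHom, baseLocHom] using h _ (map_mem_chartRing T.t c.2)
      · show g' (C X) = g (C X)
        rw [hg', hg]
        simpa [genLocHom] using h _ (mem_chartRing_of_evalTwo D.Φ D.monic D.root)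
      · show g' X = g X
        rw [hg', hg]
        simpa [genLocHom] using hx₂
    have hG : (locRing P).subtype.comp (genLocHom D P) G = ((genLocHom D P' G : locRing P') : F₂) :=
      RingHom.congr_fun e0 G
    refine ⟨hG ▸ (genLocHom D P' G).2, ?_⟩
    conv_lhs => rw [hG, pval_locRing]
    exact (RingHom.congr_fun e1 G).trans (pval_locRing hq hqP _).symm
  obtain ⟨β₁, -, -, -, hfrac⟩ := ss_structure hq D hqP hss
  refine (Ideal.IsMaximal.eq_of_le inferInstance (Ideal.IsPrime.ne_top inferInstance) fun z hz => ?_)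
  -- an element of `P'` lies in `P`
  obtain ⟨a, s, hs, has⟩ := hfrac z (chartRing_le_locRing P z.2)
  obtain ⟨hal, hae⟩ := hgen a a.2
  obtain ⟨hsl, hse⟩ := hgen s s.2
  have hzP' : pval hq hqP' (z : F₂) = 0 :=
    (pval_eq_zero_iff hq hqP' (chartRing_le_locRing P' z.2)).mpr (inMax_of_mem hz)
  have h1 : pval hq hqP' (a : F₂) = 0 := by
    rw [← has, pval_mul hq hqP' (chartRing_le_locRing P' z.2) hsl, hzP', zero_mul]
  rw [hae, ← has, pval_mul hq hqP (chartRing_le_locRing P z.2) (genRing_le_locRing D s.2)] at h1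
  refine mem_of_inMax ((pval_eq_zero_iff hq hqP (chartRing_le_locRing P z.2)).mp
    ((mul_eq_zero.mp h1).resolve_right fun h0 => hs
      ((pval_eq_zero_iff hq hqP (genRing_le_locRing D s.2)).mp h0)))

end FermatAgent.BadRed.Carayol
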