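import Fermat.Agent.BadRed.Carayol.Roots
import Fermat.Agent.BadRed.Carayol.Supersingular

/-!
# Values of the roots at the supersingular points
-/

set_option autoImplicit false
set_option linter.unusedSectionVars false

noncomputable section

namespace FermatAgent.BadRed.Carayol

open Polynomial IsLocalRing

section ConstResidue

variable {W L : Type*} [CommRing W] [IsDomain W] [IsDiscreteValuationRing W]
  [IsAlgClosed (IsLocalRing.ResidueField W)] [Field L] [Algebra W L] {q : ℕ}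

/-- Above a point of the `v`-line every element of the chart ring has constant residue. -/
theorem exists_const_residue (hq : maximalIdeal W = Ideal.span {(q : W)}) {v : L}
    {V : ValuationSubring L} (hW : ∀ w : W, algebraMap W L w ∈ V) (hqV : (q : L) ∈ V.nonunits)
    {β : W} (hv : v - algebraMap W L β ∈ V.nonunits) {z : L} (hz : z ∈ chartRing W v) :
    ∃ a : W, z - algebraMap W L a ∈ V.nonunits := by
  classical
  have hvV : v ∈ V := by
    have := add_mem (ValuationSubring.nonunits_subset hv) (hW β)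
    rwa [sub_add_cancel] at this
  have hzV := mem_of_mem_chartRing hW hvV hz
  obtain ⟨p, hp, hpz⟩ := mem_chartRing_iff.mp hz
  choose P hP using fun i => Algebra.adjoin_mem_exists_aeval _ _ (p.coeff i).2
  let p₀ : Polynomial W :=
    X ^ p.natDegree + ∑ i ∈ Finset.range p.natDegree, C ((P i).eval β) * X ^ i
  have hdeg : (∑ i ∈ Finset.range p.natDegree, C ((P i).eval β) * X ^ i : Polynomial W).degree <
      p.natDegree := by
    refine (degree_sum_le _ _).trans_lt ((Finset.sup_lt_iff (WithBot.bot_lt_coe _)).mpr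
      fun i hi => (degree_C_mul_X_pow_le _ _).trans_lt ?_)
    exact_mod_cast Finset.mem_range.mp hi
  have hp₀ : p₀.Monic := monic_X_pow_add hdeg
  have h0 : aeval z p₀ ∈ V.nonunits := by
    rw [eval₂_eq_sum_range, Finset.sum_range_succ, hp.coeff_natDegree, map_one, one_mul,
      add_comm] at hpz
    have e : aeval z p₀ = ∑ i ∈ Finset.range p.natDegree,
        (algebraMap W L ((P i).eval β) - aeval v (P i)) * z ^ i := by
      simp only [p₀, map_add, map_pow, aeval_X, map_sum, map_mul, aeval_C, sub_mul,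
        Finset.sum_sub_distrib]
      rw [Finset.sum_congr rfl fun i _ => show aeval v (P i) * z ^ i =
          algebraMap (Algebra.adjoin W {v}) L (p.coeff i) * z ^ i by rw [hP]; rfl]
      linear_combination hpz
    rw [e]
    refine sum_mem fun i _ => ?_
    have hd : algebraMap W L ((P i).eval β) - aeval v (P i) ∈ V.nonunits := by
      have h1 : res V (aeval v (P i)) = res V (aeval (algebraMap W L β) (P i)) := by
        obtain ⟨-, e1⟩ := res_eval₂ (algebraMap W L) hW hvV (P i)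
        obtain ⟨-, e2⟩ := res_eval₂ (algebraMap W L) hW (hW β) (P i)
        rw [← aeval_def] at e1 e2
        rw [e1, e2, (res_eq_iff hvV (hW β)).mpr hv]
      rw [aeval_algebraMap_apply_eq_algebraMap_eval] at h1
      exact (res_eq_iff (hW _) (res_eval₂ (algebraMap W L) hW hvV (P i)).1).mp h1.symm
    rw [ValuationSubring.mem_nonunits_iff, map_mul]
    exact mul_lt_one_of_lt_of_le hd ((V.valuation_le_one_iff _).mpr (pow_mem hzV i))
  -- split the reduction
  have hsplit := IsAlgClosed.splits (p₀.map (residue W))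
  have hroots := prod_multiset_X_sub_C_of_monic_of_roots_card_eq (hp₀.map (residue W))
    (splits_iff_card_roots.mp hsplit)
  let lift : IsLocalRing.ResidueField W → W := fun r => (residue_surjective r).choose
  have hlift : ∀ r, residue W (lift r) = r := fun r => (residue_surjective r).choose_spec
  let s := (p₀.map (residue W)).roots.map lift
  let p₁ : Polynomial W := (s.map fun a => X - C a).prod
  have hp₁ : p₁.map (residue W) = p₀.map (residue W) := by
    simp only [p₁, s, Polynomial.map_multiset_prod, Multiset.map_map]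
    refine Eq.trans (congrArg Multiset.prod (Multiset.map_congr rfl fun a _ => ?_)) hroots
    simp [hlift]
  obtain ⟨G, hG⟩ : C (q : W) ∣ p₁ - p₀ := by
    rw [C_dvd_iff_dvd_coeff]
    intro i
    have : residue W ((p₁ - p₀).coeff i) = 0 := by
      rw [← coeff_map, Polynomial.map_sub, hp₁, sub_self, coeff_zero]
    rwa [residue_eq_zero_iff, hq, Ideal.mem_span_singleton] at this
  have hG' : aeval z G ∈ V := (res_eval₂ (algebraMap W L) hW hzV G).1
  have h1 : aeval z p₁ ∈ V.nonunits := by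
    rw [eq_add_of_sub_eq hG, map_add, map_mul, aeval_C, map_natCast]
    refine add_mem ?_ h0
    rw [ValuationSubring.mem_nonunits_iff, map_mul]
    exact mul_lt_one_of_lt_of_le hqV ((V.valuation_le_one_iff _).mpr hG')
  by_contra hne
  push Not at hne
  have h2 : IsUnitAt V (aeval z p₁) := by
    rw [IsUnitAt, map_multiset_prod, Multiset.map_map, map_multiset_prod, Multiset.map_map]
    refine Multiset.prod_eq_one fun x hx => ?_
    obtain ⟨a, -, rfl⟩ := Multiset.mem_map.mp hx
    simp only [Function.comp_apply, map_sub, aeval_X, aeval_C]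
    exact le_antisymm ((V.valuation_le_one_iff _).mpr (sub_mem hzV (hW a))) (not_lt.mp (hne a))
  exact (ne_of_lt h1) h2

end ConstResidue

variable {q : ℕ} [Fact q.Prime] {W K F F₁ F₂ : Type*}
  [CommRing W] [IsDomain W] [IsDiscreteValuationRing W] [IsAlgClosed (IsLocalRing.ResidueField W)]
  [Field K] [CharZero K] [Algebra W K] [IsFractionRing W K]
  [Field F] [Field F₁] [Field F₂] [Algebra K F] [Algebra K F₁] [Algebra K F₂]
  [Algebra W F] [Algebra W F₁] [Algebra W F₂]
  [IsScalarTower W K F] [IsScalarTower W K F₁] [IsScalarTower W K F₂]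
  {T : QTower q K F F₁ F₂} {u : F}
  (hq : maximalIdeal W = Ideal.span {(q : W)}) (D : ChartData W T u)
  {P : Ideal (chartRing W (T.α (T.t u)))} [P.IsMaximal]
  (hqP : (q : chartRing W (T.α (T.t u))) ∈ P)
include hq D hqP

/-- The value of the error term of the Kronecker congruence at a supersingular point. -/
theorem pval_kronErr {x : F₂} (hx : Loc (T.α (T.t u)) P x)
    (hv : pval hq hqP (T.α (T.t u)) = pval hq hqP x ^ q) :
    pval hq hqP (evalTwo (kronErr hq D) x (T.α (T.t u))) =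
      (diagPoly q ((kronErr hq D).map (mapRingHom (residue W)))).eval (pval hq hqP x) := by
  rw [pval_evalTwo hq hqP hx loc_self, diagPoly, ← coe_evalRingHom, hom_eval₂]
  congr 1
  · refine RingHom.ext fun p => ?_
    show p.eval _ = (expand _ q p).eval _
    rw [expand_eval, ← hv]
  · exact (eval_X).symm

/-- A root at a supersingular point lies on both branches. -/
theorem exists_through_branch (hss : IsSSPt hq D hqP) {x : F₂}
    (hroot : evalTwo D.Φ x (T.α (T.t u)) = 0)
    (hx : pval hq hqP x = pval hq hqP (T.α (T.s u))) :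
    (∃ V, IsVertical W q (T.α (T.t u)) V ∧ Through P V ∧
      res V x = res V (T.α (T.t u)) ^ q) ∧
    (∃ V, IsVertical W q (T.α (T.t u)) V ∧ Through P V ∧
      res V (T.α (T.t u)) = res V x ^ q) := by
  obtain ⟨-, hb1, hb, he⟩ := hss
  have hxl : Loc (T.α (T.t u)) P x := loc_root D hroot
  have hq0 := natCast_ne_zero₂ hq D
  set E := evalTwo (kronErr hq D) x (T.α (T.t u))
  have hel : Loc (T.α (T.t u)) P E := loc_evalTwo hxl loc_self _
  have hroot' : (x - (T.α (T.t u)) ^ q) * (x ^ q - (T.α (T.t u))) = -((q : F₂) * E) := by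
    have := hroot
    rw [kronErr_spec hq D, evalTwo_kron_add] at this
    linear_combination this
  have hA : pval hq hqP (x - (T.α (T.t u)) ^ q) = 0 := by
    rw [pval_sub hq hqP hxl (loc_self.pow q), pval_pow hq hqP loc_self, hx, ← hb1, sub_self]
  have hB : pval hq hqP (x ^ q - (T.α (T.t u))) = 0 := by
    rw [pval_sub hq hqP (hxl.pow q) loc_self, pval_pow hq hqP hxl, hx, ← hb, sub_self]
  have hE : pval hq hqP E ≠ 0 := by
    rw [pval_kronErr hq D hqP hxl (by rw [hx]; exact hb), hx]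
    exact he
  have hAl : Loc (T.α (T.t u)) P (x - (T.α (T.t u)) ^ q) := by
    rw [sub_eq_add_neg]; exact hxl.add (loc_self.pow q).neg
  have hBl : Loc (T.α (T.t u)) P (x ^ q - (T.α (T.t u))) := by
    rw [sub_eq_add_neg]; exact (hxl.pow q).add loc_self.neg
  constructor
  · by_contra hnone
    push Not at hnone
    have hBq : Loc (T.α (T.t u)) P ((x ^ q - (T.α (T.t u))) / q) := loc_div_q hq D hBl fun V hV hT => by
      have hxm := hV.chartRing_le (mem_chartRing_of_evalTwo D.Φ D.monic hroot)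
      have hzm := hV.u_mem.mem
      have hu : IsUnitAt V (x - (T.α (T.t u)) ^ q) := by
        refine (isUnitAt_iff (sub_mem hxm (pow_mem hzm q))).mpr ?_
        rw [res_sub hxm (pow_mem hzm q), res_pow hzm, sub_ne_zero]
        exact hnone V hV hT
      rw [show (x ^ q - (T.α (T.t u))) / (q : F₂) = -(E * (x - (T.α (T.t u)) ^ q)⁻¹) by
        field_simp [hu.ne_zero]; linear_combination hroot']
      exact neg_mem (mul_mem (evalTwo_mem hq hV hxm hzm _) hu.inv.mem)
    apply hE
    rw [show E = -((x - (T.α (T.t u)) ^ q) * ((x ^ q - (T.α (T.t u))) / q)) by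
      field_simp; linear_combination hroot', pval_neg hq hqP (hAl.mul hBq),
      pval_mul hq hqP hAl hBq, hA, zero_mul, neg_zero]
  · by_contra hnone
    push Not at hnone
    have hAq : Loc (T.α (T.t u)) P ((x - (T.α (T.t u)) ^ q) / q) := loc_div_q hq D hAl fun V hV hT => by
      have hxm := hV.chartRing_le (mem_chartRing_of_evalTwo D.Φ D.monic hroot)
      have hzm := hV.u_mem.mem
      have hu : IsUnitAt V (x ^ q - (T.α (T.t u))) := by
        refine (isUnitAt_iff (sub_mem (pow_mem hxm q) hzm)).mpr ?_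
        rw [res_sub (pow_mem hxm q) hzm, res_pow hxm, sub_ne_zero]
        exact fun h => hnone V hV hT h.symm
      rw [show (x - (T.α (T.t u)) ^ q) / (q : F₂) = -(E * (x ^ q - (T.α (T.t u)))⁻¹) by
        field_simp [hu.ne_zero]; linear_combination hroot']
      exact neg_mem (mul_mem (evalTwo_mem hq hV hxm hzm _) hu.inv.mem)
    apply hE
    rw [show E = -((x ^ q - (T.α (T.t u))) * ((x - (T.α (T.t u)) ^ q) / q)) by
      field_simp; linear_combination hroot', pval_neg hq hqP (hBl.mul hAq),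
      pval_mul hq hqP hBl hAq, hB, zero_mul, neg_zero]

/-- All three components pass through a supersingular point. -/
theorem ss_through (hss : IsSSPt hq D hqP) (C : Comps W T u) :
    Through P C.VI ∧ Through P C.V0 ∧ Through P C.Vm := by
  have hx₂ := ss_pval_x₂ hq D hqP hss
  have hI : Through P C.VI := by
    obtain ⟨⟨V, hV, hT, h⟩, -⟩ := exists_through_branch hq D hqP hss D.root_α rfl
    exact inf_unique hq D hV h C.vI C.inf ▸ hT
  have h0 : Through P C.V0 := by
    obtain ⟨⟨V, hV, hT, h⟩, -⟩ := exists_through_branch hq D hqP hss D.root_β hx₂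
    exact zero_unique hq D hV h C.v0 C.zero ▸ hT
  refine ⟨hI, h0, ?_⟩
  by_contra hm
  obtain ⟨-, hb1, hb, he⟩ := hss
  have hq0 := natCast_ne_zero₂ hq D
  have := charP_residue hq D
  set x₁ := T.α (T.s u)
  set x₂ := T.β (T.t u)
  have hl₁ : Loc (T.α (T.t u)) P x₁ := loc_x₁ D
  have hl₂ : Loc (T.α (T.t u)) P x₂ := loc_x₂ D
  set E₁ := evalTwo (kronErr hq D) x₁ (T.α (T.t u))
  have e1 := D.root_α
  have e2 := D.root_β
  rw [kronErr_spec hq D, evalTwo_kron_add] at e1 e2
  have hA₁ : Loc (T.α (T.t u)) P (x₁ - (T.α (T.t u)) ^ q) := by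
    rw [sub_eq_add_neg]; exact hl₁.add (loc_self.pow q).neg
  have hA₂ : Loc (T.α (T.t u)) P (x₂ - (T.α (T.t u)) ^ q) := by
    rw [sub_eq_add_neg]; exact hl₂.add (loc_self.pow q).neg
  have hAA : Loc (T.α (T.t u)) P ((x₁ - (T.α (T.t u)) ^ q) * (x₂ - (T.α (T.t u)) ^ q) / q) :=
    loc_div_q hq D (hA₁.mul hA₂) fun V hV hT => by
      have hx₁m := (isVertical_x₁ hq D hV).u_mem.mem
      have hx₂m := (isVertical_x₂ hq D hV).u_mem.mem
      have hzm := hV.u_mem.mem
      rcases level2_cases hq D hV with h | h | h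
      · rw [mul_div_right_comm]
        refine mul_mem ((disc_inf hq D hV h).div_mem hV.q_mem hq0 ?_) (sub_mem hx₂m (pow_mem hzm q))
        exact (res_eq_iff hx₁m (pow_mem hzm q)).mp (by rw [res_pow hzm]; exact h)
      · rw [mul_div_assoc]
        refine mul_mem (sub_mem hx₁m (pow_mem hzm q)) ((disc_zero hq D hV h).div_mem hV.q_mem hq0 ?_)
        exact (res_eq_iff hx₂m (pow_mem hzm q)).mp (by rw [res_pow hzm]; exact h)
      · exact absurd (mid_unique hq D hV h C.vm C.mid ▸ hT) hm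
  let hom : Polynomial W →+* locRing P := eval₂RingHom (locConst P) ⟨(T.α (T.t u)), loc_self⟩
  obtain ⟨Δ, hΔ⟩ := sub_dvd_eval_sub (⟨x₂, hl₂⟩ : locRing P) ⟨x₁, hl₁⟩
    ((kronErr hq D).map hom)
  have hev : ∀ y : locRing P, ((((kronErr hq D).map hom).eval y : locRing P) : F₂) =
      evalTwo (kronErr hq D) (y : F₂) (T.α (T.t u)) := fun y => by
    show (locRing P).subtype (((kronErr hq D).map hom).eval y) = _
    rw [eval_map, hom_eval₂]
    exact congrArg (fun f => (kronErr hq D).eval₂ f (y : F₂))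
      (Polynomial.ringHom_ext (fun w => by simp [hom, coe_locConst]) (by simp [hom]))
  have hΔ' : evalTwo (kronErr hq D) x₂ (T.α (T.t u)) - E₁ = (x₂ - x₁) * (Δ : F₂) := by
    have := congrArg (fun y : locRing P => (y : F₂)) hΔ
    simp only [AddSubgroupClass.coe_sub, MulMemClass.coe_mul, hev] at this
    exact this
  let SL : locRing P := ∑ i ∈ Finset.range q, ⟨x₂, hl₂⟩ ^ i * ⟨x₁, hl₁⟩ ^ (q - 1 - i)
  set S := (SL : F₂)
  have hS : S * (x₂ - x₁) = x₂ ^ q - x₁ ^ q := by
    simp only [S, SL]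
    rw [show ∀ y : locRing P, (y : F₂) = (locRing P).subtype y from fun _ => rfl, map_sum]
    simp only [map_mul, map_pow]
    exact geom_sum₂_mul x₂ x₁ q
  have hkey : (x₁ ^ q - (T.α (T.t u))) + (x₂ - (T.α (T.t u)) ^ q) * S + (q : F₂) * Δ = 0 := by
    refine (mul_eq_zero.mp ?_).resolve_left (sub_ne_zero.mpr (x₁_ne_x₂ hq D).symm)
    linear_combination e2 - e1 - (q : F₂) * hΔ' + (x₂ - (T.α (T.t u)) ^ q) * hS
  have hE : E₁ = (x₁ - (T.α (T.t u)) ^ q) * (x₂ - (T.α (T.t u)) ^ q) / q * S + (x₁ - (T.α (T.t u)) ^ q) * Δ := by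
    field_simp
    linear_combination e1 - (x₁ - (T.α (T.t u)) ^ q) * hkey
  have hSv : pval hq hqP S = 0 := by
    let g : locRing P →+* IsLocalRing.ResidueField W :=
      (RingEquiv.ofBijective _ (pointHom_bijective hq hqP)).symm.toRingHom.comp (residue (locRing P))
    have hg : ∀ y : locRing P, g y = pval hq hqP (y : F₂) := fun y => (pval_locRing hq hqP y).symm
    have h : ∀ i ∈ Finset.range q,
        g ((⟨x₂, hl₂⟩ : locRing P) ^ i * ⟨x₁, hl₁⟩ ^ (q - 1 - i)) =
          pval hq hqP x₁ ^ (q - 1) := fun i hi => by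
      rw [map_mul, map_pow, map_pow, hg, hg]
      show pval hq hqP x₂ ^ i * pval hq hqP x₁ ^ (q - 1 - i) = _
      rw [hx₂, ← pow_add]
      congr 1
      have := Finset.mem_range.mp hi
      omega
    rw [← hg, map_sum, Finset.sum_congr rfl h, Finset.sum_const, Finset.card_range,
      nsmul_eq_mul, CharP.cast_eq_zero, zero_mul]
  have hA₁v : pval hq hqP (x₁ - (T.α (T.t u)) ^ q) = 0 := by
    rw [pval_sub hq hqP hl₁ (loc_self.pow q), pval_pow hq hqP loc_self, ← hb1, sub_self]
  refine he ?_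
  rw [← pval_kronErr hq D hqP hl₁ hb]
  show pval hq hqP E₁ = 0
  rw [hE, pval_add hq hqP (hAA.mul SL.2) (hA₁.mul Δ.2), pval_mul hq hqP hAA SL.2,
    pval_mul hq hqP hA₁ Δ.2, hSv, hA₁v, mul_zero, zero_mul, add_zero]

/-- At a supersingular point the norm preserves the local ring. -/
theorem loc_norm (hss : IsSSPt hq D hqP) {y : F₂} (hy : Loc (T.α (T.t u)) P y) :
    Loc (T.α (T.t u)) P (T.α (T.normα y)) := by
  classical
  let _ : Algebra F₁ F₂ := T.α.toRingHom.toAlgebra
  have : Module.Finite F₁ F₂ := T.finite_α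
  have : CharZero F₁ := charZero_of_injective_algebraMap (algebraMap K F₁).injective
  let Ω := AlgebraicClosure F₁
  obtain ⟨σ₀⟩ : Nonempty (F₂ →ₐ[F₁] Ω) := Fintype.card_pos_iff.mp (by
    rw [AlgHom.card F₁ F₂ Ω, T.degree_α]; exact (Fact.out : q.Prime).pos)
  refine loc_of_valuations P fun V hA hP => ?_
  obtain ⟨U, hU⟩ := exists_extension σ₀.toRingHom V
  have hT := through_of_centred hA hP
  show T.α (T.normα y) ∈ V
  rw [← hU, ValuationSubring.mem_comap]
  show σ₀ (T.α (T.normα y)) ∈ U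
  rw [show σ₀ (T.α (T.normα y)) = algebraMap F₁ Ω (T.normα y) from σ₀.commutes _,
    show algebraMap F₁ Ω (T.normα y) = ∏ σ : F₂ →ₐ[F₁] Ω, σ y from
      Algebra.norm_eq_prod_embeddings F₁ Ω y]
  refine prod_mem fun σ _ => ?_
  set V' := U.comap σ.toRingHom
  -- the two valuation subrings agree on the level below
  have hsame : ∀ z : F₁, T.α z ∈ V' ↔ T.α z ∈ V := fun z => by
    rw [← hU, ValuationSubring.mem_comap, ValuationSubring.mem_comap]
    show σ (T.α z) ∈ U ↔ σ₀ (T.α z) ∈ U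
    rw [show σ (T.α z) = algebraMap F₁ Ω z from σ.commutes _,
      show σ₀ (T.α z) = algebraMap F₁ Ω z from σ₀.commutes _]
  have hsame' : ∀ z : F₁, T.α z ∈ V.nonunits → T.α z ∈ V'.nonunits := fun z hz => by
    rw [← hU] at hz
    rw [mem_nonunits_comap] at hz ⊢
    show σ (T.α z) ∈ U.nonunits
    rw [show σ (T.α z) = algebraMap F₁ Ω z from σ.commutes _,
      ← show σ₀ (T.α z) = algebraMap F₁ Ω z from σ₀.commutes _]
    exact hz
  have hW : ∀ w : W, algebraMap W F₂ w ∈ V' := fun w => by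
    rw [← map_algebraMap_const T.α, hsame, map_algebraMap_const]
    exact hA ⟨_, (chartRing W (T.α (T.t u))).algebraMap_mem w⟩
  have hqV : (q : F₂) ∈ V'.nonunits := by
    rw [← map_natCast T.α.toRingHom]
    refine hsame' (q : F₁) ?_
    rw [map_natCast]
    simpa using hP _ hqP
  have hM : T.α (T.t u) ∈ V' :=
    (hsame (T.t u)).mpr (hA ⟨_, self_mem_chartRing⟩)
  have hA' : ∀ z : chartRing W (T.α (T.t u)), (z : F₂) ∈ V' := fun z =>
    mem_of_mem_chartRing hW hM z.2
  let j : chartRing W (T.α (T.t u)) →+* V' :=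
    (chartRing W (T.α (T.t u))).val.toRingHom.codRestrict V'.toSubring hA'
  let P' := (maximalIdeal V').comap j
  have hmem : ∀ z, z ∈ P' ↔ (z : F₂) ∈ V'.nonunits := fun z =>
    (ValuationSubring.coe_mem_nonunits_iff (a := j z)).symm
  obtain ⟨β, hβ⟩ := residue_surjective (pval hq hqP (T.α (T.t u)))
  have hvβ : T.α (T.t u) - algebraMap W F₂ β ∈ V'.nonunits := by
    rw [← map_algebraMap_const T.α, ← map_sub]
    refine hsame' _ ?_
    rw [map_sub, map_algebraMap_const]
    exact mem_nonunits_of_inMax hA hP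
      ((pval_eq_iff hq hqP loc_self (loc_const _)).mp (by rw [pval_const, hβ]))
  have hmax : P'.IsMaximal := by
    refine Ideal.isMaximal_iff.mpr ⟨fun h => ?_, fun J x hJ hx hxJ => ?_⟩
    · have := (hmem 1).mp h
      simp [ValuationSubring.mem_nonunits_iff] at this
    obtain ⟨a, ha⟩ := exists_const_residue hq hW hqV hvβ x.2
    have hau : IsUnit a := by
      by_contra hnu
      have ha' : a ∈ maximalIdeal W := hnu
      rw [hq, Ideal.mem_span_singleton'] at ha'
      obtain ⟨b, rfl⟩ := ha'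
      refine hx ((hmem x).mpr ?_)
      have h2 : algebraMap W F₂ (b * (q : W)) ∈ V'.nonunits := by
        rw [map_mul, map_natCast, ValuationSubring.mem_nonunits_iff, map_mul, mul_comm]
        exact mul_lt_one_of_lt_of_le hqV ((V'.valuation_le_one_iff _).mpr (hW b))
      have := add_mem ha h2
      rwa [sub_add_cancel] at this
    obtain ⟨b, hb⟩ := hau.exists_left_inv
    have h3 : x - algebraMap W _ a ∈ J := hJ ((hmem _).mpr ha)
    have h4 : algebraMap W (chartRing W (T.α (T.t u))) a ∈ J := by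
      have := J.sub_mem hxJ h3
      rwa [sub_sub_cancel] at this
    have := J.mul_mem_left (algebraMap W _ b) h4
    rwa [← map_mul, hb, map_one] at this
  have hqP' : (q : chartRing W (T.α (T.t u))) ∈ P' := (hmem _).mpr (by simpa using hqV)
  have hPP : P' = P := eq_of_pval_eq hq D hqP hss hqP' fun z hz => by
    obtain ⟨w, hw⟩ := residue_surjective (pval hq hqP (T.α z))
    have hzc : T.α z ∈ chartRing W (T.α (T.t u)) := map_mem_chartRing T.α hz
    have h1 : T.α z - algebraMap W F₂ w ∈ V.nonunits :=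
      mem_nonunits_of_inMax hA hP ((pval_eq_iff hq hqP (chartRing_le_locRing P hzc)
        (loc_const _)).mp (by rw [pval_const, hw]))
    have h2 : T.α z - algebraMap W F₂ w ∈ V'.nonunits := by
      rw [← map_algebraMap_const T.α, ← map_sub] at h1 ⊢
      exact hsame' _ h1
    rw [← hw, ← pval_const hq hqP' w,
      pval_eq_iff hq hqP' (chartRing_le_locRing P' hzc) (loc_const _)]
    exact inMax_of_mem (x := (⟨_, hzc⟩ - algebraMap W _ w : chartRing W (T.α (T.t u))))
      ((hmem _).mpr h2)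
  have hT' : Through P V' := fun z hz => hPP ▸ (hmem z).mpr hz
  exact hT'.mem hA' hy

/-- The values of the roots at a supersingular point satisfy the equation of one side. -/
theorem ss_side_eq (hss : IsSSPt hq D hqP) {C : Comps W T u} {n : ℕ} (hn : 0 < n) {f : F₂}
    {N : Normal C n f} (R : RootSet N) {w : Wˣ} {g : F₁}
    (hg : T.normα f = algebraMap W F₁ (w : W) * g ^ n) {A B : W}
    (hA : res C.VI (T.α (g / (q : F₁) ^ ((q : ℤ) * N.dI))) =
      res C.VI (algebraMap W F₂ A) * res C.VI R.hI ^ q)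
    (hB : ∃ r₀ rm : F, T.α (T.s r₀) ∈ C.V0 ∧ T.α (T.s rm) ∈ C.Vm ∧ T.α (T.s rm) ∈ C.V0 ∧
        res C.V0 R.h₀ = res C.V0 (T.α (T.s r₀)) ∧ res C.Vm R.hm = res C.Vm (T.α (T.s rm)) ∧
        res C.V0 (T.α (g / (q : F₁) ^ (N.d₀ + ((q - 1 : ℕ) : ℤ) * N.dm))) =
          res C.V0 (algebraMap W F₂ B) * res C.V0 (T.α (T.s (r₀ * rm ^ (q - 1)))))
    {ε γ : F₂} (hε : Loc (T.α (T.t u)) P ε) (hε' : Loc (T.α (T.t u)) P ε⁻¹) (hε0 : ε ≠ 0)
    (hγ : γ ≠ 0) (hf : f = ε * γ ^ n)
    {yI y₀ ym : F₂} (hyI : Loc (T.α (T.t u)) P yI) (hy₀ : Loc (T.α (T.t u)) P y₀)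
    (hym : Loc (T.α (T.t u)) P ym)
    (hyI' : res C.VI yI = res C.VI (R.hI * (q : F₂) ^ N.dI / γ))
    (hy₀' : res C.V0 y₀ = res C.V0 (R.h₀ * (q : F₂) ^ N.d₀ / γ))
    (hym' : res C.Vm ym = res C.Vm (R.hm * (q : F₂) ^ N.dm / γ)) :
    residue W A * pval hq hqP yI ^ q =
      residue W B * (pval hq hqP y₀ * pval hq hqP ym ^ (q - 1)) := by
  obtain ⟨hTI, hT0, hTm⟩ := ss_through hq D hqP hss C
  have hq1 := natCast_ne_zero₁ hq D
  have hq2 := natCast_ne_zero₂ hq D
  -- the exponents of `γ`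
  have hexp : ∀ {V : ValuationSubring F₂}, IsVertical W q (T.α (T.t u)) V → Through P V → ∀ d : ℤ,
      HasExp q V f ((n : ℤ) * d) → IsUnitAt V (γ / (q : F₂) ^ d) := fun {V} hV hT d hd => by
    have hA' : ∀ z : chartRing W (T.α (T.t u)), (z : F₂) ∈ V := fun z => hV.chartRing_le z.2
    have hεu : IsUnitAt V ε := by
      refine le_antisymm ((V.valuation_le_one_iff _).mpr (hT.mem hA' hε)) ?_
      have := (V.valuation_le_one_iff _).mpr (hT.mem hA' hε')
      rwa [map_inv₀, inv_le_one₀ (zero_lt_iff.mpr ((Valuation.ne_zero_iff _).mpr hε0))] at this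
    refine (hasExp_iff hq2).mp ?_
    rw [HasExp, hf, map_mul, hεu, one_mul, map_pow, mul_comm (n : ℤ), zpow_mul, zpow_natCast] at hd
    exact (pow_left_inj₀ zero_le zero_le hn.ne').mp hd
  have hγI := hexp C.vI hTI _ N.expI
  have hγ0 := hexp C.v0 hT0 _ N.exp₀
  have hγm := hexp C.vm hTm _ N.expm
  -- `G`
  let _ : Algebra F₁ F₂ := T.α.toRingHom.toAlgebra
  have : Module.Finite F₁ F₂ := T.finite_α
  have hNγ0 : T.normα γ ≠ 0 := fun h => hγ (Algebra.norm_eq_zero_iff.mp h)
  set G := T.α (g / T.normα γ) with hGdef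
  have hGl : Loc (T.α (T.t u)) P G := by
    refine loc_of_pow hn ?_
    have e : G ^ n = T.α (T.normα ε) * algebraMap W F₂ ((w⁻¹ : Wˣ) : W) := by
      have h1 : algebraMap W F₁ ((w⁻¹ : Wˣ) : W) * algebraMap W F₁ (w : W) = 1 := by
        rw [← map_mul, Units.inv_mul, map_one]
      rw [hGdef, ← map_algebraMap_const T.α, ← map_pow, ← map_mul]
      congr 1
      have h2 : T.normα f = T.normα ε * T.normα γ ^ n := by rw [hf, map_mul, map_pow]
      rw [div_pow, div_eq_iff (pow_ne_zero n hNγ0), mul_right_comm, ← h2, hg]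
      linear_combination -(g ^ n) * h1
    rw [e]
    exact (loc_norm hq D hqP hss hε).mul (loc_const _)
  have hconst : ∀ {V : ValuationSubring F₂}, IsVertical W q (T.α (T.t u)) V → ∀ a : W,
      algebraMap W F₂ a ∈ V := fun hV a => hV.const_mem a
  have hA₁ : ∀ {V : ValuationSubring F₂}, IsVertical W q (T.α (T.t u)) V →
      ∀ z : chartRing W (T.α (T.t u)), (z : F₂) ∈ V := fun hV z => hV.chartRing_le z.2
  -- infinity
  have eI : pval hq hqP G = residue W A * pval hq hqP yI ^ q := by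
    obtain ⟨hN, hNu⟩ := res_norm_inf hq D C hγI
    have hyV := hTI.mem (hA₁ C.vI) hyI
    have e : res C.VI G = res C.VI (algebraMap W F₂ A * yI ^ q) := by
      have hη : R.hI * (q : F₂) ^ N.dI / γ = R.hI / (γ / (q : F₂) ^ N.dI) := by
        rw [div_div_eq_mul_div]
      rw [res_mul (hconst C.vI A) (pow_mem hyV q), res_pow hyV, hyI', hη,
        res_div R.memI hγI, div_pow, ← mul_div_assoc, ← hA, hN, norm_div_zpow hq D]
      have hgu : IsUnitAt C.VI (T.α (g / (q : F₁) ^ ((q : ℤ) * N.dI))) :=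
        (res_norm_inf_normal hq D hn N hg).1
      rw [norm_div_zpow hq D] at hNu
      rw [← res_div hgu.mem hNu, ← map_div₀,
        div_div_div_cancel_right₀ (zpow_ne_zero _ hq1)]
    rw [pval_eq_of_res_eq hq hqP C.vI hTI hGl ((loc_const A).mul (hyI.pow q)) e,
      pval_mul hq hqP (loc_const A) (hyI.pow q), pval_const, pval_pow hq hqP hyI]
  -- below zero
  obtain ⟨r₀, rm, hr₀m, hrmm, hrm0, hr₀, hrm, hB⟩ := hB
  let φ := T.α.comp T.s
  have hφ0 := isVertical_x₁ hq D C.v0
  have hφm := isVertical_x₁ hq D C.vm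
  have hφu : φ u ∈ chartRing W (T.α (T.t u)) := mem_chartRing_of_evalTwo D.Φ D.monic D.root_α
  have heq : chartRing W (φ u) = chartRing W (T.α (T.t u)) :=
    le_antisymm (chartRing_le_chartRing hφu)
      (chartRing_le_chartRing (mem_chartRing_of_evalTwo D.Φ D.monic
        ((evalTwo_comm D.Φ D.symm _ _).trans D.root_α)))
  have hrep : ∀ {V : ValuationSubring F₂}, IsVertical W q (T.α (T.t u)) V → Through P V →
      RationalAlong φ W q u V → IsVertical W q (φ u) V → ∀ {y : F₂}, Loc (T.α (T.t u)) P y →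
      ∃ θ : F, Loc (T.α (T.t u)) P (φ θ) ∧ res V (φ θ) = res V y := by
    intro V hV hT hrat hφv y hy
    obtain ⟨c, d, hd, hcd⟩ := exists_res_mul_eq hq D hqP φ hφv hrat hφu hV hT heq hy
    have hdl : Loc (T.α (T.t u)) P (φ d) := loc_base φ hφu d
    obtain ⟨hd0, hdinv⟩ := loc_inv_of_pval_ne_zero hq hqP hdl hd
    have hcl : Loc (T.α (T.t u)) P (φ c) := loc_base φ hφu c
    have hdu : IsUnitAt V (φ d) :=
      le_antisymm ((V.valuation_le_one_iff _).mpr (hT.mem (hA₁ hV) hdl)) (by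
        have := (V.valuation_le_one_iff _).mpr (hT.mem (hA₁ hV) hdinv)
        rwa [map_inv₀, inv_le_one₀ (zero_lt_iff.mpr ((Valuation.ne_zero_iff _).mpr hd0))] at this)
    refine ⟨(c : F) / d, ?_, ?_⟩
    · rw [map_div₀, div_eq_mul_inv]; exact hcl.mul hdinv
    · rw [map_div₀, res_div (hT.mem (hA₁ hV) hcl) hdu, div_eq_iff hdu.res_ne_zero, hcd]
  obtain ⟨θ₀, hθ₀l, hθ₀⟩ := hrep C.v0 hT0 (rational_zero hq D C.v0 C.zero) hφ0 hy₀
  obtain ⟨θm, hθml, hθm⟩ := hrep C.vm hTm (rational_mid hq D C.vm C.mid) hφm hym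
  obtain ⟨p₀, hp₀m, hp₀⟩ := exists_rep hq D φ hφ0 (rational_zero hq D C.v0 C.zero) hγ0.mem
  obtain ⟨pm, hpmm, hpm⟩ := exists_rep hq D φ hφm (rational_mid hq D C.vm C.mid) hγm.mem
  have hcomap := vertical_comap_eq hq D C
  have htransfer : ∀ a b : F, φ a ∈ C.Vm → φ b ∈ C.Vm → res C.Vm (φ a) = res C.Vm (φ b) →
      φ a ∈ C.V0 ∧ φ b ∈ C.V0 ∧ res C.V0 (φ a) = res C.V0 (φ b) := fun a b ha hb h => by
    have ha' : T.s a ∈ C.Vm.comap T.α.toRingHom := ha
    have hb' : T.s b ∈ C.Vm.comap T.α.toRingHom := hb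
    have h' := (res_eq_iff_map T.α.toRingHom C.Vm ha' hb').mpr h
    rw [← hcomap] at ha' hb'
    have h'' : res (C.V0.comap T.α.toRingHom) (T.s a) = res (C.V0.comap T.α.toRingHom) (T.s b) := by
      rw [hcomap]; exact h'
    exact ⟨ha', hb', (res_eq_iff_map T.α.toRingHom C.V0 ha' hb').mp h''⟩
  have hθmV := hTm.mem (hA₁ C.vm) hθml
  obtain ⟨-, -, hmid⟩ := htransfer (θm * pm) rm (by rw [map_mul]; exact mul_mem hθmV hpmm) hrmm (by
    rw [map_mul, res_mul hθmV hpmm, hθm, hym', ← hpm,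
      show R.hm * (q : F₂) ^ N.dm / γ = R.hm / (γ / (q : F₂) ^ N.dm) by rw [div_div_eq_mul_div],
      res_div R.memm hγm, div_mul_cancel₀ _ hγm.res_ne_zero]
    exact hrm)
  have hθmV0 := hT0.mem (hA₁ C.v0) hθml
  have hθ0V0 := hT0.mem (hA₁ C.v0) hθ₀l
  have hpm0 : φ pm ∈ C.V0 := (htransfer pm pm hpmm hpmm rfl).1
  have e0 : pval hq hqP G = residue W B * (pval hq hqP y₀ * pval hq hqP ym ^ (q - 1)) := by
    obtain ⟨V₀, Vm, h0, h0', -, hm, hm', -, hnorm⟩ :=
      norm_oth hq D (C.vm.comap T.α) (mid_comap_α hq D C.vm C.mid)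
    obtain rfl := zero_unique hq D h0 h0' C.v0 C.zero
    obtain rfl := mid_unique hq D hm hm' C.vm C.mid
    obtain ⟨hu, hres⟩ := hnorm γ N.d₀ N.dm p₀ pm hγ0 hp₀ hγm hpm
    rw [← hcomap] at hu hres
    have hu' : IsUnitAt C.V0
        (T.α (T.normα γ / (q : F₁) ^ (N.d₀ + ((q - 1 : ℕ) : ℤ) * N.dm))) :=
      (isUnitAt_comap T.α.toRingHom C.V0).mp hu
    have hres' : res C.V0 (T.α (T.normα γ / (q : F₁) ^ (N.d₀ + ((q - 1 : ℕ) : ℤ) * N.dm))) =
        res C.V0 (φ p₀ * φ pm ^ (q - 1)) := by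
      rw [← map_pow, ← map_mul]
      exact (res_eq_iff_map T.α.toRingHom C.V0 hu'.mem
        (mem_of_res_ne_zero (V := C.V0.comap T.α.toRingHom) (hres ▸ hu.res_ne_zero))).mp hres
    have hgu := (res_norm_oth_normal hq D hn N hg (c₀ := r₀ ^ n) (cm := rm ^ n)
      (by rw [← R.root₀, hr₀]; exact (res_alg_rep (V := C.V0) φ.toRingHom hr₀m n).symm)
      (by rw [← R.rootm, hrm]; exact (res_alg_rep (V := C.Vm) φ.toRingHom hrmm n).symm)
      (Or.inl rfl)).1
    have hk : res C.V0 (φ θ₀) * res C.V0 (φ p₀) = res C.V0 (φ r₀) := by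
      rw [hθ₀, hy₀', ← hp₀,
        show R.h₀ * (q : F₂) ^ N.d₀ / γ = R.h₀ / (γ / (q : F₂) ^ N.d₀) by rw [div_div_eq_mul_div],
        res_div R.mem₀ hγ0, div_mul_cancel₀ _ hγ0.res_ne_zero]
      exact hr₀
    have hkm : res C.V0 (φ θm) * res C.V0 (φ pm) = res C.V0 (φ rm) := by
      rw [← res_mul hθmV0 hpm0, ← map_mul]; exact hmid
    have hθl : Loc (T.α (T.t u)) P (φ θ₀ * φ θm ^ (q - 1)) := hθ₀l.mul (hθml.pow _)
    have e : res C.V0 G = res C.V0 (algebraMap W F₂ B * (φ θ₀ * φ θm ^ (q - 1))) := by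
      rw [res_mul (hconst C.v0 B) (mul_mem hθ0V0 (pow_mem hθmV0 _)),
        res_mul hθ0V0 (pow_mem hθmV0 _), res_pow hθmV0, hGdef,
        ← div_div_div_cancel_right₀ (zpow_ne_zero (N.d₀ + ((q - 1 : ℕ) : ℤ) * N.dm) hq1),
        map_div₀ T.α, res_div hgu.mem hu', hB]
      refine (div_eq_iff hu'.res_ne_zero).mpr ?_
      rw [hres',
        res_mul (show φ p₀ ∈ C.V0 from hp₀m) (pow_mem hpm0 _), res_pow hpm0,
        map_mul, map_mul, map_pow, map_pow, res_mul hr₀m (pow_mem hrm0 _), res_pow hrm0,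
        show res C.V0 (T.α (T.s r₀)) = _ from hk.symm, show res C.V0 (T.α (T.s rm)) = _ from hkm.symm,
        mul_pow]
      show _ = _ * (res C.V0 (φ p₀) * res C.V0 (φ pm) ^ (q - 1))
      ring
    rw [pval_eq_of_res_eq hq hqP C.v0 hT0 hGl ((loc_const B).mul hθl) e,
      pval_mul hq hqP (loc_const B) hθl, pval_const, pval_mul hq hqP hθ₀l (hθml.pow _),
      pval_pow hq hqP hθml, pval_eq_of_res_eq hq hqP C.v0 hT0 hθ₀l hy₀ hθ₀,
      pval_eq_of_res_eq hq hqP C.vm hTm hθml hym hθm]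
  rw [← eI, e0]

end FermatAgent.BadRed.Carayol
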