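import Fermat.Agent.BadRed.Carayol.SSValues

/-!
# Roots that agree at the supersingular points

The `n`-th roots chosen on the three components are twisted by roots of unity so that they have
the same value at every supersingular point.
-/

set_option autoImplicit false
set_option linter.unusedSectionVars false

noncomputable section

namespace FermatAgent.BadRed.Carayol

open Polynomial IsLocalRing

section Transport

variable {W L : Type*} [CommRing W] [IsDomain W] [IsDiscreteValuationRing W]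
  [IsAlgClosed (IsLocalRing.ResidueField W)] [Field L] [Algebra W L] {q : ℕ}

/-- Points of the chart of a coordinate, seen in the chart of an equal coordinate. -/
theorem exists_point_transport {K : Type*} [Field K] [Algebra W K] [IsFractionRing W K]
    [Algebra K L] [IsScalarTower W K L]
    (hq : maximalIdeal W = Ideal.span {(q : W)}) {v v' : L} (h : v = v')
    (P : Ideal (chartRing W v)) [P.IsMaximal] (hqP : (q : chartRing W v) ∈ P) :
    ∃ (P' : Ideal (chartRing W v')) (_ : P'.IsMaximal) (hqP' : (q : chartRing W v') ∈ P'),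
      (∀ y, Loc v' P' y ↔ Loc v P y) ∧ ∀ y, pval hq hqP' y = pval hq hqP y := by
  subst h
  exact ⟨P, inferInstance, hqP, fun _ => Iff.rfl, fun _ => rfl⟩

end Transport

variable {q : ℕ} [Fact q.Prime] {W K F F₁ F₂ : Type*}
  [CommRing W] [IsDomain W] [IsDiscreteValuationRing W] [IsAlgClosed (IsLocalRing.ResidueField W)]
  [Field K] [CharZero K] [Algebra W K] [IsFractionRing W K]
  [Field F] [Field F₁] [Field F₂] [Algebra K F] [Algebra K F₁] [Algebra K F₂]
  [Algebra W F] [Algebra W F₁] [Algebra W F₂]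
  [IsScalarTower W K F] [IsScalarTower W K F₁] [IsScalarTower W K F₂]
  {T : QTower q K F F₁ F₂} {u : F}
  (hq : maximalIdeal W = Ideal.span {(q : W)}) (D : ChartData W T u)
  {P : Ideal (chartRing W (T.α (T.t u)))} [P.IsMaximal]
  (hqP : (q : chartRing W (T.α (T.t u))) ∈ P)
include hq D hqP

/-- Near every point of the special fibre a normalised function is a unit times an `n`-th power. -/
theorem exists_decomp {C : Comps W T u} {n : ℕ} (hn : 0 < n) {f : F₂} (N : Normal C n f) :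
    ∃ ε γ : F₂, ε ≠ 0 ∧ γ ≠ 0 ∧ Loc (T.α (T.t u)) P ε ∧ Loc (T.α (T.t u)) P ε⁻¹ ∧
      f = ε * γ ^ n := by
  have := D.finite_over₂
  obtain ⟨V, hV, hT⟩ := exists_through (K := K) hq D.transcendental_middle (finite_vertical₂ hq D)
    (fun U hU => rankOne₂ hq D hU) hqP
  obtain ⟨a, b, ha, hb, hgen⟩ : ∃ a b : F₂, InMax P a ∧ InMax P b ∧ ∀ y : F₂, InMax P y →
      ∃ c d : F₂, Loc (T.α (T.t u)) P c ∧ Loc (T.α (T.t u)) P d ∧ y = c * a + d * b := by
    by_cases hss : IsSSPt hq D hqP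
    · obtain ⟨β₁, h1, h2, h3, -⟩ := ss_structure hq D hqP hss
      exact ⟨_, _, h1, h2, h3⟩
    · exact exists_generators hq D hqP hss hV hT
  obtain ⟨β, hβ⟩ := residue_surjective (pval hq hqP (T.α (T.t u)))
  have hq0 := natCast_ne_zero₂ hq D
  refine exists_unit_mul_pow (K := K) P hq D.transcendental_middle (finite_vertical₂ hq D)
    (fun U hU => rankOne₂ hq D hU) ha hb hgen
    ⟨V, hV, hT, T.α (T.t u) - algebraMap W F₂ β,
      (pval_eq_iff hq hqP loc_self (loc_const _)).mp (by rw [pval_const, hβ]), ?_⟩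
    hn N.ne_zero N.div fun U hU => ?_
  · have := hV.isUnitAt (X - Polynomial.C β) (by
      rw [Polynomial.map_sub, map_X, map_C]; exact X_sub_C_ne_zero _)
    simpa using this
  · have : ∀ {d : ℤ}, HasExp q U f ((n : ℤ) * d) → ∃ g : F₂, U.valuation f = U.valuation g ^ n :=
      fun {d} hd => ⟨(q : F₂) ^ d, by
        rw [hd, map_zpow₀, ← zpow_natCast (U.valuation (q : F₂) ^ d), ← zpow_mul, mul_comm]⟩
    rcases C.cases hq D hU with rfl | rfl | rfl
    exacts [this N.expI, this N.exp₀, this N.expm]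

/-- A residue root on a component through a point is the residue of an element of its local
ring, once divided by the local `n`-th root. -/
theorem exists_loc_root {V : ValuationSubring F₂} (hV : IsVertical W q (T.α (T.t u)) V)
    (hT : Through P V) {n : ℕ} (hn : 0 < n) {f h : F₂} {d : ℤ} (hd : HasExp q V f ((n : ℤ) * d))
    (hh : h ∈ V) (hroot : res V h ^ n = res V (f / (q : F₂) ^ ((n : ℤ) * d)))
    {ε γ : F₂} (hε : Loc (T.α (T.t u)) P ε) (hε' : Loc (T.α (T.t u)) P ε⁻¹) (hε0 : ε ≠ 0)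
    (hf : f = ε * γ ^ n) :
    IsUnitAt V (γ / (q : F₂) ^ d) ∧ h * (q : F₂) ^ d / γ ∈ V ∧
      res V (h * (q : F₂) ^ d / γ) ^ n = res V ε ∧
      ∃ y : F₂, Loc (T.α (T.t u)) P y ∧ res V y = res V (h * (q : F₂) ^ d / γ) := by
  have hq0 := natCast_ne_zero₂ hq D
  have hA : ∀ z : chartRing W (T.α (T.t u)), (z : F₂) ∈ V := fun z => hV.chartRing_le z.2
  have hεu : IsUnitAt V ε := by
    refine le_antisymm ((V.valuation_le_one_iff _).mpr (hT.mem hA hε)) ?_
    have := (V.valuation_le_one_iff _).mpr (hT.mem hA hε')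
    rwa [map_inv₀, inv_le_one₀ (zero_lt_iff.mpr ((Valuation.ne_zero_iff _).mpr hε0))] at this
  have e : f / (q : F₂) ^ ((n : ℤ) * d) = ε * (γ / (q : F₂) ^ d) ^ n := by
    rw [hf, div_pow, ← zpow_natCast ((q : F₂) ^ d) n, ← zpow_mul, mul_comm d, mul_div_assoc]
  have hγu : IsUnitAt V (γ / (q : F₂) ^ d) := by
    have := (hasExp_iff hq0).mp hd
    rw [e, IsUnitAt, map_mul, hεu, one_mul, map_pow] at this
    exact (pow_eq_one_iff.mp this).resolve_right hn.ne'
  have hη : h * (q : F₂) ^ d / γ = h / (γ / (q : F₂) ^ d) := by rw [div_div_eq_mul_div]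
  have hmem : h * (q : F₂) ^ d / γ ∈ V := by
    rw [hη, div_eq_mul_inv]; exact mul_mem hh hγu.inv.mem
  have hpow : res V (h * (q : F₂) ^ d / γ) ^ n = res V ε := by
    rw [hη, res_div hh hγu, div_pow, hroot, e, res_mul hεu.mem (pow_mem hγu.mem n),
      res_pow hγu.mem, mul_div_cancel_right₀ _ (pow_ne_zero n hγu.res_ne_zero)]
  refine ⟨hγu, hmem, hpow, ?_⟩
  obtain ⟨φ, hφv, hrat, hφu, heq⟩ := exists_rational hq D hqP hV
  exact exists_loc_res_eq_of_pow_eq hq D hqP φ hφv hrat hφu hV hT heq hn hmem hε hpow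

/-- The value of such a lift is not zero. -/
theorem pval_root_ne_zero {V : ValuationSubring F₂} (hV : IsVertical W q (T.α (T.t u)) V)
    (hT : Through P V) {n : ℕ} (hn : 0 < n) {ε η y : F₂} (hy : Loc (T.α (T.t u)) P y)
    (hε : Loc (T.α (T.t u)) P ε) (hε' : Loc (T.α (T.t u)) P ε⁻¹) (hε0 : ε ≠ 0)
    (hη : res V η ^ n = res V ε) (h : res V y = res V η) : pval hq hqP y ≠ 0 := by
  intro h0
  refine pval_ne_zero_of_loc_inv hq hqP hε hε' hε0 ?_
  rw [← pval_eq_of_res_eq hq hqP hV hT (hy.pow n) hε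
    (by rw [res_pow (hT.mem (fun z => hV.chartRing_le z.2) hy), h, hη]),
    pval_pow hq hqP hy, h0, zero_pow hn.ne']

omit hqP in
/-- The compatibility of one side: the norm of `f` compared with the roots on the components. -/
def RootSet.SideRel {C : Comps W T u} {n : ℕ} {f : F₂} {N : Normal C n f} (R : RootSet N)
    (A B : W) : Prop :=
  ∃ (w : Wˣ) (g : F₁), T.normα f = algebraMap W F₁ (w : W) * g ^ n ∧
    res C.VI (T.α (g / (q : F₁) ^ ((q : ℤ) * N.dI))) =
      res C.VI (algebraMap W F₂ A) * res C.VI R.hI ^ q ∧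
    ∃ r₀ rm : F, T.α (T.s r₀) ∈ C.V0 ∧ T.α (T.s rm) ∈ C.Vm ∧ T.α (T.s rm) ∈ C.V0 ∧
      res C.V0 R.h₀ = res C.V0 (T.α (T.s r₀)) ∧ res C.Vm R.hm = res C.Vm (T.α (T.s rm)) ∧
      res C.V0 (T.α (g / (q : F₁) ^ (N.d₀ + ((q - 1 : ℕ) : ℤ) * N.dm))) =
        res C.V0 (algebraMap W F₂ B) * res C.V0 (T.α (T.s (r₀ * rm ^ (q - 1))))

omit hqP in
/-- The three roots have a common value at every supersingular point of the chart. -/
def RootSet.Balanced (hq : maximalIdeal W = Ideal.span {(q : W)}) (D : ChartData W T u)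
    {C : Comps W T u} {n : ℕ} {f : F₂} {N : Normal C n f} (R : RootSet N) : Prop :=
  ∀ (P : Ideal (chartRing W (T.α (T.t u)))) [P.IsMaximal]
    (hqP : (q : chartRing W (T.α (T.t u))) ∈ P), IsSSPt hq D hqP →
    ∀ ε γ : F₂, Loc (T.α (T.t u)) P ε → Loc (T.α (T.t u)) P ε⁻¹ → ε ≠ 0 → γ ≠ 0 →
      f = ε * γ ^ n →
      ∀ yI y₀ ym : F₂, Loc (T.α (T.t u)) P yI → Loc (T.α (T.t u)) P y₀ →
        Loc (T.α (T.t u)) P ym →
        res C.VI yI = res C.VI (R.hI * (q : F₂) ^ N.dI / γ) →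
        res C.V0 y₀ = res C.V0 (R.h₀ * (q : F₂) ^ N.d₀ / γ) →
        res C.Vm ym = res C.Vm (R.hm * (q : F₂) ^ N.dm / γ) →
        pval hq hqP y₀ = pval hq hqP yI ∧ pval hq hqP ym = pval hq hqP yI

/-- The two side equations at a supersingular point. -/
theorem ss_side_eqs (hss : IsSSPt hq D hqP) {C : Comps W T u} {n : ℕ} (hn : 0 < n) {f : F₂}
    {N : Normal C n f} (R : RootSet N) {A B A' B' : W} (h : R.SideRel A B)
    (h' : R.swap.SideRel A' B') {ε γ : F₂} (hε : Loc (T.α (T.t u)) P ε)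
    (hε' : Loc (T.α (T.t u)) P ε⁻¹) (hε0 : ε ≠ 0) (hγ : γ ≠ 0) (hf : f = ε * γ ^ n)
    {yI y₀ ym : F₂} (hyI : Loc (T.α (T.t u)) P yI) (hy₀ : Loc (T.α (T.t u)) P y₀)
    (hym : Loc (T.α (T.t u)) P ym)
    (hyI' : res C.VI yI = res C.VI (R.hI * (q : F₂) ^ N.dI / γ))
    (hy₀' : res C.V0 y₀ = res C.V0 (R.h₀ * (q : F₂) ^ N.d₀ / γ))
    (hym' : res C.Vm ym = res C.Vm (R.hm * (q : F₂) ^ N.dm / γ)) :
    residue W A * pval hq hqP yI ^ q =
        residue W B * (pval hq hqP y₀ * pval hq hqP ym ^ (q - 1)) ∧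
      residue W A' * pval hq hqP y₀ ^ q =
        residue W B' * (pval hq hqP yI * pval hq hqP ym ^ (q - 1)) := by
  obtain ⟨w, g, hg, hA, hB⟩ := h
  refine ⟨ss_side_eq hq D hqP hss hn R hg hA hB hε hε' hε0 hγ hf hyI hy₀ hym hyI' hy₀' hym', ?_⟩
  have hx₂ := ss_pval_x₂ hq D hqP hss
  obtain ⟨P', hmax, hqP', hloc, hval⟩ := exists_point_transport (K := K) hq
    (show T.α (T.t u) = T.swap.α (T.swap.t u) from T.middle_apply u) P hqP
  have hss' : IsSSPt hq D.swap hqP' := by
    show D.swap.IsSSVal hq (pval hq hqP' (T.swap.α (T.swap.t u)))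
      (pval hq hqP' (T.β (T.t u)))
    rw [hval, hval, hx₂, show T.swap.α (T.swap.t u) = T.α (T.t u) from (T.middle_apply u).symm]
    exact hss
  obtain ⟨w', g', hg', hA', hB'⟩ := h'
  have := ss_side_eq hq D.swap hqP' hss' hn R.swap hg' hA' hB' ((hloc _).mpr hε) ((hloc _).mpr hε')
    hε0 hγ hf ((hloc _).mpr hy₀) ((hloc _).mpr hyI) ((hloc _).mpr hym) hy₀' hyI' hym'
  rwa [hval, hval, hval] at this

omit hqP in
/-- Twisting by the roots of unity read off from the two side relations balances the roots. -/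
theorem balanced_of_sideRel {C : Comps W T u} {n : ℕ} (hn : 0 < n) {f : F₂}
    {N : Normal C n f} (R : RootSet N) {A B A' B' a₀ am : W} (h : R.SideRel A B)
    (h' : R.swap.SideRel A' B') (hB : residue W B ≠ 0) (hA' : residue W A' ≠ 0)
    (hB' : residue W B' ≠ 0)
    (ha₀ : residue W a₀ * ((residue W A / residue W B) / (residue W A' / residue W B')) ^ (q - 1) = 1)
    (ham : residue W am * ((residue W A / residue W B) ^ q * (residue W A' / residue W B')) = 1)
    {N' : Normal C n (f ^ (q * q - 1))} (R' : RootSet N')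
    (hdI : N'.dI = ((q * q - 1 : ℕ) : ℤ) * N.dI) (hd₀ : N'.d₀ = ((q * q - 1 : ℕ) : ℤ) * N.d₀)
    (hdm : N'.dm = ((q * q - 1 : ℕ) : ℤ) * N.dm) (hI : R'.hI = R.hI ^ (q * q - 1))
    (h₀ : R'.h₀ = R.h₀ ^ (q * q - 1) * algebraMap W F₂ a₀)
    (hm : R'.hm = R.hm ^ (q * q - 1) * algebraMap W F₂ am) :
    R'.Balanced hq D := by
  intro P hP hqP hss ε' γ' hε' hε'i hε'0 hγ'0 hf' yI' y₀' ym' hyI' hy₀' hym' eI' e₀' em'
  obtain ⟨hTI, hT0, hTm⟩ := ss_through hq D hqP hss C
  obtain ⟨ε, γ, hε0, hγ0, hε, hεi, hf⟩ := exists_decomp hq D hqP hn N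
  obtain ⟨-, hηI, hpI, yI, hyI, eI⟩ :=
    exists_loc_root hq D hqP C.vI hTI hn N.expI R.memI R.rootI hε hεi hε0 hf
  obtain ⟨-, hη₀, hp₀, y₀, hy₀, e₀⟩ :=
    exists_loc_root hq D hqP C.v0 hT0 hn N.exp₀ R.mem₀ R.root₀ hε hεi hε0 hf
  obtain ⟨-, hηm, hpm, ym, hym, em⟩ :=
    exists_loc_root hq D hqP C.vm hTm hn N.expm R.memm R.rootm hε hεi hε0 hf
  obtain ⟨s1, s2⟩ :=
    ss_side_eqs hq D hqP hss hn R h h' hε hεi hε0 hγ0 hf hyI hy₀ hym eI e₀ em
  have cI0 := pval_root_ne_zero hq D hqP C.vI hTI hn hyI hε hεi hε0 hpI eI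
  have c00 := pval_root_ne_zero hq D hqP C.v0 hT0 hn hy₀ hε hεi hε0 hp₀ e₀
  -- the comparison of the two local roots
  set m := q * q - 1 with hmdef
  set δ := γ ^ m / γ' with hδdef
  have hδ : Loc (T.α (T.t u)) P δ := by
    refine loc_of_pow hn ?_
    rw [show δ ^ n = ε' * ε⁻¹ ^ m by
      rw [hδdef, div_pow, div_eq_iff (pow_ne_zero n hγ'0), pow_right_comm, mul_right_comm, ← hf',
        hf, mul_pow, inv_pow, mul_right_comm, mul_inv_cancel₀ (pow_ne_zero m hε0), one_mul]]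
    exact hε'.mul (hεi.pow m)
  have hstep : ∀ {V : ValuationSubring F₂}, IsVertical W q (T.α (T.t u)) V → Through P V →
      ∀ {η η' y y' : F₂} (a : W), η ∈ V → Loc (T.α (T.t u)) P y → Loc (T.α (T.t u)) P y' →
      res V y = res V η → res V y' = res V η' → η' = η ^ m * δ * algebraMap W F₂ a →
      pval hq hqP y' = pval hq hqP y ^ m * pval hq hqP δ * residue W a := by
    intro V hV hT η η' y y' a hη hy hy' he he' hee
    have hA : ∀ z : chartRing W (T.α (T.t u)), (z : F₂) ∈ V := fun z => hV.chartRing_le z.2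
    have hδV := hT.mem hA hδ
    have hyV := hT.mem hA hy
    have e : res V y' = res V (y ^ m * δ * algebraMap W F₂ a) := by
      rw [he', hee, res_mul (mul_mem (pow_mem hη m) hδV) (hV.const_mem a),
        res_mul (mul_mem (pow_mem hyV m) hδV) (hV.const_mem a),
        res_mul (pow_mem hη m) hδV, res_mul (pow_mem hyV m) hδV, res_pow hη, res_pow hyV, he]
    rw [pval_eq_of_res_eq hq hqP hV hT hy' (((hy.pow m).mul hδ).mul (loc_const a)) e,
      pval_mul hq hqP ((hy.pow m).mul hδ) (loc_const a), pval_mul hq hqP (hy.pow m) hδ,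
      pval_pow hq hqP hy, pval_const]
  have hid : ∀ (h η : F₂) (d : ℤ), h ^ m * η * (q : F₂) ^ ((m : ℤ) * d) / γ' =
      (h * (q : F₂) ^ d / γ) ^ m * δ * η := by
    intro h η d
    rw [hδdef, mul_comm (m : ℤ), zpow_mul, zpow_natCast, div_pow, mul_pow]
    field_simp
  have vI := hstep C.vI hTI (1 : W) hηI hyI hyI' eI eI' (by
    rw [hI, hdI, map_one, ← hid, mul_one])
  have v₀ := hstep C.v0 hT0 a₀ hη₀ hy₀ hy₀' e₀ e₀' (by rw [h₀, hd₀, ← hid])
  have vm := hstep C.vm hTm am hηm hym hym' em em' (by rw [hm, hdm, ← hid])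
  rw [map_one, mul_one] at vI
  set cI := pval hq hqP yI
  set c0 := pval hq hqP y₀
  set cm := pval hq hqP ym
  set Z := residue W A / residue W B
  set Z' := residue W A' / residue W B'
  have hZ : c0 * cm ^ (q - 1) = Z * cI ^ q := by
    simp only [Z]; field_simp; linear_combination -s1
  have hZ' : cI * cm ^ (q - 1) = Z' * c0 ^ q := by
    simp only [Z']; field_simp; linear_combination -s2
  have hZ'0 : Z' ≠ 0 := div_ne_zero hA' hB'
  have h1 : Z * cI ^ (q + 1) = Z' * c0 ^ (q + 1) := by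
    linear_combination c0 * hZ' - cI * hZ
  have hq1 : 1 ≤ q := (Fact.out : q.Prime).one_lt.le
  have hm' : m = (q + 1) * (q - 1) := by
    rw [hmdef, ← Nat.mul_self_sub_mul_self_eq, mul_one]
  have h2 : (Z / Z') ^ (q - 1) * cI ^ m = c0 ^ m := by
    rw [hm', pow_mul, pow_mul, ← mul_pow]
    congr 1
    field_simp
    linear_combination h1
  have h3 : Z ^ q * Z' * cI ^ m = cm ^ m := by
    have e : (c0 * cm ^ (q - 1)) ^ (q + 1) = (Z * cI ^ q) ^ (q + 1) := by rw [hZ]
    rw [mul_pow, ← pow_mul, mul_comm (q - 1), ← hm', mul_pow, ← pow_mul, pow_succ Z,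
      show q * (q + 1) = m + (q + 1) by
        rw [hm', ← Nat.mul_succ, Nat.succ_eq_add_one, Nat.sub_add_cancel hq1, mul_comm], pow_add] at e
    refine mul_left_cancel₀ (pow_ne_zero (q + 1) c00) ?_
    linear_combination -e - Z ^ q * cI ^ m * h1
  refine ⟨?_, ?_⟩
  · rw [vI, v₀, ← h2]
    linear_combination (cI ^ m * pval hq hqP δ) * ha₀
  · rw [vI, vm, ← h3]
    linear_combination (cI ^ m * pval hq hqP δ) * ham

omit hqP in
/-- Every set of roots has both side relations, with constants of the expected size. -/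
theorem exists_sideRel {C : Comps W T u} {n : ℕ} (hn : 0 < n) {f : F₂}
    {N : Normal C n f} (R : RootSet N) :
    ∃ A B : W, R.SideRel A B ∧ residue W A ≠ 0 ∧ residue W B ≠ 0 ∧
      (residue W A / residue W B) ^ n = 1 := by
  obtain ⟨w, g, hg⟩ := N.normα
  obtain ⟨A, B, hA, hB, hrel⟩ := exists_side_consts hq D hn R hg
  refine ⟨A, B, ⟨w, g, hg, hrel⟩, ?_, ?_, ?_⟩
  · intro h; rw [h, zero_pow hn.ne', zero_mul] at hA; exact zero_ne_one hA
  · intro h; rw [h, zero_pow hn.ne', zero_mul] at hB; exact zero_ne_one hB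
  · have hw : residue W (w : W) ≠ 0 := (w.isUnit.map (residue W)).ne_zero
    have hB0 : residue W B ^ n ≠ 0 := left_ne_zero_of_mul_eq_one hB
    rw [div_pow, div_eq_one_iff_eq hB0]
    exact mul_right_cancel₀ hw (hA.trans hB.symm)

end FermatAgent.BadRed.Carayol
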